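import Fermat.Agent.S37.Kummer
import Fermat.Agent.S37.HeckeDivQ
import Fermat.Agent.S24.FF.Ord

/-!
# S37, the function-only route to `Kummer.RED`: shared definitions (contract file)

Level `M`, `A` a valuation subring of `ℚ̄`, `k = Res A` its residue field, `u ∈ Fb M` a chart
function (`u = j` for `ℓ > 3`; a Hauptmodul at an auxiliary level for `ℓ = 2, 3`).

* `IsRed M A x y` : `x ∈ Fb M` lies in the valuation ring of the Gauss valuation and its
  reduction is `y ∈ k((q))`: `x = P / Q` with `P, Q` integral `q`-series of `Fb M`,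
  `red Q ≠ 0`, `y = red P / red Q`.  (Quotient form: `x` itself need not have bounded
  denominators.)
* `UInt M A u P` : "`u(P) ∈ A`" for a place `P` of `Fb M`.
* `chart M A u c` : the two `A`-adic charts `S_0 = {P | u(P) ∈ A}` (`c = false`) and
  `S_∞ =` the rest (`c = true`).
* `Mc M A u c D` : Gauss-integral functions `x` with `ord_P x ≥ D P` on the chart `c`.
* `Wit`, `Kred`, `InvAt` : unit witnesses and the invertibility property.
* the contract `Prop`s `InvPlaces`, `IntZero`, `IntInf`, `GalStable`, `HeckeStable`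
  consumed by `Fn/Main.lean`.
-/

set_option autoImplicit false
set_option linter.unusedSectionVars false

noncomputable section

namespace Fermat.Agent.S37.Fn

open ModularCurve AlgebraicCurve HahnSeries
open Fermat.Agent.S30

local notation "Qb" => AlgebraicClosure ℚ
local notation "Gq" => (AlgebraicClosure ℚ ≃ₐ[ℚ] AlgebraicClosure ℚ)

/-- The residue field of `A`. -/
abbrev Res (A : ValuationSubring Qb) : Type := IsLocalRing.ResidueField A

variable (M : ℕ) (A : ValuationSubring Qb)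

/-! ### Gauss-integral functions and their reductions -/

/-- `x = P / Q` with `P, Q` integral `q`-series of `Fb M`, `red Q ≠ 0`, and `y = red P / red Q`:
"`x` is integral for the Gauss valuation of `A`, with reduction `y`". -/
def IsRed (x : Kummer.Fb M) (y : LaurentSeries (Res A)) : Prop :=
  ∃ P Q : LaurentSeries A, Congr.incl A Q ∈ Kummer.Fb M ∧ Congr.red A Q ≠ 0 ∧
    (x : LaurentSeries Qb) * Congr.incl A Q = Congr.incl A P ∧
    Congr.red A P = y * Congr.red A Q

variable {M A}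

theorem IsRed.unique {x : Kummer.Fb M} {y y' : LaurentSeries (Res A)}
    (h : IsRed M A x y) (h' : IsRed M A x y') : y = y' := by
  obtain ⟨P, Q, -, hQ, hx, hy⟩ := h
  obtain ⟨P', Q', -, hQ', hx', hy'⟩ := h'
  have h1 : Congr.incl A (P * Q') = Congr.incl A (P' * Q) := by
    rw [map_mul, map_mul, ← hx, ← hx']; ring
  have h2 : P * Q' = P' * Q := Congr.incl_injective A h1
  have h3 : Congr.red A P * Congr.red A Q' = Congr.red A P' * Congr.red A Q := by
    rw [← map_mul, ← map_mul, h2]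
  rw [hy, hy'] at h3
  have h4 : y * (Congr.red A Q * Congr.red A Q') = y' * (Congr.red A Q * Congr.red A Q') := by
    calc y * (Congr.red A Q * Congr.red A Q') = y * Congr.red A Q * Congr.red A Q' := by ring
      _ = y' * Congr.red A Q' * Congr.red A Q := h3
      _ = y' * (Congr.red A Q * Congr.red A Q') := by ring
  exact mul_right_cancel₀ (mul_ne_zero hQ hQ') h4

/-- An integral `q`-series of `Fb M` reduces to its coefficientwise reduction. -/
theorem isRed_incl (U : LaurentSeries A) (hU : Congr.incl A U ∈ Kummer.Fb M) :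
    IsRed M A ⟨Congr.incl A U, hU⟩ (Congr.red A U) := by
  refine ⟨U, 1, ?_, ?_, ?_, ?_⟩
  · rw [map_one]; exact (Kummer.Fb M).one_mem
  · rw [map_one]; exact one_ne_zero
  · rw [map_one, mul_one]
  · rw [map_one, mul_one]

theorem isRed_zero : IsRed M A 0 0 := by
  have h := isRed_incl (M := M) (A := A) 0 (by rw [map_zero]; exact (Kummer.Fb M).zero_mem)
  have e : (⟨Congr.incl A 0, by rw [map_zero]; exact (Kummer.Fb M).zero_mem⟩ : Kummer.Fb M) = 0 :=
    Subtype.ext (map_zero _)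
  rwa [e, map_zero] at h

theorem isRed_one : IsRed M A 1 1 := by
  have h := isRed_incl (M := M) (A := A) 1 (by rw [map_one]; exact (Kummer.Fb M).one_mem)
  have e : (⟨Congr.incl A 1, by rw [map_one]; exact (Kummer.Fb M).one_mem⟩ : Kummer.Fb M) = 1 :=
    Subtype.ext (map_one _)
  rwa [e, map_one] at h

theorem IsRed.add {x x' : Kummer.Fb M} {y y' : LaurentSeries (Res A)}
    (h : IsRed M A x y) (h' : IsRed M A x' y') : IsRed M A (x + x') (y + y') := by
  obtain ⟨P, Q, hQm, hQ, hx, hy⟩ := h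
  obtain ⟨P', Q', hQm', hQ', hx', hy'⟩ := h'
  refine ⟨P * Q' + P' * Q, Q * Q', ?_, ?_, ?_, ?_⟩
  · rw [map_mul]; exact (Kummer.Fb M).mul_mem hQm hQm'
  · rw [map_mul]; exact mul_ne_zero hQ hQ'
  · simp only [map_add, map_mul, ← hx, ← hx']
    push_cast
    ring
  · simp only [map_add, map_mul, hy, hy']
    ring

theorem IsRed.mul {x x' : Kummer.Fb M} {y y' : LaurentSeries (Res A)}
    (h : IsRed M A x y) (h' : IsRed M A x' y') : IsRed M A (x * x') (y * y') := by
  obtain ⟨P, Q, hQm, hQ, hx, hy⟩ := h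
  obtain ⟨P', Q', hQm', hQ', hx', hy'⟩ := h'
  refine ⟨P * P', Q * Q', ?_, ?_, ?_, ?_⟩
  · rw [map_mul]; exact (Kummer.Fb M).mul_mem hQm hQm'
  · rw [map_mul]; exact mul_ne_zero hQ hQ'
  · simp only [map_mul, ← hx, ← hx']
    push_cast
    ring
  · simp only [map_mul, hy, hy']
    ring

theorem IsRed.neg {x : Kummer.Fb M} {y : LaurentSeries (Res A)} (h : IsRed M A x y) :
    IsRed M A (-x) (-y) := by
  obtain ⟨P, Q, hQm, hQ, hx, hy⟩ := h
  refine ⟨-P, Q, hQm, hQ, ?_, ?_⟩
  · simp only [map_neg, ← hx]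
    push_cast
    ring
  · simp only [map_neg, hy]
    ring

theorem IsRed.sub {x x' : Kummer.Fb M} {y y' : LaurentSeries (Res A)}
    (h : IsRed M A x y) (h' : IsRed M A x' y') : IsRed M A (x - x') (y - y') := by
  rw [sub_eq_add_neg, sub_eq_add_neg]
  exact h.add h'.neg

theorem IsRed.pow {x : Kummer.Fb M} {y : LaurentSeries (Res A)} (h : IsRed M A x y) (n : ℕ) :
    IsRed M A (x ^ n) (y ^ n) := by
  induction n with
  | zero => simpa using isRed_one (M := M) (A := A)
  | succ n ih => rw [pow_succ, pow_succ]; exact ih.mul h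

theorem IsRed.sum {ι : Type*} (s : Finset ι) {x : ι → Kummer.Fb M}
    {y : ι → LaurentSeries (Res A)} (h : ∀ i ∈ s, IsRed M A (x i) (y i)) :
    IsRed M A (∑ i ∈ s, x i) (∑ i ∈ s, y i) := by
  classical
  induction s using Finset.induction_on with
  | empty => simpa using isRed_zero (M := M) (A := A)
  | insert a s ha ih =>
    rw [Finset.sum_insert ha, Finset.sum_insert ha]
    exact (h a (Finset.mem_insert_self a s)).add
      (ih fun i hi => h i (Finset.mem_insert_of_mem hi))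

/-- The inverse of a Gauss unit. -/
theorem IsRed.inv {x : Kummer.Fb M} {y : LaurentSeries (Res A)} (h : IsRed M A x y)
    (hy0 : y ≠ 0) : IsRed M A x⁻¹ y⁻¹ := by
  obtain ⟨P, Q, hQm, hQ, hx, hy⟩ := h
  have hP : Congr.red A P ≠ 0 := by rw [hy]; exact mul_ne_zero hy0 hQ
  have hPm : Congr.incl A P ∈ Kummer.Fb M := by
    rw [← hx]; exact (Kummer.Fb M).mul_mem x.2 hQm
  have hQ0 : Congr.incl A Q ≠ 0 := by
    intro h0
    apply hQ
    have : Q = 0 := Congr.incl_injective A (by rw [h0, map_zero])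
    rw [this, map_zero]
  have hP0 : Congr.incl A P ≠ 0 := by
    intro h0
    apply hP
    have : P = 0 := Congr.incl_injective A (by rw [h0, map_zero])
    rw [this, map_zero]
  have hx0 : (x : LaurentSeries Qb) ≠ 0 := by
    intro h0
    rw [h0, zero_mul] at hx
    exact hP0 hx.symm
  refine ⟨Q, P, hPm, hP, ?_, ?_⟩
  · have e : ((x⁻¹ : Kummer.Fb M) : LaurentSeries Qb) = (x : LaurentSeries Qb)⁻¹ := rfl
    rw [e, ← hx, ← mul_assoc, inv_mul_cancel₀ hx0, one_mul]
  · rw [hy, ← mul_assoc, inv_mul_cancel₀ hy0, one_mul]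

/-! ### The two `A`-adic charts and the modules `M_c(D)` -/

variable (M A)

/-- "`u(P) ∈ A`": the value of the chart function `u` at the place `P` is `A`-integral. -/
def UInt (u : Kummer.Fb M) (P : Place Qb (Kummer.Fb M)) : Prop :=
  ∃ a : Qb, a ∈ A ∧ 0 < P.ord (u - algebraMap Qb (Kummer.Fb M) a)

/-- The two `A`-adic charts: `chart M A u false = S_0 = {P | u(P) ∈ A}`,
`chart M A u true = S_∞ =` its complement. -/
def chart (u : Kummer.Fb M) (c : Bool) : Set (Place Qb (Kummer.Fb M)) :=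
  {P | UInt M A u P ↔ c = false}

theorem mem_chart_false {u : Kummer.Fb M} {P : Place Qb (Kummer.Fb M)} :
    P ∈ chart M A u false ↔ UInt M A u P := by
  simp [chart]

theorem mem_chart_true {u : Kummer.Fb M} {P : Place Qb (Kummer.Fb M)} :
    P ∈ chart M A u true ↔ ¬ UInt M A u P := by
  simp [chart]

/-- Every place lies on exactly one chart. -/
theorem exists_mem_chart (u : Kummer.Fb M) (P : Place Qb (Kummer.Fb M)) :
    ∃ c, P ∈ chart M A u c := by
  by_cases h : UInt M A u P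
  · exact ⟨false, (mem_chart_false M A).2 h⟩
  · exact ⟨true, (mem_chart_true M A).2 h⟩

/-- `M_c(D)`: Gauss-integral functions `x` with `ord_P x ≥ D P` at every place of the chart
`c`. -/
def Mc (u : Kummer.Fb M) (c : Bool) (D : Divisor Qb (Kummer.Fb M)) : Set (Kummer.Fb M) :=
  {x | (∃ y, IsRed M A x y) ∧ (x = 0 ∨ ∀ P ∈ chart M A u c, D P ≤ P.ord x)}

variable {M A}

theorem zero_mem_Mc (u : Kummer.Fb M) (c : Bool) (D : Divisor Qb (Kummer.Fb M)) :
    (0 : Kummer.Fb M) ∈ Mc M A u c D :=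
  ⟨⟨0, isRed_zero⟩, Or.inl rfl⟩

theorem one_mem_Mc_zero (u : Kummer.Fb M) (c : Bool) : (1 : Kummer.Fb M) ∈ Mc M A u c 0 :=
  ⟨⟨1, isRed_one⟩, Or.inr fun P _ => by simp⟩

theorem Mc.add {u : Kummer.Fb M} {c : Bool} {D : Divisor Qb (Kummer.Fb M)} {x y : Kummer.Fb M}
    (hx : x ∈ Mc M A u c D) (hy : y ∈ Mc M A u c D) : x + y ∈ Mc M A u c D := by
  obtain ⟨⟨a, ha⟩, hx'⟩ := hx
  obtain ⟨⟨b, hb⟩, hy'⟩ := hy
  refine ⟨⟨a + b, ha.add hb⟩, ?_⟩
  rcases hx' with rfl | hx'
  · rw [zero_add]; exact hy'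
  rcases hy' with rfl | hy'
  · rw [add_zero]; exact Or.inr hx'
  by_cases h0 : x + y = 0
  · exact Or.inl h0
  · exact Or.inr fun P hP =>
      (le_min (hx' P hP) (hy' P hP)).trans (Fermat.Agent.S24.FF.ord_add_ge P h0)

theorem Mc.neg {u : Kummer.Fb M} {c : Bool} {D : Divisor Qb (Kummer.Fb M)} {x : Kummer.Fb M}
    (hx : x ∈ Mc M A u c D) : -x ∈ Mc M A u c D := by
  obtain ⟨⟨a, ha⟩, hx'⟩ := hx
  refine ⟨⟨-a, ha.neg⟩, ?_⟩
  rcases hx' with rfl | hx'
  · exact Or.inl neg_zero
  · exact Or.inr fun P hP => by rw [Fermat.Agent.S24.FF.ord_neg]; exact hx' P hP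

theorem Mc.mul {u : Kummer.Fb M} {c : Bool} {D D' : Divisor Qb (Kummer.Fb M)}
    {x y : Kummer.Fb M} (hx : x ∈ Mc M A u c D) (hy : y ∈ Mc M A u c D') :
    x * y ∈ Mc M A u c (D + D') := by
  obtain ⟨⟨a, ha⟩, hx'⟩ := hx
  obtain ⟨⟨b, hb⟩, hy'⟩ := hy
  refine ⟨⟨a * b, ha.mul hb⟩, ?_⟩
  rcases hx' with rfl | hx'
  · exact Or.inl (zero_mul _)
  rcases hy' with rfl | hy'
  · exact Or.inl (mul_zero _)
  by_cases hx0 : x = 0
  · exact Or.inl (by rw [hx0, zero_mul])
  by_cases hy0 : y = 0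
  · exact Or.inl (by rw [hy0, mul_zero])
  refine Or.inr fun P hP => ?_
  rw [P.ord_mul hx0 hy0, Finsupp.add_apply]
  exact add_le_add (hx' P hP) (hy' P hP)

theorem Mc.sum {ι : Type*} (s : Finset ι) {u : Kummer.Fb M} {c : Bool}
    {D : Divisor Qb (Kummer.Fb M)} {x : ι → Kummer.Fb M} (h : ∀ i ∈ s, x i ∈ Mc M A u c D) :
    ∑ i ∈ s, x i ∈ Mc M A u c D := by
  classical
  induction s using Finset.induction_on with
  | empty => simpa using zero_mem_Mc (A := A) u c D
  | insert a s ha ih =>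
    rw [Finset.sum_insert ha]
    exact Mc.add (h a (Finset.mem_insert_self a s))
      (ih fun i hi => h i (Finset.mem_insert_of_mem hi))

/-- `M_c(D)` only depends on the values of `D` on the chart `c`. -/
theorem Mc_congr {u : Kummer.Fb M} {c : Bool} {D D' : Divisor Qb (Kummer.Fb M)}
    (h : ∀ P ∈ chart M A u c, D P = D' P) : Mc M A u c D = Mc M A u c D' := by
  ext x
  constructor
  · rintro ⟨hr, hx⟩
    exact ⟨hr, hx.imp id fun hx P hP => (h P hP) ▸ hx P hP⟩
  · rintro ⟨hr, hx⟩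
    exact ⟨hr, hx.imp id fun hx P hP => (h P hP).symm ▸ hx P hP⟩

/-! ### Unit witnesses -/

variable (M A)

/-- A unit witness for `D` on the chart `c`: `x ∈ M_c(D)` with reduction `1`. -/
def Wit (u : Kummer.Fb M) (c : Bool) (D : Divisor Qb (Kummer.Fb M)) : Prop :=
  ∃ x ∈ Mc M A u c D, IsRed M A x 1

/-- `D ∈ Kred`: unit witnesses for `D` and `-D` on both charts. -/
def Kred (u : Kummer.Fb M) (D : Divisor Qb (Kummer.Fb M)) : Prop :=
  ∀ c : Bool, Wit M A u c D ∧ Wit M A u c (-D)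

/-- `(INV)` for `D` on the chart `c`: `1 ∈ red (M_c(D)) · red (M_c(-D))`. -/
def InvAt (u : Kummer.Fb M) (c : Bool) (D : Divisor Qb (Kummer.Fb M)) : Prop :=
  ∃ (n : ℕ) (z w : Fin n → Kummer.Fb M) (zb wb : Fin n → LaurentSeries (Res A)),
    (∀ i, z i ∈ Mc M A u c D) ∧ (∀ i, w i ∈ Mc M A u c (-D)) ∧
    (∀ i, IsRed M A (z i) (zb i)) ∧ (∀ i, IsRed M A (w i) (wb i)) ∧
    ∑ i, zb i * wb i = 1

/-! ### The contract: the five inputs of `Fn/Main.lean` -/

/-- **(INV_P)** (row F9): every place of a chart is invertible there.  [From: the special fibre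
of the chart is regular (`RegNB.RegAt` at every maximal ideal containing `π`).] -/
def InvPlaces (u : Kummer.Fb M) : Prop :=
  ∀ (c : Bool) (P : Place Qb (Kummer.Fb M)), P ∈ chart M A u c →
    InvAt M A u c (Finsupp.single P 1)

/-- **(INT_0)** (row F7): the reduction of a function regular on the chart `S_0` is integral over
`k[ū]`.  [From: `π` is prime in the integral closure of `O[u]`.] -/
def IntZero (u : Kummer.Fb M) : Prop :=
  ∀ x ∈ Mc M A u false 0, ∀ (y ub : LaurentSeries (Res A)), IsRed M A x y → IsRed M A u ub →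
    IsIntegral (Algebra.adjoin (Res A) {ub}) y

/-- **(INT_∞)** (row F7): the reduction of a function regular on the chart `S_∞` is integral over
`k[ū⁻¹]` up to a denominator `G(ū⁻¹)` with `G(0) ≠ 0`.  [From: `π` is prime in the integral
closure of `O[u⁻¹]`.] -/
def IntInf (u : Kummer.Fb M) : Prop :=
  ∀ x ∈ Mc M A u true 0, ∀ (y ub : LaurentSeries (Res A)), IsRed M A x y → IsRed M A u ub →
    ∃ G : Polynomial (Res A), G.eval 0 ≠ 0 ∧
      IsIntegral (Algebra.adjoin (Res A) {ub⁻¹}) (Polynomial.aeval ub⁻¹ G * y)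

/-- **(GAL)** (row F5b): the decomposition group of `A` preserves the charts, i.e. maps
`M_c(D)` into `M_c(σ D)`. -/
def GalStable (u : Kummer.Fb M) : Prop :=
  ∀ σ : Gq, σ ∈ A.decompositionSubgroup ℚ → ∀ (c : Bool) (D : Divisor Qb (Kummer.Fb M)),
    ∀ x ∈ Mc M A u c D, E4.gal M σ x ∈ Mc M A u c (Kummer.gD M σ D)

/-- **(HECKE)** (rows F3a, F3b): the multiplicative Hecke operator `T = Norm_α ∘ β` maps
`M_c(D)` into `M_c(T_ℓ D)`. -/
def HeckeStable (u : Kummer.Fb M) (ℓ : ℕ) [NeZero M] [NeZero ℓ]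
    (h : HeckeInputsAlong Qb M ℓ) : Prop :=
  ∀ (c : Bool) (D : Divisor Qb (Kummer.Fb M)), ∀ x ∈ Mc M A u c D,
    HeckeDivQ.heckeT M ℓ x ∈ Mc M A u c (Kummer.heckeDiv M ℓ h D)

/-- **(GRED)** (row F5a): compatibility of reduction with inertia, Frobenius and `T`
(consequences of the landed `Congr.red_actA_inertia`, `Congr.red_actA_frob`,
`Congr.red_heckeMul_frob`). -/
structure GalRed (ℓ : ℕ) [NeZero M] [NeZero ℓ] [Fact ℓ.Prime] [CharP (Res A) ℓ] (σ₀ : Gq) :
    Prop where
  inertia : ∀ τ : Gq, τ ∈ A.inertiaSubgroupIn ℚ → ∀ (x : Kummer.Fb M) (y : LaurentSeries (Res A)),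
    IsRed M A x y → IsRed M A (E4.gal M τ x) y
  frob : ∀ (x : Kummer.Fb M) (y : LaurentSeries (Res A)), IsRed M A x y →
    IsRed M A (E4.gal M σ₀ x) (coeffMap (frobenius (Res A) ℓ) y)
  hecke : ∀ (x : Kummer.Fb M) (y : LaurentSeries (Res A)), IsRed M A x y →
    IsRed M A (HeckeDivQ.heckeT M ℓ (E4.gal M σ₀ x))
      (y ^ ℓ * coeffMap (frobenius (Res A) ℓ) (coeffMap (frobenius (Res A) ℓ) y))

end Fermat.Agent.S37.Fn
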