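/-
S37, row F5b (helper42): PLACES AND GALOIS.

The "integral chart" `S₀ = {P | u(P) ∈ A}`, its complement `S_∞`, and the modules
`M_c(D) = {x ∈ V | x = 0 ∨ ∀ P ∈ S_c, D P ≤ ord_P x}` are stable under the decomposition group
of `A` (acting through the arithmetic Galois action on `Fb M = ℚ̄(X₀(M))`), as soon as the chart
function `u` is Galois-fixed (e.g. has a rational `q`-expansion):

* generic part (any `K`, `F`, `g : SemilinearAut K F`): `ord_smul_eq`, `ord_sub_const_smul`,
  `uInt_smul_iff`, `mem_M_smul_iff`, `image_M_smul`;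
* modular part: `mem_A_iff`, `inV_gal_iff`, `gal_eq_self_of_rational`, `uInt_gal_iff`,
  `mem_M0_gal_iff`, `mem_Minf_gal_iff`.

All statements are on UNFOLDED shapes (no dependency on a definitions file):
`V`    : `∃ U : LaurentSeries A, Congr.incl A U = ↑x`,
`UInt` : `∃ a : ℚ̄, a ∈ A ∧ 0 < P.ord (u - algebraMap _ _ a)`.
-/
import Fermat.Prelude.Def_ModularCurve_ArithmeticGalois
import Fermat.Agent.S30.Congr

set_option autoImplicit false

noncomputable section

namespace Fermat.Agent.S37.Fn.PlaceGal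

open AlgebraicCurve ModularCurve HahnSeries
open Fermat.Agent.S30
open scoped Pointwise

/-! ### Generic part: a semilinear automorphism acting on places, functions and divisors -/

section Generic

variable {K F : Type*} [Field K] [Field F] [Algebra K F]

/-- `ord_P (g f) = ord_{g⁻¹ P} f`. -/
theorem ord_smul_eq (g : SemilinearAut K F) (P : Place K F) (f : F) :
    P.ord (g • f) = (g⁻¹ • P).ord f := by
  have h := SemilinearAut.ord_smul g (g⁻¹ • P) f
  rwa [smul_inv_smul] at h

/-- For a `g`-fixed function `u`: `ord_{g P} (u - g a) = ord_P (u - a)`. -/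
theorem ord_sub_const_smul (g : SemilinearAut K F) (P : Place K F) (u : F) (hu : g • u = u)
    (a : K) :
    (g • P).ord (u - algebraMap K F (SemilinearAut.baseAut g a)) =
      P.ord (u - algebraMap K F a) := by
  have h := SemilinearAut.ord_smul g P (u - algebraMap K F a)
  rwa [smul_sub, hu, SemilinearAut.smul_algebraMap] at h

/-- **Stability of the integral chart.**  If the set `A` of constants is stable under the base
automorphism of `g` and `u` is `g`-fixed, then "`u(P) ∈ A`" is `g`-stable. -/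
theorem uInt_smul_iff (g : SemilinearAut K F) (A : Set K)
    (hA : ∀ a, SemilinearAut.baseAut g a ∈ A ↔ a ∈ A) (u : F) (hu : g • u = u)
    (P : Place K F) :
    (∃ a ∈ A, 0 < (g • P).ord (u - algebraMap K F a)) ↔
      (∃ a ∈ A, 0 < P.ord (u - algebraMap K F a)) := by
  constructor
  · rintro ⟨a, ha, h⟩
    refine ⟨(SemilinearAut.baseAut g).symm a, ?_, ?_⟩
    · rw [← hA, RingEquiv.apply_symm_apply]
      exact ha
    · rw [← ord_sub_const_smul g P u hu, RingEquiv.apply_symm_apply]
      exact h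
  · rintro ⟨a, ha, h⟩
    exact ⟨SemilinearAut.baseAut g a, (hA a).mpr ha, by
      rw [ord_sub_const_smul g P u hu]; exact h⟩

/-- The order condition defining `M(D)` on a `g`-stable set `S` of places is transported by
`g`. -/
theorem forall_ord_smul_iff (g : SemilinearAut K F) (S : Set (Place K F))
    (hS : ∀ P, g • P ∈ S ↔ P ∈ S) (D : Divisor K F) (x : F) :
    (∀ P ∈ S, (g • D) P ≤ P.ord (g • x)) ↔ (∀ P ∈ S, D P ≤ P.ord x) := by
  constructor
  · intro h P hP
    have h1 := h (g • P) ((hS P).mpr hP)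
    rwa [SemilinearAut.divisor_smul_apply_smul, SemilinearAut.ord_smul] at h1
  · intro h P hP
    have hP' : g⁻¹ • P ∈ S := by
      rw [← hS, smul_inv_smul]
      exact hP
    have h1 := h (g⁻¹ • P) hP'
    rwa [← SemilinearAut.divisor_smul_apply, ← ord_smul_eq] at h1

/-- **Stability of `M(D)`**, membership form: `g x ∈ M_S(g D) ↔ x ∈ M_S(D)` for a `g`-stable set
`V` of functions and a `g`-stable set `S` of places. -/
theorem mem_M_smul_iff (g : SemilinearAut K F) (V : Set F) (hV : ∀ x, g • x ∈ V ↔ x ∈ V)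
    (S : Set (Place K F)) (hS : ∀ P, g • P ∈ S ↔ P ∈ S) (D : Divisor K F) (x : F) :
    (g • x ∈ V ∧ (g • x = 0 ∨ ∀ P ∈ S, (g • D) P ≤ P.ord (g • x))) ↔
      (x ∈ V ∧ (x = 0 ∨ ∀ P ∈ S, D P ≤ P.ord x)) := by
  have h0 : g • x = 0 ↔ x = 0 := by
    rw [SemilinearAut.smul_def]
    exact (SemilinearAut.toRingAut g).map_eq_zero_iff
  rw [hV, h0, forall_ord_smul_iff g S hS D x]

/-- **Stability of `M(D)`**, set form: `g (M_S(D)) = M_S(g D)`. -/
theorem image_M_smul (g : SemilinearAut K F) (V : Set F) (hV : ∀ x, g • x ∈ V ↔ x ∈ V)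
    (S : Set (Place K F)) (hS : ∀ P, g • P ∈ S ↔ P ∈ S) (D : Divisor K F) :
    (fun x : F => g • x) '' {x | x ∈ V ∧ (x = 0 ∨ ∀ P ∈ S, D P ≤ P.ord x)} =
      {x | x ∈ V ∧ (x = 0 ∨ ∀ P ∈ S, (g • D) P ≤ P.ord x)} := by
  ext y
  constructor
  · rintro ⟨x, hx, rfl⟩
    exact (mem_M_smul_iff g V hV S hS D x).mpr hx
  · intro hy
    refine ⟨g⁻¹ • y, ?_, smul_inv_smul g y⟩
    have h1 := (mem_M_smul_iff g V hV S hS D (g⁻¹ • y))
    rw [smul_inv_smul] at h1
    exact h1.mp hy

end Generic

/-! ### Modular part: the decomposition group of `A` acting on `Fb M` -/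

section Modular

local notation "Qb" => AlgebraicClosure ℚ
local notation "Gq" => (AlgebraicClosure ℚ ≃ₐ[ℚ] AlgebraicClosure ℚ)
local notation "Fb" M => modularFunctionFieldBar M

variable (A : ValuationSubring Qb)

/-- The decomposition group of `A` preserves `A`. -/
theorem mem_A_iff {s : Gq} (hs : s ∈ A.decompositionSubgroup ℚ) (a : Qb) : s a ∈ A ↔ a ∈ A := by
  have h1 : s • A = A := hs
  have h2 : s • a ∈ s • A ↔ a ∈ A := ValuationSubring.smul_mem_pointwise_smul_iff
  rw [h1] at h2
  exact h2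

variable (M : ℕ)

/-- The arithmetic Galois action of the decomposition group preserves the Gauss ring `V`
(functions with `A`-integral `q`-expansion): explicit form. -/
theorem incl_actA_eq {s : Gq} (hs : s ∈ A.decompositionSubgroup ℚ) (x : Fb M)
    (U : LaurentSeries A) (hU : Congr.incl A U = (x : LaurentSeries Qb)) :
    Congr.incl A (Congr.actA A ⟨s, hs⟩ U) =
      ((arithmeticGalois (modularFunctionFieldFull M) s • x : Fb M) : LaurentSeries Qb) := by
  rw [Congr.incl_actA, hU]
  rfl

/-- The arithmetic Galois action of the decomposition group preserves the Gauss ring `V`. -/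
theorem inV_gal_iff {s : Gq} (hs : s ∈ A.decompositionSubgroup ℚ) (x : Fb M) :
    (∃ U : LaurentSeries A, Congr.incl A U =
        ((arithmeticGalois (modularFunctionFieldFull M) s • x : Fb M) : LaurentSeries Qb)) ↔
      (∃ U : LaurentSeries A, Congr.incl A U = (x : LaurentSeries Qb)) := by
  constructor
  · rintro ⟨U, hU⟩
    have hs' : s⁻¹ ∈ A.decompositionSubgroup ℚ := inv_mem hs
    refine ⟨Congr.actA A ⟨s⁻¹, hs'⟩ U, ?_⟩
    rw [incl_actA_eq A M hs' _ U hU, map_inv, inv_smul_smul]
  · rintro ⟨U, hU⟩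
    exact ⟨Congr.actA A ⟨s, hs⟩ U, incl_actA_eq A M hs x U hU⟩

/-- A function with rational `q`-expansion is fixed by the arithmetic Galois action. -/
theorem gal_eq_self_of_rational (u : Fb M)
    (hu : ∃ w : LaurentSeries ℚ, coeffEmb Qb w = (u : LaurentSeries Qb)) (s : Gq) :
    arithmeticGalois (modularFunctionFieldFull M) s • u = u := by
  obtain ⟨w, hw⟩ := hu
  apply Subtype.ext
  rw [coe_arithmeticGalois_smul, ← hw, coeffMap_coeffEmb]

/-- **Stability of the integral chart `S₀ = {P | u(P) ∈ A}` under the decomposition group.** -/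
theorem uInt_gal_iff {s : Gq} (hs : s ∈ A.decompositionSubgroup ℚ) (u : Fb M)
    (hu : arithmeticGalois (modularFunctionFieldFull M) s • u = u)
    (P : Place Qb (Fb M)) :
    (∃ a : Qb, a ∈ A ∧
        0 < (arithmeticGalois (modularFunctionFieldFull M) s • P).ord
          (u - algebraMap Qb (Fb M) a)) ↔
      (∃ a : Qb, a ∈ A ∧ 0 < P.ord (u - algebraMap Qb (Fb M) a)) :=
  uInt_smul_iff (arithmeticGalois (modularFunctionFieldFull M) s) (A : Set Qb)
    (fun a => mem_A_iff A hs a) u hu P

/-- **`M₀(D)` is transported by the decomposition group**: `g x ∈ M₀(g D) ↔ x ∈ M₀(D)`. -/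
theorem mem_M0_gal_iff {s : Gq} (hs : s ∈ A.decompositionSubgroup ℚ) (u : Fb M)
    (hu : arithmeticGalois (modularFunctionFieldFull M) s • u = u)
    (D : Divisor Qb (Fb M)) (x : Fb M) :
    ((∃ U : LaurentSeries A, Congr.incl A U =
          ((arithmeticGalois (modularFunctionFieldFull M) s • x : Fb M) : LaurentSeries Qb)) ∧
        (arithmeticGalois (modularFunctionFieldFull M) s • x = 0 ∨
          ∀ P : Place Qb (Fb M),
            (∃ a : Qb, a ∈ A ∧ 0 < P.ord (u - algebraMap Qb (Fb M) a)) →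
            (arithmeticGalois (modularFunctionFieldFull M) s • D) P ≤
              P.ord (arithmeticGalois (modularFunctionFieldFull M) s • x))) ↔
      ((∃ U : LaurentSeries A, Congr.incl A U = (x : LaurentSeries Qb)) ∧
        (x = 0 ∨ ∀ P : Place Qb (Fb M),
          (∃ a : Qb, a ∈ A ∧ 0 < P.ord (u - algebraMap Qb (Fb M) a)) → D P ≤ P.ord x)) :=
  mem_M_smul_iff (arithmeticGalois (modularFunctionFieldFull M) s)
    {y : Fb M | ∃ U : LaurentSeries A, Congr.incl A U = (y : LaurentSeries Qb)}
    (fun y => inV_gal_iff A M hs y)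
    {P : Place Qb (Fb M) | ∃ a : Qb, a ∈ A ∧ 0 < P.ord (u - algebraMap Qb (Fb M) a)}
    (fun P => uInt_gal_iff A M hs u hu P) D x

/-- **`M_∞(D)` is transported by the decomposition group**: `g x ∈ M_∞(g D) ↔ x ∈ M_∞(D)`. -/
theorem mem_Minf_gal_iff {s : Gq} (hs : s ∈ A.decompositionSubgroup ℚ) (u : Fb M)
    (hu : arithmeticGalois (modularFunctionFieldFull M) s • u = u)
    (D : Divisor Qb (Fb M)) (x : Fb M) :
    ((∃ U : LaurentSeries A, Congr.incl A U =
          ((arithmeticGalois (modularFunctionFieldFull M) s • x : Fb M) : LaurentSeries Qb)) ∧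
        (arithmeticGalois (modularFunctionFieldFull M) s • x = 0 ∨
          ∀ P : Place Qb (Fb M),
            (¬ ∃ a : Qb, a ∈ A ∧ 0 < P.ord (u - algebraMap Qb (Fb M) a)) →
            (arithmeticGalois (modularFunctionFieldFull M) s • D) P ≤
              P.ord (arithmeticGalois (modularFunctionFieldFull M) s • x))) ↔
      ((∃ U : LaurentSeries A, Congr.incl A U = (x : LaurentSeries Qb)) ∧
        (x = 0 ∨ ∀ P : Place Qb (Fb M),
          (¬ ∃ a : Qb, a ∈ A ∧ 0 < P.ord (u - algebraMap Qb (Fb M) a)) → D P ≤ P.ord x)) :=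
  mem_M_smul_iff (arithmeticGalois (modularFunctionFieldFull M) s)
    {y : Fb M | ∃ U : LaurentSeries A, Congr.incl A U = (y : LaurentSeries Qb)}
    (fun y => inV_gal_iff A M hs y)
    {P : Place Qb (Fb M) | ¬ ∃ a : Qb, a ∈ A ∧ 0 < P.ord (u - algebraMap Qb (Fb M) a)}
    (fun P => not_congr (uInt_gal_iff A M hs u hu P)) D x

end Modular

end Fermat.Agent.S37.Fn.PlaceGal
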