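/-
S37, row F5b (helper42): the contract `Fn.GalStable M A u` of `Fn/Defs.lean`.

For a chart function `u ∈ Fb M` fixed by the arithmetic Galois action (e.g. with rational
`q`-expansion: `j`, the Hauptmoduln `1/s₂`, `1/s₃`), the decomposition group of `A` maps
`M_c(D)` into `M_c(σ D)`, for both charts `c`:

* `isRed_gal`     : Gauss-integrality (quotient form `IsRed`) is preserved by the decomposition group;
* `mem_chart_gal_iff` : the two `A`-adic charts are stable;
* `galStable`, `galStable_of_rational` : the contract.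
-/
import Fermat.Agent.S37.Fn.Defs
import Fermat.Agent.S37.Fn.PlaceGal

set_option autoImplicit false

noncomputable section

namespace Fermat.Agent.S37.Fn.GalSt

open AlgebraicCurve ModularCurve HahnSeries
open Fermat.Agent.S30 Fermat.Agent.S37.Fn

local notation "Qb" => AlgebraicClosure ℚ
local notation "Gq" => (AlgebraicClosure ℚ ≃ₐ[ℚ] AlgebraicClosure ℚ)

variable (M : ℕ) (A : ValuationSubring Qb)

/-- The decomposition group preserves "nonzero reduction". -/
theorem red_actA_ne_zero (s : A.decompositionSubgroup ℚ) (Q : LaurentSeries A)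
    (hQ : Congr.red A Q ≠ 0) : Congr.red A (Congr.actA A s Q) ≠ 0 := by
  obtain ⟨n, hn⟩ : ∃ n : ℤ, (Congr.red A Q).coeff n ≠ 0 := by
    by_contra hcon
    push Not at hcon
    exact hQ (HahnSeries.ext (funext hcon))
  rw [Congr.coeff_red] at hn
  have hu : IsUnit (Q.coeff n) := (IsLocalRing.residue_ne_zero_iff_isUnit _).mp hn
  have hu' : IsUnit (Congr.sA A s (Q.coeff n)) := hu.map (Congr.sA A s)
  intro h0
  have h1 : (Congr.red A (Congr.actA A s Q)).coeff n = 0 := by rw [h0]; rfl
  rw [Congr.coeff_red, Congr.coeff_actA] at h1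
  exact (IsLocalRing.residue_ne_zero_iff_isUnit _).mpr hu' h1

/-- Gauss-integrality is preserved by the decomposition group of `A`. -/
theorem isRed_gal {σ : Gq} (hσ : σ ∈ A.decompositionSubgroup ℚ) {x : Kummer.Fb M}
    {y : LaurentSeries (Res A)} (h : IsRed M A x y) :
    ∃ y' : LaurentSeries (Res A), IsRed M A (E4.gal M σ x) y' := by
  obtain ⟨P, Q, hQm, hQ, hx, -⟩ := h
  have hQ' : Congr.red A (Congr.actA A ⟨σ, hσ⟩ Q) ≠ 0 := red_actA_ne_zero A ⟨σ, hσ⟩ Q hQ
  refine ⟨Congr.red A (Congr.actA A ⟨σ, hσ⟩ P) * (Congr.red A (Congr.actA A ⟨σ, hσ⟩ Q))⁻¹,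
    Congr.actA A ⟨σ, hσ⟩ P, Congr.actA A ⟨σ, hσ⟩ Q, ?_, hQ', ?_, ?_⟩
  · rw [Congr.incl_actA]
    exact coeffMap_mem_laurentBaseChange σ hQm
  · rw [Congr.incl_actA, Congr.incl_actA, E4.coe_gal, ← map_mul, hx]
  · rw [mul_assoc, inv_mul_cancel₀ hQ', mul_one]

/-- The two `A`-adic charts are stable under the decomposition group. -/
theorem mem_chart_gal_iff {σ : Gq} (hσ : σ ∈ A.decompositionSubgroup ℚ) (u : Kummer.Fb M)
    (hu : arithmeticGalois (modularFunctionFieldFull M) σ • u = u) (c : Bool)
    (P : Place Qb (Kummer.Fb M)) :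
    arithmeticGalois (modularFunctionFieldFull M) σ • P ∈ chart M A u c ↔
      P ∈ chart M A u c := by
  have h := PlaceGal.uInt_gal_iff A M hσ u hu P
  show (UInt M A u _ ↔ c = false) ↔ (UInt M A u P ↔ c = false)
  exact iff_congr h Iff.rfl

/-- **Row F5b = the contract `GalStable`**, for a chart function fixed by the decomposition
group. -/
theorem galStable (u : Kummer.Fb M)
    (hu : ∀ σ : Gq, σ ∈ A.decompositionSubgroup ℚ →
      arithmeticGalois (modularFunctionFieldFull M) σ • u = u) :
    GalStable M A u := by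
  intro σ hσ c D x hx
  obtain ⟨⟨y, hy⟩, hx'⟩ := hx
  refine ⟨isRed_gal M A hσ hy, ?_⟩
  rcases hx' with rfl | hx'
  · exact Or.inl (map_zero _)
  · exact Or.inr ((PlaceGal.forall_ord_smul_iff (arithmeticGalois (modularFunctionFieldFull M) σ)
      (chart M A u c) (fun P => mem_chart_gal_iff M A hσ u (hu σ hσ) c P) D x).mpr hx')

/-- **Row F5b**, for a chart function with rational `q`-expansion. -/
theorem galStable_of_rational (u : Kummer.Fb M)
    (hu : ∃ w : LaurentSeries ℚ, coeffEmb Qb w = (u : LaurentSeries Qb)) :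
    GalStable M A u :=
  galStable M A u fun σ _ => PlaceGal.gal_eq_self_of_rational M u hu σ

end Fermat.Agent.S37.Fn.GalSt
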