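/-
S37, row F15 (ChartFn), `j` half: the chart function `u = jBar M` (`S24.DegreeGen.jBar`, the
`q`-series `coeffEmb ℚ̄ jq`) with the facts `Fn.red_of_contract` and its providers need:

* `exists_isRed_jBar M A`  : `∃ ub, IsRed M A (jBar M) ub ∧ ub.order < 0`
  (more precisely `isRed_jBar : IsRed M A (jBar M) (jSer (Res A))`, `order_jSer_neg`);
* `exists_rational_jBar M` : `∃ w : LaurentSeries ℚ, coeffEmb ℚ̄ w = jBar M`, hence
  `galStable_jBar M A : GalStable M A (jBar M)`;
* `up_coeffEmb_jq M E`     : the `E`-level `j` (any element with `q`-series `coeffEmb E jq`) has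
  the `q`-series of `jBar M`.
-/
import Fermat.Agent.S37.Fn.GalStable
import Fermat.Agent.S30.E4.GaussNorm
import Fermat.Agent.S30.GaussDescent

set_option autoImplicit false

noncomputable section

namespace Fermat.Agent.S37.Fn.ChartFnJ

open ModularCurve AlgebraicCurve HahnSeries
open Fermat.Agent.S30 Fermat.Agent.S37.Fn Fermat.Agent.S24.DegreeGen

local notation "Qb" => AlgebraicClosure ℚ

/-- The `q`-expansion of `j` with integer coefficients. -/
def jInt : LaurentSeries ℤ :=
  HahnSeries.single (-1 : ℤ) 1 * HahnSeries.ofPowerSeries ℤ ℤ jNum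

/-- The `q`-expansion of `j` over any commutative ring. -/
def jSer (R : Type*) [CommRing R] : LaurentSeries R := coeffMap (Int.castRingHom R) jInt

theorem coeffMap_jSer {R S : Type*} [CommRing R] [CommRing S] (φ : R →+* S) :
    coeffMap φ (jSer R) = jSer S := by
  unfold jSer
  rw [coeffMap_coeffMap]
  exact coeffMap_congr (RingHom.ext_int _ _) jInt

theorem jSer_rat : jSer ℚ = jq := E4.jq_eq_coeffMap.symm

theorem coeff_jInt_neg_one : jInt.coeff (-1 : ℤ) = 1 := by
  have h := coeff_jq_neg_one
  rw [← jSer_rat, jSer, coeffMap_coeff] at h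
  have h' : ((jInt.coeff (-1 : ℤ) : ℤ) : ℚ) = ((1 : ℤ) : ℚ) := by simpa using h
  exact Int.cast_injective h'

theorem coeff_jSer_neg_one (R : Type*) [CommRing R] : (jSer R).coeff (-1 : ℤ) = 1 := by
  rw [jSer, coeffMap_coeff, coeff_jInt_neg_one, map_one]

/-- Over a nontrivial ring the `q`-expansion of `j` has a pole at `q = 0`. -/
theorem order_jSer_neg (R : Type*) [CommRing R] [Nontrivial R] : (jSer R).order < 0 := by
  have h : (jSer R).coeff (-1 : ℤ) ≠ 0 := by
    rw [coeff_jSer_neg_one]
    exact one_ne_zero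
  exact lt_of_le_of_lt (HahnSeries.order_le_of_coeff_ne_zero h) (by norm_num)

variable (M : ℕ) (A : ValuationSubring Qb)

theorem incl_jSer : Congr.incl A (jSer A) = coeffEmb Qb jq := by
  rw [← jSer_rat]
  unfold Congr.incl coeffEmb
  rw [coeffMap_jSer, coeffMap_jSer]

theorem red_jSer : Congr.red A (jSer A) = jSer (Res A) := coeffMap_jSer _

/-- `j` is Gauss-integral with reduction the `q`-expansion of `j` over the residue field. -/
theorem isRed_jBar : IsRed M A (jBar M) (jSer (Res A)) := by
  have hmem : Congr.incl A (jSer A) ∈ Kummer.Fb M := by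
    rw [incl_jSer]
    exact (jBar M).2
  have h := isRed_incl (M := M) (A := A) (jSer A) hmem
  have e : (⟨Congr.incl A (jSer A), hmem⟩ : Kummer.Fb M) = jBar M :=
    Subtype.ext (incl_jSer A)
  rwa [e, red_jSer] at h

/-- `j` is Gauss-integral and its reduction has a pole at `q = 0`. -/
theorem exists_isRed_jBar :
    ∃ ub : LaurentSeries (Res A), IsRed M A (jBar M) ub ∧ ub.order < 0 :=
  ⟨jSer (Res A), isRed_jBar M A, order_jSer_neg (Res A)⟩

/-- `j` has a rational `q`-expansion. -/
theorem exists_rational_jBar :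
    ∃ w : LaurentSeries ℚ, coeffEmb Qb w = ((jBar M : Kummer.Fb M) : LaurentSeries Qb) :=
  ⟨jq, rfl⟩

/-- The contract `GalStable` for the chart `j`. -/
theorem galStable_jBar : GalStable M A (jBar M) :=
  GalSt.galStable_of_rational M A (jBar M) (exists_rational_jBar M)

/-- An `E`-level element with `q`-series `coeffEmb E jq` has the `q`-series of `jBar M`. -/
theorem up_coeffEmb_jq (E : IntermediateField ℚ Qb) :
    GaussDescent.up E (coeffEmb E jq) = ((jBar M : Kummer.Fb M) : LaurentSeries Qb) :=
  GaussDescent.up_coeffEmb E jq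

end Fermat.Agent.S37.Fn.ChartFnJ
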