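import Fermat.Agent.S37.Fn.Int
import Fermat.Agent.S30.E4.GaussNorm

/-!
# S37 / F7: the chart-integrality principle `Int.ChartInt` from a finite-level chart package

* `isRed_of_isIntegral` : the Gauss valuation ring `gaussV M A` is integrally closed in `Fb M`
  (it is a valuation ring, by Gauss normalisation).
* `chartInt_of_pkg` : the abstract assembly.  If every function `y` regular on the chart can be
  written `π ^ n * y = i c` with `c` in a ring `C` integral over a base `B`, mapping into `Fb M`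
  by `i`, such that the base reduces into `k[τb]`, `π` reduces to `0` and the `q`-expansion
  principle holds on `C` (`red (i c) = 0 → π ∣ c`), then `ChartInt M A S τb` holds.
-/

set_option autoImplicit false
set_option linter.unusedSectionVars false
set_option synthInstance.maxHeartbeats 400000
set_option maxHeartbeats 1000000

noncomputable section

namespace Fermat.Agent.S37.Fn.ChartIntPf

open ModularCurve AlgebraicCurve HahnSeries Polynomial
open Fermat.Agent.S30 Fermat.Agent.S37.Fn Fermat.Agent.S37.Fn.Int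

local notation "Qb" => AlgebraicClosure ℚ

variable {M : ℕ} {A : ValuationSubring Qb}

/-! ### The Gauss valuation ring is a valuation ring -/

/-- An integral `q`-series of `Fb M` with nonzero reduction is a Gauss unit. -/
theorem isRed_inv_incl (Q : LaurentSeries A) (hQ : Congr.incl A Q ∈ Kummer.Fb M)
    (hQ0 : Congr.red A Q ≠ 0) :
    IsRed M A (⟨Congr.incl A Q, hQ⟩ : Kummer.Fb M)⁻¹ (Congr.red A Q)⁻¹ :=
  (isRed_incl Q hQ).inv hQ0

/-- Gauss normalisation: every element of `Fb M` or its inverse is Gauss-integral. -/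
theorem mem_or_inv_mem_gaussV (hG : E4.HasGaussNorm M A) (x : Kummer.Fb M) :
    x ∈ gaussV M A ∨ x⁻¹ ∈ gaussV M A := by
  by_cases hx : x = 0
  · left; rw [hx]; exact (gaussV M A).zero_mem
  obtain ⟨c, P, Q, hP, hQ, hc0, hP0, hQ0, hxe⟩ := hG x hx
  have hPr : IsRed M A (⟨_, hP⟩ : Kummer.Fb M) (Congr.red A P) := isRed_incl P hP
  have hQr : IsRed M A (⟨_, hQ⟩ : Kummer.Fb M) (Congr.red A Q) := isRed_incl Q hQ
  have hQne : (⟨_, hQ⟩ : Kummer.Fb M) ≠ 0 := by
    intro h
    rw [h] at hQr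
    exact hQ0 (hQr.unique isRed_zero)
  have hPne : (⟨_, hP⟩ : Kummer.Fb M) ≠ 0 := by
    intro h
    rw [h] at hPr
    exact hP0 (hPr.unique isRed_zero)
  have hxeq : x = algebraMap Qb (Kummer.Fb M) c * (⟨_, hP⟩ * (⟨_, hQ⟩ : Kummer.Fb M)⁻¹) := by
    rw [← mul_assoc, ← hxe, mul_assoc, mul_inv_cancel₀ hQne, mul_one]
  by_cases hcA : c ∈ A
  · left
    rw [hxeq]
    exact (gaussV M A).mul_mem ⟨_, isRed_const M A ⟨c, hcA⟩⟩
      ((gaussV M A).mul_mem ⟨_, hPr⟩ ⟨_, hQr.inv hQ0⟩)
  · right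
    have hc' : c⁻¹ ∈ A := (A.mem_or_inv_mem c).resolve_left hcA
    have hxinv : x⁻¹ = algebraMap Qb (Kummer.Fb M) c⁻¹ *
        (⟨_, hQ⟩ * (⟨_, hP⟩ : Kummer.Fb M)⁻¹) := by
      rw [hxeq, map_inv₀]
      field_simp
    rw [hxinv]
    exact (gaussV M A).mul_mem ⟨_, isRed_const M A ⟨c⁻¹, hc'⟩⟩
      ((gaussV M A).mul_mem ⟨_, hQr⟩ ⟨_, hPr.inv hP0⟩)

/-- The Gauss valuation ring as a `ValuationSubring`. -/
def gaussVal (hG : E4.HasGaussNorm M A) : ValuationSubring (Kummer.Fb M) :=
  { gaussV M A with mem_or_inv_mem' := mem_or_inv_mem_gaussV hG }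

theorem mem_gaussVal (hG : E4.HasGaussNorm M A) (x : Kummer.Fb M) :
    x ∈ gaussVal hG ↔ x ∈ gaussV M A := Iff.rfl

/-- **(G1)** The Gauss valuation ring is integrally closed in `Fb M`. -/
theorem mem_gaussV_of_isIntegral (hG : E4.HasGaussNorm M A) (x : Kummer.Fb M)
    (hx : IsIntegral (gaussV M A) x) : x ∈ gaussV M A := by
  obtain ⟨p, hp, hpx⟩ := hx
  let φ : gaussV M A →+* gaussVal hG :=
    { toFun := fun z => ⟨z.1, z.2⟩
      map_one' := rfl
      map_mul' := fun _ _ => rfl
      map_zero' := rfl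
      map_add' := fun _ _ => rfl }
  have h1 : IsIntegral (gaussVal hG) x := by
    refine ⟨p.map φ, hp.map φ, ?_⟩
    have h2 : (algebraMap (gaussVal hG) (Kummer.Fb M)).comp φ =
        algebraMap (gaussV M A) (Kummer.Fb M) := by
      ext z
      rfl
    rw [Polynomial.eval₂_map, h2]
    exact hpx
  obtain ⟨y, hy⟩ := IsIntegrallyClosed.isIntegral_iff.mp h1
  rw [← hy]
  exact y.2

theorem isRed_of_isIntegral (hG : E4.HasGaussNorm M A) (x : Kummer.Fb M)
    (hx : IsIntegral (gaussV M A) x) : ∃ y, IsRed M A x y :=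
  mem_gaussV_of_isIntegral hG x hx

/-- The image of a ring integral over a base is Gauss-integral as soon as the image of the base
is. -/
theorem mem_gaussV_of_base (hG : E4.HasGaussNorm M A) {C B : Type*} [CommRing C] [CommRing B]
    [Algebra B C] (i : C →+* Kummer.Fb M)
    (hB : ∀ b : B, i (algebraMap B C b) ∈ gaussV M A) (c : C) (hc : IsIntegral B c) :
    i c ∈ gaussV M A :=
  mem_gaussV_of_isIntegral hG _ (IntAbs.isIntegral_map_of_isIntegral i (gaussV M A) hB c hc)

/-! ### The abstract assembly -/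

/-- Integrality transfers along the reduction: if `c` is integral over `B` and the reductions of
the elements of `B` lie in the subalgebra `T`, then the reduction of `c` is integral over `T`. -/
theorem isIntegral_gaussRed {C B : Type*} [CommRing C] [CommRing B] [Algebra B C]
    (i : C →+* Kummer.Fb M) (hiV : ∀ c : C, i c ∈ gaussV M A)
    (T : Subalgebra (Res A) (LaurentSeries (Res A)))
    (hB : ∀ b : B, gaussRed M A ⟨i (algebraMap B C b), hiV _⟩ ∈ T) (c : C)
    (hc : IsIntegral B c) : IsIntegral T (gaussRed M A ⟨i c, hiV c⟩) := by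
  obtain ⟨p, hp, hpc⟩ := hc
  let ψ : C →+* LaurentSeries (Res A) := (gaussRed M A).comp (i.codRestrict (gaussV M A) hiV)
  let φ : B →+* T := (ψ.comp (algebraMap B C)).codRestrict T hB
  refine ⟨p.map φ, hp.map φ, ?_⟩
  have h1 : (algebraMap T (LaurentSeries (Res A))).comp φ = ψ.comp (algebraMap B C) := by
    ext b
    rfl
  rw [Polynomial.eval₂_map, h1]
  change Polynomial.eval₂ (ψ.comp (algebraMap B C)) (ψ c) p = 0
  rw [← Polynomial.hom_eval₂, hpc, map_zero]

/-- **(G2)** The abstract assembly of the chart-integrality principle, with the Gauss-integrality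
of the chart ring as a hypothesis. -/
theorem chartInt_of_pkg' (S : Place Qb (Kummer.Fb M) → Prop) (τb : LaurentSeries (Res A))
    (hpkg : ∀ y : Kummer.Fb M, (∃ yb, IsRed M A y yb) → (∀ P, S P → 0 ≤ P.ord y) →
      ∃ (C B : Type) (_ : CommRing C) (_ : CommRing B) (_ : Algebra B C)
        (i : C →+* Kummer.Fb M) (π c : C) (n : ℕ),
        Algebra.IsIntegral B C ∧ i π ≠ 0 ∧ IsRed M A (i π) 0 ∧
        (∀ c : C, ∃ cb, IsRed M A (i c) cb) ∧
        (∀ b : B, ∃ bb ∈ Algebra.adjoin (Res A) {τb}, IsRed M A (i (algebraMap B C b)) bb) ∧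
        (∀ c : C, IsRed M A (i c) 0 → π ∣ c) ∧ i π ^ n * y = i c) :
    ChartInt M A S τb := by
  intro y yb hy hreg
  obtain ⟨C, B, _, _, _, i, π, c, n, hint, hπ0, hπr, hiV, hB, hqep, hc⟩ := hpkg y ⟨yb, hy⟩ hreg
  have hiV' : ∀ c : C, i c ∈ gaussV M A := hiV
  obtain ⟨c', hc'⟩ := IntAbs.exists_eq_of_pow_mul_eq (gaussV M A) (gaussRed M A) i hiV' π hπ0
    (gaussRed_eq M A _ hπr)
    (fun c hc0 => hqep c (by
      have h := isRed_redFun M A ⟨i c, hiV' c⟩
      have h2 : redFun M A ⟨i c, hiV' c⟩ = 0 := hc0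
      rwa [h2] at h))
    y ⟨yb, hy⟩ n c hc
  have key := isIntegral_gaussRed i hiV' (Algebra.adjoin (Res A) {τb})
    (fun b => by
      obtain ⟨bb, hbb, hb⟩ := hB b
      rw [gaussRed_eq M A _ hb]
      exact hbb) c' (hint.isIntegral c')
  have h3 : gaussRed M A ⟨i c', hiV' c'⟩ = yb := by
    apply gaussRed_eq
    rw [hc']
    exact hy
  rwa [h3] at key

/-- **(G2)** The abstract assembly of the chart-integrality principle: Gauss-integrality of the
chart ring follows from that of the base (`gaussV` is integrally closed). -/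
theorem chartInt_of_pkg (hG : E4.HasGaussNorm M A) (S : Place Qb (Kummer.Fb M) → Prop)
    (τb : LaurentSeries (Res A))
    (hpkg : ∀ y : Kummer.Fb M, (∃ yb, IsRed M A y yb) → (∀ P, S P → 0 ≤ P.ord y) →
      ∃ (C B : Type) (_ : CommRing C) (_ : CommRing B) (_ : Algebra B C)
        (i : C →+* Kummer.Fb M) (π c : C) (n : ℕ),
        Algebra.IsIntegral B C ∧ i π ≠ 0 ∧ IsRed M A (i π) 0 ∧
        (∀ b : B, ∃ bb ∈ Algebra.adjoin (Res A) {τb}, IsRed M A (i (algebraMap B C b)) bb) ∧
        (∀ c : C, IsRed M A (i c) 0 → π ∣ c) ∧ i π ^ n * y = i c) :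
    ChartInt M A S τb := by
  apply chartInt_of_pkg' S τb
  intro y hy hreg
  obtain ⟨C, B, iC, iB, iA, i, π, c, n, hint, hπ0, hπr, hB, hqep, hc⟩ := hpkg y hy hreg
  refine ⟨C, B, iC, iB, iA, i, π, c, n, hint, hπ0, hπr, ?_, hB, hqep, hc⟩
  intro c
  exact mem_gaussV_of_base hG i (fun b => by obtain ⟨bb, -, hb⟩ := hB b; exact ⟨bb, hb⟩) c
    (hint.isIntegral c)

end Fermat.Agent.S37.Fn.ChartIntPf
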