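import Fermat.Agent.S37.Fn.Int
import Fermat.Agent.S18.K1Main.Generic

/-!
# S37 / F7: `IntZero` / `IntInf` for a chart function whose reduction has a pole

The consumer (`Final.ChartData`) knows the chart function `u` through `IsRed M A u ub` and
`ub.order < 0`.  This file removes the remaining side hypotheses of `Int.intZero` / `Int.intInf`:

* `transcendental_of_isRed` : such a `u` is transcendental over `ℚ̄`;
* `intZero_of_pole`, `intInf_of_pole` : the contract `Prop`s from the two `Int.ChartInt` literals.
-/

set_option autoImplicit false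
set_option linter.unusedSectionVars false
set_option synthInstance.maxHeartbeats 400000
set_option maxHeartbeats 1000000

noncomputable section

namespace Fermat.Agent.S37.Fn.Int

open ModularCurve AlgebraicCurve HahnSeries Polynomial
open Fermat.Agent.S30 Fermat.Agent.S37.Fn

local notation "Qb" => AlgebraicClosure ℚ

variable {M : ℕ} {A : ValuationSubring Qb}

/-- A constant of `Fb M` which is Gauss-integral has a constant reduction. -/
theorem isRed_algebraMap_order (c : Qb) (ub : LaurentSeries (Res A))
    (h : IsRed M A (algebraMap Qb (Kummer.Fb M) c) ub) : ub.order = 0 := by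
  by_cases hcA : c ∈ A
  · have h1 := isRed_const M A ⟨c, hcA⟩
    rw [h.unique h1, algebraMap_laurentSeries_eq_single]
    by_cases h0 : IsLocalRing.residue A ⟨c, hcA⟩ = 0
    · rw [h0, HahnSeries.single_eq_zero, HahnSeries.order_zero]
    · exact HahnSeries.order_single h0
  · exfalso
    have hc' : c⁻¹ ∈ A := (A.mem_or_inv_mem c).resolve_left hcA
    have hc0 : c ≠ 0 := fun h0 => hcA (by rw [h0]; exact A.zero_mem)
    have h1 := isRed_const M A ⟨c⁻¹, hc'⟩
    have h0 : IsLocalRing.residue A ⟨c⁻¹, hc'⟩ = 0 := by
      rw [IsLocalRing.residue_eq_zero_iff, IsLocalRing.mem_maximalIdeal, mem_nonunits_iff]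
      rintro ⟨v, hv⟩
      apply hcA
      have h2 : ((v⁻¹ : Aˣ) : A) * ⟨c⁻¹, hc'⟩ = 1 := by rw [← hv]; exact v.inv_mul
      have h3 : (((v⁻¹ : Aˣ) : A) : Qb) * c⁻¹ = 1 := congrArg (fun z : A => (z : Qb)) h2
      have h4 : (((v⁻¹ : Aˣ) : A) : Qb) = c := by
        field_simp at h3
        exact h3
      rw [← h4]
      exact ((v⁻¹ : Aˣ) : A).2
    rw [h0, map_zero] at h1
    have h2 := h.mul h1
    have h3 : algebraMap Qb (Kummer.Fb M) c * algebraMap Qb (Kummer.Fb M) (c⁻¹ : Qb) = 1 := by
      rw [← map_mul, mul_inv_cancel₀ hc0, map_one]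
    rw [h3, mul_zero] at h2
    exact one_ne_zero (isRed_one.unique h2)

/-- A Gauss-integral function whose reduction has a pole is transcendental over `ℚ̄`. -/
theorem transcendental_of_isRed (u : Kummer.Fb M) (ub : LaurentSeries (Res A))
    (hu : IsRed M A u ub) (hub : ub.order < 0) : Transcendental Qb u := by
  intro halg
  obtain ⟨c, hc⟩ := Fermat.Agent.S18.K1Main.algClosedIn_laurent (Kummer.Fb M) u halg
  rw [← hc] at hu
  have := isRed_algebraMap_order c ub hu
  omega

/-- **(INT_0)** for a chart function whose reduction has a pole. -/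
theorem intZero_of_pole [NeZero M] (u : Kummer.Fb M) (ub : LaurentSeries (Res A))
    (hu : IsRed M A u ub) (hub : ub.order < 0)
    (hCI : ChartInt M A (fun P => 0 ≤ P.ord u) ub) : IntZero M A u :=
  intZero u ub hu (transcendental_of_isRed u ub hu hub) hCI

/-- **(INT_∞)** for a chart function whose reduction has a pole. -/
theorem intInf_of_pole [NeZero M] (u : Kummer.Fb M) (ub : LaurentSeries (Res A))
    (hu : IsRed M A u ub) (hub : ub.order < 0)
    (hCI : ChartInt M A (fun P => P.ord u ≤ 0) ub⁻¹) : IntInf M A u :=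
  intInf u ub hu (by rintro rfl; simp at hub) hCI

end Fermat.Agent.S37.Fn.Int
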