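import Mathlib
import Fermat.Agent.S24.FF.Dedekind

/-!
# S37 (F6b, item I3a): regular at every place where the chart function is finite ⟹ integral

`K` a field of characteristic zero, `F / K` a field, `t : F` transcendental over `K` with
`F / K(t)` finite.

* `isIntegral_of_forall_ord_nonneg` : if `0 ≤ P.ord f` at every place `P` of `F / K` with
  `0 ≤ P.ord t`, then `f` is integral over `K[t]`.
* `isIntegral_inv_of_forall_ord_nonneg` : the chart at infinity: if `0 ≤ P.ord f` at every place
  with `P.ord u ≤ 0`, then `f` is integral over `K[u⁻¹]`.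
-/

set_option autoImplicit false

namespace Fermat.Agent.S37.Fn.RegInt

open AlgebraicCurve IsDedekindDomain IntermediateField Fermat.Agent.S24.FF
open scoped IntermediateField.algebraAdjoinAdjoin

variable {K F : Type*} [Field K] [CharZero K] [Field F] [Algebra K F]

/-- **(I3a)** regular at every place where `t` is finite ⟹ integral over `K[t]`. -/
theorem isIntegral_of_forall_ord_nonneg (t : F) (ht : Transcendental K t)
    [Module.Finite K⟮t⟯ F] (f : F)
    (h : ∀ P : Place K F, 0 ≤ P.ord t → 0 ≤ P.ord f) :
    IsIntegral (Algebra.adjoin K ({t} : Set F)) f := by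
  classical
  have pid : IsPrincipalIdealRing (Algebra.adjoin K ({t} : Set F)) :=
    polyRing_isPrincipalIdealRing K t ht
  have ded : IsDedekindDomain (integralClosure (Algebra.adjoin K ({t} : Set F)) F) :=
    integralClosure.isDedekindDomain (Algebra.adjoin K ({t} : Set F)) K⟮t⟯ F
  have frac : IsFractionRing (integralClosure (Algebra.adjoin K ({t} : Set F)) F) F :=
    integralClosure.isFractionRing_of_finite_extension K⟮t⟯ F
  have tower : IsScalarTower K (integralClosure (Algebra.adjoin K ({t} : Set F)) F) F :=
    IsScalarTower.of_algebraMap_eq (fun c => by simp [Algebra.algebraMap_eq_smul_one])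
  rcases eq_or_ne f 0 with rfl | hf
  · exact isIntegral_zero
  -- `t` lies in the integral closure
  have htR : IsIntegral (Algebra.adjoin K ({t} : Set F)) t :=
    isIntegral_algebraMap (x := (⟨t, Algebra.self_mem_adjoin_singleton K t⟩ :
      Algebra.adjoin K ({t} : Set F)))
  have hval : ∀ w : HeightOneSpectrum (integralClosure (Algebra.adjoin K ({t} : Set F)) F),
      w.valuation F f ≤ 1 := by
    intro w
    set P : Place K F := Place.ofHeightOneSpectrum (K := K) (F := F) w with hP
    have htmem : t ∈ P.toValuationSubring := by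
      show w.valuation F t ≤ 1
      have := w.valuation_le_one (K := F) (⟨t, htR⟩ :
        integralClosure (Algebra.adjoin K ({t} : Set F)) F)
      exact this
    have h1 : 0 ≤ P.ord f := h P (ord_nonneg_of_mem P htmem)
    have h2 : f ∈ P.toValuationSubring := (ord_nonneg_iff P hf).mp h1
    exact h2
  obtain ⟨y, hy⟩ := HeightOneSpectrum.mem_integers_of_valuation_le_one F f hval
  rw [← hy]
  exact y.2

omit [CharZero K] in
private theorem transcendental_inv' {u : F} (hu : Transcendental K u) : Transcendental K u⁻¹ := by
  intro h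
  exact hu (by simpa using h.inv)

omit [CharZero K] in
private theorem adjoin_simple_inv' (x : F) : K⟮x⁻¹⟯ = K⟮x⟯ := by
  apply le_antisymm
  · rw [adjoin_simple_le_iff]
    exact inv_mem (mem_adjoin_simple_self K x)
  · rw [adjoin_simple_le_iff]
    have := inv_mem (mem_adjoin_simple_self K x⁻¹)
    rwa [inv_inv] at this

/-- The chart at infinity: regular at every place where `u⁻¹` is finite ⟹ integral over
`K[u⁻¹]`. -/
theorem isIntegral_inv_of_forall_ord_nonneg (u : F) (hu : Transcendental K u)
    [hfin : Module.Finite K⟮u⟯ F] (f : F)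
    (h : ∀ P : Place K F, P.ord u ≤ 0 → 0 ≤ P.ord f) :
    IsIntegral (Algebra.adjoin K ({u⁻¹} : Set F)) f := by
  have hfin' : Module.Finite K⟮u⁻¹⟯ F := by
    have he : K⟮u⁻¹⟯ = K⟮u⟯ := adjoin_simple_inv' u
    rw [he]
    exact hfin
  refine isIntegral_of_forall_ord_nonneg u⁻¹ (transcendental_inv' hu) f fun P hP => h P ?_
  rw [P.ord_inv] at hP
  omega

end Fermat.Agent.S37.Fn.RegInt
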