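import Fermat.Agent.S37.Fn.Int
import Fermat.Agent.S37.Fn.ChartIntPf
import Fermat.Agent.S37.Fn.IntPole
import Fermat.Agent.S37.Fn.RegInt
import Fermat.Agent.S18.K1Descent
import Fermat.Agent.S18.K1Main.JBase
import Fermat.Agent.S30.Model.GlueChart
import Fermat.Agent.S30.GaussBridge
import Fermat.Agent.S30.Model.SFN.TameProvider

/-!
# S37 / F6b: the chart-integrality principle `Int.ChartInt` from "`π` is prime on the chart"

Level `M`, `A` a valuation subring of `ℚ̄`, `k = Res A`.

## Generic core (section `Core`)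

`O` a discrete valuation ring with fraction field `E`, `L / E` a field with a ring homomorphism
`up : L →+* Fb M` (extension of constants), `ρ : O →+* k` with kernel `(π)`, compatible with
`up` on constants.  `t : L` a chart coordinate whose image `up t` is Gauss-integral with
reduction `tb`, transcendental over `k`.  `B = O[t]`, `C` = integral closure of `B` in `L`.

* `isRed_aeval`, `isRed_base` : `up (B)` is Gauss-integral with reductions in `k[tb]`.
* `isRed_of_isIntegral` : **(I1)** `up (C)` is Gauss-integral.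
* `dvd_of_isRed_zero` : **(I2)** the `q`-expansion principle on `C` from `Prime π`.
* `isIntegral_red_of_pow_mul` : if `π ^ n * y ∈ C` and `up y` is Gauss-integral with reduction
  `yb`, then `yb` is integral over `k[tb]`.
-/

set_option autoImplicit false
set_option linter.unusedSectionVars false
set_option linter.style.haveILetI false
set_option synthInstance.maxHeartbeats 400000
set_option maxHeartbeats 1000000

noncomputable section

namespace Fermat.Agent.S37.Fn.ChartInt

open ModularCurve AlgebraicCurve HahnSeries Polynomial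
open Fermat.Agent.S30 Fermat.Agent.S37.Fn Fermat.Agent.S30.Model

local notation "Qb" => AlgebraicClosure ℚ

section Core

variable {M : ℕ} {A : ValuationSubring Qb}
variable {O L : Type} [CommRing O] [Field L] [Algebra O L]
  (up : L →+* Kummer.Fb M) (ρ : O →+* Res A)
  (hconst : ∀ o : O, IsRed M A (up (algebraMap O L o))
    (algebraMap (Res A) (LaurentSeries (Res A)) (ρ o)))

include hconst in
/-- Polynomials in the chart coordinate are Gauss-integral, with the expected reduction. -/
theorem isRed_aeval (t : L) (tb : LaurentSeries (Res A)) (ht : IsRed M A (up t) tb)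
    (P : O[X]) : IsRed M A (up (aeval t P)) (aeval tb (P.map ρ)) := by
  induction P using Polynomial.induction_on with
  | C a =>
    rw [aeval_C, Polynomial.map_C, aeval_C]
    exact hconst a
  | add p q hp hq =>
    rw [map_add, map_add, Polynomial.map_add, map_add]
    exact hp.add hq
  | monomial n a _ =>
    simp only [map_mul, map_pow, aeval_C, aeval_X, Polynomial.map_mul, Polynomial.map_pow,
      Polynomial.map_C, Polynomial.map_X]
    exact (hconst a).mul (ht.pow (n + 1))

omit [Field L] in
theorem exists_aeval_eq {R S : Type*} [CommRing R] [CommRing S] [Algebra R S] (t b : S)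
    (hb : b ∈ Algebra.adjoin R ({t} : Set S)) : ∃ P : R[X], aeval t P = b := by
  rw [Algebra.adjoin_singleton_eq_range_aeval] at hb
  exact hb

include hconst in
/-- **[d]** The image of the base `O[t]` is Gauss-integral with reductions in `k[tb]`. -/
theorem isRed_base (t : L) (tb : LaurentSeries (Res A)) (ht : IsRed M A (up t) tb)
    (b : L) (hb : b ∈ Algebra.adjoin O ({t} : Set L)) :
    ∃ bb ∈ Algebra.adjoin (Res A) ({tb} : Set (LaurentSeries (Res A))), IsRed M A (up b) bb := by
  obtain ⟨P, rfl⟩ := exists_aeval_eq (R := O) t b hb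
  refine ⟨aeval tb (P.map ρ), ?_, isRed_aeval up ρ hconst t tb ht P⟩
  rw [Algebra.adjoin_singleton_eq_range_aeval]
  exact ⟨P.map ρ, rfl⟩

include hconst in
/-- **(I1)** The image of the integral closure of `O[t]` is Gauss-integral. -/
theorem isRed_of_isIntegral
    (hG1 : ∀ x : Kummer.Fb M, IsIntegral (Int.gaussV M A) x → ∃ y, IsRed M A x y)
    (t : L) (tb : LaurentSeries (Res A)) (ht : IsRed M A (up t) tb)
    (c : L) (hc : IsIntegral (Algebra.adjoin O ({t} : Set L)) c) :
    ∃ cb, IsRed M A (up c) cb := by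
  apply hG1
  obtain ⟨p, hp, hpc⟩ := hc
  have hB : ∀ b : Algebra.adjoin O ({t} : Set L),
      (up.comp (algebraMap (Algebra.adjoin O ({t} : Set L)) L)) b ∈ Int.gaussV M A := by
    intro b
    obtain ⟨bb, -, hbb⟩ := isRed_base up ρ hconst t tb ht (b : L) b.2
    exact ⟨bb, hbb⟩
  let φ : Algebra.adjoin O ({t} : Set L) →+* Int.gaussV M A :=
    (up.comp (algebraMap (Algebra.adjoin O ({t} : Set L)) L)).codRestrict (Int.gaussV M A) hB
  refine ⟨p.map φ, hp.map φ, ?_⟩
  have h1 : (algebraMap (Int.gaussV M A) (Kummer.Fb M)).comp φ =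
      up.comp (algebraMap (Algebra.adjoin O ({t} : Set L)) L) := by
    ext b
    rfl
  rw [Polynomial.eval₂_map, h1, ← Polynomial.hom_eval₂, hpc, map_zero]

/-- The ring homomorphism "reduce the image" on the integral closure of `O[t]`. -/
def redHom (hG1 : ∀ x : Kummer.Fb M, IsIntegral (Int.gaussV M A) x → ∃ y, IsRed M A x y)
    (t : L) (tb : LaurentSeries (Res A)) (ht : IsRed M A (up t) tb) :
    integralClosure (Algebra.adjoin O ({t} : Set L)) L →+* LaurentSeries (Res A) :=
  (Int.gaussRed M A).comp
    ((up.comp (algebraMap (integralClosure (Algebra.adjoin O ({t} : Set L)) L) L)).codRestrict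
      (Int.gaussV M A) (fun c => isRed_of_isIntegral up ρ hconst hG1 t tb ht (c : L) c.2))

include hconst in
theorem redHom_eq (hG1 : ∀ x : Kummer.Fb M, IsIntegral (Int.gaussV M A) x → ∃ y, IsRed M A x y)
    (t : L) (tb : LaurentSeries (Res A)) (ht : IsRed M A (up t) tb)
    (c : integralClosure (Algebra.adjoin O ({t} : Set L)) L) (cb : LaurentSeries (Res A))
    (hc : IsRed M A (up (c : L)) cb) : redHom up ρ hconst hG1 t tb ht c = cb :=
  Int.gaussRed_eq M A _ hc

variable [IsDomain O]

include hconst in
/-- **(I2)** the `q`-expansion principle on the integral closure `C` of `O[t]`, from the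
primality of `π` in `C`: an element of `C` whose image has reduction `0` is divisible by `π`. -/
theorem dvd_of_isRed_zero
    (hG1 : ∀ x : Kummer.Fb M, IsIntegral (Int.gaussV M A) x → ∃ y, IsRed M A x y)
    (π : O) (hρ : ∀ o : O, ρ o = 0 ↔ π ∣ o)
    (t : L) (tb : LaurentSeries (Res A)) (ht : IsRed M A (up t) tb)
    (htb : Transcendental (Res A) tb)
    (hprime : Prime (GlueChart.piElt (Algebra.adjoin O ({t} : Set L)) π))
    (c : integralClosure (Algebra.adjoin O ({t} : Set L)) L)
    (hc : IsRed M A (up (c : L)) 0) :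
    GlueChart.piElt (Algebra.adjoin O ({t} : Set L)) π ∣ c := by
  have hρπ : ρ π = 0 := (hρ π).2 dvd_rfl
  refine GaussBridge.dvd_of_red_eq_zero (redHom up ρ hconst hG1 t tb ht)
    (algebraMap O (Algebra.adjoin O ({t} : Set L)) π) hprime ?_ ?_ c
    (redHom_eq up ρ hconst hG1 t tb ht c 0 hc)
  · refine redHom_eq up ρ hconst hG1 t tb ht _ 0 ?_
    have h := hconst π
    rw [hρπ, map_zero] at h
    exact h
  · intro b hb
    obtain ⟨P, hP⟩ := exists_aeval_eq (R := O) t (b : L) b.2
    have h1 : IsRed M A (up (b : L)) (aeval tb (P.map ρ)) := by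
      have h2 : (aeval t) P = (b : L) := hP
      rw [← h2]
      exact isRed_aeval up ρ hconst t tb ht P
    have h3 : redHom up ρ hconst hG1 t tb ht
        (algebraMap (Algebra.adjoin O ({t} : Set L)) _ b) = aeval tb (P.map ρ) :=
      redHom_eq up ρ hconst hG1 t tb ht _ _ h1
    rw [hb] at h3
    have h4 : P.map ρ = 0 := by
      by_contra hne
      exact htb ⟨P.map ρ, hne, h3.symm⟩
    have h5 : Polynomial.C π ∣ P := by
      rw [Polynomial.C_dvd_iff_dvd_coeff]
      intro n
      apply (hρ _).1
      rw [← Polynomial.coeff_map, h4, Polynomial.coeff_zero]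
    obtain ⟨P', rfl⟩ := h5
    refine ⟨⟨aeval t P', ?_⟩, Subtype.ext ?_⟩
    · rw [Algebra.adjoin_singleton_eq_range_aeval]
      exact ⟨P', rfl⟩
    · have h6 : (aeval t) (Polynomial.C π * P') = (b : L) := hP
      rw [← h6, map_mul, aeval_C]
      rfl

include hconst in
/-- **Core of the chart-integrality principle.**  If `π ^ n * y` is integral over `O[t]` and
the image of `y` is Gauss-integral with reduction `yb`, then `yb` is integral over `k[tb]`. -/
theorem isIntegral_red_of_pow_mul (hup : Function.Injective up)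
    (hG1 : ∀ x : Kummer.Fb M, IsIntegral (Int.gaussV M A) x → ∃ y, IsRed M A x y)
    (π : O) (hπL : algebraMap O L π ≠ 0) (hρ : ∀ o : O, ρ o = 0 ↔ π ∣ o)
    (t : L) (tb : LaurentSeries (Res A)) (ht : IsRed M A (up t) tb)
    (htb : Transcendental (Res A) tb)
    (hprime : Prime (GlueChart.piElt (Algebra.adjoin O ({t} : Set L)) π))
    (y : L) (yb : LaurentSeries (Res A)) (hy : IsRed M A (up y) yb) (n : ℕ)
    (hn : IsIntegral (Algebra.adjoin O ({t} : Set L)) (algebraMap O L π ^ n * y)) :
    IsIntegral (Algebra.adjoin (Res A) ({tb} : Set (LaurentSeries (Res A)))) yb := by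
  have hρπ : ρ π = 0 := (hρ π).2 dvd_rfl
  set i : integralClosure (Algebra.adjoin O ({t} : Set L)) L →+* Kummer.Fb M :=
    up.comp (algebraMap (integralClosure (Algebra.adjoin O ({t} : Set L)) L) L) with hi
  have hiV : ∀ c, i c ∈ Int.gaussV M A :=
    fun c => isRed_of_isIntegral up ρ hconst hG1 t tb ht (c : L) c.2
  have hπi : i (GlueChart.piElt (Algebra.adjoin O ({t} : Set L)) π) = up (algebraMap O L π) :=
    rfl
  have hπred : IsRed M A (up (algebraMap O L π)) 0 := by
    have h := hconst π
    rw [hρπ, map_zero] at h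
    exact h
  -- `y` itself lies in the integral closure
  obtain ⟨c', hc'⟩ := IntAbs.exists_eq_of_pow_mul_eq (Int.gaussV M A) (Int.gaussRed M A) i hiV
    (GlueChart.piElt (Algebra.adjoin O ({t} : Set L)) π)
    (by rw [hπi]; exact (map_ne_zero_iff up hup).mpr hπL)
    (Int.gaussRed_eq M A _ (by rw [hπi]; exact hπred))
    (fun c hc0 => dvd_of_isRed_zero up ρ hconst hG1 π hρ t tb ht htb hprime c (by
      have h1 := Int.isRed_redFun M A ⟨i c, hiV c⟩
      have h2 : Int.redFun M A ⟨i c, hiV c⟩ = 0 := hc0
      rw [h2] at h1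
      exact h1))
    (up y) ⟨yb, hy⟩ n ⟨_, hn⟩ (by rw [hπi]; simp [hi])
  have hc'y : (c' : L) = y := hup hc'
  -- reduce an integral equation
  obtain ⟨p, hp, hpc⟩ := c'.2
  have hB : ∀ b : Algebra.adjoin O ({t} : Set L),
      ((redHom up ρ hconst hG1 t tb ht).comp (algebraMap (Algebra.adjoin O ({t} : Set L))
        (integralClosure (Algebra.adjoin O ({t} : Set L)) L))) b ∈
        Algebra.adjoin (Res A) ({tb} : Set (LaurentSeries (Res A))) := by
    intro b
    obtain ⟨bb, hbb, hbr⟩ := isRed_base up ρ hconst t tb ht (b : L) b.2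
    have : redHom up ρ hconst hG1 t tb ht
        (algebraMap (Algebra.adjoin O ({t} : Set L)) _ b) = bb :=
      redHom_eq up ρ hconst hG1 t tb ht _ _ hbr
    rw [RingHom.comp_apply, this]
    exact hbb
  let φ : Algebra.adjoin O ({t} : Set L) →+*
      Algebra.adjoin (Res A) ({tb} : Set (LaurentSeries (Res A))) :=
    ((redHom up ρ hconst hG1 t tb ht).comp (algebraMap (Algebra.adjoin O ({t} : Set L))
      (integralClosure (Algebra.adjoin O ({t} : Set L)) L))).codRestrict _ hB
  have hyb : redHom up ρ hconst hG1 t tb ht c' = yb :=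
    redHom_eq up ρ hconst hG1 t tb ht c' yb (by rw [hc'y]; exact hy)
  refine ⟨p.map φ, hp.map φ, ?_⟩
  have h1 : (algebraMap (Algebra.adjoin (Res A) ({tb} : Set (LaurentSeries (Res A))))
      (LaurentSeries (Res A))).comp φ =
      (redHom up ρ hconst hG1 t tb ht).comp (algebraMap (Algebra.adjoin O ({t} : Set L))
        (integralClosure (Algebra.adjoin O ({t} : Set L)) L)) := by
    ext b
    rfl
  have hpc' : Polynomial.eval₂ (algebraMap (Algebra.adjoin O ({t} : Set L))
      (integralClosure (Algebra.adjoin O ({t} : Set L)) L)) c' p = 0 := by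
    apply Subtype.ext
    have := Polynomial.hom_eval₂ p (algebraMap (Algebra.adjoin O ({t} : Set L))
      (integralClosure (Algebra.adjoin O ({t} : Set L)) L))
      (algebraMap (integralClosure (Algebra.adjoin O ({t} : Set L)) L) L) c'
    rw [show ((0 : integralClosure (Algebra.adjoin O ({t} : Set L)) L) : L) = 0 from rfl, ← hpc]
    exact this
  rw [Polynomial.eval₂_map, h1, ← hyb, ← Polynomial.hom_eval₂, hpc', map_zero]

end Core

/-! ### The modular instance at one number field `E` -/

section Modular

open Fermat.Agent.S18 Fermat.Agent.S18.K1Defs Fermat.Agent.S18.K1Main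

variable (M : ℕ) [NeZero M] (A : ValuationSubring Qb) (E : IntermediateField ℚ Qb)

/-- The residue map `A ∩ E → Res A`. -/
def resE : OE A E →+* Res A := (IsLocalRing.residue A).comp (K1Top.inclOA A E)

theorem upHom_algebraMap (e : E) :
    K1Descent.upHom M E (algebraMap E (LE M E) e) =
      algebraMap Qb (Kummer.Fb M) (algebraMap E Qb e) := by
  apply Subtype.ext
  show coeffMap (algebraMap E Qb) (algebraMap E (LaurentSeries E) e) =
    algebraMap Qb (LaurentSeries Qb) (algebraMap E Qb e)
  exact K1Top.coeffMap_algebraMap_hom _ _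

/-- Constants of `A ∩ E` are Gauss-integral, with the expected reduction. -/
theorem isRed_upHom_const (o : OE A E) :
    letI := algebraOL (OE A E) E (LE M E)
    IsRed M A (K1Descent.upHom M E (algebraMap (OE A E) (LE M E) o))
      (algebraMap (Res A) (LaurentSeries (Res A)) (resE A E o)) := by
  letI := algebraOL (OE A E) E (LE M E)
  have h1 : algebraMap (OE A E) (LE M E) o = algebraMap E (LE M E) (o : E) := rfl
  rw [h1, upHom_algebraMap]
  exact Int.isRed_const M A (K1Top.inclOA A E o)

theorem resE_eq_zero_iff [IsDiscreteValuationRing (OE A E)] (π : OE A E) (hπ : Irreducible π)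
    (o : OE A E) : resE A E o = 0 ↔ π ∣ o := by
  show IsLocalRing.residue A (K1Top.inclOA A E o) = 0 ↔ π ∣ o
  rw [K1Top.residue_inclOA_eq_zero_iff, IsLocalRing.residue_eq_zero_iff, hπ.maximalIdeal_eq,
    Ideal.mem_span_singleton]

/-- **(I1)**, standalone: the image in `Fb M` of an element of `LE M E` integral over
`(A ∩ E)[t]` is Gauss-integral, as soon as the image of the chart coordinate `t` is. -/
theorem isRed_up_of_isIntegral {ℓ : ℕ} [Fact ℓ.Prime] (hA : A.LiesOverPrime ℓ)
    (t : LE M E) (tb : LaurentSeries (Res A)) (ht : IsRed M A (K1Descent.upHom M E t) tb)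
    (c : LE M E)
    (hc : letI := algebraOL (OE A E) E (LE M E)
      IsIntegral (Algebra.adjoin (OE A E) ({t} : Set (LE M E))) c) :
    ∃ cb, IsRed M A (K1Descent.upHom M E c) cb := by
  letI := algebraOL (OE A E) E (LE M E)
  exact isRed_of_isIntegral (K1Descent.upHom M E) (resE A E) (isRed_upHom_const M A E)
    (ChartIntPf.isRed_of_isIntegral (E4.hasGaussNorm M ℓ A hA)) t tb ht c hc

/-- **(I2)**, standalone: the `q`-expansion principle on the integral closure of `(A ∩ E)[t]`
from the primality of `π`. -/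
theorem dvd_of_isRed_up_zero {ℓ : ℕ} [Fact ℓ.Prime] (hA : A.LiesOverPrime ℓ)
    [IsDiscreteValuationRing (OE A E)] (π : OE A E) (hπ : Irreducible π)
    (t : LE M E) (tb : LaurentSeries (Res A)) (ht : IsRed M A (K1Descent.upHom M E t) tb)
    (htb : Transcendental (Res A) tb)
    (hprime : letI := algebraOL (OE A E) E (LE M E)
      Prime (GlueChart.piElt (Algebra.adjoin (OE A E) ({t} : Set (LE M E))) π))
    (c : letI := algebraOL (OE A E) E (LE M E)
      integralClosure (Algebra.adjoin (OE A E) ({t} : Set (LE M E))) (LE M E))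
    (hc : IsRed M A (K1Descent.upHom M E (c : LE M E)) 0) :
    letI := algebraOL (OE A E) E (LE M E)
    GlueChart.piElt (Algebra.adjoin (OE A E) ({t} : Set (LE M E))) π ∣ c := by
  letI := algebraOL (OE A E) E (LE M E)
  exact dvd_of_isRed_zero (K1Descent.upHom M E) (resE A E) (isRed_upHom_const M A E)
    (ChartIntPf.isRed_of_isIntegral (E4.hasGaussNorm M ℓ A hA)) π
    (resE_eq_zero_iff A E π hπ) t tb ht htb hprime c hc

/-- **The chart-integrality principle at one number field.**  `t ∈ LE M E` a chart coordinate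
whose image is Gauss-integral with reduction `tb` transcendental over `k`, `π` prime in the
integral closure of `(A ∩ E)[t]`.  If `π ^ n * y` is integral over `(A ∩ E)[t]` and the image of
`y` is Gauss-integral with reduction `yb`, then `yb` is integral over `k[tb]`. -/
theorem isIntegral_red_at {ℓ : ℕ} [Fact ℓ.Prime] (hA : A.LiesOverPrime ℓ)
    [IsDiscreteValuationRing (OE A E)] (π : OE A E) (hπ : Irreducible π)
    (t : LE M E) (tb : LaurentSeries (Res A)) (ht : IsRed M A (K1Descent.upHom M E t) tb)
    (htb : Transcendental (Res A) tb)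
    (hprime : letI := algebraOL (OE A E) E (LE M E)
      Prime (GlueChart.piElt (Algebra.adjoin (OE A E) ({t} : Set (LE M E))) π))
    (y : LE M E) (yb : LaurentSeries (Res A)) (hy : IsRed M A (K1Descent.upHom M E y) yb)
    (n : ℕ)
    (hn : letI := algebraOL (OE A E) E (LE M E)
      IsIntegral (Algebra.adjoin (OE A E) ({t} : Set (LE M E)))
        (algebraMap (OE A E) (LE M E) π ^ n * y)) :
    IsIntegral (Algebra.adjoin (Res A) ({tb} : Set (LaurentSeries (Res A)))) yb := by
  letI := algebraOL (OE A E) E (LE M E)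
  have hπL : algebraMap (OE A E) (LE M E) π ≠ 0 := by
    have h1 : algebraMap (OE A E) (LE M E) π = algebraMap E (LE M E) (π : E) := rfl
    rw [h1]
    intro h0
    have h2 : (π : E) = 0 := (algebraMap E (LE M E)).injective (by rw [h0, map_zero])
    exact hπ.ne_zero (Subtype.ext h2)
  exact isIntegral_red_of_pow_mul (K1Descent.upHom M E) (resE A E) (isRed_upHom_const M A E)
    (K1Descent.upHom M E).injective
    (ChartIntPf.isRed_of_isIntegral (E4.hasGaussNorm M ℓ A hA)) π hπL
    (resE_eq_zero_iff A E π hπ) t tb ht htb hprime y yb hy n hn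

/-! ### Descent of regularity, and the exit theorems -/

/-- **(D)** A function of `LE M E` whose image in `Fb M` is regular at every place where the
chart coordinate `t` is finite becomes integral over `(A ∩ E)[t]` after multiplication by a
power of `π`. -/
theorem exists_pow_mul_isIntegral_of_reg [FiniteDimensional ℚ E]
    [IsDiscreteValuationRing (OE A E)] (t y : LE M E) (ht : Transcendental E t)
    [FiniteDimensional (IntermediateField.adjoin E {t}) (LE M E)]
    (π : OE A E) (hπ : Irreducible π)
    (hreg : ∀ P : Place Qb (Kummer.Fb M), 0 ≤ P.ord (K1Descent.upHom M E t) →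
      0 ≤ P.ord (K1Descent.upHom M E y)) :
    letI := algebraOL (OE A E) E (LE M E)
    ∃ n : ℕ, IsIntegral (Algebra.adjoin (OE A E) ({t} : Set (LE M E)))
      (algebraMap (OE A E) (LE M E) π ^ n * y) := by
  letI := algebraOL (OE A E) E (LE M E)
  haveI := isScalarTower_OL (OE A E) E (LE M E)
  have h1 : IsIntegral (Algebra.adjoin E ({t} : Set (LE M E))) y := by
    refine RegInt.isIntegral_of_forall_ord_nonneg t ht y fun v hv => ?_
    obtain ⟨P, hP⟩ := K1Descent.placeDescent M E v
    have e1 : P.ord (K1Descent.upHom M E t) = v.ord t := hP t.1 t.2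
    have e2 : P.ord (K1Descent.upHom M E y) = v.ord y := hP y.1 y.2
    rw [← e2]
    exact hreg P (by rw [e1]; exact hv)
  exact Model.SFN.TameProvider.exists_pow_mul_isIntegral π hπ t y h1

/-- **(D)** at infinity: regular at every place where `u⁻¹` is finite. -/
theorem exists_pow_mul_isIntegral_of_reg_inv [FiniteDimensional ℚ E]
    [IsDiscreteValuationRing (OE A E)] (u y : LE M E) (hu : Transcendental E u)
    [FiniteDimensional (IntermediateField.adjoin E {u}) (LE M E)]
    (π : OE A E) (hπ : Irreducible π)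
    (hreg : ∀ P : Place Qb (Kummer.Fb M), P.ord (K1Descent.upHom M E u) ≤ 0 →
      0 ≤ P.ord (K1Descent.upHom M E y)) :
    letI := algebraOL (OE A E) E (LE M E)
    ∃ n : ℕ, IsIntegral (Algebra.adjoin (OE A E) ({u⁻¹} : Set (LE M E)))
      (algebraMap (OE A E) (LE M E) π ^ n * y) := by
  letI := algebraOL (OE A E) E (LE M E)
  haveI := isScalarTower_OL (OE A E) E (LE M E)
  have h1 : IsIntegral (Algebra.adjoin E ({u⁻¹} : Set (LE M E))) y := by
    refine RegInt.isIntegral_inv_of_forall_ord_nonneg u hu y fun v hv => ?_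
    obtain ⟨P, hP⟩ := K1Descent.placeDescent M E v
    have e1 : P.ord (K1Descent.upHom M E u) = v.ord u := hP u.1 u.2
    have e2 : P.ord (K1Descent.upHom M E y) = v.ord y := hP y.1 y.2
    rw [← e2]
    exact hreg P (by rw [e1]; exact hv)
  exact Model.SFN.TameProvider.exists_pow_mul_isIntegral π hπ u⁻¹ y h1

/-- A Laurent series over a field with a pole is transcendental over the field. -/
theorem transcendental_of_order_neg {k : Type*} [Field k] (x : LaurentSeries k)
    (hx : x.order < 0) : Transcendental k x := by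
  rintro ⟨P, hP0, hP⟩
  apply hP0
  apply GaussBridge.eval₂_C_eq_zero x hx P
  rw [← hP, aeval_def]
  congr 1
  refine RingHom.ext fun c => ?_
  rw [algebraMap_laurentSeries_eq_single, HahnSeries.C_apply]

/-- Every element of `Fb M` descends to `LE M E` for every sufficiently large number field
`E` (containing a prescribed finite set). -/
theorem exists_descent (S₀ : Finset Qb) (y : Kummer.Fb M) :
    ∃ (E : IntermediateField ℚ Qb) (_ : FiniteDimensional ℚ E) (yE : LE M E),
      (∀ s ∈ S₀, s ∈ E) ∧ K1Descent.upHom M E yE = y := by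
  classical
  obtain ⟨E₁, hE₁, y₁, hy₁, hy₁y⟩ := K1Descent.coefDescent M (y : LaurentSeries Qb) y.2
  let E₃ : IntermediateField ℚ Qb := IntermediateField.adjoin ℚ (S₀ : Set Qb)
  have hE₃ : FiniteDimensional ℚ E₃ :=
    IntermediateField.finiteDimensional_adjoin fun x _ =>
      ((AlgebraicClosure.isAlgebraic ℚ).isAlgebraic x).isIntegral
  have hE : FiniteDimensional ℚ (E₁ ⊔ E₃ : IntermediateField ℚ Qb) :=
    IntermediateField.finiteDimensional_sup E₁ E₃
  obtain ⟨yE, hyEL, hyE⟩ := K1Top.exists_mem_LE_of_le M (le_sup_left : E₁ ≤ E₁ ⊔ E₃) hy₁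
  refine ⟨E₁ ⊔ E₃, hE, ⟨yE, hyEL⟩, fun s hs =>
    (le_sup_right : E₃ ≤ E₁ ⊔ E₃) (IntermediateField.subset_adjoin ℚ _ hs), ?_⟩
  apply Subtype.ext
  show coeffMap (algebraMap (E₁ ⊔ E₃ : IntermediateField ℚ Qb) Qb) yE = (y : LaurentSeries Qb)
  rw [hyE, hy₁y]

variable {M A}

/-- **(CI_0)** The chart-integrality principle on the chart `u`, from the primality of `π` in
the integral closure of `(A ∩ E)[uE]` for all sufficiently large number fields `E`. -/
theorem chartInt_zero {ℓ : ℕ} [Fact ℓ.Prime] (hA : A.LiesOverPrime ℓ) (u : Kummer.Fb M)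
    (ub : LaurentSeries (Res A)) (hu : IsRed M A u ub) (hub : ub.order < 0)
    (h : ∃ S₀ : Finset Qb, ∀ (E : IntermediateField ℚ Qb) [FiniteDimensional ℚ E]
      [IsDiscreteValuationRing (OE A E)], (∀ s ∈ S₀, s ∈ E) →
      letI := algebraOL (OE A E) E (LE M E)
      ∃ uE : LE M E, K1Descent.upHom M E uE = u ∧ Transcendental E uE ∧
        FiniteDimensional (IntermediateField.adjoin E {uE}) (LE M E) ∧
        ∃ π : OE A E, Irreducible π ∧
          Prime (GlueChart.piElt (Algebra.adjoin (OE A E) ({uE} : Set (LE M E))) π)) :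
    Int.ChartInt M A (fun P => 0 ≤ P.ord u) ub := by
  intro y yb hy hreg
  obtain ⟨S₀, h⟩ := h
  obtain ⟨E, hE, yE, hS₀, hyE⟩ := exists_descent M S₀ y
  haveI := hE
  haveI : IsDiscreteValuationRing (OE A E) := K1Descent.dvrDescent A (Fact.out : ℓ.Prime) hA E
  letI := algebraOL (OE A E) E (LE M E)
  obtain ⟨uE, huE, hT, hfin, π, hπ, hprime⟩ := h E hS₀
  haveI := hfin
  obtain ⟨n, hn⟩ := exists_pow_mul_isIntegral_of_reg M A E uE yE hT π hπ
    (by rw [huE, hyE]; exact hreg)
  exact isIntegral_red_at M A E hA π hπ uE ub (by rw [huE]; exact hu)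
    (transcendental_of_order_neg ub hub) hprime yE yb (by rw [hyE]; exact hy) n hn

/-- **(CI_∞)** The chart-integrality principle on the chart `u⁻¹`, from the primality of `π` in
the integral closure of `(A ∩ E)[uE⁻¹]` for all sufficiently large number fields `E`. -/
theorem chartInt_inf {ℓ : ℕ} [Fact ℓ.Prime] (hA : A.LiesOverPrime ℓ) (u : Kummer.Fb M)
    (ub : LaurentSeries (Res A)) (hu : IsRed M A u ub) (hub : ub.order < 0)
    (h : ∃ S₀ : Finset Qb, ∀ (E : IntermediateField ℚ Qb) [FiniteDimensional ℚ E]
      [IsDiscreteValuationRing (OE A E)], (∀ s ∈ S₀, s ∈ E) →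
      letI := algebraOL (OE A E) E (LE M E)
      ∃ uE : LE M E, K1Descent.upHom M E uE = u ∧ Transcendental E uE ∧
        FiniteDimensional (IntermediateField.adjoin E {uE}) (LE M E) ∧
        ∃ π : OE A E, Irreducible π ∧
          Prime (GlueChart.piElt (Algebra.adjoin (OE A E) ({uE⁻¹} : Set (LE M E))) π)) :
    Int.ChartInt M A (fun P => P.ord u ≤ 0) ub⁻¹ := by
  intro y yb hy hreg
  obtain ⟨S₀, h⟩ := h
  obtain ⟨E, hE, yE, hS₀, hyE⟩ := exists_descent M S₀ y
  haveI := hE
  haveI : IsDiscreteValuationRing (OE A E) := K1Descent.dvrDescent A (Fact.out : ℓ.Prime) hA E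
  letI := algebraOL (OE A E) E (LE M E)
  obtain ⟨uE, huE, hT, hfin, π, hπ, hprime⟩ := h E hS₀
  haveI := hfin
  obtain ⟨n, hn⟩ := exists_pow_mul_isIntegral_of_reg_inv M A E uE yE hT π hπ
    (by rw [huE, hyE]; exact hreg)
  have hub0 : ub ≠ 0 := by
    rintro rfl
    simp at hub
  have hinvT : Transcendental (Res A) ub⁻¹ := by
    intro halg
    exact transcendental_of_order_neg ub hub (by simpa using halg.inv)
  exact isIntegral_red_at M A E hA π hπ uE⁻¹ ub⁻¹
    (by rw [map_inv₀, huE]; exact hu.inv hub0) hinvT hprime yE yb (by rw [hyE]; exact hy) n hn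

/-- **(INT_0)** `Fn.IntZero` from the primality of `π` on the chart `u` at all sufficiently
large finite levels. -/
theorem intZero_of_model {ℓ : ℕ} [Fact ℓ.Prime] (hA : A.LiesOverPrime ℓ)
    (u : Kummer.Fb M) (ub : LaurentSeries (Res A)) (hu : IsRed M A u ub) (hub : ub.order < 0)
    (h : ∃ S₀ : Finset Qb, ∀ (E : IntermediateField ℚ Qb) [FiniteDimensional ℚ E]
      [IsDiscreteValuationRing (OE A E)], (∀ s ∈ S₀, s ∈ E) →
      letI := algebraOL (OE A E) E (LE M E)
      ∃ uE : LE M E, K1Descent.upHom M E uE = u ∧ Transcendental E uE ∧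
        FiniteDimensional (IntermediateField.adjoin E {uE}) (LE M E) ∧
        ∃ π : OE A E, Irreducible π ∧
          Prime (GlueChart.piElt (Algebra.adjoin (OE A E) ({uE} : Set (LE M E))) π)) :
    IntZero M A u :=
  Int.intZero_of_pole u ub hu hub (chartInt_zero hA u ub hu hub h)

/-- **(INT_∞)** `Fn.IntInf` from the primality of `π` on the chart `u⁻¹` at all sufficiently
large finite levels. -/
theorem intInf_of_model {ℓ : ℕ} [Fact ℓ.Prime] (hA : A.LiesOverPrime ℓ)
    (u : Kummer.Fb M) (ub : LaurentSeries (Res A)) (hu : IsRed M A u ub) (hub : ub.order < 0)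
    (h : ∃ S₀ : Finset Qb, ∀ (E : IntermediateField ℚ Qb) [FiniteDimensional ℚ E]
      [IsDiscreteValuationRing (OE A E)], (∀ s ∈ S₀, s ∈ E) →
      letI := algebraOL (OE A E) E (LE M E)
      ∃ uE : LE M E, K1Descent.upHom M E uE = u ∧ Transcendental E uE ∧
        FiniteDimensional (IntermediateField.adjoin E {uE}) (LE M E) ∧
        ∃ π : OE A E, Irreducible π ∧
          Prime (GlueChart.piElt (Algebra.adjoin (OE A E) ({uE⁻¹} : Set (LE M E))) π)) :
    IntInf M A u :=
  Int.intInf_of_pole u ub hu hub (chartInt_inf hA u ub hu hub h)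

end Modular

end Fermat.Agent.S37.Fn.ChartInt
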