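import Mathlib
import Fermat.Agent.S37.Fn.Defs
import Fermat.Agent.S18.K1Descent
import Fermat.Agent.S18.K1Main.JBase
import Fermat.Agent.S30.Model.GlueChart

/-!
# S37, rows F6a / F9b: the interface "rational point data" (contract file, definitions only)

`RatData M A E t P` : the place `P` of `Fb M` is an `E`-rational point of the chart
`Spec (integralClosure O_E[t])` (`t ∈ LE M E` the chart coordinate, `O_E = A ∩ E`): there is a
prime `q` of the chart ring (the functions vanishing at `P`) which
* is nonzero, does not contain `π`, and `q + (π)` is maximal (the centre of `P`),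
* contains `t - a` for some `a ∈ O_E` (the value of `t` at `P`),
* consists of functions vanishing at `P`, and contains a uniformiser at `P`,
* separates `P` from every other place `P'` at which `t` is finite.

`RatPoint M A tB tE` : every place `P` of `Fb M` with `tB(P) = a ∈ A` has rational point data over
some number field `E ⊇ S₀` (any prescribed finite set `S₀`).

These are exactly the point-dependent hypotheses of `InvWrap.invAt_of_data`.
-/

set_option autoImplicit false
set_option linter.unusedSectionVars false
set_option linter.style.haveILetI false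

open ModularCurve AlgebraicCurve

noncomputable section

namespace Fermat.Agent.S37.Fn

open Fermat.Agent.S18.K1Defs Fermat.Agent.S18.K1Main Fermat.Agent.S30 Fermat.Agent.S30.Model

local notation "Qb" => AlgebraicClosure ℚ

/-- **Rational point data** for the place `P` of `Fb M` on the chart ring
`integralClosure (O_E[t]) (LE M E)` (for the canonical `O_E`-algebra structure `algebraOL`). -/
def RatData (M : ℕ) [NeZero M] (A : ValuationSubring Qb) (E : IntermediateField ℚ Qb)
    (t : LE M E) (P : Place Qb (Kummer.Fb M)) : Prop :=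
  letI := algebraOL (OE A E) E (LE M E)
  ∃ q : Ideal (integralClosure (Algebra.adjoin (OE A E) ({t} : Set (LE M E))) (LE M E)),
    q.IsPrime ∧ q ≠ ⊥ ∧
    (∀ π : OE A E, Irreducible π →
      GlueChart.piElt (Algebra.adjoin (OE A E) ({t} : Set (LE M E))) π ∉ q ∧
      (q ⊔ Ideal.span {GlueChart.piElt (Algebra.adjoin (OE A E) ({t} : Set (LE M E))) π}).IsMaximal) ∧
    (∃ a : OE A E, ∃ y ∈ q, (y : LE M E) = t - algebraMap (OE A E) (LE M E) a) ∧
    (∀ y ∈ q, Fermat.Agent.S18.K1Descent.upHom M E (y : LE M E) = 0 ∨
      0 < P.ord (Fermat.Agent.S18.K1Descent.upHom M E (y : LE M E))) ∧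
    (∃ y ∈ q, P.ord (Fermat.Agent.S18.K1Descent.upHom M E (y : LE M E)) = 1) ∧
    (∀ P' : Place Qb (Kummer.Fb M), P' ≠ P →
      0 ≤ P'.ord (Fermat.Agent.S18.K1Descent.upHom M E t) →
      ∃ y ∈ q, Fermat.Agent.S18.K1Descent.upHom M E (y : LE M E) ≠ 0 ∧
        P'.ord (Fermat.Agent.S18.K1Descent.upHom M E (y : LE M E)) = 0)

/-- **(RatPoint)** for the chart coordinate `tB ∈ Fb M` with `E`-level models `tE E`: every place
at which `tB` takes a value `a ∈ A` is a rational point of the chart ring over a suitable number
field containing any prescribed finite set. -/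
def RatPoint (M : ℕ) [NeZero M] (A : ValuationSubring Qb) (tB : Kummer.Fb M)
    (tE : ∀ E : IntermediateField ℚ Qb, LE M E) : Prop :=
  ∀ (P : Place Qb (Kummer.Fb M)) (a : Qb), a ∈ A →
    0 < P.ord (tB - algebraMap Qb (Kummer.Fb M) a) → ∀ S₀ : Finset Qb,
    ∃ (E : IntermediateField ℚ Qb) (_ : FiniteDimensional ℚ E),
      (∀ s ∈ S₀, s ∈ E) ∧ RatData M A E (tE E) P

end Fermat.Agent.S37.Fn
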