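import Mathlib
import Fermat.Agent.S24.FF.Principal
import Fermat.Agent.S24.FF.Residue
import Fermat.Agent.S24.FF.Dedekind
import Fermat.Agent.Lib.PlaceApprox
import Fermat.Agent.S30.HeckeInputs
import Fermat.Agent.S37.Fn.RatData
import Fermat.Agent.S37.Fn.ChartInt
import Fermat.Prelude.Def_ModularCurve_ArithmeticGalois

/-!
# S37 / F6a: rational point data of a place on a chart ring (`Fn.RatPoint`), Galois route

Contract: `Fn/RatData.lean` (`RatData M A E t P`, `RatPoint M A tB tE`).

`tB ∈ Fb M` a chart coordinate (transcendental over `ℚ̄`), `P` a place of `Fb M` at which `tB`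
takes a value `a ∈ A`.

## Generic parts

* `exists_unif_sep` : over an algebraically closed constant field, a function `y` with
  `ord_P y = 1`, `ord_{P'} y = 0` at the other zeros `P'` of `t - a`, regular wherever `t` is
  finite (weak approximation + clearing of the poles by a polynomial in `t`).
* `evP` : evaluation at a place as a ring homomorphism `O_P → K`; `evP_eq_iff`.
* `chartEv` : evaluation at `P` of the chart ring `C` = integral closure of `O[t]` in `L`, for
  `up : L → F` and `up t` finite at `P`; `chartEv_eq_iff`, `chartEv_eq_zero_iff`,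
  `chartEv_mem` (values are integral), `chartEv_fixed` (values are fixed by the semilinear
  automorphisms fixing `P` and `up L`).
* `isMaximal_ker_sup`, `isMaximal_ker_chartEv_sup` : if the values of `C` at `P` are constants
  of the discrete valuation ring `O`, then `ker + (π)` is a maximal ideal.

## Modular part

* `ratData_of` : `RatData M A E t P` as soon as `E` contains `a` and a model of a separating
  uniformiser.  The prime is `q = ker (chartEv)`; every automorphism of `ℚ̄ / E` fixes `P`
  (the only zero of `tB - a` at which the uniformiser vanishes), hence the values of `C` at `P`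
  lie in `E`, and they are integral over `A ∩ E`.
* `exists_ratData` : for every `P`, `a ∈ A`, `S₀` there is a number field `E ⊇ S₀` such that
  `RatData M A E t P` for EVERY `t ∈ LE M E` with `upHom t = tB`.
* `ratPoint_of_model` : `Fn.RatPoint M A tB tE` (the contract) for a family of models `tE`.
-/

set_option autoImplicit false
set_option linter.unusedSectionVars false
set_option linter.style.haveILetI false
set_option synthInstance.maxHeartbeats 400000
set_option maxHeartbeats 1000000

noncomputable section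

namespace Fermat.Agent.S37.Fn.RatPointG

open AlgebraicCurve IntermediateField

/-! ### A separating uniformiser over the algebraic closure -/

section Generic

variable {K F : Type*} [Field K] [Field F] [Algebra K F]

/-- At a place where `t` is finite, `t - b` has nonnegative order. -/
theorem ord_sub_const_nonneg (P : Place K F) {t : F} (h : 0 ≤ P.ord t) (ht0 : t ≠ 0) (b : K) :
    0 ≤ P.ord (t - algebraMap K F b) :=
  Fermat.Agent.S24.FF.ord_nonneg_of_mem P
    (sub_mem ((Fermat.Agent.S24.FF.ord_nonneg_iff P ht0).mp h) (P.algebraMap_mem' b))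

/-- A place where `t = a` is not a zero of `t - b` for `b ≠ a`. -/
theorem ord_sub_const_eq_zero (P : Place K F) {t : F} {a b : K} (hab : a ≠ b)
    (h : 0 < P.ord (t - algebraMap K F a)) : P.ord (t - algebraMap K F b) = 0 := by
  have h1 : t - algebraMap K F b = algebraMap K F (a - b) + (t - algebraMap K F a) := by
    rw [map_sub]; ring
  have h2 : algebraMap K F (a - b) ≠ 0 :=
    (map_ne_zero_iff _ (algebraMap K F).injective).mpr (sub_ne_zero.mpr hab)
  have h3 : t - algebraMap K F a ≠ 0 := by
    intro h0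
    rw [h0] at h
    simp at h
  have h4 : P.ord (algebraMap K F (a - b)) = 0 := Fermat.Agent.S24.FF.ord_algebraMap P _
  rw [h1, Fermat.Agent.S24.FF.ord_add_eq_of_lt P (by rw [h4]; exact h) h2 h3, h4]

/-- At a place where `t` is finite, the order of `t - a` is nonnegative; if it is not positive,
it is zero. -/
theorem ord_sub_const_eq_zero_of_not_pos (P : Place K F) {t : F} (h : 0 ≤ P.ord t) (ht0 : t ≠ 0)
    (a : K) (hn : ¬ 0 < P.ord (t - algebraMap K F a)) : P.ord (t - algebraMap K F a) = 0 := by
  have := ord_sub_const_nonneg P h ht0 a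
  omega

variable [IsAlgClosed K] [CharZero K] [Algebra.EssFiniteType K F]

/-- Pole clearing: a polynomial in `t` vanishing to order `≥ n` at a given finite set of places
(where `t` is finite and `≠ a`), a unit at the zeros of `t - a`, regular where `t` is finite. -/
theorem exists_clear (htr : Algebra.trdeg K F = 1) {t : F} (ht : Transcendental K t) (a : K)
    (n : ℕ) (s : Finset (Place K F))
    (hs : ∀ Q ∈ s, 0 ≤ Q.ord t ∧ ¬ 0 < Q.ord (t - algebraMap K F a)) :
    ∃ w : F, w ≠ 0 ∧ (∀ P : Place K F, 0 ≤ P.ord t → 0 ≤ P.ord w) ∧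
      (∀ P : Place K F, 0 < P.ord (t - algebraMap K F a) → P.ord w = 0) ∧
      (∀ Q ∈ s, (n : ℤ) ≤ Q.ord w) := by
  classical
  have ht0 : t ≠ 0 := fun h => ht (h ▸ isAlgebraic_zero)
  have hne : ∀ c : K, t - algebraMap K F c ≠ 0 := fun c h =>
    ht ((sub_eq_zero.mp h) ▸ isAlgebraic_algebraMap c)
  induction s using Finset.induction_on with
  | empty =>
    exact ⟨1, one_ne_zero, fun P _ => by rw [P.ord_one], fun P _ => P.ord_one, by simp⟩
  | insert Q s hQs ih =>
    obtain ⟨w, hw0, hw1, hw2, hw3⟩ := ih (fun Q' hQ' => hs Q' (Finset.mem_insert_of_mem hQ'))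
    obtain ⟨hQt, hQa⟩ := hs Q (Finset.mem_insert_self Q s)
    obtain ⟨b, hb⟩ := Fermat.Agent.S24.FF.exists_residue htr Q
      ((Fermat.Agent.S24.FF.ord_nonneg_iff Q ht0).mp hQt)
    have hb' : 0 < Q.ord (t - algebraMap K F b) := by
      rcases hb with hb | hb
      · exact absurd (sub_eq_zero.mpr hb) (hne b)
      · exact hb
    have hab : a ≠ b := by
      rintro rfl
      exact hQa hb'
    have hpow0 : (t - algebraMap K F b) ^ n ≠ 0 := pow_ne_zero _ (hne b)
    have hordpow : ∀ P : Place K F, P.ord ((t - algebraMap K F b) ^ n) =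
        (n : ℤ) * P.ord (t - algebraMap K F b) := by
      intro P
      have := P.ord_zpow (t - algebraMap K F b) (n : ℤ)
      rwa [zpow_natCast] at this
    refine ⟨w * (t - algebraMap K F b) ^ n, mul_ne_zero hw0 hpow0, ?_, ?_, ?_⟩
    · intro P hP
      rw [P.ord_mul hw0 hpow0, hordpow]
      have h1 := hw1 P hP
      have h2 := ord_sub_const_nonneg P hP ht0 b
      positivity
    · intro P hP
      rw [P.ord_mul hw0 hpow0, hordpow, hw2 P hP, ord_sub_const_eq_zero P hab hP]
      simp
    · intro Q' hQ'
      rw [Q'.ord_mul hw0 hpow0, hordpow]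
      rcases Finset.mem_insert.mp hQ' with rfl | hQ's
      · have h1 := hw1 Q' hQt
        nlinarith
      · have h1 := hw3 Q' hQ's
        have h2 := ord_sub_const_nonneg Q' (hs Q' hQ').1 ht0 b
        have h3 : (0 : ℤ) ≤ (n : ℤ) * Q'.ord (t - algebraMap K F b) := by positivity
        omega

/-- **A uniformiser at `P` which separates `P` from the other zeros of `t - a`** and is regular
wherever `t` is finite. -/
theorem exists_unif_sep (htr : Algebra.trdeg K F = 1) {t : F} (ht : Transcendental K t) (a : K)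
    (P : Place K F) (hP : 0 < P.ord (t - algebraMap K F a)) :
    ∃ y : F, P.ord y = 1 ∧
      (∀ P' : Place K F, P' ≠ P → 0 < P'.ord (t - algebraMap K F a) → P'.ord y = 0) ∧
      (∀ P' : Place K F, 0 ≤ P'.ord t → 0 ≤ P'.ord y) := by
  classical
  have hfin : FiniteDimensional K⟮t⟯ F := Fermat.Agent.S24.FF.finite_adjoin_simple htr ht
  have hZ := Fermat.Agent.S24.FF.zeros_finite htr ht a
  obtain ⟨y1, hy10, hy1⟩ := Fermat.Agent.Lib.PlaceApprox.exists_forall_ord_eq t ht hZ.toFinset
    (fun Q => if Q = P then 1 else 0)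
  have hB := Fermat.Agent.S24.FF.support_ord_finite htr hy10
  let s : Finset (Place K F) := hB.toFinset.filter (fun Q => Q.ord y1 < 0 ∧ 0 ≤ Q.ord t)
  let n : ℕ := ∑ Q ∈ s, (-(Q.ord y1)).toNat
  have hs : ∀ Q ∈ s, 0 ≤ Q.ord t ∧ ¬ 0 < Q.ord (t - algebraMap K F a) := by
    intro Q hQ
    obtain ⟨-, hQ1, hQ2⟩ := Finset.mem_filter.mp hQ
    refine ⟨hQ2, fun hpos => ?_⟩
    have := hy1 Q (hZ.mem_toFinset.mpr hpos)
    split_ifs at this <;> omega
  obtain ⟨w, hw0, hw1, hw2, hw3⟩ := exists_clear htr ht a n s hs
  refine ⟨y1 * w, ?_, ?_, ?_⟩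
  · rw [P.ord_mul hy10 hw0, hw2 P hP, hy1 P (hZ.mem_toFinset.mpr hP)]
    simp
  · intro P' hne hP'
    rw [P'.ord_mul hy10 hw0, hw2 P' hP', hy1 P' (hZ.mem_toFinset.mpr hP')]
    simp [hne]
  · intro P' hP'
    rw [P'.ord_mul hy10 hw0]
    have h1 := hw1 P' hP'
    by_cases hneg : P'.ord y1 < 0
    · have hmem : P' ∈ s := by
        refine Finset.mem_filter.mpr ⟨hB.mem_toFinset.mpr ?_, hneg, hP'⟩
        show P'.ord y1 ≠ 0
        omega
      have h2 := hw3 P' hmem
      have h3 : (-(P'.ord y1)).toNat ≤ n :=
        Finset.single_le_sum (f := fun Q => (-(Q.ord y1)).toNat) (fun _ _ => Nat.zero_le _) hmem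
      have h4 : -(P'.ord y1) ≤ ((-(P'.ord y1)).toNat : ℤ) := Int.self_le_toNat _
      have h5 : (((-(P'.ord y1)).toNat : ℕ) : ℤ) ≤ (n : ℤ) := by exact_mod_cast h3
      omega
    · omega

end Generic

/-! ### Evaluation at a place -/

section Eval

variable {K F : Type*} [Field K] [Field F] [Algebra K F] [IsAlgClosed K]
variable (htr : Algebra.trdeg K F = 1) (P : Place K F)

/-- The residue field of a place over an algebraically closed constant field is the constant
field. -/
def resEquiv : K ≃+* P.ResidueField :=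
  RingEquiv.ofBijective (algebraMap K P.ResidueField)
    ⟨(algebraMap K P.ResidueField).injective,
      Fermat.Agent.S24.FF.algebraMap_residue_surjective htr P⟩

/-- **Evaluation at a place**, as a ring homomorphism from its valuation ring to the constant
field. -/
def evP : P.toValuationSubring →+* K :=
  ((resEquiv htr P).symm : P.ResidueField →+* K).comp (IsLocalRing.residue P.toValuationSubring)

theorem evP_algebraMap (c : K) : evP htr P (algebraMap K P.toValuationSubring c) = c := by
  show (resEquiv htr P).symm (IsLocalRing.residue _ (algebraMap K P.toValuationSubring c)) = c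
  rw [RingEquiv.symm_apply_eq]
  rfl

theorem evP_eq_zero_iff (f : P.toValuationSubring) :
    evP htr P f = 0 ↔ f ∈ IsLocalRing.maximalIdeal P.toValuationSubring := by
  show (resEquiv htr P).symm (IsLocalRing.residue _ f) = 0 ↔ _
  rw [map_eq_zero_iff _ (resEquiv htr P).symm.injective, IsLocalRing.residue_eq_zero_iff]

theorem mem_maximalIdeal_iff (f : P.toValuationSubring) :
    f ∈ IsLocalRing.maximalIdeal P.toValuationSubring ↔ (f : F) = 0 ∨ 0 < P.ord (f : F) := by
  by_cases h0 : (f : F) = 0
  · have : f = 0 := Subtype.ext h0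
    rw [this]
    simp
  · rw [Fermat.Agent.S24.FF.mem_maximalIdeal_iff_ord_pos P f h0]
    simp [h0]

theorem evP_eq_iff (f : F) (hf : f ∈ P.toValuationSubring) (c : K) :
    evP htr P ⟨f, hf⟩ = c ↔ f = algebraMap K F c ∨ 0 < P.ord (f - algebraMap K F c) := by
  have h1 : evP htr P ⟨f, hf⟩ = c ↔
      evP htr P (⟨f, hf⟩ - algebraMap K P.toValuationSubring c) = 0 := by
    rw [map_sub, evP_algebraMap, sub_eq_zero]
  rw [h1, evP_eq_zero_iff, mem_maximalIdeal_iff]
  have h2 : ((⟨f, hf⟩ - algebraMap K P.toValuationSubring c : P.toValuationSubring) : F) =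
      f - algebraMap K F c := rfl
  rw [h2, sub_eq_zero]

end Eval

/-- **Maximality of the centre of a rational point.**  `ψ : C → K` a ring homomorphism whose
values are the constants of a discrete valuation ring `O ⊆ K`: then `ker ψ + (π)` is maximal. -/
theorem isMaximal_ker_sup {O C K : Type*} [CommRing O] [IsDomain O] [IsDiscreteValuationRing O]
    [CommRing C] [Field K] (ψ : C →+* K) (ι : O →+* K) (κ : O →+* C)
    (hι : Function.Injective ι) (hψ : ∀ o, ψ (κ o) = ι o) (hsurj : ∀ c, ∃ o, ψ c = ι o)
    (π : O) (hπ : Irreducible π) : (RingHom.ker ψ ⊔ Ideal.span {κ π}).IsMaximal := by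
  rw [Ideal.isMaximal_iff]
  constructor
  · intro h1
    obtain ⟨y, hy, z, hz, hyz⟩ := Submodule.mem_sup.mp h1
    obtain ⟨c, rfl⟩ := Ideal.mem_span_singleton'.mp hz
    obtain ⟨o, ho⟩ := hsurj c
    have h2 := congrArg ψ hyz
    rw [map_add, (RingHom.mem_ker).mp hy, zero_add, map_mul, ho, hψ, map_one, ← map_mul,
      ← map_one ι] at h2
    have h3 : o * π = 1 := hι h2
    exact hπ.not_isUnit (IsUnit.of_mul_eq_one _ (by rw [mul_comm]; exact h3))
  · intro J x hJ hx hxJ
    obtain ⟨o, ho⟩ := hsurj x
    have h1 : x - κ o ∈ RingHom.ker ψ := by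
      rw [RingHom.mem_ker, map_sub, ho, hψ, sub_self]
    have h2 : κ o ∈ J := by
      have := J.sub_mem hxJ (hJ (Ideal.mem_sup_left h1))
      rwa [sub_sub_cancel] at this
    have h3 : IsUnit o := by
      by_contra hnu
      have h4 : o ∈ IsLocalRing.maximalIdeal O := (IsLocalRing.mem_maximalIdeal o).mpr hnu
      rw [hπ.maximalIdeal_eq, Ideal.mem_span_singleton] at h4
      obtain ⟨o', rfl⟩ := h4
      apply hx
      have h5 : x = (x - κ (π * o')) + κ π * κ o' := by rw [map_mul]; ring
      rw [h5]
      exact Ideal.add_mem _ (Ideal.mem_sup_left h1)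
        (Ideal.mem_sup_right (Ideal.mul_mem_right _ _ (Ideal.mem_span_singleton_self _)))
    have h4 : IsUnit (κ o) := h3.map κ
    have := Ideal.eq_top_of_isUnit_mem J h2 h4
    rw [this]
    exact Submodule.mem_top


/-! ### The evaluation homomorphism of a chart ring at a place -/

section Chart

variable {K F : Type*} [Field K] [Field F] [Algebra K F] [IsAlgClosed K]
variable (htr : Algebra.trdeg K F = 1) (P : Place K F)
variable {O L : Type*} [CommRing O] [Field L] [Algebra O L] (up : L →+* F) (ι : O →+* K)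
  (hι : ∀ o : O, up (algebraMap O L o) = algebraMap K F (ι o))
  (t : L) (hP : up t ∈ P.toValuationSubring)

include hι hP in
theorem up_mem_of_mem_adjoin (r : L) (hr : r ∈ Algebra.adjoin O ({t} : Set L)) :
    up r ∈ P.toValuationSubring := by
  induction hr using Algebra.adjoin_induction with
  | mem x hx =>
    rw [Set.mem_singleton_iff.mp hx]
    exact hP
  | algebraMap o =>
    rw [hι]
    exact P.algebraMap_mem' _
  | add x y _ _ hx hy =>
    rw [map_add]
    exact add_mem hx hy
  | mul x y _ _ hx hy =>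
    rw [map_mul]
    exact mul_mem hx hy

include hι hP in
theorem up_mem_of_isIntegral (c : L) (hc : IsIntegral (Algebra.adjoin O ({t} : Set L)) c) :
    up c ∈ P.toValuationSubring := by
  obtain ⟨p, hpm, hp0⟩ := hc
  letI : Algebra (Algebra.adjoin O ({t} : Set L)) F :=
    (up.comp (algebraMap (Algebra.adjoin O ({t} : Set L)) L)).toAlgebra
  refine Fermat.Agent.S24.FF.mem_of_isIntegral P (R := Algebra.adjoin O ({t} : Set L))
    (fun r => up_mem_of_mem_adjoin P up ι hι t hP r r.2) ⟨p, hpm, ?_⟩
  show Polynomial.eval₂ (up.comp (algebraMap (Algebra.adjoin O ({t} : Set L)) L)) (up c) p = 0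
  rw [← Polynomial.hom_eval₂, hp0, map_zero]

/-- **Evaluation of the chart ring at the place `P`.** -/
def chartEv : integralClosure (Algebra.adjoin O ({t} : Set L)) L →+* K :=
  (evP htr P).comp
    ((up.comp (algebraMap (integralClosure (Algebra.adjoin O ({t} : Set L)) L) L)).codRestrict
      P.toValuationSubring (fun c => up_mem_of_isIntegral P up ι hι t hP c c.2))

theorem chartEv_eq_iff (c : integralClosure (Algebra.adjoin O ({t} : Set L)) L) (v : K) :
    chartEv htr P up ι hι t hP c = v ↔
      up (c : L) = algebraMap K F v ∨ 0 < P.ord (up (c : L) - algebraMap K F v) :=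
  evP_eq_iff htr P _ _ v

theorem chartEv_eq_zero_iff (c : integralClosure (Algebra.adjoin O ({t} : Set L)) L) :
    chartEv htr P up ι hι t hP c = 0 ↔ up (c : L) = 0 ∨ 0 < P.ord (up (c : L)) := by
  rw [chartEv_eq_iff, map_zero, sub_zero]

theorem chartEv_const (o : O) (c : integralClosure (Algebra.adjoin O ({t} : Set L)) L)
    (hc : (c : L) = algebraMap O L o) : chartEv htr P up ι hι t hP c = ι o := by
  rw [chartEv_eq_iff, hc, hι]
  exact Or.inl rfl

/-- The values of the chart ring at `P` lie in every valuation ring of the constant field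
containing the constants of `O` and the value of the coordinate. -/
theorem chartEv_mem (A : ValuationSubring K) (hιA : ∀ o, ι o ∈ A) (a : K) (haA : a ∈ A)
    (hta : up t = algebraMap K F a ∨ 0 < P.ord (up t - algebraMap K F a))
    (c : integralClosure (Algebra.adjoin O ({t} : Set L)) L) :
    chartEv htr P up ι hι t hP c ∈ A := by
  have hR : ∀ (x : L) (hx : x ∈ Algebra.adjoin O ({t} : Set L))
      (hx' : IsIntegral (Algebra.adjoin O ({t} : Set L)) x),
      chartEv htr P up ι hι t hP ⟨x, hx'⟩ ∈ A := by
    intro x hx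
    induction hx using Algebra.adjoin_induction with
    | mem x hx =>
      intro hx'
      have h1 : chartEv htr P up ι hι t hP ⟨x, hx'⟩ = a := by
        rw [chartEv_eq_iff]
        show up x = _ ∨ 0 < P.ord (up x - _)
        rw [Set.mem_singleton_iff.mp hx]
        exact hta
      rw [h1]
      exact haA
    | algebraMap o =>
      intro hx'
      rw [chartEv_const htr P up ι hι t hP o _ rfl]
      exact hιA o
    | add x y hx hy ihx ihy =>
      intro hx'
      have hxi : IsIntegral (Algebra.adjoin O ({t} : Set L)) x :=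
        (integralClosure (Algebra.adjoin O ({t} : Set L)) L).algebraMap_mem ⟨x, hx⟩
      have hyi : IsIntegral (Algebra.adjoin O ({t} : Set L)) y :=
        (integralClosure (Algebra.adjoin O ({t} : Set L)) L).algebraMap_mem ⟨y, hy⟩
      have h1 : (⟨x + y, hx'⟩ : integralClosure (Algebra.adjoin O ({t} : Set L)) L) =
          ⟨x, hxi⟩ + ⟨y, hyi⟩ := rfl
      rw [h1, map_add]
      exact add_mem (ihx hxi) (ihy hyi)
    | mul x y hx hy ihx ihy =>
      intro hx'
      have hxi : IsIntegral (Algebra.adjoin O ({t} : Set L)) x :=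
        (integralClosure (Algebra.adjoin O ({t} : Set L)) L).algebraMap_mem ⟨x, hx⟩
      have hyi : IsIntegral (Algebra.adjoin O ({t} : Set L)) y :=
        (integralClosure (Algebra.adjoin O ({t} : Set L)) L).algebraMap_mem ⟨y, hy⟩
      have h1 : (⟨x * y, hx'⟩ : integralClosure (Algebra.adjoin O ({t} : Set L)) L) =
          ⟨x, hxi⟩ * ⟨y, hyi⟩ := rfl
      rw [h1, map_mul]
      exact mul_mem (ihx hxi) (ihy hyi)
  let χ : Algebra.adjoin O ({t} : Set L) →+* A :=
    ((chartEv htr P up ι hι t hP).comp (algebraMap (Algebra.adjoin O ({t} : Set L))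
      (integralClosure (Algebra.adjoin O ({t} : Set L)) L))).codRestrict A
      (fun r => hR r.1 r.2 _)
  have hint : IsIntegral A (chartEv htr P up ι hι t hP c) :=
    IsIntegral.map_of_comp_eq χ (chartEv htr P up ι hι t hP) rfl (integralClosure.isIntegral c)
  obtain ⟨y, hy⟩ := IsIntegrallyClosed.isIntegral_iff.mp hint
  rw [← hy]
  exact y.2

/-- The values of the chart ring at `P` are fixed by every semilinear automorphism fixing `P`
and the image of `L`. -/
theorem chartEv_fixed (g : SemilinearAut K F) (hg : g • P = P) (hfix : ∀ y : L, g • up y = up y)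
    (c : integralClosure (Algebra.adjoin O ({t} : Set L)) L) :
    SemilinearAut.baseAut g (chartEv htr P up ι hι t hP c) = chartEv htr P up ι hι t hP c := by
  symm
  rw [chartEv_eq_iff]
  have h := (chartEv_eq_iff htr P up ι hι t hP c _).mp rfl
  rcases h with h | h
  · left
    have h1 : g • up (c : L) = g • algebraMap K F (chartEv htr P up ι hι t hP c) :=
      congrArg (fun x => g • x) h
    rw [hfix, SemilinearAut.smul_algebraMap] at h1
    exact h1
  · right
    have h2 := SemilinearAut.ord_smul g P (up (c : L) - algebraMap K F (chartEv htr P up ι hι t hP c))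
    rw [hg, smul_sub, hfix, SemilinearAut.smul_algebraMap] at h2
    rw [h2]
    exact h

/-- The centre of a rational point of the chart ring is a maximal ideal. -/
theorem isMaximal_ker_chartEv_sup [IsDomain O] [IsDiscreteValuationRing O]
    (hιinj : Function.Injective ι)
    (hsurj : ∀ c, ∃ o, chartEv htr P up ι hι t hP c = ι o) (π : O) (hπ : Irreducible π) :
    (RingHom.ker (chartEv htr P up ι hι t hP) ⊔ Ideal.span
      {Fermat.Agent.S30.Model.GlueChart.piElt (Algebra.adjoin O ({t} : Set L)) π}).IsMaximal :=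
  isMaximal_ker_sup (chartEv htr P up ι hι t hP) ι
    ((algebraMap (Algebra.adjoin O ({t} : Set L))
      (integralClosure (Algebra.adjoin O ({t} : Set L)) L)).comp
      (algebraMap O (Algebra.adjoin O ({t} : Set L)))) hιinj
    (fun o => chartEv_const htr P up ι hι t hP o _ rfl) hsurj π hπ

end Chart

/-! ### The modular instance -/

section Modular

open ModularCurve HahnSeries
open Fermat.Agent.S30 Fermat.Agent.S37.Fn Fermat.Agent.S30.Model
open Fermat.Agent.S18 Fermat.Agent.S18.K1Defs Fermat.Agent.S18.K1Main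

local notation "Qb" => AlgebraicClosure ℚ

/-- An algebraic number fixed by every automorphism fixing the subfield `E` lies in `E`. -/
theorem mem_of_fixed (E : IntermediateField ℚ Qb) (x : Qb)
    (hx : ∀ σ : Qb ≃ₐ[ℚ] Qb, (∀ e : E, σ (e : Qb) = e) → σ x = x) : x ∈ E := by
  have : Algebra.IsAlgebraic ℚ Qb := AlgebraicClosure.isAlgebraic ℚ
  have : IsAlgClosure ℚ Qb := AlgebraicClosure.instIsAlgClosure ℚ
  have h := (InfiniteGalois.mem_range_algebraMap_iff_fixed (k := E) (K := Qb) x).mpr
    (fun f => hx (f.restrictScalars ℚ) (fun e => f.commutes e))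
  obtain ⟨e, he⟩ := h
  rw [← he]
  exact e.2

variable (M : ℕ) [NeZero M] (A : ValuationSubring Qb) (E : IntermediateField ℚ Qb)

/-- The arithmetic Galois action of an automorphism fixing `E` fixes the functions defined
over `E`. -/
theorem gal_upHom (σ : Qb ≃ₐ[ℚ] Qb) (hσ : ∀ e : E, σ (e : Qb) = e) (y : LE M E) :
    arithmeticGalois (modularFunctionFieldFull M) σ • (K1Descent.upHom M E y) =
      K1Descent.upHom M E y := by
  apply Subtype.ext
  rw [coe_arithmeticGalois_smul]
  show coeffMap (σ : Qb →+* Qb) (coeffMap (algebraMap E Qb) (y : LaurentSeries E)) =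
    coeffMap (algebraMap E Qb) (y : LaurentSeries E)
  rw [coeffMap_coeffMap]
  exact coeffMap_congr (RingHom.ext fun e => hσ e) _

/-- The inclusion `A ∩ E → ℚ̄`. -/
def inclQb : OE A E →+* Qb := (algebraMap E Qb).comp (algebraMap (OE A E) E)

theorem inclQb_injective : Function.Injective (inclQb A E) :=
  (algebraMap E Qb).injective.comp Subtype.val_injective

theorem upHom_const (o : OE A E) :
    letI := algebraOL (OE A E) E (LE M E)
    K1Descent.upHom M E (algebraMap (OE A E) (LE M E) o) =
      algebraMap Qb (Kummer.Fb M) (inclQb A E o) := by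
  letI := algebraOL (OE A E) E (LE M E)
  have h1 : algebraMap (OE A E) (LE M E) o = algebraMap E (LE M E) (o : E) := rfl
  rw [h1, ChartInt.upHom_algebraMap]
  rfl

/-- Transcendence descends along the extension of constants. -/
theorem transcendental_of_upHom (t : LE M E)
    (h : Transcendental Qb (K1Descent.upHom M E t)) : Transcendental E t := by
  intro halg
  apply h
  obtain ⟨p, hp0, hp⟩ := halg
  refine ⟨p.map (algebraMap E Qb),
    (Polynomial.map_ne_zero_iff (algebraMap E Qb).injective).mpr hp0, ?_⟩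
  have h1 : Polynomial.aeval (K1Descent.upHom M E t) (p.map (algebraMap E Qb)) =
      K1Descent.upHom M E (Polynomial.aeval t p) := by
    rw [Polynomial.aeval_def, Polynomial.eval₂_map, Polynomial.aeval_def, Polynomial.hom_eval₂]
    congr 1
    exact RingHom.ext fun e => (ChartInt.upHom_algebraMap M E e).symm
  rw [h1, hp, map_zero]

variable {M A E} in
/-- **Rational point data at one number field**: `E` contains the value `a` of the coordinate
at `P` and a model `y` of a separating uniformiser. -/
theorem ratData_of [FiniteDimensional ℚ E] [IsDiscreteValuationRing (OE A E)]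
    (t : LE M E) (P : Place Qb (Kummer.Fb M)) (a : Qb) (haA : a ∈ A) (haE : a ∈ E)
    (hPa : 0 < P.ord (K1Descent.upHom M E t - algebraMap Qb (Kummer.Fb M) a))
    (ht : Transcendental E t) [FiniteDimensional (IntermediateField.adjoin E {t}) (LE M E)]
    (y : LE M E) (hy1 : P.ord (K1Descent.upHom M E y) = 1)
    (hy2 : ∀ P' : Place Qb (Kummer.Fb M), P' ≠ P →
      0 < P'.ord (K1Descent.upHom M E t - algebraMap Qb (Kummer.Fb M) a) →
      P'.ord (K1Descent.upHom M E y) = 0)
    (hy3 : ∀ P' : Place Qb (Kummer.Fb M), 0 ≤ P'.ord (K1Descent.upHom M E t) →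
      0 ≤ P'.ord (K1Descent.upHom M E y)) :
    RatData M A E t P := by
  letI := algebraOL (OE A E) E (LE M E)
  haveI := isScalarTower_OL (OE A E) E (LE M E)
  have htr := HeckeInputs.trdeg_bar M
  have hι : ∀ o : OE A E, K1Descent.upHom M E (algebraMap (OE A E) (LE M E) o) =
      algebraMap Qb (Kummer.Fb M) (inclQb A E o) := upHom_const M A E
  have hPt : K1Descent.upHom M E t ∈ P.toValuationSubring := by
    have h1 := Fermat.Agent.S24.FF.mem_of_ord_pos P hPa
    have h2 := add_mem h1 (P.algebraMap_mem' a)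
    rwa [sub_add_cancel] at h2
  have ht0 : t ≠ 0 := fun h => ht (h ▸ isAlgebraic_zero)
  have hupt0 : K1Descent.upHom M E t ≠ 0 :=
    (map_ne_zero_iff _ (K1Descent.upHom M E).injective).mpr ht0
  let ψ := chartEv htr P (K1Descent.upHom M E) (inclQb A E) hι t hPt
  -- Galois invariance of `P`
  have hgP : ∀ σ : Qb ≃ₐ[ℚ] Qb, (∀ e : E, σ (e : Qb) = e) →
      arithmeticGalois (modularFunctionFieldFull M) σ • P = P := by
    intro σ hσ
    by_contra hne
    have h1 : arithmeticGalois (modularFunctionFieldFull M) σ •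
        (K1Descent.upHom M E t - algebraMap Qb (Kummer.Fb M) a) =
        K1Descent.upHom M E t - algebraMap Qb (Kummer.Fb M) a := by
      rw [smul_sub, gal_upHom M E σ hσ t, SemilinearAut.smul_algebraMap]
      congr 2
      exact hσ ⟨a, haE⟩
    have h2 := SemilinearAut.ord_smul (arithmeticGalois (modularFunctionFieldFull M) σ) P
      (K1Descent.upHom M E t - algebraMap Qb (Kummer.Fb M) a)
    rw [h1] at h2
    have h3 := hy2 _ hne (by rw [h2]; exact hPa)
    have h4 := SemilinearAut.ord_smul (arithmeticGalois (modularFunctionFieldFull M) σ) P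
      (K1Descent.upHom M E y)
    rw [gal_upHom M E σ hσ y, h3, hy1] at h4
    exact absurd h4 (by norm_num)
  have hvalA : ∀ c, ψ c ∈ A := fun c =>
    chartEv_mem htr P (K1Descent.upHom M E) (inclQb A E) hι t hPt A (fun o => o.2) a haA
      (Or.inr hPa) c
  have hvalE : ∀ c, ψ c ∈ E := fun c =>
    mem_of_fixed E _ (fun σ hσ =>
      chartEv_fixed htr P (K1Descent.upHom M E) (inclQb A E) hι t hPt
        (arithmeticGalois (modularFunctionFieldFull M) σ) (hgP σ hσ)
        (fun y => gal_upHom M E σ hσ y) c)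
  have hsurj : ∀ c, ∃ o : OE A E, ψ c = inclQb A E o := fun c =>
    ⟨⟨⟨ψ c, hvalE c⟩, hvalA c⟩, rfl⟩
  -- the elements
  have hmemR : ∀ x : LE M E, x ∈ Algebra.adjoin (OE A E) ({t} : Set (LE M E)) →
      IsIntegral (Algebra.adjoin (OE A E) ({t} : Set (LE M E))) x := fun x hx =>
    (integralClosure (Algebra.adjoin (OE A E) ({t} : Set (LE M E))) (LE M E)).algebraMap_mem
      ⟨x, hx⟩
  let a' : OE A E := ⟨⟨a, haE⟩, haA⟩
  let tt : integralClosure (Algebra.adjoin (OE A E) ({t} : Set (LE M E))) (LE M E) :=
    ⟨t - algebraMap (OE A E) (LE M E) a', hmemR _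
      (sub_mem (Algebra.subset_adjoin rfl) (Subalgebra.algebraMap_mem _ a'))⟩
  have huptt : K1Descent.upHom M E (tt : LE M E) =
      K1Descent.upHom M E t - algebraMap Qb (Kummer.Fb M) a := by
    show K1Descent.upHom M E (t - algebraMap (OE A E) (LE M E) a') = _
    rw [map_sub, hι]
    rfl
  have htt0 : K1Descent.upHom M E (tt : LE M E) ≠ 0 := by
    rw [huptt]
    intro h0
    rw [h0] at hPa
    simp at hPa
  have httq : tt ∈ RingHom.ker ψ := by
    rw [RingHom.mem_ker]
    exact (chartEv_eq_zero_iff htr P (K1Descent.upHom M E) (inclQb A E) hι t hPt tt).mpr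
      (Or.inr (by rw [huptt]; exact hPa))
  obtain ⟨π₀, hπ₀⟩ := IsDiscreteValuationRing.exists_irreducible (OE A E)
  obtain ⟨n, hn⟩ := ChartInt.exists_pow_mul_isIntegral_of_reg M A E t y ht π₀ hπ₀ hy3
  let z : integralClosure (Algebra.adjoin (OE A E) ({t} : Set (LE M E))) (LE M E) :=
    ⟨algebraMap (OE A E) (LE M E) π₀ ^ n * y, hn⟩
  have hupz : K1Descent.upHom M E (z : LE M E) =
      algebraMap Qb (Kummer.Fb M) (inclQb A E π₀ ^ n) * K1Descent.upHom M E y := by
    show K1Descent.upHom M E (algebraMap (OE A E) (LE M E) π₀ ^ n * y) = _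
    rw [map_mul, map_pow, hι, map_pow]
  have hc0 : algebraMap Qb (Kummer.Fb M) (inclQb A E π₀ ^ n) ≠ 0 :=
    (map_ne_zero_iff _ (algebraMap Qb (Kummer.Fb M)).injective).mpr
      (pow_ne_zero _ ((map_ne_zero_iff _ (inclQb_injective A E)).mpr hπ₀.ne_zero))
  have hupy0 : K1Descent.upHom M E y ≠ 0 := by
    intro h0
    rw [h0] at hy1
    simp at hy1
  have hordz : ∀ P' : Place Qb (Kummer.Fb M),
      P'.ord (K1Descent.upHom M E (z : LE M E)) = P'.ord (K1Descent.upHom M E y) := by
    intro P'
    rw [hupz, P'.ord_mul hc0 hupy0, Fermat.Agent.S24.FF.ord_algebraMap, zero_add]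
  have hzq : z ∈ RingHom.ker ψ := by
    rw [RingHom.mem_ker]
    exact (chartEv_eq_zero_iff htr P (K1Descent.upHom M E) (inclQb A E) hι t hPt z).mpr
      (Or.inr (by rw [hordz, hy1]; norm_num))
  unfold RatData
  refine ⟨RingHom.ker ψ, RingHom.ker_isPrime ψ, ?_, ?_, ?_, ?_, ?_, ?_⟩
  · intro hbot
    rw [hbot, Ideal.mem_bot] at httq
    apply htt0
    rw [httq]
    exact map_zero _
  · intro π hπ
    have hψπ : ∀ o : OE A E,
        ψ (GlueChart.piElt (Algebra.adjoin (OE A E) ({t} : Set (LE M E))) o) = inclQb A E o :=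
      fun o => chartEv_const htr P (K1Descent.upHom M E) (inclQb A E) hι t hPt o _ rfl
    constructor
    · rw [RingHom.mem_ker, hψπ]
      exact (map_ne_zero_iff _ (inclQb_injective A E)).mpr hπ.ne_zero
    · exact isMaximal_ker_chartEv_sup htr P (K1Descent.upHom M E) (inclQb A E) hι t hPt
        (inclQb_injective A E) hsurj π hπ
  · exact ⟨a', tt, httq, rfl⟩
  · intro c hc
    exact (chartEv_eq_zero_iff htr P (K1Descent.upHom M E) (inclQb A E) hι t hPt c).mp
      (RingHom.mem_ker.mp hc)
  · exact ⟨z, hzq, by rw [hordz, hy1]⟩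
  · intro P' hne hP'
    by_cases h : 0 < P'.ord (K1Descent.upHom M E t - algebraMap Qb (Kummer.Fb M) a)
    · refine ⟨z, hzq, ?_, ?_⟩
      · rw [hupz]
        exact mul_ne_zero hc0 hupy0
      · rw [hordz]
        exact hy2 P' hne h
    · refine ⟨tt, httq, htt0, ?_⟩
      rw [huptt]
      exact ord_sub_const_eq_zero_of_not_pos P' hP' hupt0 a h

/-- **Rational point data over a suitable number field**: for a place `P` at which the
coordinate `tB` takes the value `a ∈ A`, there is a number field `E` containing any prescribed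
finite set such that `P` has rational point data on the chart ring of EVERY model `t ∈ LE M E`
of `tB`. -/
theorem exists_ratData {ℓ : ℕ} [Fact ℓ.Prime] (hA : A.LiesOverPrime ℓ) (tB : Kummer.Fb M)
    (htr : Transcendental Qb tB)
    (hfin : ∃ S₁ : Finset Qb, ∀ (E : IntermediateField ℚ Qb) [FiniteDimensional ℚ E]
      [IsDiscreteValuationRing (OE A E)], (∀ s ∈ S₁, s ∈ E) →
      ∀ t : LE M E, K1Descent.upHom M E t = tB →
        FiniteDimensional (IntermediateField.adjoin E {t}) (LE M E))
    (P : Place Qb (Kummer.Fb M)) (a : Qb) (haA : a ∈ A)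
    (hPa : 0 < P.ord (tB - algebraMap Qb (Kummer.Fb M) a)) (S₀ : Finset Qb) :
    ∃ (E : IntermediateField ℚ Qb) (_ : FiniteDimensional ℚ E),
      (∀ s ∈ S₀, s ∈ E) ∧ ∀ t : LE M E, K1Descent.upHom M E t = tB → RatData M A E t P := by
  classical
  obtain ⟨y0, hy1, hy2, hy3⟩ := exists_unif_sep (HeckeInputs.trdeg_bar M) htr a P hPa
  obtain ⟨S₁, hS₁⟩ := hfin
  obtain ⟨E, hE, yE, hS, hyE⟩ := ChartInt.exists_descent M (S₀ ∪ S₁ ∪ {a}) y0
  haveI := hE
  haveI : IsDiscreteValuationRing (OE A E) :=
    K1Descent.dvrDescent A (Fact.out : ℓ.Prime) hA E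
  refine ⟨E, hE, fun s hs => hS s (by simp [hs]), fun t ht => ?_⟩
  haveI := hS₁ E (fun s hs => hS s (by simp [hs])) t ht
  have htrE : Transcendental E t := transcendental_of_upHom M E t (by rw [ht]; exact htr)
  exact ratData_of t P a haA (hS a (by simp)) (by rw [ht]; exact hPa) htrE yE
    (by rw [hyE]; exact hy1) (fun P' hne h => by rw [hyE]; exact hy2 P' hne (by rwa [ht] at h))
    (fun P' h => by rw [hyE]; exact hy3 P' (by rwa [ht] at h))

/-- **(RatPoint)** for a chart coordinate `tB` with models `tE E` over all sufficiently large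
number fields: the contract `Fn.RatPoint` of `Fn/RatData.lean`. -/
theorem ratPoint_of_model {ℓ : ℕ} [Fact ℓ.Prime] (hA : A.LiesOverPrime ℓ) (tB : Kummer.Fb M)
    (tE : ∀ E : IntermediateField ℚ Qb, LE M E) (htr : Transcendental Qb tB)
    (hmod : ∃ S₁ : Finset Qb, ∀ (E : IntermediateField ℚ Qb) [FiniteDimensional ℚ E]
      [IsDiscreteValuationRing (OE A E)], (∀ s ∈ S₁, s ∈ E) →
      K1Descent.upHom M E (tE E) = tB ∧
        FiniteDimensional (IntermediateField.adjoin E {tE E}) (LE M E)) :
    RatPoint M A tB tE := by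
  classical
  obtain ⟨S₁, hS₁⟩ := hmod
  intro P a haA hPa S₀
  have hfin : ∃ S₁ : Finset Qb, ∀ (E : IntermediateField ℚ Qb) [FiniteDimensional ℚ E]
      [IsDiscreteValuationRing (OE A E)], (∀ s ∈ S₁, s ∈ E) →
      ∀ t : LE M E, K1Descent.upHom M E t = tB →
        FiniteDimensional (IntermediateField.adjoin E {t}) (LE M E) := by
    refine ⟨S₁, fun E _ _ hE t ht => ?_⟩
    obtain ⟨h1, h2⟩ := hS₁ E hE
    have h3 : t = tE E := (K1Descent.upHom M E).injective (by rw [ht, h1])
    rw [h3]
    exact h2
  obtain ⟨E, hE, hS, hRD⟩ := exists_ratData M A hA tB htr hfin P a haA hPa (S₀ ∪ S₁)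
  haveI := hE
  haveI : IsDiscreteValuationRing (OE A E) :=
    K1Descent.dvrDescent A (Fact.out : ℓ.Prime) hA E
  exact ⟨E, hE, fun s hs => hS s (by simp [hs]),
    hRD (tE E) (hS₁ E (fun s hs => hS s (by simp [hs]))).1⟩

end Modular

end Fermat.Agent.S37.Fn.RatPointG
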