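/-
S37 (E7), row F5a: the contract `Fn.GalRed` of `Fn/Defs.lean` (helper282).

Reduction on the Gauss valuation ring is compatible with inertia, with a Frobenius and with
`T_ℓ ∘ Frobenius` (Kronecker congruence).  The proofs are in `S37/UnitRed.lean`
(`red_gal_inertia`, `red_gal_frob`, `red_heckeT_gal`, on the landed `Congr` congruences and
`HeckeDivQ.coe_heckeT`); this file only translates `UnitRed.Red` into `Fn.IsRed`.
-/
import Fermat.Agent.S37.UnitRed
import Fermat.Agent.S37.Fn.Defs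

set_option autoImplicit false

namespace Fermat.Agent.S37.Fn.GalRedUW

open ModularCurve AlgebraicCurve HahnSeries
open Fermat.Agent.S30 Fermat.Agent.S37

local notation "Qb" => AlgebraicClosure ℚ
local notation "Gq" => (AlgebraicClosure ℚ ≃ₐ[ℚ] AlgebraicClosure ℚ)

variable {M : ℕ} {A : ValuationSubring Qb}

/-- The two literal forms of "Gauss-integral with reduction `y`" agree. -/
theorem isRed_iff_red (x : Kummer.Fb M) (y : LaurentSeries (Res A)) :
    IsRed M A x y ↔ UnitRed.Red M A x y := by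
  constructor
  · rintro ⟨P, Q, hQm, hQ, hx, hy⟩
    refine ⟨P, Q, ?_, hQm, hx, hQ, hy.symm⟩
    rw [← hx]
    exact (Kummer.Fb M).mul_mem x.2 hQm
  · rintro ⟨U, W, -, hW, hx, hW0, hξ⟩
    exact ⟨U, W, hW, hW0, hx, hξ.symm⟩

/-- **(GRED)**, row F5a: the contract `Fn.GalRed`. -/
theorem galRed (M ℓ : ℕ) [NeZero M] [NeZero ℓ] [Fact ℓ.Prime] (A : ValuationSubring Qb)
    [CharP (Res A) ℓ] (hℓM : ¬ ℓ ∣ M) (hA : A.LiesOverPrime ℓ) (σ₀ : Gq)
    (hσ₀ : A.IsFrobeniusAt σ₀ ℓ) : GalRed M A ℓ σ₀ where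
  inertia := fun _ hτ x y h =>
    (isRed_iff_red _ y).2 (UnitRed.red_gal_inertia hτ ((isRed_iff_red x y).1 h))
  frob := fun x y h =>
    (isRed_iff_red _ _).2 (UnitRed.red_gal_frob hA hσ₀ ((isRed_iff_red x y).1 h))
  hecke := fun x y h =>
    (isRed_iff_red _ _).2
      (UnitRed.red_heckeT_gal (Fact.out : ℓ.Prime) hℓM hA hσ₀ ((isRed_iff_red x y).1 h))

/-- The same with the characteristic instance supplied by `A.LiesOverPrime ℓ`. -/
theorem galRed' (M ℓ : ℕ) [NeZero M] [NeZero ℓ] [Fact ℓ.Prime] (A : ValuationSubring Qb)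
    (hℓM : ¬ ℓ ∣ M) (hA : A.LiesOverPrime ℓ) (σ₀ : Gq) (hσ₀ : A.IsFrobeniusAt σ₀ ℓ) :
    haveI := Congr.charP_residue A hA
    GalRed M A ℓ σ₀ :=
  haveI := Congr.charP_residue A hA
  galRed M ℓ A hℓM hA σ₀ hσ₀

end Fermat.Agent.S37.Fn.GalRedUW
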