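/-
S37 (E7), row F12b: `Kummer.RED` at level `M` from the contract of `Fn/Defs.lean`.

The two machines (`UnitWitness.Machine`) of the two `A`-adic charts of a chart function `u` are
`machine M A u c = ⟨Mc M A u c, IsRed M A⟩`.  The six contract `Prop`s of `Fn/Defs.lean`
(`InvPlaces`, `IntZero`, `IntInf`, `GalStable`, `HeckeStable`, `GalRed`) give the chart hypotheses
`MachineRED.ChartHyp` and the integrality of the reductions, hence `Kummer.RED` by
`MachineRED.RED_of_machines`.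
-/
import Fermat.Agent.S37.Fn.Defs
import Fermat.Agent.S37.MachineRED
import Fermat.Agent.S30.E4.GaussNorm

set_option autoImplicit false
set_option linter.unusedSectionVars false
set_option linter.style.haveILetI false
set_option synthInstance.maxHeartbeats 400000
set_option maxHeartbeats 1000000

noncomputable section

namespace Fermat.Agent.S37.Fn

open ModularCurve AlgebraicCurve HahnSeries Polynomial
open Fermat.Agent.S30 Fermat.Agent.S37

local notation "Qb" => AlgebraicClosure ℚ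
local notation "Gq" => (AlgebraicClosure ℚ ≃ₐ[ℚ] AlgebraicClosure ℚ)

variable (M : ℕ) (A : ValuationSubring Qb)

/-- The unit-witness machine of the chart `c` of the chart function `u`. -/
def machine (u : Kummer.Fb M) (c : Bool) :
    UnitWitness.Machine (Kummer.Fb M) (LaurentSeries (Res A)) (Divisor Qb (Kummer.Fb M)) where
  M D :=
    { carrier := Mc M A u c D
      zero_mem' := zero_mem_Mc u c D
      add_mem' := fun hx hy => Mc.add hx hy
      neg_mem' := fun hx => Mc.neg hx }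
  Red := IsRed M A
  one_mem := one_mem_Mc_zero u c
  mul_mem := fun hx hy => Mc.mul hx hy
  red_zero := isRed_zero
  red_one := isRed_one
  red_add := fun h h' => h.add h'
  red_neg := fun h => h.neg
  red_mul := fun h h' => h.mul h'

variable {M A}

theorem mem_machine_M {u : Kummer.Fb M} {c : Bool} {D : Divisor Qb (Kummer.Fb M)}
    {x : Kummer.Fb M} : x ∈ (machine M A u c).M D ↔ x ∈ Mc M A u c D := Iff.rfl

theorem machine_Red {u : Kummer.Fb M} {c : Bool} {x : Kummer.Fb M}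
    {y : LaurentSeries (Res A)} : (machine M A u c).Red x y ↔ IsRed M A x y := Iff.rfl

/-- `InvAt` gives the machine's `Inv`. -/
theorem inv_of_invAt {u : Kummer.Fb M} {c : Bool} {D : Divisor Qb (Kummer.Fb M)}
    (h : InvAt M A u c D) : (machine M A u c).Inv D := by
  obtain ⟨n, z, w, zb, wb, hz, hw, hzr, hwr, hsum⟩ := h
  unfold UnitWitness.Machine.Inv
  rw [← hsum]
  refine AddSubgroup.sum_mem _ fun i _ => AddSubgroup.subset_closure ?_
  exact ⟨zb i, ⟨z i, hz i, hzr i⟩, wb i, ⟨w i, hw i, hwr i⟩, rfl⟩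

/-- Off the chart, a place is invisible: `Inv` holds trivially. -/
theorem inv_of_not_mem_chart {u : Kummer.Fb M} {c : Bool} {P : Place Qb (Kummer.Fb M)}
    (hP : P ∉ chart M A u c) : (machine M A u c).Inv (Finsupp.single P 1) := by
  classical
  have e1 : Mc M A u c (Finsupp.single P 1) = Mc M A u c 0 := by
    refine Mc_congr fun Q hQ => ?_
    have hne : P ≠ Q := fun hPQ => hP (hPQ ▸ hQ)
    rw [Finsupp.single_apply, if_neg hne]
    rfl
  have e2 : Mc M A u c (-Finsupp.single P 1) = Mc M A u c 0 := by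
    refine Mc_congr fun Q hQ => ?_
    have hne : P ≠ Q := fun hPQ => hP (hPQ ▸ hQ)
    rw [Finsupp.neg_apply, Finsupp.single_apply, if_neg hne]
    simp
  refine AddSubgroup.subset_closure ⟨1, ⟨1, ?_, isRed_one⟩, 1, ⟨1, ?_, isRed_one⟩, (one_mul 1).symm⟩
  · change (1 : Kummer.Fb M) ∈ Mc M A u c (Finsupp.single P 1)
    rw [e1]
    exact one_mem_Mc_zero u c
  · change (1 : Kummer.Fb M) ∈ Mc M A u c (-Finsupp.single P 1)
    rw [e2]
    exact one_mem_Mc_zero u c

/-- The chart hypotheses of `MachineRED` from the contract. -/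
theorem chartHyp {ℓ : ℕ} [NeZero M] [NeZero ℓ] [Fact ℓ.Prime] [CharP (Res A) ℓ]
    {σ₀ : Gq} (hσ₀ : A.IsFrobeniusAt σ₀ ℓ) (h : HeckeInputsAlong Qb M ℓ) (u : Kummer.Fb M)
    (hInv : InvPlaces M A u) (hGal : GalStable M A u) (hHecke : HeckeStable M A u ℓ h)
    (hGR : GalRed M A ℓ σ₀) (c : Bool) :
    MachineRED.ChartHyp M ℓ h A σ₀ (machine M A u c) (coeffMap (frobenius (Res A) ℓ))
      (fun x => HeckeDivQ.heckeT M ℓ (E4.gal M σ₀ x)) where
  inv P := by
    by_cases hP : P ∈ chart M A u c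
    · exact inv_of_invAt (hInv c P hP)
    · exact inv_of_not_mem_chart hP
  inertia_mem τ hτ D x hx := by
    obtain ⟨hτd, -⟩ := Congr.exists_red_actA_inertia A hτ
    exact hGal τ hτd c D x hx
  inertia_red τ hτ x ξ hx := hGR.inertia τ hτ x ξ hx
  frob_mem D x hx := hGal σ₀ hσ₀.mem_decompositionSubgroup c D x hx
  frob_red x ξ hx := hGR.frob x ξ hx
  hecke_mem D x hx :=
    hHecke c _ _ (hGal σ₀ hσ₀.mem_decompositionSubgroup c D x hx)
  hecke_red x ξ hx := hGR.hecke x ξ hx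

/-- Gauss normalisation in the shape consumed by `MachineRED.RED_of_machines`. -/
theorem exists_gauss_normal_form {ℓ : ℕ} [Fact ℓ.Prime] (hA : A.LiesOverPrime ℓ)
    (u : Kummer.Fb M) (f : Kummer.Fb M) (hf : f ≠ 0) (D : Divisor Qb (Kummer.Fb M))
    (hD : ∀ P : Place Qb (Kummer.Fb M), D P = P.ord f) :
    ∃ (c₀ : Qb) (P Q : LaurentSeries A) (hP : Congr.incl A P ∈ Kummer.Fb M)
      (hQ : Congr.incl A Q ∈ Kummer.Fb M) (x : LaurentSeries (Res A)) (g : Kummer.Fb M),
      c₀ ≠ 0 ∧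
      f * (⟨_, hQ⟩ : Kummer.Fb M) = algebraMap Qb (Kummer.Fb M) c₀ * (⟨_, hP⟩ : Kummer.Fb M) ∧
      Congr.red A P ≠ 0 ∧ x * Congr.red A Q = Congr.red A P ∧
      IsRed M A g x ∧
      ∀ c : Bool, ∀ y ∈ Mc M A u c (-D), g * y ∈ Mc M A u c 0 := by
  obtain ⟨c₀, P, Q, hP, hQ, hc₀, hP0, hQ0, hfPQ⟩ := E4.hasGaussNorm M ℓ A hA f hf
  set p : Kummer.Fb M := ⟨_, hP⟩ with hp
  set q : Kummer.Fb M := ⟨_, hQ⟩ with hq
  have hq0 : q ≠ 0 := Kummer.ne_zero_of_red_ne_zero A hQ hQ0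
  have hp0 : p ≠ 0 := Kummer.ne_zero_of_red_ne_zero A hP hP0
  have hredp : IsRed M A p (Congr.red A P) := isRed_incl P hP
  have hredq : IsRed M A q (Congr.red A Q) := isRed_incl Q hQ
  have hg : IsRed M A (p * q⁻¹) (Congr.red A P * (Congr.red A Q)⁻¹) :=
    hredp.mul (hredq.inv hQ0)
  have hfg : f = algebraMap Qb (Kummer.Fb M) c₀ * (p * q⁻¹) := by
    rw [← mul_assoc, ← hfPQ, mul_assoc, mul_inv_cancel₀ hq0, mul_one]
  have hg0 : p * q⁻¹ ≠ 0 := mul_ne_zero hp0 (inv_ne_zero hq0)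
  have hc0' : algebraMap Qb (Kummer.Fb M) c₀ ≠ 0 := by
    rw [Ne, map_eq_zero_iff _ (algebraMap Qb (Kummer.Fb M)).injective]
    exact hc₀
  have hord : ∀ R : Place Qb (Kummer.Fb M), R.ord (p * q⁻¹) = D R := by
    intro R
    rw [hD R, hfg, R.ord_mul hc0' hg0, Kummer.ord_algebraMap_eq_zero R hc₀, zero_add]
  refine ⟨c₀, P, Q, hP, hQ, Congr.red A P * (Congr.red A Q)⁻¹, p * q⁻¹, hc₀, hfPQ, hP0, ?_, hg, ?_⟩
  · rw [mul_assoc, inv_mul_cancel₀ hQ0, mul_one]
  · rintro c y ⟨⟨η, hη⟩, hy⟩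
    refine ⟨⟨_, hg.mul hη⟩, ?_⟩
    rcases hy with rfl | hy
    · exact Or.inl (mul_zero _)
    by_cases hy0 : y = 0
    · exact Or.inl (by rw [hy0, mul_zero])
    refine Or.inr fun R hR => ?_
    have h1 := hy R hR
    rw [Finsupp.neg_apply] at h1
    rw [R.ord_mul hg0 hy0, hord R]
    change (0 : ℤ) ≤ D R + R.ord y
    linarith

/-- **`Kummer.RED` at level `M` from the contract.**  `u` is the chart function (an element of
`Fb M` with Gauss reduction `ub`, `ub` with a pole). -/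
theorem red_of_contract (ℓ : ℕ) [NeZero M] [NeZero ℓ] [Fact ℓ.Prime]
    (hA : A.LiesOverPrime ℓ) {σ₀ : Gq} (hσ₀ : A.IsFrobeniusAt σ₀ ℓ)
    (h : HeckeInputsAlong Qb M ℓ) (u : Kummer.Fb M) (ub : LaurentSeries (Res A))
    (hu : IsRed M A u ub) (hub : ub.order < 0)
    (hInv : InvPlaces M A u) (hI0 : IntZero M A u) (hI1 : IntInf M A u)
    (hGal : GalStable M A u) (hHecke : HeckeStable M A u ℓ h)
    (hGR : haveI := Congr.charP_residue A hA; GalRed M A ℓ σ₀) :
    Kummer.RED M ℓ h A σ₀ := by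
  haveI : CharP (Res A) ℓ := Congr.charP_residue A hA
  have hub0 : ub ≠ 0 := by
    intro h0
    rw [h0, HahnSeries.order_zero] at hub
    exact lt_irrefl _ hub
  refine MachineRED.RED_of_machines M ℓ h A σ₀ (machine M A u false) (machine M A u true)
    (coeffMap (frobenius (Res A) ℓ)) (fun x => HeckeDivQ.heckeT M ℓ (E4.gal M σ₀ x))
    (chartHyp hσ₀ h u hInv hGal hHecke hGR false) (chartHyp hσ₀ h u hInv hGal hHecke hGR true)
    ub ub⁻¹ (mul_inv_cancel₀ hub0) hub ?_ ?_ ?_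
  · rintro ξ ⟨x, hx, hxr⟩
    exact hI0 x hx ξ ub hxr hu
  · rintro ξ ⟨x, hx, hxr⟩
    obtain ⟨G, hG, hGi⟩ := hI1 x hx ξ ub hxr hu
    exact ⟨G, hG, by rwa [mul_comm]⟩
  · intro f hf D hD
    obtain ⟨c₀, P, Q, hP, hQ, x, g, hc₀, hfPQ, hP0, hx, hg, hM⟩ :=
      exists_gauss_normal_form hA u f hf D hD
    exact ⟨c₀, P, Q, hP, hQ, x, g, hc₀, hfPQ, hP0, hx, hg, hg, hM false, hM true⟩

end Fermat.Agent.S37.Fn
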