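/-
S37, row F15 (ChartFn), Hauptmodul half: the chart functions `h₂ = 1/s₂` (`2 ∣ M`) and
`h₃ = 1/s₃` (`3 ∣ M`) at the `ℚ̄`-level, with the three facts that `Fn.red_of_contract` and its
providers need about a chart function `u`:

* `exists_isRed_h2B A`   : `∃ ub, IsRed M A u ub ∧ ub.order < 0`
  (Gauss-integral, reduction with a pole at `q = 0`);
* `exists_rational_h2B`  : `∃ w : LaurentSeries ℚ, coeffEmb ℚ̄ w = u` (rational `q`-expansion),
  hence `galStable_h2B A : GalStable M A u` by `GalSt.galStable_of_rational`;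
* `up_h2E E`             : the `E`-level element `HorizTwo.h2E M E h` has the same `q`-series.

Same for `h3B`.  `exists_isRed_inv` is the generic statement: the inverse of an integral power
series `q + …` lying in `Fb M`.
-/
import Fermat.Agent.S37.Fn.GalStable
import Fermat.Agent.S30.Haupt.HorizThree
import Fermat.Agent.S30.GaussDescent

set_option autoImplicit false

noncomputable section

namespace Fermat.Agent.S37.Fn.ChartFnHaupt

open ModularCurve AlgebraicCurve HahnSeries
open Fermat.Agent.S30 Fermat.Agent.S37.Fn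

local notation "Qb" => AlgebraicClosure ℚ

/-! ### Integral power series over varying coefficient rings -/

/-- The Laurent series over `R` of an integral power series. -/
def ser (R : Type*) [CommRing R] (sZ : PowerSeries ℤ) : LaurentSeries R :=
  HahnSeries.ofPowerSeries ℤ R (sZ.map (Int.castRingHom R))

theorem coeffMap_ser {R S : Type*} [CommRing R] [CommRing S] (φ : R →+* S)
    (sZ : PowerSeries ℤ) : coeffMap φ (ser R sZ) = ser S sZ := by
  unfold ser
  rw [Congr.coeffMap_ofPowerSeries]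
  congr 1
  ext n
  simp

theorem coeff_ser_natCast (R : Type*) [CommRing R] (sZ : PowerSeries ℤ) (n : ℕ) :
    (ser R sZ).coeff (n : ℤ) = ((PowerSeries.coeff n sZ : ℤ) : R) := by
  unfold ser
  rw [HahnSeries.ofPowerSeries_apply_coeff, PowerSeries.coeff_map]
  simp

theorem coeff_ser_of_neg (R : Type*) [CommRing R] (sZ : PowerSeries ℤ) {i : ℤ} (hi : i < 0) :
    (ser R sZ).coeff i = 0 := by
  unfold ser
  rw [PowerSeries.coeff_coe, if_pos hi]

/-- `0 < order` for a nonzero series without constant term. -/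
theorem order_ser_pos {R : Type*} [CommRing R] (sZ : PowerSeries ℤ)
    (h0 : PowerSeries.coeff 0 sZ = 0) (hne : ser R sZ ≠ 0) : 0 < (ser R sZ).order := by
  have hcoef : (ser R sZ).coeff (ser R sZ).order ≠ 0 := fun h => hne (coeff_order_eq_zero.1 h)
  by_contra hle
  rw [not_lt] at hle
  apply hcoef
  rcases lt_or_eq_of_le hle with hlt | heq
  · exact coeff_ser_of_neg R sZ hlt
  · rw [heq]
    have h := coeff_ser_natCast R sZ 0
    rw [h0] at h
    simpa using h

/-! ### The inverse of an integral series `q + …` as a chart function -/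

section Generic

variable (M : ℕ) (A : ValuationSubring Qb)

/-- The inverse `u` of an integral power series `s = q + …` lying in `Fb M` is Gauss-integral,
and its reduction has a pole at `q = 0`. -/
theorem exists_isRed_inv (sZ : PowerSeries ℤ) (h0 : PowerSeries.coeff 0 sZ = 0)
    (h1 : PowerSeries.coeff 1 sZ = 1) (s : LaurentSeries ℚ) (hs : s = ser ℚ sZ)
    (hmem : coeffEmb Qb s ∈ Kummer.Fb M) (u : Kummer.Fb M)
    (hu : (u : LaurentSeries Qb) = (coeffEmb Qb s)⁻¹) :
    ∃ ub : LaurentSeries (Res A), IsRed M A u ub ∧ ub.order < 0 := by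
  have hincl : Congr.incl A (ser A sZ) = coeffEmb Qb s := by
    rw [hs]
    unfold Congr.incl coeffEmb
    rw [coeffMap_ser, coeffMap_ser]
  have hred : Congr.red A (ser A sZ) = ser (Res A) sZ := coeffMap_ser _ _
  have hc1 : (ser (Res A) sZ).coeff 1 = 1 := by
    have h := coeff_ser_natCast (Res A) sZ 1
    rw [h1] at h
    simpa using h
  have hne : ser (Res A) sZ ≠ 0 := by
    intro h
    rw [h] at hc1
    simp at hc1
  have hord : 0 < (ser (Res A) sZ).order := order_ser_pos sZ h0 hne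
  have hne' : coeffEmb Qb s ≠ 0 := by
    intro h
    apply hne
    rw [← hred]
    have h2 : ser A sZ = 0 := Congr.incl_injective A (by rw [hincl, h, map_zero])
    rw [h2, map_zero]
  have hinv0 : (ser (Res A) sZ)⁻¹ ≠ 0 := inv_ne_zero hne
  refine ⟨(ser (Res A) sZ)⁻¹, ⟨1, ser A sZ, ?_, ?_, ?_, ?_⟩, ?_⟩
  · rw [hincl]
    exact hmem
  · rw [hred]
    exact hne
  · rw [hu, hincl, map_one, inv_mul_cancel₀ hne']
  · rw [map_one, hred, inv_mul_cancel₀ hne]
  · have h := HahnSeries.order_mul hinv0 hne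
    rw [inv_mul_cancel₀ hne, HahnSeries.order_one] at h
    linarith

/-- The inverse of a rational series has a rational `q`-expansion. -/
theorem exists_rational_inv (s : LaurentSeries ℚ) (u : Kummer.Fb M)
    (hu : (u : LaurentSeries Qb) = (coeffEmb Qb s)⁻¹) :
    ∃ w : LaurentSeries ℚ, coeffEmb Qb w = (u : LaurentSeries Qb) :=
  ⟨s⁻¹, by rw [hu, map_inv₀]⟩

end Generic

/-! ### `h₂ = 1/s₂` -/

section Two

variable (M : ℕ) [NeZero M]

/-- `s₂ = Δ(q²)/Δ(q)` as an element of `Fb M` (`2 ∣ M`). -/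
def s2B (h : 2 ∣ M) : Kummer.Fb M :=
  ⟨coeffEmb Qb Haupt.Two.s2, Haupt.MemThree.s2_mem_bar M h⟩

/-- The Hauptmodul chart `h₂ = Δ(q)/Δ(q²) = 1/s₂` as an element of `Fb M` (`2 ∣ M`). -/
def h2B (h : 2 ∣ M) : Kummer.Fb M := (s2B M h)⁻¹

@[simp]
theorem coe_s2B (h : 2 ∣ M) :
    ((s2B M h : Kummer.Fb M) : LaurentSeries Qb) = coeffEmb Qb Haupt.Two.s2 := rfl

theorem coe_h2B (h : 2 ∣ M) :
    ((h2B M h : Kummer.Fb M) : LaurentSeries Qb) = (coeffEmb Qb Haupt.Two.s2)⁻¹ := rfl

theorem s2_eq_ser : Haupt.Two.s2 = ser ℚ Haupt.Two.s2Z := Haupt.Two.s2_eq_emb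

/-- `h₂` is Gauss-integral and its reduction has a pole at `q = 0`. -/
theorem exists_isRed_h2B (A : ValuationSubring Qb) (h : 2 ∣ M) :
    ∃ ub : LaurentSeries (Res A), IsRed M A (h2B M h) ub ∧ ub.order < 0 :=
  exists_isRed_inv M A Haupt.Two.s2Z Haupt.Two.coeff_zero_s2Z Haupt.Two.coeff_one_s2Z
    Haupt.Two.s2 s2_eq_ser (Haupt.MemThree.s2_mem_bar M h) (h2B M h) (coe_h2B M h)

/-- `h₂` has a rational `q`-expansion. -/
theorem exists_rational_h2B (h : 2 ∣ M) :
    ∃ w : LaurentSeries ℚ, coeffEmb Qb w = ((h2B M h : Kummer.Fb M) : LaurentSeries Qb) :=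
  exists_rational_inv M Haupt.Two.s2 (h2B M h) (coe_h2B M h)

/-- The contract `GalStable` for the chart `h₂`. -/
theorem galStable_h2B (A : ValuationSubring Qb) (h : 2 ∣ M) : GalStable M A (h2B M h) :=
  GalSt.galStable_of_rational M A (h2B M h) (exists_rational_h2B M h)

/-- The `E`-level Hauptmodul `HorizTwo.h2E` has the `q`-series of `h2B`. -/
theorem up_h2E (E : IntermediateField ℚ Qb) (h : 2 ∣ M) :
    GaussDescent.up E ((Haupt.HorizTwo.h2E M E h :
        ↥(laurentBaseChange E (modularFunctionFieldFull M))) : LaurentSeries E) =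
      ((h2B M h : Kummer.Fb M) : LaurentSeries Qb) := by
  rw [Haupt.HorizTwo.coe_h2E, coe_h2B, map_inv₀, GaussDescent.up_coeffEmb]

/-- The `E`-level `s₂` has the `q`-series of `s2B`. -/
theorem up_s2E (E : IntermediateField ℚ Qb) (h : 2 ∣ M) :
    GaussDescent.up E ((Haupt.HorizTwo.s2E M E h :
        ↥(laurentBaseChange E (modularFunctionFieldFull M))) : LaurentSeries E) =
      ((s2B M h : Kummer.Fb M) : LaurentSeries Qb) := by
  rw [Haupt.HorizTwo.coe_s2E, coe_s2B, GaussDescent.up_coeffEmb]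

end Two

/-! ### `h₃ = 1/s₃` -/

section Three

variable (M : ℕ) [NeZero M]

/-- `s₃ = (η(q³)/η(q))¹²` as an element of `Fb M` (`3 ∣ M`). -/
def s3B (h : 3 ∣ M) : Kummer.Fb M :=
  ⟨coeffEmb Qb Haupt.Three.s3, Haupt.MemThree.s3_mem_bar M h⟩

/-- The Hauptmodul chart `h₃ = (η(q)/η(q³))¹² = 1/s₃` as an element of `Fb M` (`3 ∣ M`). -/
def h3B (h : 3 ∣ M) : Kummer.Fb M := (s3B M h)⁻¹

@[simp]
theorem coe_s3B (h : 3 ∣ M) :
    ((s3B M h : Kummer.Fb M) : LaurentSeries Qb) = coeffEmb Qb Haupt.Three.s3 := rfl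

theorem coe_h3B (h : 3 ∣ M) :
    ((h3B M h : Kummer.Fb M) : LaurentSeries Qb) = (coeffEmb Qb Haupt.Three.s3)⁻¹ := rfl

theorem s3_eq_ser : Haupt.Three.s3 = ser ℚ Haupt.Three.s3Z := rfl

/-- `h₃` is Gauss-integral and its reduction has a pole at `q = 0`. -/
theorem exists_isRed_h3B (A : ValuationSubring Qb) (h : 3 ∣ M) :
    ∃ ub : LaurentSeries (Res A), IsRed M A (h3B M h) ub ∧ ub.order < 0 :=
  exists_isRed_inv M A Haupt.Three.s3Z Haupt.Three.coeff_zero_s3Z Haupt.Three.coeff_one_s3Z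
    Haupt.Three.s3 s3_eq_ser (Haupt.MemThree.s3_mem_bar M h) (h3B M h) (coe_h3B M h)

/-- `h₃` has a rational `q`-expansion. -/
theorem exists_rational_h3B (h : 3 ∣ M) :
    ∃ w : LaurentSeries ℚ, coeffEmb Qb w = ((h3B M h : Kummer.Fb M) : LaurentSeries Qb) :=
  exists_rational_inv M Haupt.Three.s3 (h3B M h) (coe_h3B M h)

/-- The contract `GalStable` for the chart `h₃`. -/
theorem galStable_h3B (A : ValuationSubring Qb) (h : 3 ∣ M) : GalStable M A (h3B M h) :=
  GalSt.galStable_of_rational M A (h3B M h) (exists_rational_h3B M h)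

/-- The `E`-level Hauptmodul `HorizThree.h3E` has the `q`-series of `h3B`. -/
theorem up_h3E (E : IntermediateField ℚ Qb) (h : 3 ∣ M) :
    GaussDescent.up E ((Haupt.HorizThree.h3E M E h :
        ↥(laurentBaseChange E (modularFunctionFieldFull M))) : LaurentSeries E) =
      ((h3B M h : Kummer.Fb M) : LaurentSeries Qb) := by
  rw [Haupt.HorizThree.coe_h3E, coe_h3B, map_inv₀, GaussDescent.up_coeffEmb]

/-- The `E`-level `s₃` has the `q`-series of `s3B`. -/
theorem up_s3E (E : IntermediateField ℚ Qb) (h : 3 ∣ M) :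
    GaussDescent.up E ((Haupt.HorizThree.s3E M E h :
        ↥(laurentBaseChange E (modularFunctionFieldFull M))) : LaurentSeries E) =
      ((s3B M h : Kummer.Fb M) : LaurentSeries Qb) := by
  rw [Haupt.HorizThree.coe_s3E, coe_s3B, GaussDescent.up_coeffEmb]

end Three

end Fermat.Agent.S37.Fn.ChartFnHaupt
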