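import Fermat.Agent.S37.Fn.GalStable
import Fermat.Agent.S24.DegreeGen
import Fermat.Agent.S18.K1Descent
import Fermat.Agent.S18.K1Main.JBase

/-!
# S37 / row F15 (`ChartFn`): the chart function `u = j`

Facts about the chart function `jBar M : Fb M` consumed by the function-only route to
`Kummer.RED` (contract file `Fn/Defs.lean`).  Generic part (any chart function with an integral
`q`-expansion `U : LaurentSeries ℤ`) first, then `u = j`.

* `isRed_of_intSeries` : a function of `Fb M` whose `q`-expansion is the image of an integral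
  series `U : LaurentSeries ℤ` is Gauss-integral with reduction the image of `U` in `k((q))`.
* `upHom_mk_coeffEmb` : `upHom M E ⟨coeffEmb E t₀, _⟩ = ⟨coeffEmb ℚ̄ t₀, _⟩` for any rational series
  `t₀` (the `E`-level chart function goes to the `ℚ̄`-level one).
* `isRed_jBar` : `IsRed M A (jBar M) (jqModC k)`; `order_jqModC`, `coeff_jqModC_neg_one` : the
  reduction is `q⁻¹ + …`.
* `exists_isRed_jBar` : `∃ ub, IsRed M A (jBar M) ub ∧ ub.order < 0`;
  `isRed_jBar_inv` : `IsRed M A (jBar M)⁻¹ (jqModC k)⁻¹`.
* `exists_rational_jBar`, `galStable_jBar` : rational `q`-expansion, hence `Fn.GalStable`.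
* `upHom_jE` : `K1Descent.upHom M E (K1Main.jE M E) = jBar M`.
-/

set_option autoImplicit false

noncomputable section

namespace Fermat.Agent.S37.Fn.ChartFn

open ModularCurve AlgebraicCurve HahnSeries
open Fermat.Agent.S30 Fermat.Agent.S37.Fn

local notation "Qb" => AlgebraicClosure ℚ

/-! ### Generic: integral `q`-expansions -/

section Generic

variable (A : ValuationSubring Qb)

/-- The inclusion of the image in `A((q))` of an integral series is its image in `ℚ̄((q))`. -/
theorem incl_intSeries (U : LaurentSeries ℤ) :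
    Congr.incl A (coeffMap (Int.castRingHom A) U) =
      coeffEmb Qb (coeffMap (Int.castRingHom ℚ) U) := by
  rw [Congr.incl, coeffEmb, coeffMap_coeffMap, coeffMap_coeffMap]
  exact coeffMap_congr (RingHom.ext_int _ _) U

/-- The reduction of the image in `A((q))` of an integral series is its image in `k((q))`. -/
theorem red_intSeries (U : LaurentSeries ℤ) :
    Congr.red A (coeffMap (Int.castRingHom A) U) = coeffMap (Int.castRingHom (Res A)) U := by
  rw [Congr.red, coeffMap_coeffMap]
  exact coeffMap_congr (RingHom.ext_int _ _) U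

variable (M : ℕ)

/-- A function of `Fb M` whose `q`-expansion is (the image of) an integral series `U` is
Gauss-integral, with reduction the image of `U` in `k((q))`. -/
theorem isRed_of_intSeries (u : Kummer.Fb M) (U : LaurentSeries ℤ)
    (hu : (u : LaurentSeries Qb) = coeffEmb Qb (coeffMap (Int.castRingHom ℚ) U)) :
    IsRed M A u (coeffMap (Int.castRingHom (Res A)) U) := by
  refine ⟨coeffMap (Int.castRingHom A) U, 1, ?_, ?_, ?_, ?_⟩
  · rw [map_one]; exact (Kummer.Fb M).one_mem
  · rw [map_one]; exact one_ne_zero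
  · rw [map_one, mul_one, hu, incl_intSeries]
  · rw [map_one, mul_one, red_intSeries]

/-- Extension of constants sends the `E`-level function with rational `q`-expansion `t₀` to the
`ℚ̄`-level function with the same `q`-expansion. -/
theorem upHom_mk_coeffEmb [NeZero M] (E : IntermediateField ℚ Qb) (t₀ : LaurentSeries ℚ)
    (hE : coeffEmb E t₀ ∈ Fermat.Agent.S18.K1Defs.LE M E)
    (hB : coeffEmb Qb t₀ ∈ modularFunctionFieldBar M) :
    Fermat.Agent.S18.K1Descent.upHom M E ⟨coeffEmb E t₀, hE⟩ = ⟨coeffEmb Qb t₀, hB⟩ := by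
  apply Subtype.ext
  show coeffMap (algebraMap E Qb) (coeffEmb E t₀) = coeffEmb Qb t₀
  rw [coeffEmb, coeffEmb, coeffMap_coeffMap]
  exact coeffMap_congr (RingHom.ext_rat _ _) t₀

end Generic

/-! ### The `q`-expansion of `j` over any ring -/

section Jq

/-- `coeffMap f` sends `j(q)` over `K` to `j(q)` over `K'`. -/
theorem coeffMap_jqModC {K K' : Type*} [CommRing K] [CommRing K'] (f : K →+* K') :
    coeffMap f (jqModC K) = jqModC K' :=
  map_jqModC f

/-- The coefficient of `q⁻¹` in `j(q)` is `1`, over any ring. -/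
theorem coeff_jqModC_neg_one (K : Type*) [CommRing K] : (jqModC K).coeff (-1) = 1 := by
  have hZ : (jqModC ℤ).coeff (-1) = 1 := by
    have h := Fermat.Agent.S24.DegreeGen.coeffEmb_jq_coeff_neg_one ℚ
    rw [← jqModC_rat, coeffEmb, coeffMap_jqModC, ← coeffMap_jqModC (Int.castRingHom ℚ),
      coeffMap_coeff, eq_intCast] at h
    exact_mod_cast h
  rw [← coeffMap_jqModC (Int.castRingHom K), coeffMap_coeff, hZ, map_one]

/-- The coefficients of `j(q)` below `q⁻¹` vanish, over any ring. -/
theorem coeff_jqModC_of_lt (K : Type*) [CommRing K] {n : ℤ} (hn : n < -1) :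
    (jqModC K).coeff n = 0 := by
  rw [jqModC, HahnSeries.coeff_single_mul, ofPowerSeries_coeff_of_neg _ (by omega), mul_zero]

/-- `j(q)` has order `-1` over any nontrivial ring. -/
theorem order_jqModC (K : Type*) [CommRing K] [Nontrivial K] : (jqModC K).order = -1 := by
  have h1 : (jqModC K).coeff (-1) ≠ 0 := by
    rw [coeff_jqModC_neg_one]; exact one_ne_zero
  have hne : jqModC K ≠ 0 := HahnSeries.ne_zero_of_coeff_ne_zero h1
  apply le_antisymm (HahnSeries.order_le_of_coeff_ne_zero h1)
  by_contra hlt
  rw [not_le] at hlt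
  exact (HahnSeries.coeff_order_eq_zero.not.mpr hne) (coeff_jqModC_of_lt K hlt)

end Jq

/-! ### The chart function `u = j` of `Fb M` -/

section JBar

open Fermat.Agent.S24.DegreeGen

variable (M : ℕ) (A : ValuationSubring Qb)

/-- The `q`-expansion of `jBar M` is the image of the integral series `jqModC ℤ`. -/
theorem coe_jBar_eq :
    ((jBar M : Kummer.Fb M) : LaurentSeries Qb) =
      coeffEmb Qb (coeffMap (Int.castRingHom ℚ) (jqModC ℤ)) := by
  rw [coe_jBar, coeffMap_jqModC, jqModC_rat]

/-- **F15, `u = j`**: `j` is Gauss-integral with reduction `j(q) ∈ k((q))`. -/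
theorem isRed_jBar : IsRed M A (jBar M) (jqModC (Res A)) := by
  have h := isRed_of_intSeries A M (jBar M) (jqModC ℤ) (coe_jBar_eq M)
  rwa [coeffMap_jqModC] at h

/-- **F15, `u = j`**: the reduction of the chart function has a pole (`ū = q⁻¹ + …`). -/
theorem exists_isRed_jBar : ∃ ub, IsRed M A (jBar M) ub ∧ ub.order < 0 :=
  ⟨jqModC (Res A), isRed_jBar M A, by rw [order_jqModC]; norm_num⟩

/-- The reduction of `j` is nonzero. -/
theorem jqModC_res_ne_zero : jqModC (Res A) ≠ 0 :=
  HahnSeries.ne_zero_of_coeff_ne_zero (g := -1)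
    (by rw [coeff_jqModC_neg_one]; exact one_ne_zero)

/-- The second chart function `1/j` is Gauss-integral with reduction `1/j(q)`. -/
theorem isRed_jBar_inv : IsRed M A (jBar M)⁻¹ (jqModC (Res A))⁻¹ :=
  (isRed_jBar M A).inv (jqModC_res_ne_zero A)

/-- **F15, `u = j`**: rational `q`-expansion. -/
theorem exists_rational_jBar :
    ∃ w : LaurentSeries ℚ, coeffEmb Qb w = ((jBar M : Kummer.Fb M) : LaurentSeries Qb) :=
  ⟨jq, (coe_jBar M).symm⟩

/-- **Row F5b for `u = j`**: the decomposition group of `A` preserves the charts of `j`. -/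
theorem galStable_jBar : GalStable M A (jBar M) :=
  GalSt.galStable_of_rational M A (jBar M) (exists_rational_jBar M)

/-- **F15, `u = j`**: the `E`-level `j` goes to the `ℚ̄`-level `j` under extension of
constants. -/
theorem upHom_jE [NeZero M] (E : IntermediateField ℚ Qb) :
    Fermat.Agent.S18.K1Descent.upHom M E (Fermat.Agent.S18.K1Main.jE M E) = jBar M :=
  upHom_mk_coeffEmb M E jq _ _

end JBar

end Fermat.Agent.S37.Fn.ChartFn
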