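import Mathlib
import Fermat.Agent.S18.K1Final
import Fermat.Agent.S30.Model.RegFinal
import Fermat.Agent.S30.Model.MainInfA

/-!
# S37, row F13: the modular instances of the Model theorem, in the shape consumed by the
function-only route (`Fn/ChartInt`, `Fn/InvPlaces`, `RatPoint`)

`ChartModel M O E u` : for the level-`M` function field `LE M E ⊆ E((q))` over the fraction field
`E` of a discrete valuation ring `O` and a chart function `u ∈ LE M E`:

* `u` is an integral `q`-series with a pole modulo the maximal ideal, transcendental over `E`,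
  `LE M E / E(u)` is finite;
* `π` is a prime element of the integral closures of `O[u]` and of `O[u⁻¹]` in `LE M E`
  (`Model.Assembly.main_a`, `Model.MainInf.main_a_inf`);
* the special fibres of both charts are regular: `RegNB.RegAt π Mx` at every maximal ideal
  `Mx ∋ π` of the `u`-chart and at every maximal ideal `Mx ∋ π, u⁻¹` of the `u⁻¹`-chart
  (`Model.RegFinal.reg_zero`, `reg_inf`).

Instances (for a valuation ring `A` of `ℚ̄` over a prime `ℓ ∤ M`, every number field `E ⊆ ℚ̄`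
containing a primitive `M`-th root of unity and with `O_E = A ∩ E` a discrete valuation ring):

* `chartModel_j`  : `u = j`,  `ℓ > 3`;
* `chartModel_h2` : `u = h₂` (Hauptmodul of level `2`), `2 ∣ M` (so `ℓ` is odd);
* `chartModel_h3` : `u = h₃` (Hauptmodul of level `3`), `3 ∣ M` (so `ℓ ≠ 3`).
-/

set_option autoImplicit false
set_option linter.unusedSectionVars false
set_option linter.style.haveILetI false
set_option synthInstance.maxHeartbeats 400000
set_option maxHeartbeats 1000000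

open ModularCurve AlgebraicCurve Polynomial

noncomputable section

namespace Fermat.Agent.S37.Fn.ModelInst

open Fermat.Agent.S18.K1Defs Fermat.Agent.S18.K1Main Fermat.Agent.S30 Fermat.Agent.S30.Model

local notation "Qb" => AlgebraicClosure ℚ

/-- **The Model-theorem package of a chart function** `u` of the level-`M` function field
`LE M E` over the fraction field `E` of the discrete valuation ring `O`.  The `O`-algebra
structure on `LE M E` is an instance argument (in the applications: `K1Main.algebraOL`). -/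
structure ChartModel (M : ℕ) [NeZero M] (O E : Type) [CommRing O] [IsDomain O]
    [IsDiscreteValuationRing O] [Field E] [CharZero E] [Algebra O E] [IsFractionRing O E]
    [Algebra ℚ E] [Algebra O (LE M E)] [IsScalarTower O E (LE M E)] (u : LE M E) : Prop where
  /-- `u` is an integral `q`-series whose reduction has a pole. -/
  model : ∃ uO : LaurentSeries O, (u : LaurentSeries E) = GaussDVR.iota O E uO ∧
    (GaussDVR.rho O uO).order < 0
  /-- `u` is transcendental over `E`. -/
  tr : Transcendental E u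
  /-- `LE M E` is finite over `E(u)`. -/
  fin : FiniteDimensional (IntermediateField.adjoin E {u}) (LE M E)
  /-- `π` is prime in the integral closure of `O[u]`. -/
  prime_zero : ∀ π : O, Irreducible π → Prime (GlueChart.piElt (Algebra.adjoin O {u}) π)
  /-- `π` is prime in the integral closure of `O[u⁻¹]`. -/
  prime_inf : ∀ π : O, Irreducible π → Prime (GlueChart.piElt (Algebra.adjoin O {u⁻¹}) π)
  /-- The special fibre of the `u`-chart is regular at every closed point. -/
  reg_zero : ∀ π : O, Irreducible π →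
    ∀ Mx : Ideal (integralClosure (Algebra.adjoin O {u}) (LE M E)), Mx.IsMaximal →
      GlueChart.piElt (Algebra.adjoin O {u}) π ∈ Mx →
      RegNB.RegAt (GlueChart.piElt (Algebra.adjoin O {u}) π) Mx
  /-- The special fibre of the `u⁻¹`-chart is regular at every closed point over `u = ∞`. -/
  reg_inf : ∀ π : O, Irreducible π →
    ∀ Mx : Ideal (integralClosure (Algebra.adjoin O {u⁻¹}) (LE M E)), Mx.IsMaximal →
      GlueChart.piElt (Algebra.adjoin O {u⁻¹}) π ∈ Mx → ChartInf.tInf u ∈ Mx →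
      RegNB.RegAt (GlueChart.piElt (Algebra.adjoin O {u⁻¹}) π) Mx

/-- `ChartModel` for the canonical `O`-algebra structure `algebraOL`. -/
def ChartModelC (M : ℕ) [NeZero M] (O E : Type) [CommRing O] [IsDomain O]
    [IsDiscreteValuationRing O] [Field E] [CharZero E] [Algebra O E] [IsFractionRing O E]
    [Algebra ℚ E] (u : LE M E) : Prop :=
  letI := algebraOL O E (LE M E)
  haveI := isScalarTower_OL O E (LE M E)
  ChartModel M O E u

section Generic

variable (M : ℕ) [NeZero M] {O E : Type} [CommRing O] [IsDomain O] [IsDiscreteValuationRing O]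
  [Field E] [CharZero E] [Algebra O E] [IsFractionRing O E] [Algebra ℚ E]

/-- **The package from the hypotheses (i), (ii) of the Model theorem** (family form). -/
theorem chartModel_of_inputs [Algebra O (LE M E)] [IsScalarTower O E (LE M E)]
    (u : LE M E) (uO : LaurentSeries O) (hu : (u : LaurentSeries E) = GaussDVR.iota O E uO)
    (hpole : (GaussDVR.rho O uO).order < 0)
    (hfin : FiniteDimensional (IntermediateField.adjoin E {u}) (LE M E))
    (hG : ∀ π : O, Irreducible π → Model.GaussUnram (E := E) π u)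
    (S : Finset O) (hS : ∀ c ∈ S, ∀ c' ∈ S, c ≠ c' → IsUnit (c - c'))
    (hH : Model.HorizUnram (E := E) S u) : ChartModel M O E u := by
  haveI := hfin
  have hT : Transcendental E u := transcendental_of_pole (LE M E) u uO hu hpole
  have hAC : Model.AlgClosedIn E (LE M E) := algClosedIn_laurent (LE M E)
  exact
    { model := ⟨uO, hu, hpole⟩
      tr := hT
      fin := hfin
      prime_zero := fun π hπ => Assembly.main_a π hπ u hT hAC (hG π hπ) S hS hH
      prime_inf := fun π hπ => MainInf.main_a_inf π hπ u hT hAC (hG π hπ) S hS hH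
      reg_zero := fun π hπ Mx hMx hπM =>
        RegFinal.reg_zero π hπ u hT (hG π hπ) S hS hH Mx hMx hπM
      reg_inf := fun π hπ Mx hMx hπM htM =>
        RegFinal.reg_inf π hπ u hT (hG π hπ) S hH Mx hMx hπM htM }

end Generic

section Modular

variable (A : ValuationSubring Qb)

/-- Finiteness over `E(j)` and hypothesis (i) for `(LE M E, j)` over `O_E = A ∩ E`, for `A` over
a prime `ℓ ∤ M` and `E` containing a primitive `M`-th root of unity. -/
theorem finGaussC_OE (M : ℕ) [NeZero M] {ℓ : ℕ} [Fact ℓ.Prime] (hℓM : ¬ ℓ ∣ M)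
    (hA : A.LiesOverPrime ℓ) {z : Qb} (hz : IsPrimitiveRoot z M)
    (E : IntermediateField ℚ Qb) [FiniteDimensional ℚ E] [IsDiscreteValuationRing (OE A E)]
    (hzE : z ∈ E) : FinGaussC M (OE A E) E := by
  have hℓp : ℓ.Prime := Fact.out
  obtain ⟨ζ₀, hζ₀⟩ := exists_primitiveRoot_OE A E (Nat.pos_of_ne_zero (NeZero.ne M)) hz hzE
  have hM : IsUnit ((M : ℕ) : OE A E) :=
    isUnit_natCast_OE A E hA M
      (Nat.Coprime.symm ((Nat.Prime.coprime_iff_not_dvd hℓp).mpr hℓM))
  exact finGaussC_of M (Fermat.Agent.S24.Theta.iotaBar.comp (algebraMap E Qb)) hζ₀ hM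

/-- **The `j`-chart**, residue characteristic `ℓ > 3`, `ℓ ∤ M`. -/
theorem chartModel_j (M : ℕ) [NeZero M] {ℓ : ℕ} [Fact ℓ.Prime] (hℓM : ¬ ℓ ∣ M)
    (hA : A.LiesOverPrime ℓ) (hℓ : 3 < ℓ) {z : Qb} (hz : IsPrimitiveRoot z M)
    (E : IntermediateField ℚ Qb) [FiniteDimensional ℚ E] [IsDiscreteValuationRing (OE A E)]
    (hzE : z ∈ E) : ChartModelC M (OE A E) E (jE M E) := by
  classical
  have hFG : FinGaussC M (OE A E) E := finGaussC_OE A M hℓM hA hz E hzE
  letI := algebraOL (OE A E) E (LE M E)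
  haveI := isScalarTower_OL (OE A E) E (LE M E)
  obtain ⟨hfin, hG⟩ := hFG
  have h1728 : IsUnit (1728 : OE A E) := isUnit_1728_OE A E Fact.out hA hℓ
  have hS : ∀ c ∈ ({0, 1728} : Finset (OE A E)), ∀ c' ∈ ({0, 1728} : Finset (OE A E)),
      c ≠ c' → IsUnit (c - c') := by
    intro c hc c' hc' hne
    simp only [Finset.mem_insert, Finset.mem_singleton] at hc hc'
    rcases hc with rfl | rfl <;> rcases hc' with rfl | rfl
    · exact absurd rfl hne
    · rw [zero_sub]; exact h1728.neg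
    · rw [sub_zero]; exact h1728
    · exact absurd rfl hne
  exact chartModel_of_inputs M (jE M E) (jqModC (OE A E))
    (coeffEmb_jq_eq_iota (O := OE A E) (E := E)) (order_rho_jqModC_neg (O := OE A E)) hfin hG
    {0, 1728} hS
    (Fermat.Agent.S30.E2.Horiz.horizUnram_of_coe
      (Fermat.Agent.S24.Theta.iotaBar.comp (algebraMap E Qb)) M (jE M E) rfl {0, 1728}
      ⟨0, by simp, map_zero _⟩ ⟨1728, by simp, map_ofNat _ _⟩)

/-- **The `h₂`-chart** (Hauptmodul of level `2`), `2 ∣ M`, `ℓ ∤ M` (hence `ℓ` odd). -/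
theorem chartModel_h2 (M : ℕ) [NeZero M] (h2M : 2 ∣ M) {ℓ : ℕ} [Fact ℓ.Prime] (hℓM : ¬ ℓ ∣ M)
    (hA : A.LiesOverPrime ℓ) {z : Qb} (hz : IsPrimitiveRoot z M)
    (E : IntermediateField ℚ Qb) [FiniteDimensional ℚ E] [IsDiscreteValuationRing (OE A E)]
    (hzE : z ∈ E) : ChartModelC M (OE A E) E (Haupt.HorizTwo.h2E M E h2M) := by
  classical
  have hℓp : ℓ.Prime := Fact.out
  have hℓ : ℓ ≠ 2 := fun h => hℓM (h ▸ h2M)
  have hFG : FinGaussC M (OE A E) E := finGaussC_OE A M hℓM hA hz E hzE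
  letI := algebraOL (OE A E) E (LE M E)
  haveI := isScalarTower_OL (OE A E) E (LE M E)
  obtain ⟨hfin, hG⟩ := hFG
  haveI := hfin
  have h2 : IsUnit (2 : OE A E) := by
    have hc : Nat.Coprime 2 ℓ := (Nat.coprime_primes Nat.prime_two hℓp).mpr (Ne.symm hℓ)
    have := isUnit_natCast_OE A E hA 2 hc
    exact_mod_cast this
  have key : ∀ π : OE A E, Irreducible π →
      Transcendental E (Haupt.HorizTwo.h2E M E h2M) ∧
      FiniteDimensional (IntermediateField.adjoin E {Haupt.HorizTwo.h2E M E h2M}) (LE M E) ∧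
      Model.GaussUnram (E := E) π (Haupt.HorizTwo.h2E M E h2M) := fun π hπ =>
    Haupt.Gauss.gaussUnram_t2 π hπ h2 (jE M E) (Haupt.K1.transcendental_jE M E)
      (hG π hπ) (Haupt.HorizTwo.h2E M E h2M) (Haupt.HorizTwo.jE_mul_h2E M E h2M (jE M E) rfl)
  obtain ⟨π₀, hπ₀⟩ := IsDiscreteValuationRing.exists_irreducible (OE A E)
  have h64 : IsUnit (64 : OE A E) := by
    have : (64 : OE A E) = 2 ^ 6 := by norm_num
    rw [this]
    exact h2.pow 6
  have hS : ∀ c ∈ ({0, -64} : Finset (OE A E)), ∀ c' ∈ ({0, -64} : Finset (OE A E)),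
      c ≠ c' → IsUnit (c - c') := by
    intro c hc c' hc' hne
    simp only [Finset.mem_insert, Finset.mem_singleton] at hc hc'
    rcases hc with rfl | rfl <;> rcases hc' with rfl | rfl
    · exact absurd rfl hne
    · rw [zero_sub, neg_neg]; exact h64
    · rw [sub_zero]; exact h64.neg
    · exact absurd rfl hne
  haveI := (key π₀ hπ₀).2.1
  exact chartModel_of_inputs M (Haupt.HorizTwo.h2E M E h2M) (E2G1Aux.invO (OE A E) Haupt.Two.s2Z)
    (Haupt.K1.coe_h2E_eq_iota M E h2M) (E2G1Aux.order_rho_invO_neg Haupt.Two.s2Z)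
    (key π₀ hπ₀).2.1 (fun π hπ => (key π hπ).2.2) {0, -64} hS
    (Haupt.HorizTwo.horizUnram_h2 M E h2M {0, -64}
      ⟨0, by simp, map_zero _⟩ ⟨-64, by simp, by rw [map_neg, map_ofNat]⟩)

/-- **The `h₃`-chart** (Hauptmodul of level `3`), `3 ∣ M`, `ℓ ∤ M` (hence `ℓ ≠ 3`). -/
theorem chartModel_h3 (M : ℕ) [NeZero M] (h3M : 3 ∣ M) {ℓ : ℕ} [Fact ℓ.Prime] (hℓM : ¬ ℓ ∣ M)
    (hA : A.LiesOverPrime ℓ) {z : Qb} (hz : IsPrimitiveRoot z M)
    (E : IntermediateField ℚ Qb) [FiniteDimensional ℚ E] [IsDiscreteValuationRing (OE A E)]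
    (hzE : z ∈ E) : ChartModelC M (OE A E) E (Haupt.HorizThree.h3E M E h3M) := by
  classical
  have hℓp : ℓ.Prime := Fact.out
  have hℓ : ℓ ≠ 3 := fun h => hℓM (h ▸ h3M)
  have hFG : FinGaussC M (OE A E) E := finGaussC_OE A M hℓM hA hz E hzE
  letI := algebraOL (OE A E) E (LE M E)
  haveI := isScalarTower_OL (OE A E) E (LE M E)
  obtain ⟨hfin, hG⟩ := hFG
  haveI := hfin
  have h3 : IsUnit (3 : OE A E) := by
    have hc : Nat.Coprime 3 ℓ := (Nat.coprime_primes Nat.prime_three hℓp).mpr (Ne.symm hℓ)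
    have := isUnit_natCast_OE A E hA 3 hc
    exact_mod_cast this
  have key : ∀ π : OE A E, Irreducible π →
      Transcendental E (Haupt.HorizThree.h3E M E h3M) ∧
      FiniteDimensional (IntermediateField.adjoin E {Haupt.HorizThree.h3E M E h3M}) (LE M E) ∧
      Model.GaussUnram (E := E) π (Haupt.HorizThree.h3E M E h3M) := fun π hπ =>
    Haupt.Gauss.gaussUnram_t3 π hπ h3 (jE M E) (Haupt.K1.transcendental_jE M E)
      (hG π hπ) (Haupt.HorizThree.h3E M E h3M)
      (Haupt.HorizThree.jE_mul_h3E M E h3M (jE M E) rfl)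
  obtain ⟨π₀, hπ₀⟩ := IsDiscreteValuationRing.exists_irreducible (OE A E)
  have h27 : IsUnit (27 : OE A E) := by
    have : (27 : OE A E) = 3 ^ 3 := by norm_num
    rw [this]
    exact h3.pow 3
  have hS : ∀ c ∈ ({0, -27} : Finset (OE A E)), ∀ c' ∈ ({0, -27} : Finset (OE A E)),
      c ≠ c' → IsUnit (c - c') := by
    intro c hc c' hc' hne
    simp only [Finset.mem_insert, Finset.mem_singleton] at hc hc'
    rcases hc with rfl | rfl <;> rcases hc' with rfl | rfl
    · exact absurd rfl hne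
    · rw [zero_sub, neg_neg]; exact h27
    · rw [sub_zero]; exact h27.neg
    · exact absurd rfl hne
  haveI := (key π₀ hπ₀).2.1
  exact chartModel_of_inputs M (Haupt.HorizThree.h3E M E h3M)
    (E2G1Aux.invO (OE A E) Haupt.Three.s3Z)
    (Haupt.K1.coe_h3E_eq_iota M E h3M) (E2G1Aux.order_rho_invO_neg Haupt.Three.s3Z)
    (key π₀ hπ₀).2.1 (fun π hπ => (key π hπ).2.2) {0, -27} hS
    (Haupt.HorizThree.horizUnram_h3 M E h3M {0, -27}
      ⟨0, by simp, map_zero _⟩ ⟨-27, by simp, by rw [map_neg, map_ofNat]⟩)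

/-! ### The `∃ S₀` forms (shape of `K1Defs.K1Modular`) -/

/-- A primitive `M`-th root of unity of `ℚ̄`. -/
theorem exists_primitiveRoot_Qb (M : ℕ) [NeZero M] : ∃ z : Qb, IsPrimitiveRoot z M := by
  have : NeZero (M : Qb) := ⟨Nat.cast_ne_zero.mpr (NeZero.ne M)⟩
  exact HasEnoughRootsOfUnity.exists_primitiveRoot Qb M

theorem exists_finset_chartModel_j (M : ℕ) [NeZero M] {ℓ : ℕ} [Fact ℓ.Prime] (hℓM : ¬ ℓ ∣ M)
    (hA : A.LiesOverPrime ℓ) (hℓ : 3 < ℓ) :
    ∃ S₀ : Finset Qb, ∀ (E : IntermediateField ℚ Qb) [FiniteDimensional ℚ E]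
      [IsDiscreteValuationRing (OE A E)], (∀ s ∈ S₀, s ∈ E) →
      ChartModelC M (OE A E) E (jE M E) := by
  obtain ⟨z, hz⟩ := exists_primitiveRoot_Qb M
  exact ⟨{z}, fun E _ _ hE =>
    chartModel_j A M hℓM hA hℓ hz E (hE z (Finset.mem_singleton_self z))⟩

theorem exists_finset_chartModel_h2 (M : ℕ) [NeZero M] (h2M : 2 ∣ M) {ℓ : ℕ} [Fact ℓ.Prime]
    (hℓM : ¬ ℓ ∣ M) (hA : A.LiesOverPrime ℓ) :
    ∃ S₀ : Finset Qb, ∀ (E : IntermediateField ℚ Qb) [FiniteDimensional ℚ E]
      [IsDiscreteValuationRing (OE A E)], (∀ s ∈ S₀, s ∈ E) →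
      ChartModelC M (OE A E) E (Haupt.HorizTwo.h2E M E h2M) := by
  obtain ⟨z, hz⟩ := exists_primitiveRoot_Qb M
  exact ⟨{z}, fun E _ _ hE =>
    chartModel_h2 A M h2M hℓM hA hz E (hE z (Finset.mem_singleton_self z))⟩

theorem exists_finset_chartModel_h3 (M : ℕ) [NeZero M] (h3M : 3 ∣ M) {ℓ : ℕ} [Fact ℓ.Prime]
    (hℓM : ¬ ℓ ∣ M) (hA : A.LiesOverPrime ℓ) :
    ∃ S₀ : Finset Qb, ∀ (E : IntermediateField ℚ Qb) [FiniteDimensional ℚ E]
      [IsDiscreteValuationRing (OE A E)], (∀ s ∈ S₀, s ∈ E) →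
      ChartModelC M (OE A E) E (Haupt.HorizThree.h3E M E h3M) := by
  obtain ⟨z, hz⟩ := exists_primitiveRoot_Qb M
  exact ⟨{z}, fun E _ _ hE =>
    chartModel_h3 A M h3M hℓM hA hz E (hE z (Finset.mem_singleton_self z))⟩

end Modular

end Fermat.Agent.S37.Fn.ModelInst
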