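import Mathlib
import Fermat.Agent.S37.Fn.ModelInst
import Fermat.Agent.S37.Fn.ChartFn
import Fermat.Agent.S37.Fn.ChartFnHaupt
import Fermat.Agent.S18.K1Descent

/-!
# S37, row F13 (bridge): the `E`-level chart functions of `Fn/ModelInst` go to the `ℚ̄`-level chart
functions of `Fn/ChartFn`, `Fn/ChartFnHaupt` under extension of constants

* `upHom_h2E`, `upHom_h3E` : `K1Descent.upHom M E (h_rE) = h_rB` in `Fb M`
  (the `j`-case is `ChartFn.upHom_jE`).
* `ChartUp M A u` : "for every sufficiently large number field `E ⊆ ℚ̄` there is an `E`-level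
  chart function `uE` with `upHom uE = u` and the full Model package `ModelInst.ChartModelC`".
* `chartUp_j`, `chartUp_h2`, `chartUp_h3` : the three modular instances.
* `prime_zero_of_chartUp`, `prime_inf_of_chartUp` : the hypotheses `h₀`, `h∞` of
  `Fn/ChartInt.chartInt_zero`, `chartInt_inf` (literal shape).
-/

set_option autoImplicit false
set_option linter.unusedSectionVars false
set_option linter.style.haveILetI false
set_option synthInstance.maxHeartbeats 400000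
set_option maxHeartbeats 1000000

open ModularCurve AlgebraicCurve Polynomial

noncomputable section

namespace Fermat.Agent.S37.Fn.ModelUp

open Fermat.Agent.S18.K1Defs Fermat.Agent.S18.K1Main Fermat.Agent.S30 Fermat.Agent.S30.Model
open Fermat.Agent.S37.Fn.ModelInst

local notation "Qb" => AlgebraicClosure ℚ

/-- The `E`-level Hauptmodul `h₂` goes to the `ℚ̄`-level `h₂`. -/
theorem upHom_h2E (M : ℕ) [NeZero M] (E : IntermediateField ℚ Qb) (h : 2 ∣ M) :
    Fermat.Agent.S18.K1Descent.upHom M E (Haupt.HorizTwo.h2E M E h) = ChartFnHaupt.h2B M h :=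
  Subtype.ext (ChartFnHaupt.up_h2E M E h)

/-- The `E`-level Hauptmodul `h₃` goes to the `ℚ̄`-level `h₃`. -/
theorem upHom_h3E (M : ℕ) [NeZero M] (E : IntermediateField ℚ Qb) (h : 3 ∣ M) :
    Fermat.Agent.S18.K1Descent.upHom M E (Haupt.HorizThree.h3E M E h) = ChartFnHaupt.h3B M h :=
  Subtype.ext (ChartFnHaupt.up_h3E M E h)

/-- **The chart function `u ∈ Fb M` has Model packages over all large number fields.** -/
def ChartUp (M : ℕ) [NeZero M] (A : ValuationSubring Qb) (u : Kummer.Fb M) : Prop :=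
  ∃ S₀ : Finset Qb, ∀ (E : IntermediateField ℚ Qb) [FiniteDimensional ℚ E]
    [IsDiscreteValuationRing (OE A E)], (∀ s ∈ S₀, s ∈ E) →
    ∃ uE : LE M E, Fermat.Agent.S18.K1Descent.upHom M E uE = u ∧ ChartModelC M (OE A E) E uE

variable (A : ValuationSubring Qb)

/-- The `j`-chart, `ℓ > 3`, `ℓ ∤ M`. -/
theorem chartUp_j (M : ℕ) [NeZero M] {ℓ : ℕ} [Fact ℓ.Prime] (hℓM : ¬ ℓ ∣ M)
    (hA : A.LiesOverPrime ℓ) (hℓ : 3 < ℓ) :
    ChartUp M A (Fermat.Agent.S24.DegreeGen.jBar M) := by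
  obtain ⟨S₀, h⟩ := exists_finset_chartModel_j A M hℓM hA hℓ
  exact ⟨S₀, fun E _ _ hE => ⟨jE M E, ChartFn.upHom_jE M E, h E hE⟩⟩

/-- The `h₂`-chart, `2 ∣ M`, `ℓ ∤ M`. -/
theorem chartUp_h2 (M : ℕ) [NeZero M] (h2M : 2 ∣ M) {ℓ : ℕ} [Fact ℓ.Prime] (hℓM : ¬ ℓ ∣ M)
    (hA : A.LiesOverPrime ℓ) : ChartUp M A (ChartFnHaupt.h2B M h2M) := by
  obtain ⟨S₀, h⟩ := exists_finset_chartModel_h2 A M h2M hℓM hA
  exact ⟨S₀, fun E _ _ hE => ⟨Haupt.HorizTwo.h2E M E h2M, upHom_h2E M E h2M, h E hE⟩⟩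

/-- The `h₃`-chart, `3 ∣ M`, `ℓ ∤ M`. -/
theorem chartUp_h3 (M : ℕ) [NeZero M] (h3M : 3 ∣ M) {ℓ : ℕ} [Fact ℓ.Prime] (hℓM : ¬ ℓ ∣ M)
    (hA : A.LiesOverPrime ℓ) : ChartUp M A (ChartFnHaupt.h3B M h3M) := by
  obtain ⟨S₀, h⟩ := exists_finset_chartModel_h3 A M h3M hℓM hA
  exact ⟨S₀, fun E _ _ hE => ⟨Haupt.HorizThree.h3E M E h3M, upHom_h3E M E h3M, h E hE⟩⟩

/-- The hypothesis `h₀` of `ChartInt.chartInt_zero` / `intZero_of_model` (literal shape). -/
theorem prime_zero_of_chartUp (M : ℕ) [NeZero M] (u : Kummer.Fb M) (h : ChartUp M A u) :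
    ∃ S₀ : Finset Qb, ∀ (E : IntermediateField ℚ Qb) [FiniteDimensional ℚ E]
      [IsDiscreteValuationRing (OE A E)], (∀ s ∈ S₀, s ∈ E) →
      letI := algebraOL (OE A E) E (LE M E)
      ∃ uE : LE M E, Fermat.Agent.S18.K1Descent.upHom M E uE = u ∧ Transcendental E uE ∧
        FiniteDimensional (IntermediateField.adjoin E {uE}) (LE M E) ∧
        ∃ π : OE A E, Irreducible π ∧
          Prime (GlueChart.piElt (Algebra.adjoin (OE A E) ({uE} : Set (LE M E))) π) := by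
  obtain ⟨S₀, h⟩ := h
  refine ⟨S₀, fun E _ _ hE => ?_⟩
  obtain ⟨uE, huE, hCM⟩ := h E hE
  letI := algebraOL (OE A E) E (LE M E)
  haveI := isScalarTower_OL (OE A E) E (LE M E)
  have hCM' : ChartModel M (OE A E) E uE := hCM
  obtain ⟨π, hπ⟩ := IsDiscreteValuationRing.exists_irreducible (OE A E)
  exact ⟨uE, huE, hCM'.tr, hCM'.fin, π, hπ, hCM'.prime_zero π hπ⟩

/-- The hypothesis `h∞` of `ChartInt.chartInt_inf` / `intInf_of_model` (literal shape). -/
theorem prime_inf_of_chartUp (M : ℕ) [NeZero M] (u : Kummer.Fb M) (h : ChartUp M A u) :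
    ∃ S₀ : Finset Qb, ∀ (E : IntermediateField ℚ Qb) [FiniteDimensional ℚ E]
      [IsDiscreteValuationRing (OE A E)], (∀ s ∈ S₀, s ∈ E) →
      letI := algebraOL (OE A E) E (LE M E)
      ∃ uE : LE M E, Fermat.Agent.S18.K1Descent.upHom M E uE = u ∧ Transcendental E uE ∧
        FiniteDimensional (IntermediateField.adjoin E {uE}) (LE M E) ∧
        ∃ π : OE A E, Irreducible π ∧
          Prime (GlueChart.piElt (Algebra.adjoin (OE A E) ({uE⁻¹} : Set (LE M E))) π) := by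
  obtain ⟨S₀, h⟩ := h
  refine ⟨S₀, fun E _ _ hE => ?_⟩
  obtain ⟨uE, huE, hCM⟩ := h E hE
  letI := algebraOL (OE A E) E (LE M E)
  haveI := isScalarTower_OL (OE A E) E (LE M E)
  have hCM' : ChartModel M (OE A E) E uE := hCM
  obtain ⟨π, hπ⟩ := IsDiscreteValuationRing.exists_irreducible (OE A E)
  exact ⟨uE, huE, hCM'.tr, hCM'.fin, π, hπ, hCM'.prime_inf π hπ⟩

end Fermat.Agent.S37.Fn.ModelUp
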