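/-
S37 (E7), row F14 (SmallPrimes): the chart inputs `Final.ChartData` for the primes `ℓ = 3` and
`ℓ = 2`, at the auxiliary levels `N * 2`, resp. `N * 3`.

For `ℓ = 3` (resp. `ℓ = 2`) the `j`-line is not a good chart, and the chart function is the
Hauptmodul `u = 1 / s_r` of `X_0(r)`, `r = 2` (resp. `r = 3`), an element of `Fb (N * r)` whose
`q`-series is `(coeffEmb Qb s_r)⁻¹`.  For ANY packaging `u : Fb M` of this series:

* `galStable_two`, `galStable_three`   : the contract `(GAL)` (rational `q`-expansion);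
* `heckeStable_two`, `heckeStable_three` : the contract `(HECKE)`, from the explicit modular
  equations `Haupt.ModEq.eval_phiTwo_coeffEmb`, `eval_phiThree_coeffEmb` and the generic
  `ChartStableFn.heckeStable`;
* `chartData_three_of`, `chartData_two_of` : `Final.ChartData (N * 2) A 3 h`, resp.
  `Final.ChartData (N * 3) A 2 h`, from the three remaining inputs
  (`IsRed` + pole, `InvPlaces`, `IntZero`/`IntInf`);
* `chartData_three_of_model`, `chartData_two_of_model` : the same for the LANDED chart functions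
  `ChartFnHaupt.h2B (N * 2) _`, `ChartFnHaupt.h3B (N * 3) _`, from `InvPlaces` (row F9b) and the
  two chart-integrality principles `Int.ChartInt` (row F6b) only;
* `chartData_three_of_inv`, `chartData_two_of_inv` : the same from `InvPlaces` ALONE (the chart
  integrality is discharged by `ChartInt.chartInt_zero`, `chartInt_inf` and the Model packages
  `ModelUp.chartUp_h2`, `chartUp_h3`).
-/
import Fermat.Agent.S37.Final
import Fermat.Agent.S37.Fn.GalStable
import Fermat.Agent.S37.ChartStableFn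
import Fermat.Agent.S30.Haupt.ModEq
import Fermat.Agent.S37.Fn.ChartFnHaupt
import Fermat.Agent.S37.Fn.IntPole
import Fermat.Agent.S37.Fn.ChartInt
import Fermat.Agent.S37.Fn.ModelUp

set_option autoImplicit false
set_option linter.unusedSectionVars false
set_option linter.style.haveILetI false
set_option synthInstance.maxHeartbeats 400000
set_option maxHeartbeats 1000000

noncomputable section

namespace Fermat.Agent.S37.Fn.Small

open ModularCurve AlgebraicCurve HahnSeries
open Fermat.Agent.S30 Fermat.Agent.S30.Haupt Fermat.Agent.S37 Fermat.Agent.S37.Fn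

local notation "Qb" => AlgebraicClosure ℚ
local notation "Gq" => (AlgebraicClosure ℚ ≃ₐ[ℚ] AlgebraicClosure ℚ)

/-! ### The generic assembly -/

/-- `Final.ChartData` from the provider shapes, for a chart function with rational
`q`-expansion. -/
theorem chartData_of_inputs (M : ℕ) [NeZero M] (A : ValuationSubring Qb) (ℓ : ℕ) [NeZero ℓ]
    (h : HeckeInputsAlong Qb M ℓ) (u : Kummer.Fb M)
    (hred : ∃ ub : LaurentSeries (Res A), IsRed M A u ub ∧ ub.order < 0)
    (hrat : ∃ w : LaurentSeries ℚ, coeffEmb Qb w = (u : LaurentSeries Qb))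
    (hInv : InvPlaces M A u) (hI0 : IntZero M A u) (hI1 : IntInf M A u)
    (hHecke : HeckeStable M A u ℓ h) : Final.ChartData M A ℓ h := by
  obtain ⟨ub, hu, hub⟩ := hred
  exact Final.ChartData.mk' u ub hu hub hInv hI0 hI1 (GalSt.galStable_of_rational M A u hrat)
    hHecke

/-! ### The chart `u = 1 / s2` (level divisible by `2`), Hecke prime `3` -/

section Two

variable (M : ℕ) [NeZero M] (A : ValuationSubring Qb) (u : Kummer.Fb M)

/-- A chart function with `q`-series `1 / s2` has rational `q`-expansion. -/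
theorem rational_two (hu : (u : LaurentSeries Qb) = (coeffEmb Qb Two.s2)⁻¹) :
    ∃ w : LaurentSeries ℚ, coeffEmb Qb w = (u : LaurentSeries Qb) :=
  ⟨Two.s2⁻¹, by rw [map_inv₀, hu]⟩

/-- `(GAL)` for the chart `1 / s2`. -/
theorem galStable_two (hu : (u : LaurentSeries Qb) = (coeffEmb Qb Two.s2)⁻¹) :
    GalStable M A u :=
  GalSt.galStable_of_rational M A u (rational_two M u hu)

/-- `(HECKE)` at `ℓ = 3` for the chart `1 / s2`. -/
theorem heckeStable_two (h3M : ¬ 3 ∣ M) (hA : A.LiesOverPrime 3)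
    (hu : (u : LaurentSeries Qb) = (coeffEmb Qb Two.s2)⁻¹) (hI : HeckeInputsAlong Qb M 3) :
    HeckeStable M A u 3 hI := by
  refine ChartStableFn.heckeStable Nat.prime_three h3M hA u (ModEq.phiTwoPoly A)
    ModEq.phiTwoPoly_monic ?_ hI
  show (ModEq.phiTwoPoly A).eval₂ (Polynomial.eval₂RingHom _ _) _ = 0
  rw [ModEq.eval₂_phiTwoPoly, hu]
  exact ModEq.eval_phiTwo_coeffEmb Qb

end Two

/-! ### The chart `u = 1 / s3` (level divisible by `3`), Hecke prime `2` -/

section Three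

variable (M : ℕ) [NeZero M] (A : ValuationSubring Qb) (u : Kummer.Fb M)

/-- A chart function with `q`-series `1 / s3` has rational `q`-expansion. -/
theorem rational_three (hu : (u : LaurentSeries Qb) = (coeffEmb Qb Three.s3)⁻¹) :
    ∃ w : LaurentSeries ℚ, coeffEmb Qb w = (u : LaurentSeries Qb) :=
  ⟨Three.s3⁻¹, by rw [map_inv₀, hu]⟩

/-- `(GAL)` for the chart `1 / s3`. -/
theorem galStable_three (hu : (u : LaurentSeries Qb) = (coeffEmb Qb Three.s3)⁻¹) :
    GalStable M A u :=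
  GalSt.galStable_of_rational M A u (rational_three M u hu)

/-- `(HECKE)` at `ℓ = 2` for the chart `1 / s3`. -/
theorem heckeStable_three (h2M : ¬ 2 ∣ M) (hA : A.LiesOverPrime 2)
    (hu : (u : LaurentSeries Qb) = (coeffEmb Qb Three.s3)⁻¹) (hI : HeckeInputsAlong Qb M 2) :
    HeckeStable M A u 2 hI := by
  refine ChartStableFn.heckeStable Nat.prime_two h2M hA u (ModEq.phiThreePoly A)
    ModEq.phiThreePoly_monic ?_ hI
  show (ModEq.phiThreePoly A).eval₂ (Polynomial.eval₂RingHom _ _) _ = 0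
  rw [ModEq.eval₂_phiThreePoly, hu]
  exact ModEq.eval_phiThree_coeffEmb Qb

end Three

/-! ### The two providers of `Final.result_of_chartData` -/

/-- A prime `ℓ` dividing neither `N` nor `r` does not divide the auxiliary level `N * r`. -/
theorem not_dvd_aux_level {N r ℓ : ℕ} (hℓ : ℓ.Prime) (hℓN : ¬ ℓ ∣ N) (hℓr : ¬ ℓ ∣ r) :
    ¬ ℓ ∣ N * r := fun hd => (hℓ.dvd_mul.1 hd).elim hℓN hℓr

/-- **`ℓ = 3`**: the chart inputs at level `N * 2` for a chart function `u` with `q`-series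
`1 / s2`, from `IsRed` + pole (row F15), `InvPlaces` (row F9b), `IntZero`/`IntInf` (rows F6b/F7).
`(GAL)` and `(HECKE)` are discharged here. -/
theorem chartData_three_of (N : ℕ) [NeZero N] (h3N : ¬ 3 ∣ N) (A : ValuationSubring Qb)
    (hA : A.LiesOverPrime 3) (h : HeckeInputsAlong Qb (N * 2) 3) (u : Kummer.Fb (N * 2))
    (hu : (u : LaurentSeries Qb) = (coeffEmb Qb Two.s2)⁻¹)
    (hred : ∃ ub : LaurentSeries (Res A), IsRed (N * 2) A u ub ∧ ub.order < 0)
    (hInv : InvPlaces (N * 2) A u) (hI0 : IntZero (N * 2) A u) (hI1 : IntInf (N * 2) A u) :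
    Final.ChartData (N * 2) A 3 h :=
  chartData_of_inputs (N * 2) A 3 h u hred (rational_two (N * 2) u hu) hInv hI0 hI1
    (heckeStable_two (N * 2) A u (not_dvd_aux_level Nat.prime_three h3N (by decide)) hA hu h)

/-- **`ℓ = 2`**: the chart inputs at level `N * 3` for a chart function `u` with `q`-series
`1 / s3`, from `IsRed` + pole (row F15), `InvPlaces` (row F9b), `IntZero`/`IntInf` (rows F6b/F7).
`(GAL)` and `(HECKE)` are discharged here. -/
theorem chartData_two_of (N : ℕ) [NeZero N] (h2N : ¬ 2 ∣ N) (A : ValuationSubring Qb)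
    (hA : A.LiesOverPrime 2) (h : HeckeInputsAlong Qb (N * 3) 2) (u : Kummer.Fb (N * 3))
    (hu : (u : LaurentSeries Qb) = (coeffEmb Qb Three.s3)⁻¹)
    (hred : ∃ ub : LaurentSeries (Res A), IsRed (N * 3) A u ub ∧ ub.order < 0)
    (hInv : InvPlaces (N * 3) A u) (hI0 : IntZero (N * 3) A u) (hI1 : IntInf (N * 3) A u) :
    Final.ChartData (N * 3) A 2 h :=
  chartData_of_inputs (N * 3) A 2 h u hred (rational_three (N * 3) u hu) hInv hI0 hI1
    (heckeStable_three (N * 3) A u (not_dvd_aux_level Nat.prime_two h2N (by decide)) hA hu h)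

/-! ### The providers for the landed chart functions `h2B`, `h3B` -/

/-- The chart function of the prime `3` at the auxiliary level `N * 2`. -/
abbrev u3 (N : ℕ) [NeZero N] : Kummer.Fb (N * 2) := ChartFnHaupt.h2B (N * 2) (dvd_mul_left 2 N)

/-- The chart function of the prime `2` at the auxiliary level `N * 3`. -/
abbrev u2 (N : ℕ) [NeZero N] : Kummer.Fb (N * 3) := ChartFnHaupt.h3B (N * 3) (dvd_mul_left 3 N)

/-- **`ℓ = 3`**, chart `h2B (N * 2) _`: `Final.ChartData` from `InvPlaces` (row F9b) and the two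
chart-integrality principles (row F6b). -/
theorem chartData_three_of_model (N : ℕ) [NeZero N] (h3N : ¬ 3 ∣ N) (A : ValuationSubring Qb)
    (hA : A.LiesOverPrime 3) (h : HeckeInputsAlong Qb (N * 2) 3)
    (hInv : InvPlaces (N * 2) A (u3 N))
    (hCI0 : ∀ ub : LaurentSeries (Res A), IsRed (N * 2) A (u3 N) ub → ub.order < 0 →
      Int.ChartInt (N * 2) A (fun P => 0 ≤ P.ord (u3 N)) ub)
    (hCI1 : ∀ ub : LaurentSeries (Res A), IsRed (N * 2) A (u3 N) ub → ub.order < 0 →
      Int.ChartInt (N * 2) A (fun P => P.ord (u3 N) ≤ 0) ub⁻¹) :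
    Final.ChartData (N * 2) A 3 h := by
  obtain ⟨ub, hu, hub⟩ := ChartFnHaupt.exists_isRed_h2B (N * 2) A (dvd_mul_left 2 N)
  exact chartData_three_of N h3N A hA h (u3 N) (ChartFnHaupt.coe_h2B (N * 2) (dvd_mul_left 2 N))
    ⟨ub, hu, hub⟩ hInv (Int.intZero_of_pole (u3 N) ub hu hub (hCI0 ub hu hub))
    (Int.intInf_of_pole (u3 N) ub hu hub (hCI1 ub hu hub))

/-- **`ℓ = 2`**, chart `h3B (N * 3) _`: `Final.ChartData` from `InvPlaces` (row F9b) and the two
chart-integrality principles (row F6b). -/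
theorem chartData_two_of_model (N : ℕ) [NeZero N] (h2N : ¬ 2 ∣ N) (A : ValuationSubring Qb)
    (hA : A.LiesOverPrime 2) (h : HeckeInputsAlong Qb (N * 3) 2)
    (hInv : InvPlaces (N * 3) A (u2 N))
    (hCI0 : ∀ ub : LaurentSeries (Res A), IsRed (N * 3) A (u2 N) ub → ub.order < 0 →
      Int.ChartInt (N * 3) A (fun P => 0 ≤ P.ord (u2 N)) ub)
    (hCI1 : ∀ ub : LaurentSeries (Res A), IsRed (N * 3) A (u2 N) ub → ub.order < 0 →
      Int.ChartInt (N * 3) A (fun P => P.ord (u2 N) ≤ 0) ub⁻¹) :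
    Final.ChartData (N * 3) A 2 h := by
  obtain ⟨ub, hu, hub⟩ := ChartFnHaupt.exists_isRed_h3B (N * 3) A (dvd_mul_left 3 N)
  exact chartData_two_of N h2N A hA h (u2 N) (ChartFnHaupt.coe_h3B (N * 3) (dvd_mul_left 3 N))
    ⟨ub, hu, hub⟩ hInv (Int.intZero_of_pole (u2 N) ub hu hub (hCI0 ub hu hub))
    (Int.intInf_of_pole (u2 N) ub hu hub (hCI1 ub hu hub))

/-! ### The providers from `InvPlaces` alone -/

/-- `(INT_0)` and `(INT_∞)` for the chart `h2B M _` (`2 ∣ M`, `ℓ ∤ M`). -/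
theorem int_h2B (M : ℕ) [NeZero M] (h2M : 2 ∣ M) {ℓ : ℕ} [Fact ℓ.Prime] (hℓM : ¬ ℓ ∣ M)
    (A : ValuationSubring Qb) (hA : A.LiesOverPrime ℓ) :
    IntZero M A (ChartFnHaupt.h2B M h2M) ∧ IntInf M A (ChartFnHaupt.h2B M h2M) := by
  obtain ⟨ub, hu, hub⟩ := ChartFnHaupt.exists_isRed_h2B M A h2M
  have hUp := ModelUp.chartUp_h2 A M h2M hℓM hA
  exact ⟨ChartInt.intZero_of_model hA _ ub hu hub (ModelUp.prime_zero_of_chartUp A M _ hUp),
    ChartInt.intInf_of_model hA _ ub hu hub (ModelUp.prime_inf_of_chartUp A M _ hUp)⟩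

/-- `(INT_0)` and `(INT_∞)` for the chart `h3B M _` (`3 ∣ M`, `ℓ ∤ M`). -/
theorem int_h3B (M : ℕ) [NeZero M] (h3M : 3 ∣ M) {ℓ : ℕ} [Fact ℓ.Prime] (hℓM : ¬ ℓ ∣ M)
    (A : ValuationSubring Qb) (hA : A.LiesOverPrime ℓ) :
    IntZero M A (ChartFnHaupt.h3B M h3M) ∧ IntInf M A (ChartFnHaupt.h3B M h3M) := by
  obtain ⟨ub, hu, hub⟩ := ChartFnHaupt.exists_isRed_h3B M A h3M
  have hUp := ModelUp.chartUp_h3 A M h3M hℓM hA
  exact ⟨ChartInt.intZero_of_model hA _ ub hu hub (ModelUp.prime_zero_of_chartUp A M _ hUp),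
    ChartInt.intInf_of_model hA _ ub hu hub (ModelUp.prime_inf_of_chartUp A M _ hUp)⟩

/-- **`ℓ = 3`**, chart `h2B (N * 2) _`: `Final.ChartData` from `InvPlaces` (row F9b) alone. -/
theorem chartData_three_of_inv (N : ℕ) [NeZero N] (h3N : ¬ 3 ∣ N) (A : ValuationSubring Qb)
    (hA : A.LiesOverPrime 3) (h : HeckeInputsAlong Qb (N * 2) 3)
    (hInv : InvPlaces (N * 2) A (u3 N)) : Final.ChartData (N * 2) A 3 h := by
  haveI : Fact (Nat.Prime 3) := ⟨Nat.prime_three⟩
  have h3M : ¬ 3 ∣ N * 2 := not_dvd_aux_level Nat.prime_three h3N (by decide)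
  obtain ⟨hI0, hI1⟩ := int_h2B (N * 2) (dvd_mul_left 2 N) h3M A hA
  exact chartData_three_of N h3N A hA h (u3 N) (ChartFnHaupt.coe_h2B (N * 2) (dvd_mul_left 2 N))
    (ChartFnHaupt.exists_isRed_h2B (N * 2) A (dvd_mul_left 2 N)) hInv hI0 hI1

/-- **`ℓ = 2`**, chart `h3B (N * 3) _`: `Final.ChartData` from `InvPlaces` (row F9b) alone. -/
theorem chartData_two_of_inv (N : ℕ) [NeZero N] (h2N : ¬ 2 ∣ N) (A : ValuationSubring Qb)
    (hA : A.LiesOverPrime 2) (h : HeckeInputsAlong Qb (N * 3) 2)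
    (hInv : InvPlaces (N * 3) A (u2 N)) : Final.ChartData (N * 3) A 2 h := by
  haveI : Fact (Nat.Prime 2) := ⟨Nat.prime_two⟩
  have h2M : ¬ 2 ∣ N * 3 := not_dvd_aux_level Nat.prime_two h2N (by decide)
  obtain ⟨hI0, hI1⟩ := int_h3B (N * 3) (dvd_mul_left 3 N) h2M A hA
  exact chartData_two_of N h2N A hA h (u2 N) (ChartFnHaupt.coe_h3B (N * 3) (dvd_mul_left 3 N))
    (ChartFnHaupt.exists_isRed_h3B (N * 3) A (dvd_mul_left 3 N)) hInv hI0 hI1

end Fermat.Agent.S37.Fn.Small
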