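import Fermat.Agent.S37.Fn.InvPlaces
import Fermat.Agent.S37.Fn.RatPointG
import Fermat.Agent.S37.Fn.ChartFnJ
import Fermat.Agent.S37.Fn.Small

/-!
# S37 / F9b, final form: `Fn.InvPlaces` for the three charts

* `invPlaces_of_chartUp` : **`Fn.InvPlaces M A u`** for every chart function `u` with a
  Gauss-integral reduction with a pole and the Model package `ModelUp.ChartUp M A u`
  (rational point data: `RatPointG.exists_ratData`; assembly: `InvPlaces.invAt_zero`,
  `InvPlaces.invAt_inf`).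
* `invPlaces_j`, `invPlaces_three`, `invPlaces_two` : the three hypotheses of
  `Penult.result_of_invPlaces` (`u = j` at level `N`, `ℓ > 3`; `u = h₂` at level `N * 2`,
  `ℓ = 3`; `u = h₃` at level `N * 3`, `ℓ = 2`).
-/

set_option autoImplicit false
set_option linter.unusedSectionVars false
set_option linter.style.haveILetI false
set_option synthInstance.maxHeartbeats 400000
set_option maxHeartbeats 1000000

noncomputable section

namespace Fermat.Agent.S37.Fn.InvFinal

open ModularCurve AlgebraicCurve HahnSeries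
open Fermat.Agent.S30 Fermat.Agent.S37.Fn Fermat.Agent.S30.Model
open Fermat.Agent.S18 Fermat.Agent.S18.K1Defs Fermat.Agent.S18.K1Main
open Fermat.Agent.S24.DegreeGen

local notation "Qb" => AlgebraicClosure ℚ

/-- **`(INV_P)` at every place of both charts**, from the Model package. -/
theorem invPlaces_of_chartUp {M : ℕ} [NeZero M] {A : ValuationSubring Qb} {ℓ : ℕ}
    [Fact ℓ.Prime] (hA : A.LiesOverPrime ℓ) (u : Kummer.Fb M) (ub : LaurentSeries (Res A))
    (hu : IsRed M A u ub) (hub : ub.order < 0) (hUp : ModelUp.ChartUp M A u) :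
    InvPlaces M A u := by
  have hG : E4.HasGaussNorm M A := E4.hasGaussNorm M ℓ A hA
  have htrB : Transcendental Qb u := Int.transcendental_of_isRed u ub hu hub
  have htrBinv : Transcendental Qb u⁻¹ := fun h => htrB (by simpa using h.inv)
  obtain ⟨S₀, hS⟩ := hUp
  -- finiteness over `E(t)` for the models of `u` and of `u⁻¹`
  have hfin0 : ∃ S₁ : Finset Qb, ∀ (E : IntermediateField ℚ Qb) [FiniteDimensional ℚ E]
      [IsDiscreteValuationRing (OE A E)], (∀ s ∈ S₁, s ∈ E) →
      ∀ t : LE M E, K1Descent.upHom M E t = u →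
        FiniteDimensional (IntermediateField.adjoin E {t}) (LE M E) := by
    refine ⟨S₀, fun E _ _ hE t ht => ?_⟩
    obtain ⟨uE, huE, hCM⟩ := hS E hE
    have e : t = uE := (K1Descent.upHom M E).injective (ht.trans huE.symm)
    letI := algebraOL (OE A E) E (LE M E)
    haveI := isScalarTower_OL (OE A E) E (LE M E)
    have hCM' : ModelInst.ChartModel M (OE A E) E uE := hCM
    rw [e]
    exact hCM'.fin
  have hfinInf : ∃ S₁ : Finset Qb, ∀ (E : IntermediateField ℚ Qb) [FiniteDimensional ℚ E]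
      [IsDiscreteValuationRing (OE A E)], (∀ s ∈ S₁, s ∈ E) →
      ∀ t : LE M E, K1Descent.upHom M E t = u⁻¹ →
        FiniteDimensional (IntermediateField.adjoin E {t}) (LE M E) := by
    refine ⟨S₀, fun E _ _ hE t ht => ?_⟩
    obtain ⟨uE, huE, hCM⟩ := hS E hE
    have e : t = uE⁻¹ := (K1Descent.upHom M E).injective (by rw [ht, map_inv₀, huE])
    letI := algebraOL (OE A E) E (LE M E)
    haveI := isScalarTower_OL (OE A E) E (LE M E)
    have hCM' : ModelInst.ChartModel M (OE A E) E uE := hCM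
    have e2 : IntermediateField.adjoin E {uE⁻¹} = IntermediateField.adjoin E {uE} := by
      apply le_antisymm
      · rw [IntermediateField.adjoin_simple_le_iff]
        exact inv_mem (IntermediateField.mem_adjoin_simple_self E uE)
      · rw [IntermediateField.adjoin_simple_le_iff]
        have h := inv_mem (IntermediateField.mem_adjoin_simple_self E uE⁻¹)
        rwa [inv_inv] at h
    rw [e, e2]
    exact hCM'.fin
  intro c P hPc
  cases c with
  | false =>
    obtain ⟨a, ha, hPa⟩ := (mem_chart_false M A).mp hPc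
    obtain ⟨E, hfd, hSE, hRD⟩ := RatPointG.exists_ratData M A hA u htrB hfin0 P a ha hPa S₀
    haveI := hfd
    haveI : IsDiscreteValuationRing (OE A E) := K1Descent.dvrDescent A Fact.out hA E
    obtain ⟨uE, huE, hCM⟩ := hS E hSE
    exact InvPlaces.invAt_zero E hG u ub hu hub P hPc uE huE hCM (hRD uE huE)
  | true =>
    obtain ⟨b, hb, hPb⟩ := InvQb.exists_inv_value (InvQb.ne_const_of_pole hu hub)
      ((mem_chart_true M A).mp hPc)
    obtain ⟨E, hfd, hSE, hRD⟩ := RatPointG.exists_ratData M A hA u⁻¹ htrBinv hfinInf P b hb hPb S₀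
    haveI := hfd
    haveI : IsDiscreteValuationRing (OE A E) := K1Descent.dvrDescent A Fact.out hA E
    obtain ⟨uE, huE, hCM⟩ := hS E hSE
    exact InvPlaces.invAt_inf E hG u ub hu hub P hPc uE huE hCM
      (hRD uE⁻¹ (by rw [map_inv₀, huE]))

/-- **`(INV_P)` for the `j`-chart** at level `N`, `ℓ > 3`, `ℓ ∤ N`. -/
theorem invPlaces_j (N : ℕ) [NeZero N] (ℓ : ℕ) (hℓ : ℓ.Prime) (h3 : 3 < ℓ) (hℓN : ¬ ℓ ∣ N)
    (A : ValuationSubring Qb) (hA : A.LiesOverPrime ℓ) : InvPlaces N A (jBar N) := by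
  haveI : Fact ℓ.Prime := ⟨hℓ⟩
  obtain ⟨ub, hu, hub⟩ := ChartFnJ.exists_isRed_jBar N A
  exact invPlaces_of_chartUp hA (jBar N) ub hu hub (ModelUp.chartUp_j A N hℓN hA h3)

/-- **`(INV_P)` for the `h₂`-chart** at level `N * 2`, `ℓ = 3 ∤ N`. -/
theorem invPlaces_three (N : ℕ) [NeZero N] (h3N : ¬ 3 ∣ N) (A : ValuationSubring Qb)
    (hA : A.LiesOverPrime 3) : InvPlaces (N * 2) A (Small.u3 N) := by
  haveI : Fact (Nat.Prime 3) := ⟨Nat.prime_three⟩
  have h3M : ¬ 3 ∣ N * 2 := Small.not_dvd_aux_level Nat.prime_three h3N (by decide)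
  obtain ⟨ub, hu, hub⟩ := ChartFnHaupt.exists_isRed_h2B (N * 2) A (dvd_mul_left 2 N)
  exact invPlaces_of_chartUp hA (Small.u3 N) ub hu hub
    (ModelUp.chartUp_h2 A (N * 2) (dvd_mul_left 2 N) h3M hA)

/-- **`(INV_P)` for the `h₃`-chart** at level `N * 3`, `ℓ = 2 ∤ N`. -/
theorem invPlaces_two (N : ℕ) [NeZero N] (h2N : ¬ 2 ∣ N) (A : ValuationSubring Qb)
    (hA : A.LiesOverPrime 2) : InvPlaces (N * 3) A (Small.u2 N) := by
  haveI : Fact (Nat.Prime 2) := ⟨Nat.prime_two⟩
  have h2M : ¬ 2 ∣ N * 3 := Small.not_dvd_aux_level Nat.prime_two h2N (by decide)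
  obtain ⟨ub, hu, hub⟩ := ChartFnHaupt.exists_isRed_h3B (N * 3) A (dvd_mul_left 3 N)
  exact invPlaces_of_chartUp hA (Small.u2 N) ub hu hub
    (ModelUp.chartUp_h3 A (N * 3) (dvd_mul_left 3 N) h2M hA)

end Fermat.Agent.S37.Fn.InvFinal
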