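import Mathlib
import Fermat.Agent.S24.FF.Principal

/-!
# S37 / F7 (abstract part): `INT_0` and `INT_∞` from the chart-integrality principle

Setting: `F / K` a function field (Prelude `Place K F`), `A` a valuation subring of the constant
field `K`, `u : F` a chart function, `V ⊆ F` a subring ("Gauss ring") with a reduction
`red : V →+* R` into an algebra `R` over the residue field `k` of `A` such that the constants of
`A` lie in `V` and reduce to their residue classes.

* `int_zero` : if every `y ∈ V` which is regular wherever `u` is finite satisfies `Q (red y)`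
  (chart-integrality principle on the chart `u`), then every `x ∈ V` which is regular at all places
  `P` with `u(P) ∈ A` satisfies `Q (red x)`.
  (`x = y / g`, `g = ∏ (1 - u / u(P_i)) ^ n_i` over the poles `P_i` of `x` with `u(P_i)` finite;
  `u(P_i) ∉ A`, so `red g = 1`.)
* `int_infty` : with `t = u⁻¹ ∈ V`: if every `y ∈ V` regular wherever `t` is finite satisfies
  `Q (red y)`, then for every `x ∈ V` regular at all places `P` with `u(P) ∉ A` there is
  `G ∈ k[X]`, `G(0) = 1`, with `Q (red x * G(red t))`.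
  (`g = ∏ (1 - u(P_i) t) ^ n_i` over the poles `P_i` of `x` with `u(P_i) ≠ 0`.)

`Q` is an arbitrary predicate (in the application: `IsIntegral (Algebra.adjoin k {ū})`, resp.
`IsIntegral (Algebra.adjoin k {ū⁻¹})`).
-/

set_option autoImplicit false

namespace Fermat.Agent.S37.Fn.IntAbs

open AlgebraicCurve Polynomial

section Ord

variable {K F : Type*} [Field K] [Field F] [Algebra K F]

theorem ord_pow (P : Place K F) (f : F) (m : ℕ) : P.ord (f ^ m) = m * P.ord f := by
  have h := P.ord_zpow f (m : ℤ)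
  rwa [zpow_natCast] at h

theorem ord_prod (P : Place K F) {ι : Type*} (s : Finset ι) (f : ι → F)
    (hf : ∀ i ∈ s, f i ≠ 0) : P.ord (∏ i ∈ s, f i) = ∑ i ∈ s, P.ord (f i) := by
  classical
  induction s using Finset.induction_on with
  | empty => simp
  | insert a s ha ih =>
    rw [Finset.prod_insert ha, Finset.sum_insert ha,
      P.ord_mul (hf a (Finset.mem_insert_self a s))
        (Finset.prod_ne_zero_iff.mpr fun i hi => hf i (Finset.mem_insert_of_mem hi)),
      ih fun i hi => hf i (Finset.mem_insert_of_mem hi)]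

/-- `1 - c u` is regular where `u` is. -/
theorem ord_one_sub_nonneg (P : Place K F) (c : K) {u : F} (hu : 0 ≤ P.ord u)
    (hne : 1 - algebraMap K F c * u ≠ 0) : 0 ≤ P.ord (1 - algebraMap K F c * u) := by
  have h := Fermat.Agent.S24.FF.ord_sub_ge P hne
  rw [P.ord_one] at h
  have h2 : 0 ≤ P.ord (algebraMap K F c * u) := by
    rcases eq_or_ne c 0 with rfl | hc
    · simp
    rcases eq_or_ne u 0 with rfl | hu0
    · simp
    rw [P.ord_mul ((map_ne_zero_iff _ (algebraMap K F).injective).mpr hc) hu0,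
      Fermat.Agent.S24.FF.ord_algebraMap]
    omega
  exact le_trans (le_min le_rfl h2) h

end Ord

section Main

variable {K F : Type*} [Field K] [Field F] [Algebra K F]
  (A : ValuationSubring K) (u : F)
  {R : Type*} [CommRing R] [Algebra (IsLocalRing.ResidueField A) R]
  (V : Subring F) (red : V →+* R)

/-- `u(P) ∈ A`: the place `P` is a zero of `u - a` for some `a ∈ A`. -/
def UInt (P : Place K F) : Prop := ∃ a : A, 0 < P.ord (u - algebraMap K F (a : K))

variable {A u V}

/-- **`INT_0` (abstract).** -/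
theorem int_zero
    (hconst : ∀ a : A, ∃ h : algebraMap K F (a : K) ∈ V,
      red ⟨_, h⟩ = algebraMap (IsLocalRing.ResidueField A) R (IsLocalRing.residue A a))
    (huV : u ∈ V)
    (hfin : ∀ f : F, f ≠ 0 → {P : Place K F | P.ord f < 0}.Finite)
    (hres : ∀ P : Place K F, 0 ≤ P.ord u → ∃ b : K, 0 < P.ord (u - algebraMap K F b))
    (Q : R → Prop)
    (hCI : ∀ (y : F) (hy : y ∈ V), (∀ P : Place K F, 0 ≤ P.ord u → 0 ≤ P.ord y) →
      Q (red ⟨y, hy⟩))
    (x : F) (hx : x ∈ V) (hx0 : ∀ P : Place K F, UInt A u P → 0 ≤ P.ord x) :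
    Q (red ⟨x, hx⟩) := by
  classical
  rcases eq_or_ne x 0 with rfl | hxne
  · exact hCI 0 hx (fun P _ => by simp)
  -- the poles of `x` at which `u` is finite
  set T : Finset (Place K F) := (hfin x hxne).toFinset.filter (fun P => 0 ≤ P.ord u) with hT
  have hTmem : ∀ P : Place K F, P ∈ T ↔ P.ord x < 0 ∧ 0 ≤ P.ord u := by
    intro P
    rw [hT, Finset.mem_filter, Set.Finite.mem_toFinset]
    rfl
  -- the values of `u` at these poles
  have hb : ∀ P : Place K F, ∃ b : K, P ∈ T → 0 < P.ord (u - algebraMap K F b) := by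
    intro P
    by_cases hP : P ∈ T
    · obtain ⟨b, hb⟩ := hres P ((hTmem P).mp hP).2
      exact ⟨b, fun _ => hb⟩
    · exact ⟨0, fun h => absurd h hP⟩
  choose b hb using hb
  have hbA : ∀ P ∈ T, b P ∉ A := by
    intro P hP hmem
    have := hx0 P ⟨⟨b P, hmem⟩, hb P hP⟩
    have := ((hTmem P).mp hP).1
    omega
  have hb0 : ∀ P ∈ T, b P ≠ 0 := fun P hP h0 => hbA P hP (h0 ▸ A.zero_mem)
  have hinvA : ∀ P ∈ T, (b P)⁻¹ ∈ A := fun P hP =>
    (A.mem_or_inv_mem (b P)).resolve_left (hbA P hP)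
  -- the factors
  set φ : Place K F → F := fun P => 1 - algebraMap K F (b P)⁻¹ * u with hφ
  have hφeq : ∀ P ∈ T, φ P = -algebraMap K F (b P)⁻¹ * (u - algebraMap K F (b P)) := by
    intro P hP
    have h1 : algebraMap K F (b P)⁻¹ * algebraMap K F (b P) = 1 := by
      rw [← map_mul, inv_mul_cancel₀ (hb0 P hP), map_one]
    rw [hφ]
    linear_combination (-1 : F) * h1
  have hsub0 : ∀ P ∈ T, u - algebraMap K F (b P) ≠ 0 := by
    intro P hP h0
    have := hb P hP
    rw [h0] at this
    simp at this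
  have hc0 : ∀ P ∈ T, -algebraMap K F (b P)⁻¹ ≠ 0 := fun P hP =>
    neg_ne_zero.mpr ((map_ne_zero_iff _ (algebraMap K F).injective).mpr (inv_ne_zero (hb0 P hP)))
  have hφ0 : ∀ P ∈ T, φ P ≠ 0 := by
    intro P hP
    rw [hφeq P hP]
    exact mul_ne_zero (hc0 P hP) (hsub0 P hP)
  have hφV : ∀ P ∈ T, φ P ∈ V := by
    intro P hP
    obtain ⟨h, -⟩ := hconst ⟨(b P)⁻¹, hinvA P hP⟩
    exact V.sub_mem V.one_mem (V.mul_mem h huV)
  have hφred : ∀ P (hP : P ∈ T), red ⟨φ P, hφV P hP⟩ = 1 := by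
    intro P hP
    obtain ⟨h, hr⟩ := hconst ⟨(b P)⁻¹, hinvA P hP⟩
    have hres0 : IsLocalRing.residue A ⟨(b P)⁻¹, hinvA P hP⟩ = 0 := by
      rw [IsLocalRing.residue_eq_zero_iff, IsLocalRing.mem_maximalIdeal, mem_nonunits_iff]
      intro hunit
      apply hbA P hP
      obtain ⟨w, hw⟩ := isUnit_iff_exists_inv.mp hunit
      have h1 : (b P)⁻¹ * (w : K) = 1 := congrArg Subtype.val hw
      have h2 : (w : K) = b P := by
        have := eq_inv_of_mul_eq_one_right h1
        rwa [inv_inv] at this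
      rw [← h2]
      exact w.2
    have h1 : (⟨φ P, hφV P hP⟩ : V) = 1 - ⟨_, h⟩ * ⟨u, huV⟩ := Subtype.ext rfl
    rw [h1, map_sub, map_one, map_mul, hr, hres0, map_zero, zero_mul, sub_zero]
  -- the multiplier
  set n : Place K F → ℕ := fun P => (-(P.ord x)).toNat with hn
  set g : F := ∏ P ∈ T, φ P ^ n P with hg
  have hgV : g ∈ V := Subring.prod_mem V (fun P hP => V.pow_mem (hφV P hP) _)
  have hgred : red ⟨g, hgV⟩ = 1 := by
    have h1 : (⟨g, hgV⟩ : V) = ∏ P ∈ T.attach, (⟨φ P.1, hφV P.1 P.2⟩ : V) ^ n P.1 := by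
      apply Subtype.ext
      change g = V.subtype (∏ P ∈ T.attach, (⟨φ P.1, hφV P.1 P.2⟩ : V) ^ n P.1)
      rw [map_prod, hg, ← Finset.prod_attach]
      rfl
    rw [h1, map_prod]
    refine Finset.prod_eq_one fun P _ => ?_
    rw [map_pow, hφred P.1 P.2, one_pow]
  have hg0 : g ≠ 0 := Finset.prod_ne_zero_iff.mpr fun P hP => pow_ne_zero _ (hφ0 P hP)
  -- `y = x g` is regular wherever `u` is finite
  have hyV : x * g ∈ V := V.mul_mem hx hgV
  have hreg : ∀ P : Place K F, 0 ≤ P.ord u → 0 ≤ P.ord (x * g) := by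
    intro P hPu
    rw [P.ord_mul hxne hg0, hg, ord_prod P T _ (fun P' hP' => pow_ne_zero _ (hφ0 P' hP'))]
    have hterm : ∀ P' ∈ T, 0 ≤ P.ord (φ P' ^ n P') := by
      intro P' hP'
      rw [ord_pow]
      exact mul_nonneg (Int.natCast_nonneg _) (ord_one_sub_nonneg P _ hPu (hφ0 P' hP'))
    by_cases hxP : 0 ≤ P.ord x
    · exact add_nonneg hxP (Finset.sum_nonneg hterm)
    · have hPT : P ∈ T := (hTmem P).mpr ⟨by omega, hPu⟩
      have h1 : P.ord (φ P ^ n P) ≤ ∑ P' ∈ T, P.ord (φ P' ^ n P') :=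
        Finset.single_le_sum hterm hPT
      have h2 : (n P : ℤ) ≤ P.ord (φ P ^ n P) := by
        rw [ord_pow, hφeq P hPT, P.ord_mul (hc0 P hPT) (hsub0 P hPT),
          Fermat.Agent.S24.FF.ord_neg, Fermat.Agent.S24.FF.ord_algebraMap, zero_add]
        have := hb P hPT
        nlinarith [Int.natCast_nonneg (n P)]
      have h3 : (n P : ℤ) = -(P.ord x) := by
        rw [hn]
        exact Int.toNat_of_nonneg (by omega)
      omega
  have hQ := hCI (x * g) hyV hreg
  have h1 : (⟨x * g, hyV⟩ : V) = ⟨x, hx⟩ * ⟨g, hgV⟩ := Subtype.ext rfl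
  rwa [h1, map_mul, hgred, mul_one] at hQ

/-- **`INT_∞` (abstract).**  `t = u⁻¹`. -/
theorem int_infty
    (hconst : ∀ a : A, ∃ h : algebraMap K F (a : K) ∈ V,
      red ⟨_, h⟩ = algebraMap (IsLocalRing.ResidueField A) R (IsLocalRing.residue A a))
    (t : F) (hut : u * t = 1) (htV : t ∈ V)
    (hfin : ∀ f : F, f ≠ 0 → {P : Place K F | P.ord f < 0}.Finite)
    (Q : R → Prop)
    (hCI : ∀ (y : F) (hy : y ∈ V), (∀ P : Place K F, P.ord u ≤ 0 → 0 ≤ P.ord y) →
      Q (red ⟨y, hy⟩))
    (x : F) (hx : x ∈ V) (hx0 : ∀ P : Place K F, ¬ UInt A u P → 0 ≤ P.ord x) :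
    ∃ G : (IsLocalRing.ResidueField A)[X], G.eval 0 = 1 ∧
      Q (red ⟨x, hx⟩ * aeval (red ⟨t, htV⟩) G) := by
  classical
  rcases eq_or_ne x 0 with rfl | hxne
  · refine ⟨1, by simp, ?_⟩
    have := hCI 0 hx (fun P _ => by simp)
    simpa using this
  have hu0 : u ≠ 0 := fun h => by rw [h, zero_mul] at hut; exact zero_ne_one hut
  have ht0 : t ≠ 0 := fun h => by rw [h, mul_zero] at hut; exact zero_ne_one hut
  have htinv : t = u⁻¹ := eq_inv_of_mul_eq_one_right hut
  have hordt : ∀ P : Place K F, P.ord t = -P.ord u := fun P => by rw [htinv, P.ord_inv]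
  -- the poles of `x` at which `t` is finite
  set T : Finset (Place K F) := (hfin x hxne).toFinset.filter (fun P => P.ord u ≤ 0) with hT
  have hTmem : ∀ P : Place K F, P ∈ T ↔ P.ord x < 0 ∧ P.ord u ≤ 0 := by
    intro P
    rw [hT, Finset.mem_filter, Set.Finite.mem_toFinset]
    rfl
  have ha : ∀ P : Place K F, ∃ a : A, P ∈ T → 0 < P.ord (u - algebraMap K F (a : K)) := by
    intro P
    by_cases hP : P ∈ T
    · have h1 : UInt A u P := by
        by_contra hcon
        have := hx0 P hcon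
        have := ((hTmem P).mp hP).1
        omega
      obtain ⟨a, ha⟩ := h1
      exact ⟨a, fun _ => ha⟩
    · exact ⟨0, fun h => absurd h hP⟩
  choose a ha using ha
  -- the factors
  set φ : Place K F → F := fun P => 1 - algebraMap K F (a P : K) * t with hφ
  have hφeq : ∀ P, φ P = t * (u - algebraMap K F (a P : K)) := by
    intro P
    rw [hφ]
    linear_combination (-1 : F) * hut
  have hsub0 : ∀ P ∈ T, u - algebraMap K F (a P : K) ≠ 0 := by
    intro P hP h0
    have := ha P hP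
    rw [h0] at this
    simp at this
  have hφ0 : ∀ P ∈ T, φ P ≠ 0 := by
    intro P hP
    rw [hφeq P]
    exact mul_ne_zero ht0 (hsub0 P hP)
  have hφV : ∀ P, φ P ∈ V := by
    intro P
    obtain ⟨h, -⟩ := hconst (a P)
    exact V.sub_mem V.one_mem (V.mul_mem h htV)
  set ψ : Place K F → (IsLocalRing.ResidueField A)[X] :=
    fun P => 1 - C (IsLocalRing.residue A (a P)) * X with hψ
  have hφred : ∀ P, red ⟨φ P, hφV P⟩ = aeval (red ⟨t, htV⟩) (ψ P) := by
    intro P
    obtain ⟨h, hr⟩ := hconst (a P)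
    have h1 : (⟨φ P, hφV P⟩ : V) = 1 - ⟨_, h⟩ * ⟨t, htV⟩ := Subtype.ext rfl
    rw [h1, map_sub, map_one, map_mul, hr, hψ]
    simp
  -- the multiplier
  set n : Place K F → ℕ := fun P => (-(P.ord x)).toNat with hn
  set g : F := ∏ P ∈ T, φ P ^ n P with hg
  have hgV : g ∈ V := Subring.prod_mem V (fun P _ => V.pow_mem (hφV P) _)
  set G : (IsLocalRing.ResidueField A)[X] := ∏ P ∈ T, ψ P ^ n P with hG
  have hgred : red ⟨g, hgV⟩ = aeval (red ⟨t, htV⟩) G := by
    have h1 : (⟨g, hgV⟩ : V) = ∏ P ∈ T, (⟨φ P, hφV P⟩ : V) ^ n P := by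
      apply Subtype.ext
      change g = V.subtype (∏ P ∈ T, (⟨φ P, hφV P⟩ : V) ^ n P)
      rw [map_prod, hg]
      rfl
    rw [h1, map_prod, hG, map_prod]
    refine Finset.prod_congr rfl fun P _ => ?_
    rw [map_pow, hφred P, map_pow]
  have hG0 : G.eval 0 = 1 := by
    rw [hG, eval_prod]
    refine Finset.prod_eq_one fun P _ => ?_
    rw [eval_pow, hψ]
    simp
  have hg0 : g ≠ 0 := Finset.prod_ne_zero_iff.mpr fun P hP => pow_ne_zero _ (hφ0 P hP)
  -- `y = x g` is regular wherever `t` is finite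
  have hyV : x * g ∈ V := V.mul_mem hx hgV
  have hreg : ∀ P : Place K F, P.ord u ≤ 0 → 0 ≤ P.ord (x * g) := by
    intro P hPu
    have hPt : 0 ≤ P.ord t := by rw [hordt]; omega
    rw [P.ord_mul hxne hg0, hg, ord_prod P T _ (fun P' hP' => pow_ne_zero _ (hφ0 P' hP'))]
    have hterm : ∀ P' ∈ T, 0 ≤ P.ord (φ P' ^ n P') := by
      intro P' hP'
      rw [ord_pow]
      exact mul_nonneg (Int.natCast_nonneg _) (ord_one_sub_nonneg P _ hPt (hφ0 P' hP'))
    by_cases hxP : 0 ≤ P.ord x
    · exact add_nonneg hxP (Finset.sum_nonneg hterm)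
    · have hPT : P ∈ T := (hTmem P).mpr ⟨by omega, hPu⟩
      have h1 : P.ord (φ P ^ n P) ≤ ∑ P' ∈ T, P.ord (φ P' ^ n P') :=
        Finset.single_le_sum hterm hPT
      have h2 : (n P : ℤ) ≤ P.ord (φ P ^ n P) := by
        rw [ord_pow, hφeq P, P.ord_mul ht0 (hsub0 P hPT)]
        have := ha P hPT
        nlinarith [Int.natCast_nonneg (n P)]
      have h3 : (n P : ℤ) = -(P.ord x) := by
        rw [hn]
        exact Int.toNat_of_nonneg (by omega)
      omega
  refine ⟨G, hG0, ?_⟩
  have hQ := hCI (x * g) hyV hreg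
  have h1 : (⟨x * g, hyV⟩ : V) = ⟨x, hx⟩ * ⟨g, hgV⟩ := Subtype.ext rfl
  rwa [h1, map_mul, hgred] at hQ

end Main

section Providers

variable {K F : Type*} [Field K] [Field F] [Algebra K F]

/-- Provider of `hfin` for function fields of one variable. -/
theorem poles_finite_of_trdeg [IsAlgClosed K] [CharZero K] [Algebra.EssFiniteType K F]
    (htr : Algebra.trdeg K F = 1) (f : F) (hf : f ≠ 0) :
    {P : Place K F | P.ord f < 0}.Finite :=
  (Fermat.Agent.S24.FF.support_ord_finite htr hf).subset (fun P hP => by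
    simp only [Set.mem_ofPred_eq] at hP ⊢
    omega)

/-- Provider of `hres` for function fields of one variable over an algebraically closed field. -/
theorem exists_sub_ord_pos_of_trdeg [IsAlgClosed K] (htr : Algebra.trdeg K F = 1) {u : F}
    (hu : Transcendental K u) (P : Place K F) (hP : 0 ≤ P.ord u) :
    ∃ b : K, 0 < P.ord (u - algebraMap K F b) := by
  have hu0 : u ≠ 0 := fun h => hu (h ▸ isAlgebraic_zero)
  obtain ⟨c, hc | hc⟩ := Fermat.Agent.S24.FF.exists_residue htr P
    ((Fermat.Agent.S24.FF.ord_nonneg_iff P hu0).mp hP)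
  · exact absurd (hc ▸ isAlgebraic_algebraMap c) hu
  · exact ⟨c, hc⟩

end Providers

section Descend

/-! ### The chart-integrality principle from a chart ring with the `q`-expansion principle -/

variable {W R C : Type*} [CommRing W] [IsDomain W] [CommRing R] [CommRing C]

/-- **Descending the exponent.**  `C` a chart ring mapping to `W` with image in the Gauss ring `V`,
`π ∈ C` with `red π = 0` and the `q`-expansion principle (`red c = 0 ⇒ π ∣ c` in `C`).  If
`π ^ n * y` lies in (the image of) `C` and `y ∈ V`, then `y` lies in the image of `C`. -/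
theorem exists_eq_of_pow_mul_eq (V : Subring W) (red : V →+* R) (i : C →+* W)
    (hiV : ∀ c : C, i c ∈ V) (π : C) (hπ0 : i π ≠ 0) (hπred : red ⟨i π, hiV π⟩ = 0)
    (hqep : ∀ c : C, red ⟨i c, hiV c⟩ = 0 → π ∣ c)
    (y : W) (hyV : y ∈ V) (n : ℕ) (c : C) (hc : i π ^ n * y = i c) : ∃ c' : C, i c' = y := by
  induction n generalizing c with
  | zero => exact ⟨c, by rw [← hc, pow_zero, one_mul]⟩
  | succ n ih =>
    have h1 : (⟨i c, hiV c⟩ : V) = ⟨i π, hiV π⟩ ^ (n + 1) * ⟨y, hyV⟩ :=
      Subtype.ext hc.symm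
    have h2 : red ⟨i c, hiV c⟩ = 0 := by
      rw [h1, map_mul, map_pow, hπred, zero_pow (Nat.succ_ne_zero n), zero_mul]
    obtain ⟨c₁, rfl⟩ := hqep c h2
    refine ih c₁ ?_
    apply mul_left_cancel₀ hπ0
    rw [← map_mul, ← hc]
    ring

/-- The reduction of an element integral over the base of the chart is integral over the image
of the base. -/
theorem isIntegral_map_of_isIntegral {B : Type*} [CommRing B] [Algebra B C] (ψ : C →+* R)
    (S : Subring R) (hB : ∀ b : B, ψ (algebraMap B C b) ∈ S) (c : C) (hc : IsIntegral B c) :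
    IsIntegral S (ψ c) := by
  obtain ⟨p, hp, hpc⟩ := hc
  let φ : B →+* S := (ψ.comp (algebraMap B C)).codRestrict S hB
  refine ⟨p.map φ, hp.map φ, ?_⟩
  have h1 : (algebraMap S R).comp φ = ψ.comp (algebraMap B C) := by
    ext b
    rfl
  rw [Polynomial.eval₂_map, h1, ← Polynomial.hom_eval₂, hpc, map_zero]

end Descend

end Fermat.Agent.S37.Fn.IntAbs
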