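import Fermat.Agent.S37.Fn.Defs
import Fermat.Agent.S37.Fn.IntAbs
import Fermat.Agent.S30.HeckeInputs

/-!
# S37 / F7: the contract `Prop`s `IntZero` and `IntInf` from the chart-integrality principle

Vocabulary of `Fn/Defs.lean` (`IsRed`, `UInt`, `chart`, `Mc`).

* `gaussV M A` : the Gauss valuation ring `{x ∈ Fb M | ∃ y, IsRed M A x y}` as a subring, with
  the reduction `gaussRed : gaussV M A →+* k((q))`.
* `ChartInt M A u S ub'` : **chart-integrality principle** on the chart where `S` holds
  (`S P := 0 ≤ P.ord u` for the chart `u`, `S P := P.ord u ≤ 0` for the chart `u⁻¹`): every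
  Gauss-integral function which is regular at all places of the chart has reduction integral over
  `k[ub']`.  This is what the finite-level chart package (row F6) + `Prime π` deliver.
* `intZero` : `ChartInt` on the chart `u` ⇒ `IntZero M A u`.
* `intInf`  : `ChartInt` on the chart `u⁻¹` ⇒ `IntInf M A u` (for `u` with nonzero reduction).
-/

set_option autoImplicit false
set_option linter.unusedSectionVars false
set_option synthInstance.maxHeartbeats 400000
set_option maxHeartbeats 1000000

noncomputable section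

namespace Fermat.Agent.S37.Fn.Int

open ModularCurve AlgebraicCurve HahnSeries Polynomial
open Fermat.Agent.S30 Fermat.Agent.S37.Fn

local notation "Qb" => AlgebraicClosure ℚ

variable (M : ℕ) (A : ValuationSubring Qb)

/-- The Gauss valuation ring of `A` in `Fb M`. -/
def gaussV : Subring (Kummer.Fb M) where
  carrier := {x | ∃ y, IsRed M A x y}
  mul_mem' := fun ⟨a, ha⟩ ⟨b, hb⟩ => ⟨a * b, ha.mul hb⟩
  one_mem' := ⟨1, isRed_one⟩
  add_mem' := fun ⟨a, ha⟩ ⟨b, hb⟩ => ⟨a + b, ha.add hb⟩
  zero_mem' := ⟨0, isRed_zero⟩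
  neg_mem' := fun ⟨a, ha⟩ => ⟨-a, ha.neg⟩

theorem mem_gaussV {x : Kummer.Fb M} : x ∈ gaussV M A ↔ ∃ y, IsRed M A x y := Iff.rfl

/-- The reduction of an element of the Gauss valuation ring. -/
def redFun (x : gaussV M A) : LaurentSeries (Res A) := Classical.choose x.2

theorem isRed_redFun (x : gaussV M A) : IsRed M A (x : Kummer.Fb M) (redFun M A x) :=
  Classical.choose_spec x.2

theorem redFun_eq (x : gaussV M A) {y : LaurentSeries (Res A)}
    (h : IsRed M A (x : Kummer.Fb M) y) : redFun M A x = y :=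
  (isRed_redFun M A x).unique h

/-- The reduction map of the Gauss valuation ring. -/
def gaussRed : gaussV M A →+* LaurentSeries (Res A) where
  toFun := redFun M A
  map_one' := redFun_eq M A 1 isRed_one
  map_mul' x y := redFun_eq M A (x * y) ((isRed_redFun M A x).mul (isRed_redFun M A y))
  map_zero' := redFun_eq M A 0 isRed_zero
  map_add' x y := redFun_eq M A (x + y) ((isRed_redFun M A x).add (isRed_redFun M A y))

theorem gaussRed_eq {x : Kummer.Fb M} (hx : x ∈ gaussV M A) {y : LaurentSeries (Res A)}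
    (h : IsRed M A x y) : gaussRed M A ⟨x, hx⟩ = y :=
  redFun_eq M A ⟨x, hx⟩ h

/-- Constants of `A` are Gauss-integral and reduce to their residue classes. -/
theorem isRed_const (a : A) :
    IsRed M A (algebraMap Qb (Kummer.Fb M) (a : Qb))
      (algebraMap (Res A) (LaurentSeries (Res A)) (IsLocalRing.residue A a)) := by
  have h1 : Congr.incl A (HahnSeries.single 0 a) =
      ((algebraMap Qb (Kummer.Fb M) (a : Qb) : Kummer.Fb M) : LaurentSeries Qb) := by
    have h2 : ((algebraMap Qb (Kummer.Fb M) (a : Qb) : Kummer.Fb M) : LaurentSeries Qb) =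
        algebraMap Qb (LaurentSeries Qb) (a : Qb) := rfl
    rw [h2, algebraMap_laurentSeries_eq_single]
    show coeffMap A.subtype (HahnSeries.single 0 a) = _
    rw [coeffMap_single]
    rfl
  have hmem : Congr.incl A (HahnSeries.single 0 a) ∈ Kummer.Fb M := by
    rw [h1]; exact (algebraMap Qb (Kummer.Fb M) (a : Qb)).2
  have h3 := isRed_incl (M := M) (A := A) (HahnSeries.single 0 a) hmem
  have e : (⟨Congr.incl A (HahnSeries.single 0 a), hmem⟩ : Kummer.Fb M) =
      algebraMap Qb (Kummer.Fb M) (a : Qb) := Subtype.ext h1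
  have h4 : Congr.red A (HahnSeries.single 0 a) =
      algebraMap (Res A) (LaurentSeries (Res A)) (IsLocalRing.residue A a) := by
    rw [algebraMap_laurentSeries_eq_single]
    show coeffMap (IsLocalRing.residue A) (HahnSeries.single 0 a) = _
    rw [coeffMap_single]
  rwa [e, h4] at h3

theorem gaussRed_const (a : A) :
    ∃ h : algebraMap Qb (Kummer.Fb M) (a : Qb) ∈ gaussV M A,
      gaussRed M A ⟨_, h⟩ = algebraMap (Res A) (LaurentSeries (Res A))
        (IsLocalRing.residue A a) :=
  ⟨⟨_, isRed_const M A a⟩, gaussRed_eq M A _ (isRed_const M A a)⟩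

/-- **Chart-integrality principle** on the chart described by `S` (a condition on places), with
respect to the reduced coordinate `ub'`: every Gauss-integral function regular at all places of
the chart has reduction integral over `k[ub']`. -/
def ChartInt (S : Place Qb (Kummer.Fb M) → Prop) (ub' : LaurentSeries (Res A)) : Prop :=
  ∀ (y : Kummer.Fb M) (yb : LaurentSeries (Res A)), IsRed M A y yb →
    (∀ P : Place Qb (Kummer.Fb M), S P → 0 ≤ P.ord y) →
    IsIntegral (Algebra.adjoin (Res A) {ub'}) yb

variable {M A}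

theorem uInt_iff (u : Kummer.Fb M) (P : Place Qb (Kummer.Fb M)) :
    IntAbs.UInt A u P ↔ UInt M A u P := by
  constructor
  · rintro ⟨a, ha⟩
    exact ⟨a, a.2, ha⟩
  · rintro ⟨a, haA, ha⟩
    exact ⟨⟨a, haA⟩, ha⟩

/-- **(INT_0)** from the chart-integrality principle on the chart `u`. -/
theorem intZero [NeZero M] (u : Kummer.Fb M) (ub : LaurentSeries (Res A))
    (hu : IsRed M A u ub) (hutr : Transcendental Qb u)
    (hCI : ChartInt M A (fun P => 0 ≤ P.ord u) ub) : IntZero M A u := by
  intro x hx y ub' hxy hub'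
  obtain rfl : ub' = ub := hub'.unique hu
  have hxV : x ∈ gaussV M A := ⟨y, hxy⟩
  have hx0 : ∀ P : Place Qb (Kummer.Fb M), IntAbs.UInt A u P → 0 ≤ P.ord x := by
    intro P hP
    rcases hx.2 with rfl | h
    · simp
    · have := h P ((mem_chart_false M A).2 ((uInt_iff u P).1 hP))
      simpa using this
  have key := IntAbs.int_zero (A := A) (u := u) (V := gaussV M A) (gaussRed M A)
    (gaussRed_const M A) ⟨ub', hu⟩
    (fun f hf => IntAbs.poles_finite_of_trdeg (HeckeInputs.trdeg_bar M) f hf)
    (fun P hP => IntAbs.exists_sub_ord_pos_of_trdeg (HeckeInputs.trdeg_bar M) hutr P hP)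
    (fun r => IsIntegral (Algebra.adjoin (Res A) {ub'}) r)
    (fun z hz hreg => by
      obtain ⟨zb, hzb⟩ := id hz
      rw [gaussRed_eq M A hz hzb]
      exact hCI z zb hzb hreg)
    x hxV hx0
  rwa [gaussRed_eq M A hxV hxy] at key

/-- **(INT_∞)** from the chart-integrality principle on the chart `u⁻¹`, for a chart function
with nonzero reduction. -/
theorem intInf [NeZero M] (u : Kummer.Fb M) (ub : LaurentSeries (Res A))
    (hu : IsRed M A u ub) (hub0 : ub ≠ 0)
    (hCI : ChartInt M A (fun P => P.ord u ≤ 0) ub⁻¹) : IntInf M A u := by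
  intro x hx y ub' hxy hub'
  obtain rfl : ub' = ub := hub'.unique hu
  have hxV : x ∈ gaussV M A := ⟨y, hxy⟩
  have hu0 : u ≠ 0 := by
    rintro rfl
    exact hub0 (hu.unique isRed_zero)
  have ht : IsRed M A u⁻¹ ub'⁻¹ := hu.inv hub0
  have htV : u⁻¹ ∈ gaussV M A := ⟨_, ht⟩
  have hx0 : ∀ P : Place Qb (Kummer.Fb M), ¬ IntAbs.UInt A u P → 0 ≤ P.ord x := by
    intro P hP
    rcases hx.2 with rfl | h
    · simp
    · have := h P ((mem_chart_true M A).2 (fun h' => hP ((uInt_iff u P).2 h')))
      simpa using this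
  obtain ⟨G, hG0, hG⟩ := IntAbs.int_infty (A := A) (u := u) (V := gaussV M A) (gaussRed M A)
    (gaussRed_const M A) u⁻¹ (mul_inv_cancel₀ hu0) htV
    (fun f hf => IntAbs.poles_finite_of_trdeg (HeckeInputs.trdeg_bar M) f hf)
    (fun r => IsIntegral (Algebra.adjoin (Res A) {ub'⁻¹}) r)
    (fun z hz hreg => by
      obtain ⟨zb, hzb⟩ := id hz
      rw [gaussRed_eq M A hz hzb]
      exact hCI z zb hzb hreg)
    x hxV hx0
  refine ⟨G, by rw [hG0]; exact one_ne_zero, ?_⟩
  rw [gaussRed_eq M A hxV hxy, gaussRed_eq M A htV ht, mul_comm] at hG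
  exact hG

end Fermat.Agent.S37.Fn.Int
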