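/-
S37 (E7), row F12: `Final.ChartData` from the owners' exit shapes (generic glue).

For a chart function `u ∈ Fb M` with Gauss reduction `ū` (pole at `q = 0`), rational
`q`-expansion, transcendental over `ℚ̄`, `Final.ChartData M A ℓ h` follows from

* `InvPlaces M A u`                                        (row F9b),
* `Int.ChartInt M A (fun P => 0 ≤ P.ord u) ū`              (row F6b, chart at `0`),
* `Int.ChartInt M A (fun P => P.ord u ≤ 0) ū⁻¹`            (row F6b, chart at `∞`),
* a modular equation `P(u(q), u(q^ℓ)) = 0`, `P ∈ A[X][Y]` monic     (rows F3a / F11b).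

`chartData_j_of` is the instance `u = j` (`ℓ ∤ N`; modular equation landed in `ChartStableFn`).
-/
import Fermat.Agent.S37.Final
import Fermat.Agent.S37.Fn.Int
import Fermat.Agent.S37.Fn.GalStable
import Fermat.Agent.S37.ChartStableFn

set_option autoImplicit false
set_option linter.unusedSectionVars false
set_option linter.style.haveILetI false

noncomputable section

namespace Fermat.Agent.S37.Fn.ChartDataGen

open ModularCurve AlgebraicCurve HahnSeries
open Fermat.Agent.S28 Fermat.Agent.S28.Defs Fermat.Agent.S30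
open Fermat.Agent.S37 Fermat.Agent.S37.Fn Fermat.Agent.S37.ChartStable
open Fermat.Agent.S24.DegreeGen

local notation "Qb" => AlgebraicClosure ℚ

/-- A Laurent series of negative order is nonzero. -/
theorem ne_zero_of_order_neg {k : Type*} [Zero k] {y : LaurentSeries k} (h : y.order < 0) :
    y ≠ 0 := by
  rintro rfl
  simp at h

/-- **Generic glue**: `Final.ChartData` from the owners' exit shapes. -/
theorem chartData_of_model (M ℓ : ℕ) [NeZero M] [NeZero ℓ] (hℓ : ℓ.Prime) (hℓM : ¬ ℓ ∣ M)
    (A : ValuationSubring Qb) (hA : A.LiesOverPrime ℓ) (h : HeckeInputsAlong Qb M ℓ)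
    (u : Kummer.Fb M) (ub : LaurentSeries (Res A)) (hu : IsRed M A u ub) (hub : ub.order < 0)
    (hrat : ∃ w : LaurentSeries ℚ, coeffEmb Qb w = (u : LaurentSeries Qb))
    (hutr : Transcendental Qb u) (hInv : InvPlaces M A u)
    (hCI0 : Int.ChartInt M A (fun P => 0 ≤ P.ord u) ub)
    (hCI1 : Int.ChartInt M A (fun P => P.ord u ≤ 0) ub⁻¹)
    (P : Polynomial (Polynomial A)) (hmonic : P.Monic)
    (hP : ev2 A ((HahnSeries.C : Qb →+* LaurentSeries Qb).comp A.subtype)
      (u : LaurentSeries Qb) (qExpand Qb ℓ (u : LaurentSeries Qb)) P = 0) :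
    Final.ChartData M A ℓ h :=
  Final.ChartData.mk' u ub hu hub hInv (Int.intZero u ub hu hutr hCI0)
    (Int.intInf u ub hu (ne_zero_of_order_neg hub) hCI1)
    (GalSt.galStable_of_rational M A u hrat)
    (ChartStableFn.heckeStable hℓ hℓM hA u P hmonic hP h)

/-- The chart `u = j` at level `N`: `Final.ChartData` from the reduction of `j`, `(INV_P)` and
the two chart-integrality principles. -/
theorem chartData_j_of (N ℓ : ℕ) [NeZero N] [NeZero ℓ] (hℓ : ℓ.Prime) (hℓN : ¬ ℓ ∣ N)
    (A : ValuationSubring Qb) (hA : A.LiesOverPrime ℓ) (h : HeckeInputsAlong Qb N ℓ)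
    (ub : LaurentSeries (Res A)) (hu : IsRed N A (jBar N) ub) (hub : ub.order < 0)
    (hInv : InvPlaces N A (jBar N))
    (hCI0 : Int.ChartInt N A (fun P => 0 ≤ P.ord (jBar N)) ub)
    (hCI1 : Int.ChartInt N A (fun P => P.ord (jBar N) ≤ 0) ub⁻¹) :
    Final.ChartData N A ℓ h := by
  obtain ⟨P, hmonic, hP⟩ := ChartStableFn.exists_modPoly_jBar A N ℓ
  exact chartData_of_model N ℓ hℓ hℓN A hA h (jBar N) ub hu hub ⟨jq, rfl⟩
    (transcendental_jBar N) hInv hCI0 hCI1 P hmonic hP

end Fermat.Agent.S37.Fn.ChartDataGen
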