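/-
S37 (E7), row F13 (twin, helper37): the `E`-level inputs of the Model Theorem, PINNED to a chart
function `u ∈ Fb M`.

`Pin M A u` : there is a finite set `S₀ ⊆ ℚ̄` such that over every number field `E ⊇ S₀` (with
`OE A E` a discrete valuation ring) the chart function `u` descends to `uE ∈ LE M E`
(`upHom uE = u`), transcendental over `E`, with `LE M E / E(uE)` finite and the two hypotheses
(i) `GaussUnram`, (ii) `HorizUnram S` of the Model Theorem (`S` with pairwise unit differences).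

* `pin_j`  : `u = jBar N`, residue characteristic `ℓ > 3`, `ℓ ∤ N`;
* `pin_h2` : `u = h2B M`, `2 ∣ M`, `ℓ ≠ 2`, `ℓ ∤ M`;
* `pin_h3` : `u = h3B M`, `3 ∣ M`, `ℓ ≠ 3`, `ℓ ∤ M`.

Consequences at every such `E` (`Pin.prime_zero`, `Pin.prime_inf`, `Pin.reg_zero`, `Pin.reg_inf`):
`π` is prime in the integral closures of `O[uE]` and `O[uE⁻¹]`, and these are regular at every
closed point of the special fibre (`RegNB.RegAt`).
-/
import Fermat.Agent.S18.K1Final
import Fermat.Agent.S18.K1Descent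
import Fermat.Agent.S30.Model.MainInfA
import Fermat.Agent.S30.Model.RegFinal
import Fermat.Agent.S37.Fn.ChartFn
import Fermat.Agent.S37.Fn.ChartFnHaupt

set_option autoImplicit false
set_option linter.unusedSectionVars false
set_option linter.style.haveILetI false
set_option synthInstance.maxHeartbeats 400000
set_option maxHeartbeats 1000000

open ModularCurve AlgebraicCurve Polynomial

noncomputable section

namespace Fermat.Agent.S37.Fn.ModelPin

open Fermat.Agent.S18.K1Defs Fermat.Agent.S18.K1Main Fermat.Agent.S30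
open Fermat.Agent.S37 Fermat.Agent.S37.Fn

local notation "Qb" => AlgebraicClosure ℚ

/-- **The `E`-level inputs of the Model Theorem, pinned to the chart function `u`.** -/
def Pin (M : ℕ) [NeZero M] (A : ValuationSubring Qb) (u : Kummer.Fb M) : Prop :=
  ∃ S₀ : Finset Qb, ∀ (E : IntermediateField ℚ Qb) [FiniteDimensional ℚ E]
    [IsDiscreteValuationRing (OE A E)], (∀ s ∈ S₀, s ∈ E) →
    letI := algebraOL (OE A E) E (LE M E)
    haveI := isScalarTower_OL (OE A E) E (LE M E)
    ∃ (uE : LE M E) (S : Finset (OE A E)),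
      Fermat.Agent.S18.K1Descent.upHom M E uE = u ∧ Transcendental E uE ∧
      (∀ c ∈ S, ∀ c' ∈ S, c ≠ c' → IsUnit (c - c')) ∧
      FiniteDimensional (IntermediateField.adjoin E {uE}) (LE M E) ∧
      (∀ π : OE A E, Irreducible π → Model.GaussUnram (E := E) π uE) ∧
      Model.HorizUnram (E := E) S uE

/-! ### The three modular instances -/

/-- The chart `u = j`, residue characteristic `ℓ > 3`, `ℓ ∤ N`. -/
theorem pin_j (N : ℕ) [NeZero N] {ℓ : ℕ} [Fact ℓ.Prime] (hℓN : ¬ ℓ ∣ N) (h3 : 3 < ℓ)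
    (A : ValuationSubring Qb) (hA : A.LiesOverPrime ℓ) :
    Pin N A (Fermat.Agent.S24.DegreeGen.jBar N) := by
  classical
  obtain ⟨S₀, h⟩ := Fermat.Agent.S18.K1Final.jInputsC_exists A N hℓN hA 2
  have hℓp : ℓ.Prime := Fact.out
  refine ⟨S₀, fun E _ _ hE => ?_⟩
  letI := algebraOL (OE A E) E (LE N E)
  haveI := isScalarTower_OL (OE A E) E (LE N E)
  have h' : JInputs N (OE A E) E 2 := h E hE
  have h1728 : IsUnit (1728 : OE A E) := by
    have hc : Nat.Coprime 1728 ℓ := by
      have e : (1728 : ℕ) = 2 ^ 6 * 3 ^ 3 := by norm_num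
      rw [e]
      refine Nat.Coprime.mul_left ?_ ?_
      · exact Nat.Coprime.pow_left _ ((Nat.coprime_primes Nat.prime_two hℓp).mpr (by omega))
      · exact Nat.Coprime.pow_left _ ((Nat.coprime_primes Nat.prime_three hℓp).mpr (by omega))
    have := isUnit_natCast_OE A E hA 1728 hc
    exact_mod_cast this
  refine ⟨jE N E, {0, 1728}, ChartFn.upHom_jE N E, Haupt.K1.transcendental_jE N E, ?_, h'.fin,
    h'.gauss, h'.horiz _ (by simp) (by simp)⟩
  intro c hc c' hc' hne
  simp only [Finset.mem_insert, Finset.mem_singleton] at hc hc'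
  rcases hc with rfl | rfl <;> rcases hc' with rfl | rfl
  · exact absurd rfl hne
  · rw [zero_sub]; exact h1728.neg
  · rw [sub_zero]; exact h1728
  · exact absurd rfl hne

/-- `upHom` of an element of `LE M E` is determined by its `q`-series. -/
theorem upHom_eq_of_coe (M : ℕ) [NeZero M] (E : IntermediateField ℚ Qb) (x : LE M E)
    (u : Kummer.Fb M)
    (h : GaussDescent.up E (x : LaurentSeries E) = (u : LaurentSeries Qb)) :
    Fermat.Agent.S18.K1Descent.upHom M E x = u :=
  Subtype.ext h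

/-- The chart `u = h₂`, `2 ∣ M`, residue characteristic `ℓ ≠ 2`, `ℓ ∤ M`. -/
theorem pin_h2 (M : ℕ) [NeZero M] (h2M : 2 ∣ M) {ℓ : ℕ} [Fact ℓ.Prime] (hℓM : ¬ ℓ ∣ M)
    (hℓ : ℓ ≠ 2) (A : ValuationSubring Qb) (hA : A.LiesOverPrime ℓ) :
    Pin M A (ChartFnHaupt.h2B M h2M) := by
  classical
  obtain ⟨S₀, h⟩ := Fermat.Agent.S18.K1Final.jInputsC_exists A M hℓM hA 2
  have hℓp : ℓ.Prime := Fact.out
  refine ⟨S₀, fun E _ _ hE => ?_⟩
  letI := algebraOL (OE A E) E (LE M E)
  haveI := isScalarTower_OL (OE A E) E (LE M E)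
  have h' : JInputs M (OE A E) E 2 := h E hE
  haveI := h'.fin
  have h2 : IsUnit (2 : OE A E) := by
    have hc : Nat.Coprime 2 ℓ := (Nat.coprime_primes Nat.prime_two hℓp).mpr (Ne.symm hℓ)
    have := isUnit_natCast_OE A E hA 2 hc
    exact_mod_cast this
  have h64 : IsUnit (64 : OE A E) := by
    have : (64 : OE A E) = 2 ^ 6 := by norm_num
    rw [this]
    exact h2.pow 6
  obtain ⟨π₀, hπ₀⟩ := IsDiscreteValuationRing.exists_irreducible (OE A E)
  obtain ⟨hT, hFD, -⟩ := Haupt.Gauss.gaussUnram_t2 π₀ hπ₀ h2 (jE M E)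
    (Haupt.K1.transcendental_jE M E) (h'.gauss π₀ hπ₀) (Haupt.HorizTwo.h2E M E h2M)
    (Haupt.HorizTwo.jE_mul_h2E M E h2M (jE M E) rfl)
  refine ⟨Haupt.HorizTwo.h2E M E h2M, {0, -64},
    upHom_eq_of_coe M E _ _ (ChartFnHaupt.up_h2E M E h2M), hT, ?_, hFD, ?_, ?_⟩
  · intro c hc c' hc' hne
    simp only [Finset.mem_insert, Finset.mem_singleton] at hc hc'
    rcases hc with rfl | rfl <;> rcases hc' with rfl | rfl
    · exact absurd rfl hne
    · rw [zero_sub, neg_neg]; exact h64
    · rw [sub_zero]; exact h64.neg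
    · exact absurd rfl hne
  · intro π hπ
    exact (Haupt.Gauss.gaussUnram_t2 π hπ h2 (jE M E) (Haupt.K1.transcendental_jE M E)
      (h'.gauss π hπ) (Haupt.HorizTwo.h2E M E h2M)
      (Haupt.HorizTwo.jE_mul_h2E M E h2M (jE M E) rfl)).2.2
  · exact Haupt.HorizTwo.horizUnram_h2 M E h2M {0, -64}
      ⟨0, by simp, map_zero _⟩ ⟨-64, by simp, by rw [map_neg, map_ofNat]⟩

/-- The chart `u = h₃`, `3 ∣ M`, residue characteristic `ℓ ≠ 3`, `ℓ ∤ M`. -/
theorem pin_h3 (M : ℕ) [NeZero M] (h3M : 3 ∣ M) {ℓ : ℕ} [Fact ℓ.Prime] (hℓM : ¬ ℓ ∣ M)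
    (hℓ : ℓ ≠ 3) (A : ValuationSubring Qb) (hA : A.LiesOverPrime ℓ) :
    Pin M A (ChartFnHaupt.h3B M h3M) := by
  classical
  obtain ⟨S₀, h⟩ := Fermat.Agent.S18.K1Final.jInputsC_exists A M hℓM hA 2
  have hℓp : ℓ.Prime := Fact.out
  refine ⟨S₀, fun E _ _ hE => ?_⟩
  letI := algebraOL (OE A E) E (LE M E)
  haveI := isScalarTower_OL (OE A E) E (LE M E)
  have h' : JInputs M (OE A E) E 2 := h E hE
  haveI := h'.fin
  have h3 : IsUnit (3 : OE A E) := by
    have hc : Nat.Coprime 3 ℓ := (Nat.coprime_primes Nat.prime_three hℓp).mpr (Ne.symm hℓ)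
    have := isUnit_natCast_OE A E hA 3 hc
    exact_mod_cast this
  have h27 : IsUnit (27 : OE A E) := by
    have : (27 : OE A E) = 3 ^ 3 := by norm_num
    rw [this]
    exact h3.pow 3
  obtain ⟨π₀, hπ₀⟩ := IsDiscreteValuationRing.exists_irreducible (OE A E)
  obtain ⟨hT, hFD, -⟩ := Haupt.Gauss.gaussUnram_t3 π₀ hπ₀ h3 (jE M E)
    (Haupt.K1.transcendental_jE M E) (h'.gauss π₀ hπ₀) (Haupt.HorizThree.h3E M E h3M)
    (Haupt.HorizThree.jE_mul_h3E M E h3M (jE M E) rfl)
  refine ⟨Haupt.HorizThree.h3E M E h3M, {0, -27},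
    upHom_eq_of_coe M E _ _ (ChartFnHaupt.up_h3E M E h3M), hT, ?_, hFD, ?_, ?_⟩
  · intro c hc c' hc' hne
    simp only [Finset.mem_insert, Finset.mem_singleton] at hc hc'
    rcases hc with rfl | rfl <;> rcases hc' with rfl | rfl
    · exact absurd rfl hne
    · rw [zero_sub, neg_neg]; exact h27
    · rw [sub_zero]; exact h27.neg
    · exact absurd rfl hne
  · intro π hπ
    exact (Haupt.Gauss.gaussUnram_t3 π hπ h3 (jE M E) (Haupt.K1.transcendental_jE M E)
      (h'.gauss π hπ) (Haupt.HorizThree.h3E M E h3M)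
      (Haupt.HorizThree.jE_mul_h3E M E h3M (jE M E) rfl)).2.2
  · exact Haupt.HorizThree.horizUnram_h3 M E h3M {0, -27}
      ⟨0, by simp, map_zero _⟩ ⟨-27, by simp, by rw [map_neg, map_ofNat]⟩

/-! ### Consequences: the Model Theorem on both charts -/

section Abstract

variable {O E L : Type*} [CommRing O] [IsDomain O] [IsDiscreteValuationRing O]
  [Field E] [CharZero E] [Algebra O E] [IsFractionRing O E]
  [Field L] [Algebra E L] [Algebra O L] [IsScalarTower O E L]

/-- **The conclusions of the Model Theorem** for `(L, u)` at the prime `π`: `π` is a prime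
element of the integral closures `C₀` of `O[u]` and `C_∞` of `O[u⁻¹]`, `C₀` is regular at every
maximal ideal containing `π` and `C_∞` at every maximal ideal containing `π` and `u⁻¹`. -/
def ModelOut (π : O) (u : L) : Prop :=
  Prime (Model.GlueChart.piElt (Algebra.adjoin O ({u} : Set L)) π) ∧
  Prime (Model.GlueChart.piElt (Algebra.adjoin O ({u⁻¹} : Set L)) π) ∧
  (∀ Mx : Ideal (integralClosure (Algebra.adjoin O ({u} : Set L)) L), Mx.IsMaximal →
    Model.GlueChart.piElt (Algebra.adjoin O ({u} : Set L)) π ∈ Mx →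
    Model.RegNB.RegAt (Model.GlueChart.piElt (Algebra.adjoin O ({u} : Set L)) π) Mx) ∧
  (∀ Mx : Ideal (integralClosure (Algebra.adjoin O ({u⁻¹} : Set L)) L), Mx.IsMaximal →
    Model.GlueChart.piElt (Algebra.adjoin O ({u⁻¹} : Set L)) π ∈ Mx →
    Model.ChartInf.tInf u ∈ Mx →
    Model.RegNB.RegAt (Model.GlueChart.piElt (Algebra.adjoin O ({u⁻¹} : Set L)) π) Mx)

/-- The Model Theorem (parts (a) on both charts and (c)) in packaged form. -/
theorem modelOut (π : O) (hπ : Irreducible π) (u : L) (hu : Transcendental E u)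
    [FiniteDimensional (IntermediateField.adjoin E {u}) L] (halg : Model.AlgClosedIn E L)
    (hi : Model.GaussUnram (E := E) π u)
    (S : Finset O) (hS : ∀ c ∈ S, ∀ c' ∈ S, c ≠ c' → IsUnit (c - c'))
    (hii : Model.HorizUnram (E := E) S u) : ModelOut π u :=
  ⟨Model.Assembly.main_a π hπ u hu halg hi S hS hii,
    Model.MainInf.main_a_inf π hπ u hu halg hi S hS hii,
    fun Mx hMx hπM => Model.RegFinal.reg_zero π hπ u hu hi S hS hii Mx hMx hπM,
    fun Mx hMx hπM htM => Model.RegFinal.reg_inf π hπ u hu hi S hii Mx hMx hπM htM⟩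

end Abstract

/-- **The Model Theorem package at `E`-level**, for a pinned chart function: over every number
field `E ⊇ S₀`, the descended chart function `uE` and, for every irreducible `π` of `OE A E`,
primality of `π` on both charts and regularity of both charts along the special fibre. -/
theorem Pin.model {M : ℕ} [NeZero M] {A : ValuationSubring Qb} {u : Kummer.Fb M}
    (h : Pin M A u) :
    ∃ S₀ : Finset Qb, ∀ (E : IntermediateField ℚ Qb) [FiniteDimensional ℚ E]
      [IsDiscreteValuationRing (OE A E)], (∀ s ∈ S₀, s ∈ E) →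
      letI := algebraOL (OE A E) E (LE M E)
      ∃ uE : LE M E, Fermat.Agent.S18.K1Descent.upHom M E uE = u ∧ Transcendental E uE ∧
        FiniteDimensional (IntermediateField.adjoin E {uE}) (LE M E) ∧
        ∀ π : OE A E, Irreducible π → ModelOut π uE := by
  obtain ⟨S₀, h⟩ := h
  refine ⟨S₀, fun E _ _ hE => ?_⟩
  letI := algebraOL (OE A E) E (LE M E)
  haveI := isScalarTower_OL (OE A E) E (LE M E)
  obtain ⟨uE, S, hup, hT, hS, hFD, hG, hH⟩ := h E hE
  haveI := hFD
  have hAC : Model.AlgClosedIn E (LE M E) := algClosedIn_laurent (LE M E)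
  exact ⟨uE, hup, hT, hFD, fun π hπ => modelOut π hπ uE hT hAC (hG π hπ) S hS hH⟩

end Fermat.Agent.S37.Fn.ModelPin
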