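/-
S37 (E7), row F12: the penultimate assembly.  The frozen statement of S37 from `(INV_P)` ALONE
(`Fn.InvPlaces` for the three charts); everything else is discharged:

* `(K1)`                          : `E4.k1`;
* `IsRed` + pole, `(GAL)`          : `ChartFnJ`, `ChartFnHaupt`, `GalStable`;
* `(HECKE)`                        : `ChartStableFn` (modular equation of `j`), `Haupt.ModEq`;
* `(INT_0)`, `(INT_∞)`             : `ChartInt.chartInt_zero/_inf` applied to the Model Theorem
                                     package `ModelPin.Pin.model`;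
* `(GRED)`, level transfer, wiring : `Final.lean`.
-/
import Fermat.Agent.S37.Final
import Fermat.Agent.S37.Fn.ChartData
import Fermat.Agent.S37.Fn.ChartFnJ
import Fermat.Agent.S37.Fn.ChartInt
import Fermat.Agent.S37.Fn.ModelPin
import Fermat.Agent.S37.Fn.Small
import Fermat.Agent.S30.E4.K1

set_option autoImplicit false
set_option linter.unusedSectionVars false
set_option linter.style.haveILetI false
set_option synthInstance.maxHeartbeats 400000
set_option maxHeartbeats 1000000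

noncomputable section

namespace Fermat.Agent.S37.Fn.Penult

open ModularCurve AlgebraicCurve HahnSeries
open Fermat.Agent.S18.K1Defs Fermat.Agent.S18.K1Main
open Fermat.Agent.S30 Fermat.Agent.S37 Fermat.Agent.S37.Fn
open Fermat.Agent.S24.DegreeGen

local notation "Qb" => AlgebraicClosure ℚ

variable {M : ℕ} [NeZero M] {A : ValuationSubring Qb}

/-! ### The chart-integrality principles from the pinned Model Theorem inputs -/

/-- **(CI_0)** from the pinned inputs of the Model Theorem. -/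
theorem chartInt_zero_of_pin {ℓ : ℕ} [Fact ℓ.Prime] (hA : A.LiesOverPrime ℓ) (u : Kummer.Fb M)
    (ub : LaurentSeries (Res A)) (hu : IsRed M A u ub) (hub : ub.order < 0)
    (hpin : ModelPin.Pin M A u) : Int.ChartInt M A (fun P => 0 ≤ P.ord u) ub := by
  refine ChartInt.chartInt_zero hA u ub hu hub ?_
  obtain ⟨S₀, h⟩ := hpin.model
  refine ⟨S₀, fun E _ _ hE => ?_⟩
  letI := algebraOL (OE A E) E (LE M E)
  obtain ⟨uE, hup, hT, hFD, hout⟩ := h E hE
  obtain ⟨π, hπ⟩ := IsDiscreteValuationRing.exists_irreducible (OE A E)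
  exact ⟨uE, hup, hT, hFD, π, hπ, (hout π hπ).1⟩

/-- **(CI_∞)** from the pinned inputs of the Model Theorem. -/
theorem chartInt_inf_of_pin {ℓ : ℕ} [Fact ℓ.Prime] (hA : A.LiesOverPrime ℓ) (u : Kummer.Fb M)
    (ub : LaurentSeries (Res A)) (hu : IsRed M A u ub) (hub : ub.order < 0)
    (hpin : ModelPin.Pin M A u) : Int.ChartInt M A (fun P => P.ord u ≤ 0) ub⁻¹ := by
  refine ChartInt.chartInt_inf hA u ub hu hub ?_
  obtain ⟨S₀, h⟩ := hpin.model
  refine ⟨S₀, fun E _ _ hE => ?_⟩
  letI := algebraOL (OE A E) E (LE M E)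
  obtain ⟨uE, hup, hT, hFD, hout⟩ := h E hE
  obtain ⟨π, hπ⟩ := IsDiscreteValuationRing.exists_irreducible (OE A E)
  exact ⟨uE, hup, hT, hFD, π, hπ, (hout π hπ).2.1⟩

/-! ### The three chart providers, from `(INV_P)` -/

/-- **`ℓ > 3`**, chart `j` at level `N`. -/
theorem chartData_j (N ℓ : ℕ) [NeZero N] [NeZero ℓ] (hℓ : ℓ.Prime) (h3 : 3 < ℓ)
    (hℓN : ¬ ℓ ∣ N) (A : ValuationSubring Qb) (hA : A.LiesOverPrime ℓ)
    (h : HeckeInputsAlong Qb N ℓ) (hInv : InvPlaces N A (jBar N)) :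
    Final.ChartData N A ℓ h := by
  haveI : Fact ℓ.Prime := ⟨hℓ⟩
  obtain ⟨ub, hu, hub⟩ := ChartFnJ.exists_isRed_jBar N A
  have hpin : ModelPin.Pin N A (jBar N) := ModelPin.pin_j N hℓN h3 A hA
  exact ChartDataGen.chartData_j_of N ℓ hℓ hℓN A hA h ub hu hub hInv
    (chartInt_zero_of_pin hA _ ub hu hub hpin) (chartInt_inf_of_pin hA _ ub hu hub hpin)

/-- **`ℓ = 3`**, chart `h₂` at level `N * 2`. -/
theorem chartData_three (N : ℕ) [NeZero N] (h3N : ¬ 3 ∣ N) (A : ValuationSubring Qb)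
    (hA : A.LiesOverPrime 3) (h : HeckeInputsAlong Qb (N * 2) 3)
    (hInv : InvPlaces (N * 2) A (Small.u3 N)) : Final.ChartData (N * 2) A 3 h := by
  haveI : Fact (Nat.Prime 3) := ⟨Nat.prime_three⟩
  have hpin : ModelPin.Pin (N * 2) A (Small.u3 N) :=
    ModelPin.pin_h2 (N * 2) (dvd_mul_left 2 N)
      (Small.not_dvd_aux_level Nat.prime_three h3N (by decide)) (by decide) A hA
  exact Small.chartData_three_of_model N h3N A hA h hInv
    (fun ub hu hub => chartInt_zero_of_pin hA _ ub hu hub hpin)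
    (fun ub hu hub => chartInt_inf_of_pin hA _ ub hu hub hpin)

/-- **`ℓ = 2`**, chart `h₃` at level `N * 3`. -/
theorem chartData_two (N : ℕ) [NeZero N] (h2N : ¬ 2 ∣ N) (A : ValuationSubring Qb)
    (hA : A.LiesOverPrime 2) (h : HeckeInputsAlong Qb (N * 3) 2)
    (hInv : InvPlaces (N * 3) A (Small.u2 N)) : Final.ChartData (N * 3) A 2 h := by
  haveI : Fact (Nat.Prime 2) := ⟨Nat.prime_two⟩
  have hpin : ModelPin.Pin (N * 3) A (Small.u2 N) :=
    ModelPin.pin_h3 (N * 3) (dvd_mul_left 3 N)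
      (Small.not_dvd_aux_level Nat.prime_two h2N (by decide)) (by decide) A hA
  exact Small.chartData_two_of_model N h2N A hA h hInv
    (fun ub hu hub => chartInt_zero_of_pin hA _ ub hu hub hpin)
    (fun ub hu hub => chartInt_inf_of_pin hA _ ub hu hub hpin)

/-! ### S37 from `(INV_P)` -/

/-- **The frozen statement of S37 from `(INV_P)` for the three charts.** -/
theorem result_of_invPlaces (N p : ℕ) [NeZero N]
    (hcomm : ModularCurve.HeckeOperatorsCommuteBar N)
    (hJ : ∀ ℓ : ℕ, ℓ.Prime → 3 < ℓ → ¬ ℓ ∣ N → ∀ A : ValuationSubring Qb,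
      A.LiesOverPrime ℓ → InvPlaces N A (jBar N))
    (h3 : ¬ 3 ∣ N → ∀ A : ValuationSubring Qb, A.LiesOverPrime 3 →
      InvPlaces (N * 2) A (Small.u3 N))
    (h2 : ¬ 2 ∣ N → ∀ A : ValuationSubring Qb, A.LiesOverPrime 2 →
      InvPlaces (N * 3) A (Small.u2 N)) :
    letI := ModularCurve.heckeModuleBar N; ∀ (_ : SMulCommClass (AlgebraicClosure ℚ ≃ₐ[ℚ] AlgebraicClosure ℚ) ModularCurve.HeckeAlg (ModularCurve.JZero N)), ModularCurve.SpecializationExists (K := ℚ) (L := AlgebraicClosure ℚ) N p (ModularCurve.JZero N) :=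
  Final.result_of_chartData N p hcomm (fun ℓ hℓ hℓN A hA => E4.k1 N ℓ hℓ hℓN A hA)
    (fun ℓ _ hℓ hℓ3 hℓN A hA h => chartData_j N ℓ hℓ hℓ3 hℓN A hA h (hJ ℓ hℓ hℓ3 hℓN A hA))
    (fun h3N A hA h => chartData_three N h3N A hA h (h3 h3N A hA))
    (fun h2N A hA h => chartData_two N h2N A hA h (h2 h2N A hA))

end Fermat.Agent.S37.Fn.Penult
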