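import Fermat.Agent.S37.Fn.RegInt
import Fermat.Agent.S18.K1Descent
import Fermat.Agent.S18.K1Main.JBase
import Fermat.Agent.S30.Model.SFN.TameProvider

/-!
# S37 / F6b (D): descent of chart-regularity from `ℚ̄` to a number field

`E ⊆ ℚ̄` a number field, `LE M E ⊆ E((q))` the level-`M` function field over `E`,
`upHom M E : LE M E →+* Fb M` the extension of constants.  `t : LE M E` a transcendental chart
coordinate with `LE M E / E(t)` finite.

* `isIntegral_of_reg` : if `up y` is regular at every place `P` of `Fb M` with `0 ≤ P.ord (up t)`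
  then `y` is integral over `E[t]` (every place of `LE M E / E` lies under a place of `Fb M`
  with the same orders: `K1Descent.placeDescent`; then `RegInt` at the `E`-level).
* `exists_pow_mul_isIntegral` : hence `π ^ n * y` is integral over `O[t]`, `O = OE A E`, i.e. lies
  in the chart ring `C = integralClosure O[t] (LE M E)`.
* `isIntegral_of_reg_inv`, `exists_pow_mul_isIntegral_inv` : the same on the chart at infinity
  (`P.ord (up u) ≤ 0`, coordinate `u⁻¹`).
-/

set_option autoImplicit false
set_option linter.unusedSectionVars false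
set_option linter.style.haveILetI false
set_option synthInstance.maxHeartbeats 400000
set_option maxHeartbeats 1000000

noncomputable section

namespace Fermat.Agent.S37.Fn.ChartDesc

open ModularCurve AlgebraicCurve HahnSeries
open Fermat.Agent.S18 Fermat.Agent.S18.K1Defs Fermat.Agent.S18.K1Top Fermat.Agent.S30

local notation "Qb" => AlgebraicClosure ℚ

variable (M : ℕ) [NeZero M]

/-- A function of `LE M E` whose extension of constants is regular on the chart `0 ≤ ord (up t)`
of `Fb M` is integral over `E[t]`. -/
theorem isIntegral_of_reg (E : IntermediateField ℚ Qb) [FiniteDimensional ℚ E] (t y : LE M E)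
    (ht : Transcendental E t) [FiniteDimensional (IntermediateField.adjoin E {t}) (LE M E)]
    (hreg : ∀ P : Place Qb (modularFunctionFieldBar M),
      0 ≤ P.ord (K1Descent.upHom M E t) → 0 ≤ P.ord (K1Descent.upHom M E y)) :
    IsIntegral (Algebra.adjoin E ({t} : Set (LE M E))) y := by
  refine RegInt.isIntegral_of_forall_ord_nonneg t ht y (fun v hv => ?_)
  obtain ⟨P, hP⟩ := K1Descent.placeDescent M E v
  have h1 : P.ord (K1Descent.upHom M E t) = v.ord t := hP t.1 t.2
  have h2 : P.ord (K1Descent.upHom M E y) = v.ord y := hP y.1 y.2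
  rw [← h2]
  exact hreg P (by rw [h1]; exact hv)

/-- The same on the chart at infinity: regular where `ord (up u) ≤ 0` implies integral over
`E[u⁻¹]`. -/
theorem isIntegral_of_reg_inv (E : IntermediateField ℚ Qb) [FiniteDimensional ℚ E]
    (u y : LE M E) (hu : Transcendental E u)
    [FiniteDimensional (IntermediateField.adjoin E {u}) (LE M E)]
    (hreg : ∀ P : Place Qb (modularFunctionFieldBar M),
      P.ord (K1Descent.upHom M E u) ≤ 0 → 0 ≤ P.ord (K1Descent.upHom M E y)) :
    IsIntegral (Algebra.adjoin E ({u⁻¹} : Set (LE M E))) y := by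
  refine RegInt.isIntegral_inv_of_forall_ord_nonneg u hu y (fun v hv => ?_)
  obtain ⟨P, hP⟩ := K1Descent.placeDescent M E v
  have h1 : P.ord (K1Descent.upHom M E u) = v.ord u := hP u.1 u.2
  have h2 : P.ord (K1Descent.upHom M E y) = v.ord y := hP y.1 y.2
  rw [← h2]
  exact hreg P (by rw [h1]; exact hv)

/-- **(D)** chart `0`: a function regular on the chart becomes an element of the chart ring
`integralClosure O[t] (LE M E)` after multiplication by a power of the uniformiser. -/
theorem exists_pow_mul_isIntegral (A : ValuationSubring Qb) (E : IntermediateField ℚ Qb)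
    [FiniteDimensional ℚ E] [IsDiscreteValuationRing (OE A E)] (t y : LE M E)
    (ht : Transcendental E t) [FiniteDimensional (IntermediateField.adjoin E {t}) (LE M E)]
    (π : OE A E) (hπ : Irreducible π)
    (hreg : ∀ P : Place Qb (modularFunctionFieldBar M),
      0 ≤ P.ord (K1Descent.upHom M E t) → 0 ≤ P.ord (K1Descent.upHom M E y)) :
    letI := K1Main.algebraOL (OE A E) E (LE M E)
    ∃ n : ℕ, IsIntegral (Algebra.adjoin (OE A E) ({t} : Set (LE M E)))
      (algebraMap (OE A E) (LE M E) π ^ n * y) := by
  letI := K1Main.algebraOL (OE A E) E (LE M E)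
  haveI := K1Main.isScalarTower_OL (OE A E) E (LE M E)
  exact Model.SFN.TameProvider.exists_pow_mul_isIntegral π hπ t y
    (isIntegral_of_reg M E t y ht hreg)

/-- **(D)** chart `∞`: the same with the coordinate `u⁻¹`. -/
theorem exists_pow_mul_isIntegral_inv (A : ValuationSubring Qb) (E : IntermediateField ℚ Qb)
    [FiniteDimensional ℚ E] [IsDiscreteValuationRing (OE A E)] (u y : LE M E)
    (hu : Transcendental E u) [FiniteDimensional (IntermediateField.adjoin E {u}) (LE M E)]
    (π : OE A E) (hπ : Irreducible π)
    (hreg : ∀ P : Place Qb (modularFunctionFieldBar M),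
      P.ord (K1Descent.upHom M E u) ≤ 0 → 0 ≤ P.ord (K1Descent.upHom M E y)) :
    letI := K1Main.algebraOL (OE A E) E (LE M E)
    ∃ n : ℕ, IsIntegral (Algebra.adjoin (OE A E) ({u⁻¹} : Set (LE M E)))
      (algebraMap (OE A E) (LE M E) π ^ n * y) := by
  letI := K1Main.algebraOL (OE A E) E (LE M E)
  haveI := K1Main.isScalarTower_OL (OE A E) E (LE M E)
  exact Model.SFN.TameProvider.exists_pow_mul_isIntegral π hπ u⁻¹ y
    (isIntegral_of_reg_inv M E u y hu hreg)

end Fermat.Agent.S37.Fn.ChartDesc
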