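/-
S37, row F5a (GaussGal): the decomposition group on the Gauss ring.

`A` is a valuation subring of `ℚ̄`, `k = Res A` its residue field.

MAIN RESULT (the contract `Fn.GalRed` of `Fn/Defs.lean`):

* `galRed M A ℓ hℓM hA hσ₀ : GalRed M A ℓ σ₀` for a prime `ℓ ∤ M`, `A` over `ℓ` and `σ₀` a
  Frobenius element at `A`;  its three fields separately, for `IsRed` (quotient form):
  `isRed_gal_inertia`, `isRed_gal_frob`, `isRed_heckeT_gal`; and the inverse Frobenius
  `isRed_gal_frob_symm` (`red (gal σ₀⁻¹ x) = φ⁻¹ (red x)`).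

GENERIC PART (`F = laurentBaseChange ℚ̄ F₀` any function field inside `ℚ̄((q))`, e.g.
`modularFunctionFieldBar M`; `gal s = arithmeticGalois F₀ s`; witness form: `U : A((q))` with
`incl U = x`):

* `incl_actA_eq_gal`, `inV_gal`, `inV_gal_iff` : the decomposition group preserves the integral
  `q`-series (explicit witness `actA s U`);
* `red_gal_inertia`                         : `red (gal τ x) = red x` for `τ` in the inertia group;
* `frobK`, `phi`                            : the Frobenius of `k` and the coefficientwise Frobenius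
  of `k((q))` as ring EQUIVALENCES (`k` is perfect: every element of `A` has an `ℓ`-th root in `A`);
  `phi_eq_coeffMap_frobenius` identifies `phi` with `coeffMap (frobenius k ℓ)`;
* `red_gal_frob`, `red_gal_frob_symm`       : `red (gal σ x) = φ (red x)`,
  `red (gal σ⁻¹ x) = φ⁻¹ (red x)` for `σ` a Frobenius element at `A`;
* `red_heckeMul_phi`                        : Kronecker congruence in `φ`-form,
  `red (T_ℓ U) = (φ⁻¹ (red U)) ^ ℓ * φ (red U)`;
* `redSet`, `phi_mem_redSet`, `phi_symm_mem_redSet`, `phi_image_redSet` : the reduction of a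
  Frobenius-stable set of integral `q`-series is stable under `φ` and `φ⁻¹`.
-/
import Fermat.Agent.S37.Fn.Defs

set_option autoImplicit false

noncomputable section

namespace Fermat.Agent.S37.Fn.GaussGal

open ModularCurve HahnSeries
open Fermat.Agent.S30

local notation "Qb" => AlgebraicClosure ℚ
local notation "Gq" => (AlgebraicClosure ℚ ≃ₐ[ℚ] AlgebraicClosure ℚ)

/-! ### Coefficientwise ring equivalences of Laurent series -/

section CoeffEquiv

variable {R S : Type*} [CommRing R] [CommRing S]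

/-- A ring equivalence of the coefficient rings acts coefficientwise on Laurent series. -/
def coeffEquiv (e : R ≃+* S) : LaurentSeries R ≃+* LaurentSeries S :=
  { coeffMap (e : R →+* S) with
    invFun := coeffMap (e.symm : S →+* R)
    left_inv := fun x => by
      ext n
      simp
    right_inv := fun x => by
      ext n
      simp }

@[simp]
theorem coeff_coeffEquiv (e : R ≃+* S) (x : LaurentSeries R) (n : ℤ) :
    (coeffEquiv e x).coeff n = e (x.coeff n) := rfl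

@[simp]
theorem coeff_coeffEquiv_symm (e : R ≃+* S) (y : LaurentSeries S) (n : ℤ) :
    ((coeffEquiv e).symm y).coeff n = e.symm (y.coeff n) := rfl

theorem coeffEquiv_apply (e : R ≃+* S) (x : LaurentSeries R) :
    coeffEquiv e x = coeffMap (e : R →+* S) x := rfl

theorem coeffEquiv_symm_apply (e : R ≃+* S) (y : LaurentSeries S) :
    (coeffEquiv e).symm y = coeffMap (e.symm : S →+* R) y := rfl

end CoeffEquiv

variable (A : ValuationSubring Qb)

/-! ### The decomposition group preserves the Gauss ring -/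

section Stable

variable {F₀ : IntermediateField ℚ (LaurentSeries ℚ)}

/-- Explicit witness: if `U` is the integral `q`-series of `x`, then `actA s U` is the integral
`q`-series of `gal s • x`. -/
theorem incl_actA_eq_gal (s : A.decompositionSubgroup ℚ) (x : laurentBaseChange Qb F₀)
    (U : LaurentSeries A) (hU : Congr.incl A U = (x : LaurentSeries Qb)) :
    Congr.incl A (Congr.actA A s U) =
      ((arithmeticGalois F₀ (s : Gq) • x : laurentBaseChange Qb F₀) : LaurentSeries Qb) := by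
  rw [Congr.incl_actA, hU, coe_arithmeticGalois_smul]

/-- The Gauss ring is stable under the decomposition group. -/
theorem inV_gal {s : Gq} (hs : s ∈ A.decompositionSubgroup ℚ) (x : laurentBaseChange Qb F₀)
    (hx : ∃ U : LaurentSeries A, Congr.incl A U = (x : LaurentSeries Qb)) :
    ∃ U : LaurentSeries A, Congr.incl A U =
      ((arithmeticGalois F₀ s • x : laurentBaseChange Qb F₀) : LaurentSeries Qb) := by
  obtain ⟨U, hU⟩ := hx
  exact ⟨Congr.actA A ⟨s, hs⟩ U, incl_actA_eq_gal A ⟨s, hs⟩ x U hU⟩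

theorem inV_gal_iff {s : Gq} (hs : s ∈ A.decompositionSubgroup ℚ) (x : laurentBaseChange Qb F₀) :
    (∃ U : LaurentSeries A, Congr.incl A U =
        ((arithmeticGalois F₀ s • x : laurentBaseChange Qb F₀) : LaurentSeries Qb)) ↔
      ∃ U : LaurentSeries A, Congr.incl A U = (x : LaurentSeries Qb) := by
  refine ⟨fun h => ?_, inV_gal A hs x⟩
  have h1 := inV_gal A ((A.decompositionSubgroup ℚ).inv_mem hs) _ h
  rwa [← mul_smul, ← map_mul, inv_mul_cancel, map_one, one_smul] at h1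

/-! ### Inertia -/

/-- **Inertia acts trivially on reductions**: `red (gal τ • x) = red x`. -/
theorem red_gal_inertia {τ : Gq} (hτ : τ ∈ A.inertiaSubgroupIn ℚ) (x : laurentBaseChange Qb F₀)
    (U : LaurentSeries A) (hU : Congr.incl A U = (x : LaurentSeries Qb))
    (U' : LaurentSeries A) (hU' : Congr.incl A U' =
      ((arithmeticGalois F₀ τ • x : laurentBaseChange Qb F₀) : LaurentSeries Qb)) :
    Congr.red A U' = Congr.red A U := by
  obtain ⟨h, hred⟩ := Congr.exists_red_actA_inertia A hτ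
  have h1 : U' = Congr.actA A ⟨τ, h⟩ U :=
    Congr.incl_injective A (hU'.trans (incl_actA_eq_gal A ⟨τ, h⟩ x U hU).symm)
  rw [h1, hred]

/-- Existence form of `red_gal_inertia`. -/
theorem exists_red_gal_inertia {τ : Gq} (hτ : τ ∈ A.inertiaSubgroupIn ℚ)
    (x : laurentBaseChange Qb F₀) (U : LaurentSeries A)
    (hU : Congr.incl A U = (x : LaurentSeries Qb)) :
    ∃ U' : LaurentSeries A, Congr.incl A U' =
        ((arithmeticGalois F₀ τ • x : laurentBaseChange Qb F₀) : LaurentSeries Qb) ∧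
      Congr.red A U' = Congr.red A U := by
  obtain ⟨h, hred⟩ := Congr.exists_red_actA_inertia A hτ
  exact ⟨Congr.actA A ⟨τ, h⟩ U, incl_actA_eq_gal A ⟨τ, h⟩ x U hU, hred U⟩

end Stable

/-! ### The residue field is perfect -/

/-- Every element of `A` has an `ℓ`-th root in `A`. -/
theorem exists_pow_eq {ℓ : ℕ} (hℓ : 0 < ℓ) (a : A) : ∃ b : A, b ^ ℓ = a := by
  obtain ⟨b, hb⟩ := IsAlgClosed.exists_pow_nat_eq (a : Qb) hℓ
  have hbA : b ∈ A := by
    rcases A.mem_or_inv_mem b with h | h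
    · exact h
    · by_cases hb0 : b = 0
      · rw [hb0]
        exact A.zero_mem
      · have h1 : b = (a : Qb) * b⁻¹ ^ (ℓ - 1) := by
          rw [← hb, inv_pow]
          have h2 : b ^ ℓ = b ^ (ℓ - 1) * b := by
            rw [← pow_succ, Nat.sub_add_cancel hℓ]
          rw [h2]
          field_simp
        rw [h1]
        exact A.mul_mem _ _ a.2 (pow_mem h _)
  exact ⟨⟨b, hbA⟩, Subtype.ext hb⟩

/-- The Frobenius of the residue field of `A` is bijective. -/
theorem frobenius_residue_bijective {ℓ : ℕ} [Fact ℓ.Prime]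
    [CharP (IsLocalRing.ResidueField A) ℓ] :
    Function.Bijective (frobenius (IsLocalRing.ResidueField A) ℓ) := by
  refine ⟨frobenius_inj _ ℓ, fun y => ?_⟩
  obtain ⟨a, rfl⟩ := IsLocalRing.residue_surjective y
  obtain ⟨b, rfl⟩ := exists_pow_eq A (Fact.out : ℓ.Prime).pos a
  exact ⟨IsLocalRing.residue A b, by rw [frobenius_def, map_pow]⟩

/-- The Frobenius automorphism `x ↦ x ^ ℓ` of the residue field of `A`. -/
def frobK {ℓ : ℕ} [Fact ℓ.Prime] (hA : A.LiesOverPrime ℓ) :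
    IsLocalRing.ResidueField A ≃+* IsLocalRing.ResidueField A :=
  haveI := Congr.charP_residue A hA
  RingEquiv.ofBijective (frobenius (IsLocalRing.ResidueField A) ℓ) (frobenius_residue_bijective A)

@[simp]
theorem frobK_apply {ℓ : ℕ} [Fact ℓ.Prime] (hA : A.LiesOverPrime ℓ)
    (x : IsLocalRing.ResidueField A) : frobK A hA x = x ^ ℓ := rfl

theorem frobK_symm_pow {ℓ : ℕ} [Fact ℓ.Prime] (hA : A.LiesOverPrime ℓ)
    (x : IsLocalRing.ResidueField A) : (frobK A hA).symm x ^ ℓ = x := by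
  rw [← frobK_apply A hA, RingEquiv.apply_symm_apply]

/-- The coefficientwise Frobenius `φ` of `k((q))`, as a ring equivalence. -/
def phi {ℓ : ℕ} [Fact ℓ.Prime] (hA : A.LiesOverPrime ℓ) :
    LaurentSeries (IsLocalRing.ResidueField A) ≃+* LaurentSeries (IsLocalRing.ResidueField A) :=
  coeffEquiv (frobK A hA)

@[simp]
theorem coeff_phi {ℓ : ℕ} [Fact ℓ.Prime] (hA : A.LiesOverPrime ℓ)
    (y : LaurentSeries (IsLocalRing.ResidueField A)) (n : ℤ) :
    (phi A hA y).coeff n = y.coeff n ^ ℓ := rfl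

theorem coeff_phi_symm_pow {ℓ : ℕ} [Fact ℓ.Prime] (hA : A.LiesOverPrime ℓ)
    (y : LaurentSeries (IsLocalRing.ResidueField A)) (n : ℤ) :
    ((phi A hA).symm y).coeff n ^ ℓ = y.coeff n :=
  frobK_symm_pow A hA (y.coeff n)

/-- `φ` is the coefficientwise Frobenius `coeffMap (frobenius k ℓ)` of `S30/Congr.lean`. -/
theorem phi_eq_coeffMap_frobenius {ℓ : ℕ} [Fact ℓ.Prime] (hA : A.LiesOverPrime ℓ)
    [CharP (IsLocalRing.ResidueField A) ℓ] (y : LaurentSeries (IsLocalRing.ResidueField A)) :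
    phi A hA y = coeffMap (frobenius (IsLocalRing.ResidueField A) ℓ) y := by
  ext n
  rw [coeff_phi, coeffMap_coeff, frobenius_def]

/-- `(φ⁻¹ y) ^ ℓ = y (q ^ ℓ)`. -/
theorem phi_symm_pow {ℓ : ℕ} [Fact ℓ.Prime] (hA : A.LiesOverPrime ℓ) (hℓ : 0 < ℓ)
    (y : LaurentSeries (IsLocalRing.ResidueField A)) :
    (phi A hA).symm y ^ ℓ = Congr.expand ℓ hℓ y := by
  have := Congr.charP_residue A hA
  rw [← Congr.expand_coeffMap_frobenius ℓ hℓ, ← phi_eq_coeffMap_frobenius A hA,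
    RingEquiv.apply_symm_apply]

/-! ### Frobenius elements -/

section Frob

variable {F₀ : IntermediateField ℚ (LaurentSeries ℚ)}

/-- `red (actA σ U) = φ (red U)` for a Frobenius element `σ`. -/
theorem red_actA_phi {ℓ : ℕ} [Fact ℓ.Prime] (hA : A.LiesOverPrime ℓ) {σ : Gq}
    (hσ : A.IsFrobeniusAt σ ℓ) (U : LaurentSeries A) :
    Congr.red A (Congr.actA A ⟨σ, hσ.mem_decompositionSubgroup⟩ U) =
      phi A hA (Congr.red A U) := by
  have := Congr.charP_residue A hA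
  rw [Congr.red_actA_frob A hσ, phi_eq_coeffMap_frobenius]

theorem actA_inv_actA (s : A.decompositionSubgroup ℚ) (U : LaurentSeries A) :
    Congr.actA A s⁻¹ (Congr.actA A s U) = U := by
  ext n
  rw [Congr.coeff_actA, Congr.coeff_actA]
  exact congrArg Subtype.val (inv_smul_smul s (U.coeff n))

theorem actA_actA_inv (s : A.decompositionSubgroup ℚ) (U : LaurentSeries A) :
    Congr.actA A s (Congr.actA A s⁻¹ U) = U := by
  ext n
  rw [Congr.coeff_actA, Congr.coeff_actA]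
  exact congrArg Subtype.val (smul_inv_smul s (U.coeff n))

/-- `red (actA σ⁻¹ U) = φ⁻¹ (red U)` for a Frobenius element `σ`. -/
theorem red_actA_inv_phi {ℓ : ℕ} [Fact ℓ.Prime] (hA : A.LiesOverPrime ℓ) {σ : Gq}
    (hσ : A.IsFrobeniusAt σ ℓ) (U : LaurentSeries A) :
    Congr.red A (Congr.actA A (⟨σ, hσ.mem_decompositionSubgroup⟩ : A.decompositionSubgroup ℚ)⁻¹ U)
      = (phi A hA).symm (Congr.red A U) := by
  rw [RingEquiv.eq_symm_apply, ← red_actA_phi A hA hσ, actA_actA_inv]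

/-- **Frobenius on reductions**: `red (gal σ • x) = φ (red x)`. -/
theorem red_gal_frob {ℓ : ℕ} [Fact ℓ.Prime] (hA : A.LiesOverPrime ℓ) {σ : Gq}
    (hσ : A.IsFrobeniusAt σ ℓ) (x : laurentBaseChange Qb F₀)
    (U : LaurentSeries A) (hU : Congr.incl A U = (x : LaurentSeries Qb))
    (U' : LaurentSeries A) (hU' : Congr.incl A U' =
      ((arithmeticGalois F₀ σ • x : laurentBaseChange Qb F₀) : LaurentSeries Qb)) :
    Congr.red A U' = phi A hA (Congr.red A U) := by
  have h1 : U' = Congr.actA A ⟨σ, hσ.mem_decompositionSubgroup⟩ U :=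
    Congr.incl_injective A
      (hU'.trans (incl_actA_eq_gal A ⟨σ, hσ.mem_decompositionSubgroup⟩ x U hU).symm)
  rw [h1, red_actA_phi A hA hσ]

/-- **Inverse Frobenius on reductions**: `red (gal σ⁻¹ • x) = φ⁻¹ (red x)`. -/
theorem red_gal_frob_symm {ℓ : ℕ} [Fact ℓ.Prime] (hA : A.LiesOverPrime ℓ) {σ : Gq}
    (hσ : A.IsFrobeniusAt σ ℓ) (x : laurentBaseChange Qb F₀)
    (U : LaurentSeries A) (hU : Congr.incl A U = (x : LaurentSeries Qb))
    (U' : LaurentSeries A) (hU' : Congr.incl A U' =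
      ((arithmeticGalois F₀ σ⁻¹ • x : laurentBaseChange Qb F₀) : LaurentSeries Qb)) :
    Congr.red A U' = (phi A hA).symm (Congr.red A U) := by
  have h1 : U' = Congr.actA A
      (⟨σ, hσ.mem_decompositionSubgroup⟩ : A.decompositionSubgroup ℚ)⁻¹ U :=
    Congr.incl_injective A
      (hU'.trans (incl_actA_eq_gal A
        (⟨σ, hσ.mem_decompositionSubgroup⟩ : A.decompositionSubgroup ℚ)⁻¹ x U hU).symm)
  rw [h1, red_actA_inv_phi A hA hσ]

/-- Existence forms. -/
theorem exists_red_gal_frob {ℓ : ℕ} [Fact ℓ.Prime] (hA : A.LiesOverPrime ℓ) {σ : Gq}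
    (hσ : A.IsFrobeniusAt σ ℓ) (x : laurentBaseChange Qb F₀)
    (U : LaurentSeries A) (hU : Congr.incl A U = (x : LaurentSeries Qb)) :
    ∃ U' : LaurentSeries A, Congr.incl A U' =
        ((arithmeticGalois F₀ σ • x : laurentBaseChange Qb F₀) : LaurentSeries Qb) ∧
      Congr.red A U' = phi A hA (Congr.red A U) :=
  ⟨Congr.actA A ⟨σ, hσ.mem_decompositionSubgroup⟩ U,
    incl_actA_eq_gal A ⟨σ, hσ.mem_decompositionSubgroup⟩ x U hU, red_actA_phi A hA hσ U⟩

theorem exists_red_gal_frob_symm {ℓ : ℕ} [Fact ℓ.Prime] (hA : A.LiesOverPrime ℓ) {σ : Gq}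
    (hσ : A.IsFrobeniusAt σ ℓ) (x : laurentBaseChange Qb F₀)
    (U : LaurentSeries A) (hU : Congr.incl A U = (x : LaurentSeries Qb)) :
    ∃ U' : LaurentSeries A, Congr.incl A U' =
        ((arithmeticGalois F₀ σ⁻¹ • x : laurentBaseChange Qb F₀) : LaurentSeries Qb) ∧
      Congr.red A U' = (phi A hA).symm (Congr.red A U) :=
  ⟨Congr.actA A (⟨σ, hσ.mem_decompositionSubgroup⟩ : A.decompositionSubgroup ℚ)⁻¹ U,
    incl_actA_eq_gal A (⟨σ, hσ.mem_decompositionSubgroup⟩ : A.decompositionSubgroup ℚ)⁻¹ x U hU,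
    red_actA_inv_phi A hA hσ U⟩

end Frob

/-! ### Kronecker congruence in `φ`-form -/

/-- **Kronecker congruence**: `red (T_ℓ U) = (φ⁻¹ (red U)) ^ ℓ * φ (red U)` for every integral
`q`-series `U` (no Frobenius element needed). -/
theorem red_heckeMul_phi {ℓ : ℕ} [Fact ℓ.Prime] (hℓ : 0 < ℓ) (hA : A.LiesOverPrime ℓ) {ζ : Qb}
    (hζ : ζ ^ ℓ = 1) (U : LaurentSeries A) :
    Congr.red A (Congr.heckeMul ℓ hℓ (Congr.unitA A hℓ hζ) U) =
      (phi A hA).symm (Congr.red A U) ^ ℓ * phi A hA (Congr.red A U) := by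
  have := Congr.charP_residue A hA
  rw [phi_symm_pow A hA hℓ, phi_eq_coeffMap_frobenius A hA, ← Congr.heckeMul_one_unit ℓ hℓ,
    Congr.red, Congr.coeffMap_heckeMul, Congr.map_residue_unitA A hA hℓ hζ]

/-! ### Reductions of Frobenius-stable subsets of the Gauss ring -/

section RedSet

variable (F₀ : IntermediateField ℚ (LaurentSeries ℚ))

/-- The set of reductions of the elements of a subset `S` of `F` lying in the Gauss ring. -/
def redSet (S : Set (laurentBaseChange Qb F₀)) :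
    Set (LaurentSeries (IsLocalRing.ResidueField A)) :=
  {y | ∃ x ∈ S, ∃ U : LaurentSeries A, Congr.incl A U = (x : LaurentSeries Qb) ∧
    Congr.red A U = y}

variable {F₀}

theorem mem_redSet {S : Set (laurentBaseChange Qb F₀)}
    {y : LaurentSeries (IsLocalRing.ResidueField A)} :
    y ∈ redSet A F₀ S ↔ ∃ x ∈ S, ∃ U : LaurentSeries A,
      Congr.incl A U = (x : LaurentSeries Qb) ∧ Congr.red A U = y := Iff.rfl

/-- `φ (red S) ⊆ red S` if `S` is stable under a Frobenius element. -/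
theorem phi_mem_redSet {ℓ : ℕ} [Fact ℓ.Prime] (hA : A.LiesOverPrime ℓ) {σ : Gq}
    (hσ : A.IsFrobeniusAt σ ℓ) {S : Set (laurentBaseChange Qb F₀)}
    (hS : ∀ x ∈ S, arithmeticGalois F₀ σ • x ∈ S)
    {y : LaurentSeries (IsLocalRing.ResidueField A)} (hy : y ∈ redSet A F₀ S) :
    phi A hA y ∈ redSet A F₀ S := by
  obtain ⟨x, hx, U, hU, rfl⟩ := hy
  obtain ⟨U', hU', hred⟩ := exists_red_gal_frob A hA hσ x U hU
  exact ⟨_, hS x hx, U', hU', hred⟩

/-- `φ⁻¹ (red S) ⊆ red S` if `S` is stable under the inverse of a Frobenius element. -/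
theorem phi_symm_mem_redSet {ℓ : ℕ} [Fact ℓ.Prime] (hA : A.LiesOverPrime ℓ) {σ : Gq}
    (hσ : A.IsFrobeniusAt σ ℓ) {S : Set (laurentBaseChange Qb F₀)}
    (hS : ∀ x ∈ S, arithmeticGalois F₀ σ⁻¹ • x ∈ S)
    {y : LaurentSeries (IsLocalRing.ResidueField A)} (hy : y ∈ redSet A F₀ S) :
    (phi A hA).symm y ∈ redSet A F₀ S := by
  obtain ⟨x, hx, U, hU, rfl⟩ := hy
  obtain ⟨U', hU', hred⟩ := exists_red_gal_frob_symm A hA hσ x U hU
  exact ⟨_, hS x hx, U', hU', hred⟩

/-- `φ (red S) = red S` if `S` is stable under a Frobenius element and its inverse. -/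
theorem phi_image_redSet {ℓ : ℕ} [Fact ℓ.Prime] (hA : A.LiesOverPrime ℓ) {σ : Gq}
    (hσ : A.IsFrobeniusAt σ ℓ) {S : Set (laurentBaseChange Qb F₀)}
    (hS : ∀ x, arithmeticGalois F₀ σ • x ∈ S ↔ x ∈ S) :
    phi A hA '' redSet A F₀ S = redSet A F₀ S := by
  have hS' : ∀ x ∈ S, arithmeticGalois F₀ σ⁻¹ • x ∈ S := by
    intro x hx
    rw [← hS, ← mul_smul, ← map_mul, mul_inv_cancel, map_one, one_smul]
    exact hx
  apply Set.Subset.antisymm
  · rintro _ ⟨y, hy, rfl⟩
    exact phi_mem_redSet A hA hσ (fun x hx => (hS x).2 hx) hy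
  · intro y hy
    exact ⟨(phi A hA).symm y, phi_symm_mem_redSet A hA hσ hS' hy,
      RingEquiv.apply_symm_apply _ _⟩

end RedSet

/-! ### The contract `GalRed` (quotient form `IsRed`) -/

section GalRedProof

open Fermat.Agent.S37.Fn

variable (M : ℕ)

/-- Transport of `IsRed` along an element `s` of the decomposition group whose action on
reductions is a ring homomorphism `Φ` of `k((q))`. -/
theorem isRed_gal (s : A.decompositionSubgroup ℚ)
    (Φ : LaurentSeries (Res A) →+* LaurentSeries (Res A))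
    (hΦ : ∀ U : LaurentSeries A, Congr.red A (Congr.actA A s U) = Φ (Congr.red A U))
    {x : Kummer.Fb M} {y : LaurentSeries (Res A)} (h : IsRed M A x y) :
    IsRed M A (E4.gal M (s : Gq) x) (Φ y) := by
  obtain ⟨P, Q, hQm, hQ, hx, hy⟩ := h
  refine ⟨Congr.actA A s P, Congr.actA A s Q, ?_, ?_, ?_, ?_⟩
  · rw [Congr.incl_actA]
    exact coeffMap_mem_laurentBaseChange (s : Gq) hQm
  · rw [hΦ]
    exact (map_ne_zero Φ).2 hQ
  · rw [E4.coe_gal, Congr.incl_actA, Congr.incl_actA, ← hx, map_mul]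
  · rw [hΦ, hΦ, hy, map_mul]

/-- **Inertia**: `red (gal τ x) = red x`. -/
theorem isRed_gal_inertia {τ : Gq} (hτ : τ ∈ A.inertiaSubgroupIn ℚ)
    {x : Kummer.Fb M} {y : LaurentSeries (Res A)} (h : IsRed M A x y) :
    IsRed M A (E4.gal M τ x) y := by
  obtain ⟨hd, hred⟩ := Congr.exists_red_actA_inertia A hτ
  exact isRed_gal A M ⟨τ, hd⟩ (RingHom.id _) hred h

/-- **Frobenius**: `red (gal σ₀ x) = φ (red x)`, `φ` the coefficientwise Frobenius. -/
theorem isRed_gal_frob {ℓ : ℕ} [Fact ℓ.Prime] [CharP (Res A) ℓ] {σ₀ : Gq}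
    (hσ₀ : A.IsFrobeniusAt σ₀ ℓ) {x : Kummer.Fb M} {y : LaurentSeries (Res A)}
    (h : IsRed M A x y) :
    IsRed M A (E4.gal M σ₀ x) (coeffMap (frobenius (Res A) ℓ) y) :=
  isRed_gal A M ⟨σ₀, hσ₀.mem_decompositionSubgroup⟩ (coeffMap (frobenius (Res A) ℓ))
    (fun U => Congr.red_actA_frob A hσ₀ U) h

/-- **Inverse Frobenius**: `red (gal σ₀⁻¹ x) = φ⁻¹ (red x)`. -/
theorem isRed_gal_frob_symm {ℓ : ℕ} [Fact ℓ.Prime] (hA : A.LiesOverPrime ℓ) {σ₀ : Gq}
    (hσ₀ : A.IsFrobeniusAt σ₀ ℓ) {x : Kummer.Fb M} {y : LaurentSeries (Res A)}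
    (h : IsRed M A x y) :
    IsRed M A (E4.gal M σ₀⁻¹ x) ((phi A hA).symm y) :=
  isRed_gal A M (⟨σ₀, hσ₀.mem_decompositionSubgroup⟩ : A.decompositionSubgroup ℚ)⁻¹
    ((phi A hA).symm : LaurentSeries (Res A) →+* LaurentSeries (Res A))
    (fun U => red_actA_inv_phi A hA hσ₀ U) h

theorem exists_primitiveRoot_unit {ℓ : ℕ} (hℓ : 0 < ℓ) :
    ∃ z : Qbˣ, IsPrimitiveRoot z ℓ ∧ (z : Qb) ^ ℓ = 1 := by
  have : NeZero ((ℓ : ℕ) : Qb) := ⟨by exact_mod_cast hℓ.ne'⟩
  obtain ⟨ζ, hζ⟩ := HasEnoughRootsOfUnity.exists_primitiveRoot Qb ℓ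
  have hu : IsUnit ζ := hζ.isUnit hℓ.ne'
  refine ⟨hu.unit, IsPrimitiveRoot.coe_units_iff.1 (by rw [IsUnit.unit_spec]; exact hζ), ?_⟩
  rw [IsUnit.unit_spec]
  exact hζ.pow_eq_one

/-- **Kronecker congruence**: `red (T_ℓ (gal σ₀ x)) = (red x) ^ ℓ * φ (φ (red x))`. -/
theorem isRed_heckeT_gal {ℓ : ℕ} [NeZero M] [NeZero ℓ] [Fact ℓ.Prime] [CharP (Res A) ℓ]
    (hℓM : ¬ ℓ ∣ M) (hA : A.LiesOverPrime ℓ) {σ₀ : Gq} (hσ₀ : A.IsFrobeniusAt σ₀ ℓ)
    {x : Kummer.Fb M} {y : LaurentSeries (Res A)} (h : IsRed M A x y) :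
    IsRed M A (HeckeDivQ.heckeT M ℓ (E4.gal M σ₀ x))
      (y ^ ℓ * coeffMap (frobenius (Res A) ℓ) (coeffMap (frobenius (Res A) ℓ) y)) := by
  have hℓ : ℓ.Prime := Fact.out
  obtain ⟨z, hz, hz1⟩ := exists_primitiveRoot_unit (ℓ := ℓ) hℓ.pos
  have hΦ : ∀ U : LaurentSeries A,
      Congr.red A (Congr.actA A ⟨σ₀, hσ₀.mem_decompositionSubgroup⟩ U) =
        coeffMap (frobenius (Res A) ℓ) (Congr.red A U) :=
    fun U => Congr.red_actA_frob A hσ₀ U
  have hredT : ∀ U : LaurentSeries A,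
      Congr.red A (Congr.heckeMul ℓ hℓ.pos (Congr.unitA A hℓ.pos hz1)
          (Congr.actA A ⟨σ₀, hσ₀.mem_decompositionSubgroup⟩ U)) =
        Congr.red A U ^ ℓ * coeffMap (frobenius (Res A) ℓ)
          (coeffMap (frobenius (Res A) ℓ) (Congr.red A U)) := by
    intro U
    rw [Congr.red_heckeMul_frob A hℓ.pos hA hz1 hσ₀ U, hΦ, hΦ]
  have hinclT : ∀ U : LaurentSeries A,
      Congr.incl A (Congr.heckeMul ℓ hℓ.pos (Congr.unitA A hℓ.pos hz1)
          (Congr.actA A ⟨σ₀, hσ₀.mem_decompositionSubgroup⟩ U)) =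
        Congr.heckeMul ℓ hℓ.pos z (coeffMap (σ₀ : Qb →+* Qb) (Congr.incl A U)) := by
    intro U
    rw [Congr.incl_heckeMul A hℓ.pos z hz1, Congr.incl_actA]
  obtain ⟨P, Q, hQm, hQ, hx, hy⟩ := h
  have hQT : Congr.incl A (Congr.heckeMul ℓ hℓ.pos (Congr.unitA A hℓ.pos hz1)
      (Congr.actA A ⟨σ₀, hσ₀.mem_decompositionSubgroup⟩ Q)) =
      ((HeckeDivQ.heckeT M ℓ (E4.gal M σ₀ ⟨Congr.incl A Q, hQm⟩) : Kummer.Fb M) :
        LaurentSeries Qb) := by
    rw [HeckeDivQ.coe_heckeT M ℓ hℓ hℓM z hz, E4.coe_gal, hinclT]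
  refine ⟨Congr.heckeMul ℓ hℓ.pos (Congr.unitA A hℓ.pos hz1)
      (Congr.actA A ⟨σ₀, hσ₀.mem_decompositionSubgroup⟩ P),
    Congr.heckeMul ℓ hℓ.pos (Congr.unitA A hℓ.pos hz1)
      (Congr.actA A ⟨σ₀, hσ₀.mem_decompositionSubgroup⟩ Q), ?_, ?_, ?_, ?_⟩
  · rw [hQT]
    exact SetLike.coe_mem _
  · rw [hredT]
    exact mul_ne_zero (pow_ne_zero _ hQ) ((map_ne_zero _).2 ((map_ne_zero _).2 hQ))
  · rw [HeckeDivQ.coe_heckeT M ℓ hℓ hℓM z hz, E4.coe_gal, hinclT, hinclT,
      ← Congr.heckeMul_mul ℓ hℓ.pos z hz, ← map_mul, hx]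
  · rw [hredT, hredT, hy, map_mul, map_mul, mul_pow]
    ring

/-- **(GRED)**, the contract of row F5a: reduction is compatible with inertia, Frobenius and
the multiplicative Hecke operator. -/
theorem galRed (M : ℕ) (A : ValuationSubring Qb) (ℓ : ℕ) [NeZero M] [NeZero ℓ] [Fact ℓ.Prime]
    [CharP (Res A) ℓ] (hℓM : ¬ ℓ ∣ M) (hA : A.LiesOverPrime ℓ) {σ₀ : Gq}
    (hσ₀ : A.IsFrobeniusAt σ₀ ℓ) : GalRed M A ℓ σ₀ where
  inertia := fun _ hτ _ _ h => isRed_gal_inertia A M hτ h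
  frob := fun _ _ h => isRed_gal_frob A M hσ₀ h
  hecke := fun _ _ h => isRed_heckeT_gal A M hℓM hA hσ₀ h

end GalRedProof

end Fermat.Agent.S37.Fn.GaussGal
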