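/-
S37, function-only route to `Kummer.RED`, row F3b: the contract `Fn.HeckeStable`.

The multiplicative Hecke operator `T = Norm_α ∘ β` (`HeckeDivQ.heckeT`) maps `M_c(D)` into
`M_c(T_ℓ D)`, for both `A`-adic charts `c` of a chart function `u`, as soon as the charts are
`T_ℓ`-stable on places:

* `isRed_heckeT`       : `T` preserves the Gauss valuation ring, with
                          `red (T x) = (red x)(q^ℓ) · φ(red x)` (`φ` = coefficientwise Frobenius);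
* `heckeStable_of_iff` : `Fn.HeckeStable M A u ℓ h` from
                          `UInt (W|α) ↔ UInt (W|β)` for every place `W` of `Fb (M ℓ)`;
* `heckeStable_jBar`   : the case `u = j` (chart stability = `ChartStable.restrict_iff`).
-/
import Fermat.Agent.S37.Fn.Defs
import Fermat.Agent.S37.HeckeChart
import Fermat.Agent.S37.ChartStable

set_option autoImplicit false
set_option linter.unusedSectionVars false
set_option linter.style.haveILetI false
set_option synthInstance.maxHeartbeats 400000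
set_option maxHeartbeats 1000000

noncomputable section

namespace Fermat.Agent.S37.Fn.HeckeSt

open ModularCurve AlgebraicCurve HahnSeries
open Fermat.Agent.S30 Fermat.Agent.S37.Fn

local notation "Qb" => AlgebraicClosure ℚ

variable {M : ℕ} {A : ValuationSubring Qb} {ℓ : ℕ}

/-! ### `T` on the Gauss valuation ring -/

/-- The reduction of `T_ℓ` of an integral `q`-series: `red (T V) = (red V)(q^ℓ) · φ(red V)`. -/
theorem red_heckeMul [Fact ℓ.Prime] [CharP (Res A) ℓ] (hℓ : 0 < ℓ) (hA : A.LiesOverPrime ℓ)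
    {ζ : Qb} (hζ : ζ ^ ℓ = 1) (V : LaurentSeries A) :
    Congr.red A (Congr.heckeMul ℓ hℓ (Congr.unitA A hℓ hζ) V) =
      Congr.expand ℓ hℓ (Congr.red A V) * coeffMap (frobenius (Res A) ℓ) (Congr.red A V) := by
  rw [Congr.red, Congr.coeffMap_heckeMul, Congr.map_residue_unitA A hA hℓ hζ,
    Congr.heckeMul_one_unit]

theorem red_heckeMul_ne_zero [Fact ℓ.Prime] [CharP (Res A) ℓ] (hℓ : 0 < ℓ)
    (hA : A.LiesOverPrime ℓ) {ζ : Qb} (hζ : ζ ^ ℓ = 1) {V : LaurentSeries A}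
    (hV : Congr.red A V ≠ 0) :
    Congr.red A (Congr.heckeMul ℓ hℓ (Congr.unitA A hℓ hζ) V) ≠ 0 := by
  rw [red_heckeMul hℓ hA hζ]
  refine mul_ne_zero ?_ ?_
  · intro h0
    exact hV (Congr.expand_injective ℓ hℓ (by rw [h0, map_zero]))
  · intro h0
    exact hV (Congr.coeffMap_injective (frobenius (Res A) ℓ) (frobenius_inj (Res A) ℓ)
      (by rw [h0, map_zero]))

theorem exists_primitiveRoot_unit (hℓ : 0 < ℓ) :
    ∃ z : Qbˣ, IsPrimitiveRoot z ℓ ∧ (z : Qb) ^ ℓ = 1 := by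
  haveI : NeZero ℓ := ⟨hℓ.ne'⟩
  obtain ⟨ζ, hζ⟩ := HasEnoughRootsOfUnity.exists_primitiveRoot Qb ℓ
  refine ⟨(hζ.isUnit hℓ.ne').unit, IsPrimitiveRoot.coe_units_iff.1 (by
    rw [IsUnit.unit_spec]; exact hζ), ?_⟩
  rw [IsUnit.unit_spec]
  exact hζ.pow_eq_one

/-- **`T` preserves the Gauss valuation ring**, and
`red (T x) = (red x)(q^ℓ) · φ(red x)` with `φ` the coefficientwise Frobenius. -/
theorem isRed_heckeT [NeZero M] [NeZero ℓ] [Fact ℓ.Prime] [CharP (Res A) ℓ] (hℓ : ℓ.Prime)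
    (hℓM : ¬ ℓ ∣ M) (hA : A.LiesOverPrime ℓ) {x : Kummer.Fb M} {y : LaurentSeries (Res A)}
    (h : IsRed M A x y) :
    IsRed M A (HeckeDivQ.heckeT M ℓ x)
      (Congr.expand ℓ hℓ.pos y * coeffMap (frobenius (Res A) ℓ) y) := by
  obtain ⟨z, hz, hz1⟩ := exists_primitiveRoot_unit (ℓ := ℓ) hℓ.pos
  obtain ⟨P, Q, hQm, hQ, hx, hy⟩ := h
  have hPm : Congr.incl A P ∈ Kummer.Fb M := by
    rw [← hx]; exact (Kummer.Fb M).mul_mem x.2 hQm
  set P' : Kummer.Fb M := ⟨_, hPm⟩ with hP'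
  set Q' : Kummer.Fb M := ⟨_, hQm⟩ with hQ'
  have hxQ : x * Q' = P' := Subtype.ext hx
  have hT : ∀ (V : LaurentSeries A) (hV : Congr.incl A V ∈ Kummer.Fb M),
      Congr.incl A (Congr.heckeMul ℓ hℓ.pos (Congr.unitA A hℓ.pos hz1) V) =
        ((HeckeDivQ.heckeT M ℓ (⟨_, hV⟩ : Kummer.Fb M) : Kummer.Fb M) : LaurentSeries Qb) := by
    intro V hV
    rw [Congr.incl_heckeMul A hℓ.pos z hz1, HeckeDivQ.coe_heckeT M ℓ hℓ hℓM z hz]
  refine ⟨Congr.heckeMul ℓ hℓ.pos (Congr.unitA A hℓ.pos hz1) P,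
    Congr.heckeMul ℓ hℓ.pos (Congr.unitA A hℓ.pos hz1) Q, ?_, ?_, ?_, ?_⟩
  · rw [hT Q hQm]; exact (HeckeDivQ.heckeT M ℓ Q').2
  · exact red_heckeMul_ne_zero hℓ.pos hA hz1 hQ
  · rw [hT P hPm, hT Q hQm]
    have h1 : HeckeDivQ.heckeT M ℓ x * HeckeDivQ.heckeT M ℓ Q' = HeckeDivQ.heckeT M ℓ P' := by
      rw [← HeckeDivQ.heckeT_mul, hxQ]
    exact congrArg Subtype.val h1
  · rw [red_heckeMul hℓ.pos hA hz1, red_heckeMul hℓ.pos hA hz1, hy, map_mul, map_mul]
    ring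

theorem heckeT_zero [NeZero M] [NeZero ℓ] (hℓ : ℓ.Prime) (hℓM : ¬ ℓ ∣ M) :
    HeckeDivQ.heckeT M ℓ (0 : Kummer.Fb M) = 0 := by
  obtain ⟨z, hz, -⟩ := exists_primitiveRoot_unit (ℓ := ℓ) hℓ.pos
  apply Subtype.ext
  rw [HeckeDivQ.coe_heckeT M ℓ hℓ hℓM z hz]
  show Congr.heckeMul ℓ hℓ.pos z (0 : LaurentSeries Qb) = 0
  unfold Congr.heckeMul
  rw [map_zero, zero_mul]

/-! ### The contract `Fn.HeckeStable` -/

/-- **`Fn.HeckeStable` from chart stability on places**: if for every place `W` of `Fb (M ℓ)`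
the value of `u` at `W|α` is `A`-integral iff the value at `W|β` is, then `T` maps `M_c(D)` into
`M_c(T_ℓ D)` for both charts. -/
theorem heckeStable_of_iff [NeZero M] [NeZero ℓ] (hℓ : ℓ.Prime) (hℓM : ¬ ℓ ∣ M)
    (hA : A.LiesOverPrime ℓ) (h : HeckeInputsAlong Qb M ℓ) (u : Kummer.Fb M)
    (hiff : ∀ W : Place Qb (Kummer.Fb (M * ℓ)),
      UInt M A u (W.restrictAlong (heckeAlphaBar Qb M ℓ) h.fst) ↔
        UInt M A u (W.restrictAlong (heckeBetaBar Qb M ℓ) h.snd.fst)) :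
    HeckeStable M A u ℓ h := by
  haveI : Fact ℓ.Prime := ⟨hℓ⟩
  haveI := Congr.charP_residue A hA
  intro c D x hx
  obtain ⟨⟨y, hy⟩, hord⟩ := hx
  refine ⟨⟨_, isRed_heckeT hℓ hℓM hA hy⟩, ?_⟩
  rcases eq_or_ne x 0 with rfl | hx0
  · exact Or.inl (heckeT_zero hℓ hℓM)
  · right
    have hord' := hord.resolve_left hx0
    have hS : ∀ w : Place Qb (Kummer.Fb (M * ℓ)),
        w.restrictAlong (heckeAlphaBar Qb M ℓ) h.fst ∈ chart M A u c →
          w.restrictAlong (heckeBetaBar Qb M ℓ) h.snd.fst ∈ chart M A u c := by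
      intro w hw
      have hw' : UInt M A u (w.restrictAlong (heckeAlphaBar Qb M ℓ) h.fst) ↔ c = false := hw
      exact (hiff w).symm.trans hw'
    haveI := h.snd.snd.fst
    intro P hP
    exact HeckeChart.correspondence_le_ord_norm (heckeBetaBar Qb M ℓ) (heckeAlphaBar Qb M ℓ)
      h.snd.fst h.fst (chart M A u c) hS h.snd.snd.snd.fst h.snd.snd.snd.snd.2 x hx0 D hord' P hP

/-- **`Fn.HeckeStable` for the chart function `j`.** -/
theorem heckeStable_jBar {N : ℕ} [NeZero N] [NeZero ℓ] (hℓ : ℓ.Prime) (hℓN : ¬ ℓ ∣ N)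
    (hA : A.LiesOverPrime ℓ) (h : HeckeInputsAlong Qb N ℓ) :
    HeckeStable N A (Fermat.Agent.S24.DegreeGen.jBar N) ℓ h := by
  refine heckeStable_of_iff hℓ hℓN hA h _ fun W => ?_
  have h1 := ChartStable.restrict_iff A hℓ hℓN h.fst h.snd.fst W
  rw [ChartStable.jInt_iff_ord, ChartStable.jInt_iff_ord] at h1
  exact h1

end Fermat.Agent.S37.Fn.HeckeSt
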