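import Fermat.Agent.S37.Fn.ChartInt
import Fermat.Agent.S37.Fn.ModelInst
import Fermat.Agent.S37.Fn.ChartFn
import Fermat.Agent.S37.Fn.ChartFnHaupt

/-!
# S37 / F6b: the chart-integrality principles and `(INT_0)`, `(INT_∞)` for the three charts

Hypothesis-free instances of `Fn/ChartInt.lean` (exit of row F6b) on top of the modular instances
of the Model theorem (`Fn/ModelInst.lean`, row F13) and the chart functions (`Fn/ChartFn.lean`,
`Fn/ChartFnHaupt.lean`, row F15).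

* `chartInt_of_chartModel` : the generic bridge, for a chart function `u ∈ Fb M` which is the
  image of `uE E ∈ LE M E` satisfying `ModelInst.ChartModelC` for all sufficiently large `E`.
* `chartInt_jBar`, `intZero_jBar`, `intInf_jBar` : the chart `u = j`, `ℓ > 3`, `ℓ ∤ M`.
* `chartInt_h2B`, `intZero_h2B`, `intInf_h2B`   : the chart `u = h₂`, `2 ∣ M`, `ℓ ∤ M`.
* `chartInt_h3B`, `intZero_h3B`, `intInf_h3B`   : the chart `u = h₃`, `3 ∣ M`, `ℓ ∤ M`.
-/

set_option autoImplicit false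
set_option linter.unusedSectionVars false
set_option linter.style.haveILetI false
set_option synthInstance.maxHeartbeats 400000
set_option maxHeartbeats 1000000

noncomputable section

namespace Fermat.Agent.S37.Fn.IntInst

open ModularCurve AlgebraicCurve HahnSeries
open Fermat.Agent.S30 Fermat.Agent.S37.Fn Fermat.Agent.S30.Model
open Fermat.Agent.S18 Fermat.Agent.S18.K1Defs Fermat.Agent.S18.K1Main
open Fermat.Agent.S24.DegreeGen

local notation "Qb" => AlgebraicClosure ℚ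

variable {M : ℕ} [NeZero M] {A : ValuationSubring Qb}

/-- **Generic bridge**: both chart-integrality principles for a chart function `u ∈ Fb M` which
is the image of elements `uE E ∈ LE M E` carrying the Model-theorem package `ChartModelC` for
all sufficiently large number fields `E`. -/
theorem chartInt_of_chartModel {ℓ : ℕ} [Fact ℓ.Prime] (hA : A.LiesOverPrime ℓ)
    (u : Kummer.Fb M) (ub : LaurentSeries (Res A)) (hu : IsRed M A u ub) (hub : ub.order < 0)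
    (uE : ∀ E : IntermediateField ℚ Qb, LE M E)
    (hup : ∀ E : IntermediateField ℚ Qb, K1Descent.upHom M E (uE E) = u)
    (h : ∃ S₀ : Finset Qb, ∀ (E : IntermediateField ℚ Qb) [FiniteDimensional ℚ E]
      [IsDiscreteValuationRing (OE A E)], (∀ s ∈ S₀, s ∈ E) →
      ModelInst.ChartModelC M (OE A E) E (uE E)) :
    Int.ChartInt M A (fun P => 0 ≤ P.ord u) ub ∧
      Int.ChartInt M A (fun P => P.ord u ≤ 0) ub⁻¹ := by
  obtain ⟨S₀, h⟩ := h
  constructor
  · refine ChartInt.chartInt_zero hA u ub hu hub ⟨S₀, fun E _ _ hE => ?_⟩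
    letI := algebraOL (OE A E) E (LE M E)
    haveI := isScalarTower_OL (OE A E) E (LE M E)
    have hCM : ModelInst.ChartModel M (OE A E) E (uE E) := h E hE
    obtain ⟨π, hπ⟩ := IsDiscreteValuationRing.exists_irreducible (OE A E)
    exact ⟨uE E, hup E, hCM.tr, hCM.fin, π, hπ, hCM.prime_zero π hπ⟩
  · refine ChartInt.chartInt_inf hA u ub hu hub ⟨S₀, fun E _ _ hE => ?_⟩
    letI := algebraOL (OE A E) E (LE M E)
    haveI := isScalarTower_OL (OE A E) E (LE M E)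
    have hCM : ModelInst.ChartModel M (OE A E) E (uE E) := h E hE
    obtain ⟨π, hπ⟩ := IsDiscreteValuationRing.exists_irreducible (OE A E)
    exact ⟨uE E, hup E, hCM.tr, hCM.fin, π, hπ, hCM.prime_inf π hπ⟩

/-! ### The chart `u = j` -/

/-- **Row F6b for `u = j`** (`ℓ > 3`, `ℓ ∤ M`): the two chart-integrality principles. -/
theorem chartInt_jBar (M : ℕ) [NeZero M] (A : ValuationSubring Qb) {ℓ : ℕ} [Fact ℓ.Prime]
    (hℓM : ¬ ℓ ∣ M) (hA : A.LiesOverPrime ℓ) (hℓ : 3 < ℓ) (ub : LaurentSeries (Res A))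
    (hu : IsRed M A (jBar M) ub) (hub : ub.order < 0) :
    Int.ChartInt M A (fun P => 0 ≤ P.ord (jBar M)) ub ∧
      Int.ChartInt M A (fun P => P.ord (jBar M) ≤ 0) ub⁻¹ :=
  chartInt_of_chartModel hA (jBar M) ub hu hub (fun E => jE M E)
    (fun E => ChartFn.upHom_jE M E) (ModelInst.exists_finset_chartModel_j A M hℓM hA hℓ)

/-- **(INT_0)** for `u = j`. -/
theorem intZero_jBar (M : ℕ) [NeZero M] (A : ValuationSubring Qb) {ℓ : ℕ} [Fact ℓ.Prime]
    (hℓM : ¬ ℓ ∣ M) (hA : A.LiesOverPrime ℓ) (hℓ : 3 < ℓ) : IntZero M A (jBar M) := by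
  obtain ⟨ub, hu, hub⟩ := ChartFn.exists_isRed_jBar M A
  exact Int.intZero_of_pole (jBar M) ub hu hub (chartInt_jBar M A hℓM hA hℓ ub hu hub).1

/-- **(INT_∞)** for `u = j`. -/
theorem intInf_jBar (M : ℕ) [NeZero M] (A : ValuationSubring Qb) {ℓ : ℕ} [Fact ℓ.Prime]
    (hℓM : ¬ ℓ ∣ M) (hA : A.LiesOverPrime ℓ) (hℓ : 3 < ℓ) : IntInf M A (jBar M) := by
  obtain ⟨ub, hu, hub⟩ := ChartFn.exists_isRed_jBar M A
  exact Int.intInf_of_pole (jBar M) ub hu hub (chartInt_jBar M A hℓM hA hℓ ub hu hub).2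

/-! ### The chart `u = h₂` -/

theorem upHom_h2E (M : ℕ) [NeZero M] (E : IntermediateField ℚ Qb) (h2M : 2 ∣ M) :
    K1Descent.upHom M E (Haupt.HorizTwo.h2E M E h2M) = ChartFnHaupt.h2B M h2M :=
  Subtype.ext (ChartFnHaupt.up_h2E M E h2M)

/-- **Row F6b for `u = h₂`** (`2 ∣ M`, `ℓ ∤ M`): the two chart-integrality principles. -/
theorem chartInt_h2B (M : ℕ) [NeZero M] (h2M : 2 ∣ M) (A : ValuationSubring Qb) {ℓ : ℕ}
    [Fact ℓ.Prime] (hℓM : ¬ ℓ ∣ M) (hA : A.LiesOverPrime ℓ) (ub : LaurentSeries (Res A))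
    (hu : IsRed M A (ChartFnHaupt.h2B M h2M) ub) (hub : ub.order < 0) :
    Int.ChartInt M A (fun P => 0 ≤ P.ord (ChartFnHaupt.h2B M h2M)) ub ∧
      Int.ChartInt M A (fun P => P.ord (ChartFnHaupt.h2B M h2M) ≤ 0) ub⁻¹ :=
  chartInt_of_chartModel hA (ChartFnHaupt.h2B M h2M) ub hu hub
    (fun E => Haupt.HorizTwo.h2E M E h2M) (fun E => upHom_h2E M E h2M)
    (ModelInst.exists_finset_chartModel_h2 A M h2M hℓM hA)

/-- **(INT_0)** for `u = h₂`. -/
theorem intZero_h2B (M : ℕ) [NeZero M] (h2M : 2 ∣ M) (A : ValuationSubring Qb) {ℓ : ℕ}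
    [Fact ℓ.Prime] (hℓM : ¬ ℓ ∣ M) (hA : A.LiesOverPrime ℓ) :
    IntZero M A (ChartFnHaupt.h2B M h2M) := by
  obtain ⟨ub, hu, hub⟩ := ChartFnHaupt.exists_isRed_h2B M A h2M
  exact Int.intZero_of_pole _ ub hu hub (chartInt_h2B M h2M A hℓM hA ub hu hub).1

/-- **(INT_∞)** for `u = h₂`. -/
theorem intInf_h2B (M : ℕ) [NeZero M] (h2M : 2 ∣ M) (A : ValuationSubring Qb) {ℓ : ℕ}
    [Fact ℓ.Prime] (hℓM : ¬ ℓ ∣ M) (hA : A.LiesOverPrime ℓ) :
    IntInf M A (ChartFnHaupt.h2B M h2M) := by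
  obtain ⟨ub, hu, hub⟩ := ChartFnHaupt.exists_isRed_h2B M A h2M
  exact Int.intInf_of_pole _ ub hu hub (chartInt_h2B M h2M A hℓM hA ub hu hub).2

/-! ### The chart `u = h₃` -/

theorem upHom_h3E (M : ℕ) [NeZero M] (E : IntermediateField ℚ Qb) (h3M : 3 ∣ M) :
    K1Descent.upHom M E (Haupt.HorizThree.h3E M E h3M) = ChartFnHaupt.h3B M h3M :=
  Subtype.ext (ChartFnHaupt.up_h3E M E h3M)

/-- **Row F6b for `u = h₃`** (`3 ∣ M`, `ℓ ∤ M`): the two chart-integrality principles. -/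
theorem chartInt_h3B (M : ℕ) [NeZero M] (h3M : 3 ∣ M) (A : ValuationSubring Qb) {ℓ : ℕ}
    [Fact ℓ.Prime] (hℓM : ¬ ℓ ∣ M) (hA : A.LiesOverPrime ℓ) (ub : LaurentSeries (Res A))
    (hu : IsRed M A (ChartFnHaupt.h3B M h3M) ub) (hub : ub.order < 0) :
    Int.ChartInt M A (fun P => 0 ≤ P.ord (ChartFnHaupt.h3B M h3M)) ub ∧
      Int.ChartInt M A (fun P => P.ord (ChartFnHaupt.h3B M h3M) ≤ 0) ub⁻¹ :=
  chartInt_of_chartModel hA (ChartFnHaupt.h3B M h3M) ub hu hub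
    (fun E => Haupt.HorizThree.h3E M E h3M) (fun E => upHom_h3E M E h3M)
    (ModelInst.exists_finset_chartModel_h3 A M h3M hℓM hA)

/-- **(INT_0)** for `u = h₃`. -/
theorem intZero_h3B (M : ℕ) [NeZero M] (h3M : 3 ∣ M) (A : ValuationSubring Qb) {ℓ : ℕ}
    [Fact ℓ.Prime] (hℓM : ¬ ℓ ∣ M) (hA : A.LiesOverPrime ℓ) :
    IntZero M A (ChartFnHaupt.h3B M h3M) := by
  obtain ⟨ub, hu, hub⟩ := ChartFnHaupt.exists_isRed_h3B M A h3M
  exact Int.intZero_of_pole _ ub hu hub (chartInt_h3B M h3M A hℓM hA ub hu hub).1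

/-- **(INT_∞)** for `u = h₃`. -/
theorem intInf_h3B (M : ℕ) [NeZero M] (h3M : 3 ∣ M) (A : ValuationSubring Qb) {ℓ : ℕ}
    [Fact ℓ.Prime] (hℓM : ¬ ℓ ∣ M) (hA : A.LiesOverPrime ℓ) :
    IntInf M A (ChartFnHaupt.h3B M h3M) := by
  obtain ⟨ub, hu, hub⟩ := ChartFnHaupt.exists_isRed_h3B M A h3M
  exact Int.intInf_of_pole _ ub hu hub (chartInt_h3B M h3M A hℓM hA ub hu hub).2

end Fermat.Agent.S37.Fn.IntInst
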