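import Mathlib
import Fermat.Agent.S37.Fn.IntAbs
import Fermat.Agent.S30.Congr

/-!
# S37 / F7 (`ℚ̄`-level): `INT_0` and `INT_∞` for function fields inside `ℚ̄((q))`

`F` an intermediate field of `ℚ̄((q)) / ℚ̄` of transcendence degree one (e.g. `Fb M`), `A` a
valuation subring of `ℚ̄`, `u = incl Uu ∈ F` a chart function with `A`-integral `q`-expansion.

* `gaussRing A F` : the functions of `F` with `A`-integral `q`-expansion; `gaussRed` their
  coefficientwise reduction.
* `int_zero` : chart-integrality on the chart `u` (`CI_0`) ⇒ `INT_0`.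
* `int_infty` : chart-integrality on the chart `u⁻¹` (`CI_∞`) ⇒ `INT_∞`.

All statements are spelled out with `Congr.incl` / `Congr.red` only.
-/

set_option autoImplicit false
set_option linter.unusedSectionVars false

noncomputable section

namespace Fermat.Agent.S37.Fn.IntQb

open ModularCurve AlgebraicCurve HahnSeries Polynomial
open Fermat.Agent.S30

local notation "Qb" => AlgebraicClosure ℚ

variable (A : ValuationSubring Qb) (F : IntermediateField Qb (LaurentSeries Qb))

/-- The functions of `F` whose `q`-expansion has coefficients in `A`. -/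
def gaussRing : Subring F where
  carrier := {f | ∃ U : LaurentSeries A, Congr.incl A U = (f : LaurentSeries Qb)}
  mul_mem' := by
    rintro f g ⟨U, hU⟩ ⟨W, hW⟩
    exact ⟨U * W, by rw [map_mul, hU, hW]; rfl⟩
  one_mem' := ⟨1, by rw [map_one]; rfl⟩
  add_mem' := by
    rintro f g ⟨U, hU⟩ ⟨W, hW⟩
    exact ⟨U + W, by rw [map_add, hU, hW]; rfl⟩
  zero_mem' := ⟨0, by rw [map_zero]; rfl⟩
  neg_mem' := by
    rintro f ⟨U, hU⟩
    exact ⟨-U, by rw [map_neg, hU]; rfl⟩

theorem mem_gaussRing {f : F} :
    f ∈ gaussRing A F ↔ ∃ U : LaurentSeries A, Congr.incl A U = (f : LaurentSeries Qb) := Iff.rfl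

/-- The integral `q`-expansion of an element of the Gauss ring. -/
def lift (f : gaussRing A F) : LaurentSeries A := Classical.choose f.2

theorem incl_lift (f : gaussRing A F) :
    Congr.incl A (lift A F f) = ((f : F) : LaurentSeries Qb) := Classical.choose_spec f.2

theorem lift_eq (f : gaussRing A F) (U : LaurentSeries A)
    (h : Congr.incl A U = ((f : F) : LaurentSeries Qb)) : lift A F f = U :=
  Congr.incl_injective A (by rw [incl_lift, h])

/-- Coefficientwise reduction on the Gauss ring. -/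
def gaussRed : gaussRing A F →+* LaurentSeries (IsLocalRing.ResidueField A) where
  toFun f := Congr.red A (lift A F f)
  map_one' := by
    rw [lift_eq A F 1 1 (by rw [map_one]; rfl), map_one]
  map_mul' f g := by
    rw [lift_eq A F (f * g) (lift A F f * lift A F g)
      (by rw [map_mul, incl_lift, incl_lift]; rfl), map_mul]
  map_zero' := by
    rw [lift_eq A F 0 0 (by rw [map_zero]; rfl), map_zero]
  map_add' f g := by
    rw [lift_eq A F (f + g) (lift A F f + lift A F g)
      (by rw [map_add, incl_lift, incl_lift]; rfl), map_add]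

theorem gaussRed_mk (U : LaurentSeries A) (hU : Congr.incl A U ∈ F)
    (h : (⟨Congr.incl A U, hU⟩ : F) ∈ gaussRing A F) :
    gaussRed A F ⟨⟨Congr.incl A U, hU⟩, h⟩ = Congr.red A U := by
  show Congr.red A (lift A F _) = _
  rw [lift_eq A F _ U rfl]

theorem gaussRed_eq (f : F) (hf : f ∈ gaussRing A F) (W : LaurentSeries A)
    (hW : Congr.incl A W = (f : LaurentSeries Qb)) :
    gaussRed A F ⟨f, hf⟩ = Congr.red A W := by
  show Congr.red A (lift A F _) = _
  rw [lift_eq A F ⟨f, hf⟩ W hW]

theorem mk_mem_gaussRing (U : LaurentSeries A) (hU : Congr.incl A U ∈ F) :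
    (⟨Congr.incl A U, hU⟩ : F) ∈ gaussRing A F := ⟨U, rfl⟩

/-- Constants of `A` lie in the Gauss ring and reduce to their residue classes. -/
theorem gaussRed_const (a : A) :
    ∃ h : algebraMap Qb F (a : Qb) ∈ gaussRing A F,
      gaussRed A F ⟨_, h⟩ = algebraMap (IsLocalRing.ResidueField A)
        (LaurentSeries (IsLocalRing.ResidueField A)) (IsLocalRing.residue A a) := by
  have h1 : Congr.incl A (HahnSeries.single 0 a) =
      ((algebraMap Qb F (a : Qb) : F) : LaurentSeries Qb) := by
    have h2 : ((algebraMap Qb F (a : Qb) : F) : LaurentSeries Qb) =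
        algebraMap Qb (LaurentSeries Qb) (a : Qb) := rfl
    rw [h2, algebraMap_laurentSeries_eq_single]
    show coeffMap A.subtype (HahnSeries.single 0 a) = _
    rw [coeffMap_single]
    rfl
  refine ⟨⟨HahnSeries.single 0 a, h1⟩, ?_⟩
  show Congr.red A (lift A F _) = _
  rw [lift_eq A F _ _ h1, algebraMap_laurentSeries_eq_single]
  show coeffMap (IsLocalRing.residue A) (HahnSeries.single 0 a) = _
  rw [coeffMap_single]

variable {A F}

/-- **`INT_0`.**  If every function of `F` with `A`-integral `q`-expansion which is regular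
wherever the chart function `u` is finite has reduction integral over `k[ū]`, then so has every
function with `A`-integral `q`-expansion which is regular at the places `P` with `u(P) ∈ A`. -/
theorem int_zero [Algebra.EssFiniteType Qb F] (htr : Algebra.trdeg Qb F = 1)
    (Uu : LaurentSeries A) (hUu : Congr.incl A Uu ∈ F)
    (hutr : Transcendental Qb (⟨_, hUu⟩ : F))
    (hCI : ∀ (U : LaurentSeries A) (hU : Congr.incl A U ∈ F),
      (∀ P : Place Qb F, 0 ≤ P.ord (⟨_, hUu⟩ : F) → 0 ≤ P.ord (⟨_, hU⟩ : F)) →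
      IsIntegral (Algebra.adjoin (IsLocalRing.ResidueField A) {Congr.red A Uu}) (Congr.red A U))
    (U : LaurentSeries A) (hU : Congr.incl A U ∈ F)
    (h : ∀ P : Place Qb F,
      (∃ a : A, 0 < P.ord ((⟨_, hUu⟩ : F) - algebraMap Qb F (a : Qb))) →
      0 ≤ P.ord (⟨_, hU⟩ : F)) :
    IsIntegral (Algebra.adjoin (IsLocalRing.ResidueField A) {Congr.red A Uu})
      (Congr.red A U) := by
  have key := IntAbs.int_zero (A := A) (u := (⟨_, hUu⟩ : F)) (V := gaussRing A F)
    (gaussRed A F) (gaussRed_const A F) (mk_mem_gaussRing A F Uu hUu)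
    (fun f hf => IntAbs.poles_finite_of_trdeg htr f hf)
    (fun P hP => IntAbs.exists_sub_ord_pos_of_trdeg htr hutr P hP)
    (fun r => IsIntegral (Algebra.adjoin (IsLocalRing.ResidueField A) {Congr.red A Uu}) r)
    (fun y hy hreg => by
      obtain ⟨W, hW⟩ := id hy
      have hWF : Congr.incl A W ∈ F := by rw [hW]; exact y.2
      have hy' : (⟨Congr.incl A W, hWF⟩ : F) = y := Subtype.ext hW
      rw [gaussRed_eq A F y hy W hW]
      refine hCI W hWF ?_
      rw [hy']
      exact hreg)
    (⟨_, hU⟩ : F) (mk_mem_gaussRing A F U hU) h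
  rwa [gaussRed_mk A F U hU] at key

/-- **`INT_∞`.**  `t = incl Ut = u⁻¹`.  If every function of `F` with `A`-integral `q`-expansion
which is regular wherever `t` is finite has reduction integral over `k[t̄]`, then for every
function `x` with `A`-integral `q`-expansion which is regular at the places `P` with `u(P) ∉ A`
there is `G ∈ k[X]`, `G(0) = 1`, with `x̄ · G(t̄)` integral over `k[t̄]`. -/
theorem int_infty [Algebra.EssFiniteType Qb F] (htr : Algebra.trdeg Qb F = 1)
    (Uu Ut : LaurentSeries A) (hUu : Congr.incl A Uu ∈ F) (hUt : Congr.incl A Ut ∈ F)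
    (hut : Uu * Ut = 1)
    (hCI : ∀ (U : LaurentSeries A) (hU : Congr.incl A U ∈ F),
      (∀ P : Place Qb F, P.ord (⟨_, hUu⟩ : F) ≤ 0 → 0 ≤ P.ord (⟨_, hU⟩ : F)) →
      IsIntegral (Algebra.adjoin (IsLocalRing.ResidueField A) {Congr.red A Ut}) (Congr.red A U))
    (U : LaurentSeries A) (hU : Congr.incl A U ∈ F)
    (h : ∀ P : Place Qb F,
      (¬ ∃ a : A, 0 < P.ord ((⟨_, hUu⟩ : F) - algebraMap Qb F (a : Qb))) →
      0 ≤ P.ord (⟨_, hU⟩ : F)) :
    ∃ G : (IsLocalRing.ResidueField A)[X], G.eval 0 = 1 ∧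
      IsIntegral (Algebra.adjoin (IsLocalRing.ResidueField A) {Congr.red A Ut})
        (Congr.red A U * aeval (Congr.red A Ut) G) := by
  have hut' : (⟨_, hUu⟩ : F) * (⟨_, hUt⟩ : F) = 1 := by
    apply Subtype.ext
    show Congr.incl A Uu * Congr.incl A Ut = 1
    rw [← map_mul, hut, map_one]
  obtain ⟨G, hG0, hG⟩ := IntAbs.int_infty (A := A) (u := (⟨_, hUu⟩ : F)) (V := gaussRing A F)
    (gaussRed A F) (gaussRed_const A F) (⟨_, hUt⟩ : F) hut' (mk_mem_gaussRing A F Ut hUt)
    (fun f hf => IntAbs.poles_finite_of_trdeg htr f hf)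
    (fun r => IsIntegral (Algebra.adjoin (IsLocalRing.ResidueField A) {Congr.red A Ut}) r)
    (fun y hy hreg => by
      obtain ⟨W, hW⟩ := id hy
      have hWF : Congr.incl A W ∈ F := by rw [hW]; exact y.2
      have hy' : (⟨Congr.incl A W, hWF⟩ : F) = y := Subtype.ext hW
      rw [gaussRed_eq A F y hy W hW]
      refine hCI W hWF ?_
      rw [hy']
      exact hreg)
    (⟨_, hU⟩ : F) (mk_mem_gaussRing A F U hU) h
  refine ⟨G, hG0, ?_⟩
  rwa [gaussRed_mk A F U hU, gaussRed_mk A F Ut hUt] at hG

end Fermat.Agent.S37.Fn.IntQb
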