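import Fermat.Agent.Lib.PlaceApprox
import Fermat.Agent.S37.Fn.IntAbs

/-!
# S37 / F6a (piece R2): a separating uniformiser regular on a chart

`F / K` a function field of one variable over an algebraically closed field of characteristic
zero, `t ∈ F` transcendental (a chart coordinate), `P` a place with `t(P) = a`.

`exists_sep_unif` : there is `y ∈ F` with

* `P.ord y = 1` (a uniformiser at `P`),
* `P'.ord y = 0` at every other zero `P'` of `t - a` (`y` separates `P` from the other points of
  the fibre `t = a`),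
* `0 ≤ Q.ord y` at every place `Q` at which `t` is regular (`y` is regular on the chart, i.e.
  integral over `K[t]`).

Proof: weak approximation (`Lib.PlaceApprox.exists_forall_ord_eq`) on the finite fibre `t = a`
gives `w` with the prescribed orders; its finitely many poles `Q` at places where `t` is finite
have `t(Q) = b_Q ≠ a`, and are cleared by the factor `∏ (t - b_Q) ^ (-ord_Q w)`, which is a unit
at every point of the fibre `t = a` and regular wherever `t` is.
-/

set_option autoImplicit false

namespace Fermat.Agent.S37.Fn.SepUnif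

open AlgebraicCurve IntermediateField

variable {K F : Type*} [Field K] [Field F] [Algebra K F]

/-- At a zero of `t - a`, the function `t - b` (`b ≠ a`) is a unit. -/
theorem ord_sub_const_eq_zero (P : Place K F) (t : F) {a b : K} (hab : a ≠ b)
    (hP : 0 < P.ord (t - algebraMap K F a)) : P.ord (t - algebraMap K F b) = 0 := by
  have hta : t - algebraMap K F a ≠ 0 := by
    intro h0
    rw [h0, P.ord_zero] at hP
    exact lt_irrefl _ hP
  have hc : algebraMap K F (a - b) ≠ 0 :=
    (map_ne_zero_iff _ (algebraMap K F).injective).mpr (sub_ne_zero.mpr hab)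
  have h1 : P.ord (algebraMap K F (a - b)) < P.ord (t - algebraMap K F a) := by
    rw [Fermat.Agent.S24.FF.ord_algebraMap]
    exact hP
  have h2 := Fermat.Agent.S24.FF.ord_add_eq_of_lt P h1 hc hta
  rw [Fermat.Agent.S24.FF.ord_algebraMap] at h2
  have e : algebraMap K F (a - b) + (t - algebraMap K F a) = t - algebraMap K F b := by
    rw [map_sub]
    ring
  rwa [e] at h2

/-- `t - b` is regular wherever `t` is. -/
theorem ord_sub_const_nonneg (Q : Place K F) {t : F} (b : K) (hne : t - algebraMap K F b ≠ 0)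
    (hQ : 0 ≤ Q.ord t) : 0 ≤ Q.ord (t - algebraMap K F b) := by
  have h := Fermat.Agent.S24.FF.ord_sub_ge Q hne
  rw [Fermat.Agent.S24.FF.ord_algebraMap] at h
  exact le_trans (le_min hQ le_rfl) h

/-- **Separating uniformiser, regular on the chart.** -/
theorem exists_sep_unif [IsAlgClosed K] [CharZero K] [Algebra.EssFiniteType K F]
    (htr : Algebra.trdeg K F = 1) (t : F) (ht : Transcendental K t) (a : K)
    (P : Place K F) (hP : 0 < P.ord (t - algebraMap K F a)) :
    ∃ y : F, P.ord y = 1 ∧
      (∀ P' : Place K F, P' ≠ P → 0 < P'.ord (t - algebraMap K F a) → P'.ord y = 0) ∧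
      (∀ Q : Place K F, 0 ≤ Q.ord t → 0 ≤ Q.ord y) := by
  classical
  have : Module.Finite K⟮t⟯ F := Fermat.Agent.S24.FF.finite_adjoin_simple htr ht
  have hTfin := Fermat.Agent.S24.FF.zeros_finite htr ht a
  -- `w` with the prescribed orders on the fibre `t = a`
  obtain ⟨w, hw0, hw⟩ := Fermat.Agent.Lib.PlaceApprox.exists_forall_ord_eq t ht hTfin.toFinset
    (fun Q => if Q = P then 1 else 0)
  have hwT : ∀ Q : Place K F, 0 < Q.ord (t - algebraMap K F a) →
      Q.ord w = if Q = P then 1 else 0 := fun Q hQ =>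
    hw Q (by rw [Set.Finite.mem_toFinset]; exact hQ)
  -- the poles of `w` at places where `t` is finite
  have hSfin := Fermat.Agent.S37.Fn.IntAbs.poles_finite_of_trdeg htr w hw0
  set S : Finset (Place K F) := hSfin.toFinset.filter (fun Q => 0 ≤ Q.ord t) with hS
  have hmemS : ∀ Q : Place K F, Q ∈ S ↔ Q.ord w < 0 ∧ 0 ≤ Q.ord t := by
    intro Q
    rw [hS, Finset.mem_filter, Set.Finite.mem_toFinset]
    rfl
  -- the values of `t` at the places where it is finite
  have hb : ∀ Q : Place K F, ∃ b : K, 0 ≤ Q.ord t → 0 < Q.ord (t - algebraMap K F b) := by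
    intro Q
    by_cases hQ : 0 ≤ Q.ord t
    · obtain ⟨b, hb⟩ := Fermat.Agent.S37.Fn.IntAbs.exists_sub_ord_pos_of_trdeg htr ht Q hQ
      exact ⟨b, fun _ => hb⟩
    · exact ⟨0, fun h => absurd h hQ⟩
  choose b hb using hb
  have hne : ∀ c : K, t - algebraMap K F c ≠ 0 := by
    intro c h0
    apply ht
    rw [sub_eq_zero.mp h0]
    exact isAlgebraic_algebraMap c
  -- the values at the poles are different from `a`
  have hba : ∀ Q ∈ S, a ≠ b Q := by
    intro Q hQ
    obtain ⟨hQw, hQt⟩ := (hmemS Q).mp hQ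
    intro hab
    have h1 : 0 < Q.ord (t - algebraMap K F a) := by
      rw [hab]
      exact hb Q hQt
    have h2 := hwT Q h1
    split_ifs at h2 <;> omega
  set g : F := ∏ Q ∈ S, (t - algebraMap K F (b Q)) ^ (Q.ord w).natAbs with hg
  have hfac : ∀ Q ∈ S, (t - algebraMap K F (b Q)) ^ (Q.ord w).natAbs ≠ 0 := fun Q _ =>
    pow_ne_zero _ (hne (b Q))
  have hg0 : g ≠ 0 := Finset.prod_ne_zero_iff.mpr hfac
  have hordg : ∀ R : Place K F, R.ord g =
      ∑ Q ∈ S, ((Q.ord w).natAbs : ℤ) * R.ord (t - algebraMap K F (b Q)) := by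
    intro R
    rw [hg, Fermat.Agent.S37.Fn.IntAbs.ord_prod R S _ hfac]
    exact Finset.sum_congr rfl fun Q _ => Fermat.Agent.S37.Fn.IntAbs.ord_pow R _ _
  -- `g` is a unit on the fibre `t = a`
  have hgT : ∀ R : Place K F, 0 < R.ord (t - algebraMap K F a) → R.ord g = 0 := by
    intro R hR
    rw [hordg R]
    refine Finset.sum_eq_zero fun Q hQ => ?_
    rw [ord_sub_const_eq_zero R t (hba Q hQ) hR, mul_zero]
  refine ⟨w * g, ?_, ?_, ?_⟩
  · rw [P.ord_mul hw0 hg0, hgT P hP, hwT P hP, if_pos rfl, add_zero]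
  · intro P' hP'P hP'
    rw [P'.ord_mul hw0 hg0, hgT P' hP', hwT P' hP', if_neg hP'P, add_zero]
  · intro R hR
    rw [R.ord_mul hw0 hg0, hordg R]
    have hterm : ∀ Q ∈ S, 0 ≤ ((Q.ord w).natAbs : ℤ) * R.ord (t - algebraMap K F (b Q)) :=
      fun Q _ => mul_nonneg (Int.natCast_nonneg _) (ord_sub_const_nonneg R (b Q) (hne (b Q)) hR)
    by_cases hRS : R ∈ S
    · obtain ⟨hRw, -⟩ := (hmemS R).mp hRS
      have h1 : ((R.ord w).natAbs : ℤ) * R.ord (t - algebraMap K F (b R)) ≤
          ∑ Q ∈ S, ((Q.ord w).natAbs : ℤ) * R.ord (t - algebraMap K F (b Q)) :=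
        Finset.single_le_sum (f := fun Q : Place K F =>
          ((Q.ord w).natAbs : ℤ) * R.ord (t - algebraMap K F (b Q))) hterm hRS
      have h2 : 0 < R.ord (t - algebraMap K F (b R)) := hb R hR
      have h3 : ((R.ord w).natAbs : ℤ) = -R.ord w := by
        rw [Int.natCast_natAbs, abs_of_neg hRw]
      have h4 : ((R.ord w).natAbs : ℤ) ≤
          ((R.ord w).natAbs : ℤ) * R.ord (t - algebraMap K F (b R)) := by
        have h5 := mul_le_mul_of_nonneg_left
          (show (1 : ℤ) ≤ R.ord (t - algebraMap K F (b R)) from h2)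
          (Int.natCast_nonneg (R.ord w).natAbs)
        rwa [mul_one] at h5
      linarith
    · have hRw : 0 ≤ R.ord w := by
        by_contra hneg
        exact hRS ((hmemS R).mpr ⟨not_le.mp hneg, hR⟩)
      have h6 := Finset.sum_nonneg hterm
      linarith

end Fermat.Agent.S37.Fn.SepUnif
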