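import Fermat.Agent.S37.Fn.Defs
import Fermat.Agent.S37.Fn.IntPole
import Fermat.Agent.S37.Fn.SepUnif
import Fermat.Agent.S30.HeckeInputs
import Fermat.Agent.S24.FF.Residue

/-!
# S37 / F9b: the two `A`-adic charts at the level of places of `Fb M`

`u ∈ Fb M` a chart function with `IsRed M A u ub`, `ub.order < 0` (so `u` is non-constant).

* `ord_nonneg_of_uInt` : `u` is regular on the chart `S_0`.
* `ord_inv_nonneg_of_not_uInt` : `u⁻¹` is regular on the chart `S_∞`.
* `exists_inv_value` : at a place of `S_∞`, `u⁻¹` takes a value `b ∈ A`.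
* `not_isUnit_of_not_uInt` : at a place of `S_∞`, the value of `u⁻¹` is a non-unit of `A`.
* `ne_algebraMap_of_pole`, `inv_ne_algebraMap_of_pole` : `ub`, `ub⁻¹` are not constant series.
-/

set_option autoImplicit false
set_option linter.unusedSectionVars false

noncomputable section

namespace Fermat.Agent.S37.Fn.InvQb

open ModularCurve AlgebraicCurve HahnSeries
open Fermat.Agent.S30 Fermat.Agent.S37.Fn

local notation "Qb" => AlgebraicClosure ℚ

section Generic

variable {K F : Type*} [Field K] [Field F] [Algebra K F]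

/-- If `u(P) = c ≠ 0` then `u⁻¹(P) = c⁻¹`. -/
theorem ord_inv_sub_inv_pos (P : Place K F) (u : F) {c : K} (hc : c ≠ 0)
    (hP : 0 < P.ord (u - algebraMap K F c)) : 0 < P.ord (u⁻¹ - algebraMap K F c⁻¹) := by
  have h0 : P.ord u = 0 := by
    have h := SepUnif.ord_sub_const_eq_zero P u hc hP
    rwa [map_zero, sub_zero] at h
  have hu : u ≠ 0 := by
    rintro rfl
    rw [zero_sub, Fermat.Agent.S24.FF.ord_neg, Fermat.Agent.S24.FF.ord_algebraMap] at hP
    exact lt_irrefl _ hP
  have hcF : algebraMap K F c ≠ 0 := (map_ne_zero_iff _ (algebraMap K F).injective).mpr hc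
  have hne : u - algebraMap K F c ≠ 0 := by
    intro h
    rw [h, P.ord_zero] at hP
    exact lt_irrefl _ hP
  have e : u⁻¹ - algebraMap K F c⁻¹ =
      (-(algebraMap K F c⁻¹ * u⁻¹)) * (u - algebraMap K F c) := by
    rw [map_inv₀]
    field_simp
    ring
  have h1 : algebraMap K F c⁻¹ * u⁻¹ ≠ 0 :=
    mul_ne_zero ((map_ne_zero_iff _ (algebraMap K F).injective).mpr (inv_ne_zero hc))
      (inv_ne_zero hu)
  rw [e, P.ord_mul (neg_ne_zero.mpr h1) hne, Fermat.Agent.S24.FF.ord_neg,
    P.ord_mul ((map_ne_zero_iff _ (algebraMap K F).injective).mpr (inv_ne_zero hc))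
      (inv_ne_zero hu),
    Fermat.Agent.S24.FF.ord_algebraMap, P.ord_inv, h0]
  simpa using hP

end Generic

variable {M : ℕ} {A : ValuationSubring Qb}

/-- The reduction of a function with a pole is not a constant series. -/
theorem ne_algebraMap_of_pole {ub : LaurentSeries (Res A)} (hub : ub.order < 0) (a : Res A) :
    ub ≠ algebraMap (Res A) (LaurentSeries (Res A)) a := by
  rintro rfl
  rw [algebraMap_laurentSeries_eq_single] at hub
  by_cases ha : a = 0
  · rw [ha, HahnSeries.single_eq_zero, HahnSeries.order_zero] at hub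
    exact lt_irrefl _ hub
  · rw [HahnSeries.order_single ha] at hub
    exact lt_irrefl _ hub

/-- The inverse of the reduction of a function with a pole is not a constant series. -/
theorem inv_ne_algebraMap_of_pole {ub : LaurentSeries (Res A)} (hub : ub.order < 0)
    (a : Res A) : ub⁻¹ ≠ algebraMap (Res A) (LaurentSeries (Res A)) a := by
  intro h
  have h1 : ub = algebraMap (Res A) (LaurentSeries (Res A)) a⁻¹ := by
    rw [map_inv₀, ← h, inv_inv]
  exact ne_algebraMap_of_pole hub _ h1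

theorem ne_zero_of_pole {ub : LaurentSeries (Res A)} (hub : ub.order < 0) : ub ≠ 0 := by
  rintro rfl
  rw [HahnSeries.order_zero] at hub
  exact lt_irrefl _ hub

/-- A chart function whose reduction has a pole is not constant. -/
theorem ne_const_of_pole {u : Kummer.Fb M} {ub : LaurentSeries (Res A)} (hu : IsRed M A u ub)
    (hub : ub.order < 0) (c : Qb) : u ≠ algebraMap Qb (Kummer.Fb M) c := by
  rintro rfl
  have := Int.isRed_algebraMap_order c ub hu
  omega

/-- `u` is regular on the chart `S_0`. -/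
theorem ord_nonneg_of_uInt {u : Kummer.Fb M} {P : Place Qb (Kummer.Fb M)}
    (h : UInt M A u P) : 0 ≤ P.ord u := by
  obtain ⟨a, -, hP⟩ := h
  by_cases ha : a = 0
  · rw [ha, map_zero, sub_zero] at hP
    exact hP.le
  · have h0 := SepUnif.ord_sub_const_eq_zero P u ha hP
    rw [map_zero, sub_zero] at h0
    exact h0.ge

/-- `u⁻¹` is regular on the chart `S_∞`. -/
theorem ord_inv_nonneg_of_not_uInt {u : Kummer.Fb M} {P : Place Qb (Kummer.Fb M)}
    (h : ¬ UInt M A u P) : 0 ≤ P.ord u⁻¹ := by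
  rw [P.ord_inv]
  by_contra hlt
  apply h
  refine ⟨0, A.zero_mem, ?_⟩
  rw [map_zero, sub_zero]
  omega

/-- At a place of the chart `S_∞`, `u⁻¹` takes a value in `A`. -/
theorem exists_inv_value [NeZero M] {u : Kummer.Fb M}
    (hnc : ∀ c : Qb, u ≠ algebraMap Qb (Kummer.Fb M) c) {P : Place Qb (Kummer.Fb M)}
    (h : ¬ UInt M A u P) :
    ∃ b : Qb, b ∈ A ∧ 0 < P.ord (u⁻¹ - algebraMap Qb (Kummer.Fb M) b) := by
  have hu0 : u ≠ 0 := by
    have := hnc 0
    rwa [map_zero] at this
  by_cases hneg : P.ord u < 0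
  · refine ⟨0, A.zero_mem, ?_⟩
    rw [map_zero, sub_zero, P.ord_inv]
    omega
  · have hmem : u ∈ P.toValuationSubring :=
      (Fermat.Agent.S24.FF.ord_nonneg_iff P hu0).mp (not_lt.mp hneg)
    obtain ⟨c, hc | hc⟩ := Fermat.Agent.S24.FF.exists_residue (HeckeInputs.trdeg_bar M) P hmem
    · exact absurd hc (hnc c)
    · have hcA : c ∉ A := fun hcA => h ⟨c, hcA, hc⟩
      have hc0 : c ≠ 0 := fun h0 => hcA (h0 ▸ A.zero_mem)
      exact ⟨c⁻¹, (A.mem_or_inv_mem c).resolve_left hcA, ord_inv_sub_inv_pos P u hc0 hc⟩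

/-- At a place of the chart `S_∞`, the value of `u⁻¹` is a non-unit of `A`. -/
theorem not_isUnit_of_not_uInt {u : Kummer.Fb M}
    (hnc : ∀ c : Qb, u ≠ algebraMap Qb (Kummer.Fb M) c) {P : Place Qb (Kummer.Fb M)}
    (h : ¬ UInt M A u P) (a : A)
    (ha : u⁻¹ - algebraMap Qb (Kummer.Fb M) (a : Qb) = 0 ∨
      0 < P.ord (u⁻¹ - algebraMap Qb (Kummer.Fb M) (a : Qb))) : ¬ IsUnit a := by
  intro hunit
  obtain ⟨w, hw⟩ := hunit.exists_right_inv
  have hw' : (a : Qb) * (w : Qb) = 1 := congrArg Subtype.val hw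
  have ha0 : (a : Qb) ≠ 0 := by
    intro h0
    rw [h0, zero_mul] at hw'
    exact zero_ne_one hw'
  have hinv : (a : Qb)⁻¹ ∈ A := by
    have : (w : Qb) = (a : Qb)⁻¹ := eq_inv_of_mul_eq_one_right hw'
    rw [← this]
    exact w.2
  rcases ha with ha | ha
  · apply hnc (a : Qb)⁻¹
    rw [map_inv₀, ← sub_eq_zero.mp ha, inv_inv]
  · apply h
    refine ⟨(a : Qb)⁻¹, hinv, ?_⟩
    have := ord_inv_sub_inv_pos P u⁻¹ ha0 ha
    rwa [inv_inv] at this

end Fermat.Agent.S37.Fn.InvQb
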