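import Fermat.Agent.S37.Fn.InvPrime
import Fermat.Agent.S37.Fn.InvQb
import Fermat.Agent.S37.Fn.RatData
import Fermat.Agent.S37.Fn.ModelUp

/-!
# S37 / F9b: `Fn.InvPlaces` from the Model package (`ModelUp.ChartUp`) and rational point data
(`Fn.RatPoint`)

* `invAt_of_ratData` : `(INV_P)` at `P` on the chart `c` from `Fn.RatData M A E t P` for a chart
  coordinate `t ∈ LE M E` regular on the chart, and the regularity of the special fibre at the
  centre of `P`.
* `invAt_zero` : the chart `S_0` (`t = u_E`), from `ModelInst.ChartModelC` (`reg_zero`).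
* `invAt_inf` : the chart `S_∞` (`t = u_E⁻¹`), from `ModelInst.ChartModelC` (`reg_inf`; the
  centre lies over `u = ∞` because the value of `u⁻¹` at a place of `S_∞` is a non-unit of `A`).
* `invPlaces_of_ratPoint` : **`Fn.InvPlaces M A u`** from `ModelUp.ChartUp M A u` and `Fn.RatPoint`
  for the two chart coordinates `u`, `u⁻¹`.
-/

set_option autoImplicit false
set_option linter.unusedSectionVars false
set_option linter.style.haveILetI false
set_option synthInstance.maxHeartbeats 400000
set_option maxHeartbeats 1000000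

noncomputable section

namespace Fermat.Agent.S37.Fn.InvPlaces

open ModularCurve AlgebraicCurve HahnSeries
open Fermat.Agent.S30 Fermat.Agent.S37.Fn Fermat.Agent.S30.Model
open Fermat.Agent.S18 Fermat.Agent.S18.K1Defs Fermat.Agent.S18.K1Main Fermat.Agent.S18.K1Top

local notation "Qb" => AlgebraicClosure ℚ

variable {M : ℕ} [NeZero M] {A : ValuationSubring Qb} (E : IntermediateField ℚ Qb)

/-- The inclusion `O_E = A ∩ E → A`. -/
def iotaA (A : ValuationSubring Qb) (E : IntermediateField ℚ Qb) : OE A E →+* A where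
  toFun r := ⟨algebraMap E Qb (r : E), r.2⟩
  map_one' := Subtype.ext (map_one _)
  map_mul' _ _ := Subtype.ext (map_mul _ _ _)
  map_zero' := Subtype.ext (map_zero _)
  map_add' _ _ := Subtype.ext (map_add _ _ _)

theorem coe_iotaA (r : OE A E) : ((iotaA A E r : A) : Qb) = algebraMap E Qb (r : E) := rfl

/-- The inclusion `O_E → A` is local. -/
theorem not_isUnit_iotaA (r : OE A E) (hr : ¬ IsUnit r) : ¬ IsUnit (iotaA A E r) := by
  intro hu
  apply hr
  obtain ⟨w, hw⟩ := hu.exists_right_inv
  have hw' : algebraMap E Qb (r : E) * (w : Qb) = 1 := congrArg Subtype.val hw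
  have hr0 : (r : E) ≠ 0 := by
    intro h0
    rw [h0, map_zero, zero_mul] at hw'
    exact zero_ne_one hw'
  have hw2 : (w : Qb) = algebraMap E Qb ((r : E)⁻¹) := by
    rw [map_inv₀]
    exact eq_inv_of_mul_eq_one_right hw'
  have hmem : (r : E)⁻¹ ∈ OE A E := by
    show algebraMap E Qb ((r : E)⁻¹) ∈ A
    rw [← hw2]
    exact w.2
  refine IsUnit.of_mul_eq_one (⟨(r : E)⁻¹, hmem⟩ : OE A E) ?_
  apply Subtype.ext
  show (r : E) * (r : E)⁻¹ = 1
  exact mul_inv_cancel₀ hr0

/-- `up` of a constant of `E`. -/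
theorem upHom_algebraMap (e : E) :
    K1Descent.upHom M E (algebraMap E (LE M E) e) =
      algebraMap Qb (Kummer.Fb M) (algebraMap E Qb e) := by
  apply Subtype.ext
  show coeffMap (algebraMap E Qb) (algebraMap E (LaurentSeries E) e) =
    algebraMap Qb (LaurentSeries Qb) (algebraMap E Qb e)
  rw [coeffMap_algebraMap_hom]

/-- `up` of a constant of `O_E`. -/
theorem upHom_base (r : OE A E) :
    letI := algebraOL (OE A E) E (LE M E)
    K1Descent.upHom M E (algebraMap (OE A E) (LE M E) r) =
      algebraMap Qb (Kummer.Fb M) ((iotaA A E r : A) : Qb) :=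
  upHom_algebraMap E (r : E)

/-- **`(INV_P)` at a place from rational point data** on the chart with coordinate `t`, the
special fibre being regular at the centre. -/
theorem invAt_of_ratData (hG : E4.HasGaussNorm M A) (u : Kummer.Fb M) (c : Bool)
    (P : Place Qb (Kummer.Fb M)) (hPc : P ∈ chart M A u c)
    [IsDiscreteValuationRing (OE A E)] (t : LE M E) (htr : Transcendental E t)
    (hfin : FiniteDimensional (IntermediateField.adjoin E {t}) (LE M E))
    (tb : LaurentSeries (Res A)) (htred : IsRed M A (K1Descent.upHom M E t) tb)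
    (htb : ∀ a : Res A, tb ≠ algebraMap (Res A) (LaurentSeries (Res A)) a)
    (hchart : ∀ P' ∈ chart M A u c, 0 ≤ P'.ord (K1Descent.upHom M E t))
    (hRD : RatData M A E t P)
    (hreg : letI := algebraOL (OE A E) E (LE M E)
      ∀ π : OE A E, Irreducible π →
      ∀ q : Ideal (integralClosure (Algebra.adjoin (OE A E) ({t} : Set (LE M E))) (LE M E)),
        (q ⊔ Ideal.span
          {GlueChart.piElt (Algebra.adjoin (OE A E) ({t} : Set (LE M E))) π}).IsMaximal →
        (∃ a : OE A E, ∃ y ∈ q, (y : LE M E) = t - algebraMap (OE A E) (LE M E) a) →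
        (∀ y ∈ q, K1Descent.upHom M E (y : LE M E) = 0 ∨
          0 < P.ord (K1Descent.upHom M E (y : LE M E))) →
        RegNB.RegAt (GlueChart.piElt (Algebra.adjoin (OE A E) ({t} : Set (LE M E))) π)
          (q ⊔ Ideal.span
            {GlueChart.piElt (Algebra.adjoin (OE A E) ({t} : Set (LE M E))) π})) :
    InvAt M A u c (Finsupp.single P 1) := by
  letI := algebraOL (OE A E) E (LE M E)
  haveI := isScalarTower_OL (OE A E) E (LE M E)
  haveI := hfin
  obtain ⟨q, hq, hq0, hπ', ha, hqP, hunif, hsep⟩ := hRD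
  obtain ⟨π, hπ⟩ := IsDiscreteValuationRing.exists_irreducible (OE A E)
  obtain ⟨hπq, hmax⟩ := hπ' π hπ
  exact InvPrime.invAt_of_prime (O := OE A E) (E := E) (L := LE M E) hG u c P hPc
    (K1Descent.upHom M E) (iotaA A E) (upHom_base E) t htr tb htred htb hchart π
    (not_isUnit_iotaA E π hπ.not_isUnit) q hq hq0 hπq hmax ha hqP hunif hsep
    (hreg π hπ q hmax ha hqP)

/-- **`(INV_P)` on the chart `S_0`** from the Model package and rational point data for `u_E`. -/
theorem invAt_zero (hG : E4.HasGaussNorm M A) (u : Kummer.Fb M) (ub : LaurentSeries (Res A))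
    (hu : IsRed M A u ub) (hub : ub.order < 0) (P : Place Qb (Kummer.Fb M))
    (hP : P ∈ chart M A u false) [FiniteDimensional ℚ E] [IsDiscreteValuationRing (OE A E)]
    (uE : LE M E) (huE : K1Descent.upHom M E uE = u)
    (hCM : ModelInst.ChartModelC M (OE A E) E uE) (hRD : RatData M A E uE P) :
    InvAt M A u false (Finsupp.single P 1) := by
  letI := algebraOL (OE A E) E (LE M E)
  haveI := isScalarTower_OL (OE A E) E (LE M E)
  have hCM' : ModelInst.ChartModel M (OE A E) E uE := hCM
  refine invAt_of_ratData E hG u false P hP uE hCM'.tr hCM'.fin ub (huE ▸ hu)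
    (InvQb.ne_algebraMap_of_pole hub) ?_ hRD ?_
  · intro P' hP'
    rw [huE]
    exact InvQb.ord_nonneg_of_uInt ((mem_chart_false M A).mp hP')
  · intro π hπ q hmax _ _
    exact hCM'.reg_zero π hπ _ hmax (Ideal.mem_sup_right (Ideal.mem_span_singleton_self _))

/-- **`(INV_P)` on the chart `S_∞`** from the Model package and rational point data for
`u_E⁻¹`. -/
theorem invAt_inf (hG : E4.HasGaussNorm M A) (u : Kummer.Fb M) (ub : LaurentSeries (Res A))
    (hu : IsRed M A u ub) (hub : ub.order < 0) (P : Place Qb (Kummer.Fb M))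
    (hP : P ∈ chart M A u true) [FiniteDimensional ℚ E] [IsDiscreteValuationRing (OE A E)]
    (uE : LE M E) (huE : K1Descent.upHom M E uE = u)
    (hCM : ModelInst.ChartModelC M (OE A E) E uE) (hRD : RatData M A E uE⁻¹ P) :
    InvAt M A u true (Finsupp.single P 1) := by
  letI := algebraOL (OE A E) E (LE M E)
  haveI := isScalarTower_OL (OE A E) E (LE M E)
  have hCM' : ModelInst.ChartModel M (OE A E) E uE := hCM
  have hnc := InvQb.ne_const_of_pole hu hub
  have hnU : ¬ UInt M A u P := (mem_chart_true M A).mp hP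
  have hup : K1Descent.upHom M E uE⁻¹ = u⁻¹ := by rw [map_inv₀, huE]
  have htr : Transcendental E uE⁻¹ := fun h => hCM'.tr (by simpa using h.inv)
  have hfin : FiniteDimensional (IntermediateField.adjoin E {uE⁻¹}) (LE M E) := by
    have e : IntermediateField.adjoin E {uE⁻¹} = IntermediateField.adjoin E {uE} := by
      apply le_antisymm
      · rw [IntermediateField.adjoin_simple_le_iff]
        exact inv_mem (IntermediateField.mem_adjoin_simple_self E uE)
      · rw [IntermediateField.adjoin_simple_le_iff]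
        have h := inv_mem (IntermediateField.mem_adjoin_simple_self E uE⁻¹)
        rwa [inv_inv] at h
    rw [e]
    exact hCM'.fin
  refine invAt_of_ratData E hG u true P hP uE⁻¹ htr hfin ub⁻¹
    (hup ▸ hu.inv (InvQb.ne_zero_of_pole hub)) (InvQb.inv_ne_algebraMap_of_pole hub) ?_ hRD ?_
  · intro P' hP'
    rw [hup]
    exact InvQb.ord_inv_nonneg_of_not_uInt ((mem_chart_true M A).mp hP')
  · rintro π hπ q hmax ⟨a, y, hyq, hy⟩ hqP
    have ha : ¬ IsUnit a := by
      intro hunit
      refine InvQb.not_isUnit_of_not_uInt hnc hnU (iotaA A E a) ?_ (hunit.map (iotaA A E))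
      have h1 := hqP y hyq
      rw [hy, map_sub, hup, upHom_base] at h1
      exact h1
    exact hCM'.reg_inf π hπ _ hmax (Ideal.mem_sup_right (Ideal.mem_span_singleton_self _))
      (InvPrime.tInf_mem_sup uE π hπ q a ha y hyq hy)

/-- **`Fn.InvPlaces`** from the Model package (`ModelUp.ChartUp`) and the rational point data
(`Fn.RatPoint`) of the two chart coordinates `u`, `u⁻¹` (with `E`-level models `tE E`). -/
theorem invPlaces_of_ratPoint {ℓ : ℕ} [Fact ℓ.Prime] (hA : A.LiesOverPrime ℓ)
    (u : Kummer.Fb M) (ub : LaurentSeries (Res A)) (hu : IsRed M A u ub) (hub : ub.order < 0)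
    (hUp : ModelUp.ChartUp M A u) (tE : ∀ E : IntermediateField ℚ Qb, LE M E)
    (htE : ∀ E : IntermediateField ℚ Qb, K1Descent.upHom M E (tE E) = u)
    (hRP0 : RatPoint M A u tE) (hRPinf : RatPoint M A u⁻¹ (fun E => (tE E)⁻¹)) :
    InvPlaces M A u := by
  have hG : E4.HasGaussNorm M A := E4.hasGaussNorm M ℓ A hA
  obtain ⟨S₀, hS⟩ := hUp
  intro c P hPc
  cases c with
  | false =>
    obtain ⟨a, ha, hPa⟩ := (mem_chart_false M A).mp hPc
    obtain ⟨E, hfd, hSE, hRD⟩ := hRP0 P a ha hPa S₀
    haveI := hfd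
    haveI : IsDiscreteValuationRing (OE A E) := K1Descent.dvrDescent A Fact.out hA E
    obtain ⟨uE, huE, hCM⟩ := hS E hSE
    have e : uE = tE E := (K1Descent.upHom M E).injective (huE.trans (htE E).symm)
    rw [← e] at hRD
    exact invAt_zero E hG u ub hu hub P hPc uE huE hCM hRD
  | true =>
    obtain ⟨b, hb, hPb⟩ := InvQb.exists_inv_value (InvQb.ne_const_of_pole hu hub)
      ((mem_chart_true M A).mp hPc)
    obtain ⟨E, hfd, hSE, hRD⟩ := hRPinf P b hb hPb S₀
    haveI := hfd
    haveI : IsDiscreteValuationRing (OE A E) := K1Descent.dvrDescent A Fact.out hA E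
    obtain ⟨uE, huE, hCM⟩ := hS E hSE
    have e : uE = tE E := (K1Descent.upHom M E).injective (huE.trans (htE E).symm)
    have hRD' : RatData M A E (tE E)⁻¹ P := hRD
    rw [← e] at hRD'
    exact invAt_inf E hG u ub hu hub P hPc uE huE hCM hRD'

end Fermat.Agent.S37.Fn.InvPlaces
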