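import Fermat.Agent.S37.Fn.InvPrime
import Fermat.Agent.S37.Fn.RatPointG
import Fermat.Agent.S37.Fn.ModelUp
import Fermat.Agent.S24.FF.Shift

/-!
# S37 / F9b (twin): `Fn.InvPlaces` from `ModelUp.ChartUp` ALONE

`invPlaces_of_chartUp` : for a chart function `u ∈ Fb M` whose Gauss reduction has a pole and
which carries the Model-theorem packages over all large number fields (`ModelUp.ChartUp`),
every place of either chart is invertible there (`Fn.InvPlaces M A u`).

Proof: `RatPointG.exists_ratData` (rational point data of the place on the chart ring of `uE`,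
resp. `uE⁻¹`, over a number field containing the finite set of `ChartUp`), the regularity of the
special fibre at the centre (`ChartModel.reg_zero` / `reg_inf`, with `InvPrime.tInf_mem_sup` on
the chart at infinity) and `InvPrime.invAt_of_prime`.
-/

set_option autoImplicit false
set_option linter.unusedSectionVars false
set_option linter.style.haveILetI false
set_option synthInstance.maxHeartbeats 400000
set_option maxHeartbeats 1000000

noncomputable section

namespace Fermat.Agent.S37.Fn.InvPlacesG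

open ModularCurve AlgebraicCurve HahnSeries
open Fermat.Agent.S30 Fermat.Agent.S37.Fn Fermat.Agent.S30.Model
open Fermat.Agent.S18 Fermat.Agent.S18.K1Defs Fermat.Agent.S18.K1Main

local notation "Qb" => AlgebraicClosure ℚ

variable (M : ℕ) [NeZero M] (A : ValuationSubring Qb)

/-- The image in `A` of an irreducible element of `A ∩ E` is not a unit. -/
theorem not_isUnit_inclOA (E : IntermediateField ℚ Qb) [IsDiscreteValuationRing (OE A E)]
    (π : OE A E) (hπ : Irreducible π) : ¬ IsUnit (K1Top.inclOA A E π) := by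
  have h1 : ChartInt.resE A E π = 0 := (ChartInt.resE_eq_zero_iff A E π hπ π).mpr dvd_rfl
  have h2 : IsLocalRing.residue A (K1Top.inclOA A E π) = 0 := h1
  rw [IsLocalRing.residue_eq_zero_iff, IsLocalRing.mem_maximalIdeal, mem_nonunits_iff] at h2
  exact h2

theorem upHom_inclOA (E : IntermediateField ℚ Qb) (r : OE A E) :
    letI := algebraOL (OE A E) E (LE M E)
    K1Descent.upHom M E (algebraMap (OE A E) (LE M E) r) =
      algebraMap Qb (Kummer.Fb M) ((K1Top.inclOA A E r : A) : Qb) := by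
  letI := algebraOL (OE A E) E (LE M E)
  have h1 : algebraMap (OE A E) (LE M E) r = algebraMap E (LE M E) (r : E) := rfl
  rw [h1, ChartInt.upHom_algebraMap]
  rfl

/-- **`(INV_P)` on the chart `S_0`.** -/
theorem invAt_false {ℓ : ℕ} [Fact ℓ.Prime] (hA : A.LiesOverPrime ℓ) (u : Kummer.Fb M)
    (ub : LaurentSeries (Res A)) (hu : IsRed M A u ub) (hub : ub.order < 0)
    (hUp : ModelUp.ChartUp M A u) (P : Place Qb (Kummer.Fb M)) (hPc : P ∈ chart M A u false) :
    InvAt M A u false (Finsupp.single P 1) := by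
  classical
  obtain ⟨S₀, hS₀⟩ := hUp
  obtain ⟨a, haA, hPa⟩ := (mem_chart_false M A).mp hPc
  have htr : Transcendental Qb u := Int.transcendental_of_isRed u ub hu hub
  have hfin : ∃ S₁ : Finset Qb, ∀ (E : IntermediateField ℚ Qb) [FiniteDimensional ℚ E]
      [IsDiscreteValuationRing (OE A E)], (∀ s ∈ S₁, s ∈ E) →
      ∀ t : LE M E, K1Descent.upHom M E t = u →
        FiniteDimensional (IntermediateField.adjoin E {t}) (LE M E) := by
    refine ⟨S₀, fun E _ _ hE t ht => ?_⟩
    obtain ⟨uE, hupE, hCMC⟩ := hS₀ E hE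
    letI := algebraOL (OE A E) E (LE M E)
    haveI := isScalarTower_OL (OE A E) E (LE M E)
    have hCM : ModelInst.ChartModel M (OE A E) E uE := hCMC
    have h3 : t = uE := (K1Descent.upHom M E).injective (by rw [ht, hupE])
    rw [h3]
    exact hCM.fin
  obtain ⟨E, hE, hS, hRD⟩ := RatPointG.exists_ratData M A hA u htr hfin P a haA hPa S₀
  haveI := hE
  haveI : IsDiscreteValuationRing (OE A E) :=
    K1Descent.dvrDescent A (Fact.out : ℓ.Prime) hA E
  obtain ⟨uE, hupE, hCMC⟩ := hS₀ E hS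
  letI := algebraOL (OE A E) E (LE M E)
  haveI := isScalarTower_OL (OE A E) E (LE M E)
  have hCM : ModelInst.ChartModel M (OE A E) E uE := hCMC
  haveI := hCM.fin
  have hRD' := hRD uE hupE
  unfold RatData at hRD'
  obtain ⟨q, hq, hq0, hπ, ha', hqP, hunif, hsep⟩ := hRD'
  obtain ⟨π, hπirr⟩ := IsDiscreteValuationRing.exists_irreducible (OE A E)
  obtain ⟨hπq, hmax⟩ := hπ π hπirr
  have hreg := hCM.reg_zero π hπirr _ hmax
    (Ideal.mem_sup_right (Ideal.mem_span_singleton_self _))
  have hubtr : Transcendental (Res A) ub := ChartInt.transcendental_of_order_neg ub hub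
  refine InvPrime.invAt_of_prime (E4.hasGaussNorm M ℓ A hA) u false P hPc (K1Descent.upHom M E)
    (K1Top.inclOA A E) (upHom_inclOA M A E) uE hCM.tr ub (by rw [hupE]; exact hu) ?_ ?_
    π (not_isUnit_inclOA A E π hπirr) q hq hq0 hπq hmax ha' hqP hunif hsep hreg
  · intro c hc
    exact hubtr (hc ▸ isAlgebraic_algebraMap c)
  · intro P' hP'
    obtain ⟨a', -, hPa'⟩ := (mem_chart_false M A).mp hP'
    rw [hupE]
    have h1 := Fermat.Agent.S24.FF.mem_of_ord_pos P' hPa'
    have h2 := add_mem h1 (P'.algebraMap_mem' a')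
    rw [sub_add_cancel] at h2
    exact Fermat.Agent.S24.FF.ord_nonneg_of_mem P' h2

/-- If `u(P) = b ≠ 0` then `u⁻¹(P) = b⁻¹`. -/
theorem ord_inv_sub_inv {K F : Type*} [Field K] [Field F] [Algebra K F] (P : Place K F) (u : F)
    (b : K) (hb : b ≠ 0) (h : 0 < P.ord (u - algebraMap K F b)) :
    0 < P.ord (u⁻¹ - algebraMap K F b⁻¹) := by
  have hu0 : P.ord u = 0 := by
    have := RatPointG.ord_sub_const_eq_zero P (t := u) (a := b) (b := 0) hb h
    rwa [map_zero, sub_zero] at this
  have hune : u ≠ 0 := by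
    rintro rfl
    rw [zero_sub, Fermat.Agent.S24.FF.ord_neg, Fermat.Agent.S24.FF.ord_algebraMap] at h
    exact lt_irrefl _ h
  have hbF : algebraMap K F b ≠ 0 := (map_ne_zero_iff _ (algebraMap K F).injective).mpr hb
  have hsub : u - algebraMap K F b ≠ 0 := by
    intro h0
    rw [h0] at h
    simp at h
  have h1 : u⁻¹ - algebraMap K F b⁻¹ = -(u - algebraMap K F b) * (u⁻¹ * algebraMap K F b⁻¹) := by
    rw [map_inv₀]
    field_simp
    ring
  have h2 : u⁻¹ * algebraMap K F b⁻¹ ≠ 0 :=
    mul_ne_zero (inv_ne_zero hune) ((map_ne_zero_iff _ (algebraMap K F).injective).mpr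
      (inv_ne_zero hb))
  rw [h1, P.ord_mul (neg_ne_zero.mpr hsub) h2, Fermat.Agent.S24.FF.ord_neg,
    P.ord_mul (inv_ne_zero hune) ((map_ne_zero_iff _ (algebraMap K F).injective).mpr
      (inv_ne_zero hb)), P.ord_inv, hu0, Fermat.Agent.S24.FF.ord_algebraMap]
  simpa using h

/-- **`(INV_P)` on the chart `S_∞`.** -/
theorem invAt_true {ℓ : ℕ} [Fact ℓ.Prime] (hA : A.LiesOverPrime ℓ) (u : Kummer.Fb M)
    (ub : LaurentSeries (Res A)) (hu : IsRed M A u ub) (hub : ub.order < 0)
    (hUp : ModelUp.ChartUp M A u) (P : Place Qb (Kummer.Fb M)) (hPc : P ∈ chart M A u true) :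
    InvAt M A u true (Finsupp.single P 1) := by
  classical
  obtain ⟨S₀, hS₀⟩ := hUp
  have hnU : ¬ UInt M A u P := (mem_chart_true M A).mp hPc
  have htr : Transcendental Qb u := Int.transcendental_of_isRed u ub hu hub
  have htr' : Transcendental Qb u⁻¹ := Fermat.Agent.S24.FF.transcendental_inv htr
  have hu0 : u ≠ 0 := fun h => htr (h ▸ isAlgebraic_zero)
  have hub0 : ub ≠ 0 := by
    rintro rfl
    simp at hub
  have hubtr : Transcendental (Res A) ub := ChartInt.transcendental_of_order_neg ub hub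
  -- the value of `u⁻¹` at `P`
  obtain ⟨a, haA, hPa⟩ : ∃ a : Qb, a ∈ A ∧
      0 < P.ord (u⁻¹ - algebraMap Qb (Kummer.Fb M) a) := by
    by_cases hneg : P.ord u < 0
    · refine ⟨0, A.zero_mem, ?_⟩
      rw [map_zero, sub_zero, P.ord_inv]
      omega
    · have hmem : u ∈ P.toValuationSubring :=
        (Fermat.Agent.S24.FF.ord_nonneg_iff P hu0).mp (by omega)
      obtain ⟨b, hb⟩ := Fermat.Agent.S24.FF.exists_residue (HeckeInputs.trdeg_bar M) P hmem
      have hb' : 0 < P.ord (u - algebraMap Qb (Kummer.Fb M) b) := by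
        rcases hb with hb | hb
        · exact absurd (hb ▸ isAlgebraic_algebraMap b) htr
        · exact hb
      have hbA : b ∉ A := fun hbA => hnU ⟨b, hbA, hb'⟩
      have hb0 : b ≠ 0 := by
        rintro rfl
        exact hbA A.zero_mem
      exact ⟨b⁻¹, (A.mem_or_inv_mem b).resolve_left hbA, ord_inv_sub_inv P u b hb0 hb'⟩
  have hfin : ∃ S₁ : Finset Qb, ∀ (E : IntermediateField ℚ Qb) [FiniteDimensional ℚ E]
      [IsDiscreteValuationRing (OE A E)], (∀ s ∈ S₁, s ∈ E) →
      ∀ t : LE M E, K1Descent.upHom M E t = u⁻¹ →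
        FiniteDimensional (IntermediateField.adjoin E {t}) (LE M E) := by
    refine ⟨S₀, fun E _ _ hE t ht => ?_⟩
    obtain ⟨uE, hupE, hCMC⟩ := hS₀ E hE
    letI := algebraOL (OE A E) E (LE M E)
    haveI := isScalarTower_OL (OE A E) E (LE M E)
    have hCM : ModelInst.ChartModel M (OE A E) E uE := hCMC
    have h3 : t = uE⁻¹ := (K1Descent.upHom M E).injective (by rw [ht, map_inv₀, hupE])
    rw [h3]
    exact Fermat.Agent.S24.FF.finiteDimensional_adjoin_inv uE hCM.fin
  obtain ⟨E, hE, hS, hRD⟩ := RatPointG.exists_ratData M A hA u⁻¹ htr' hfin P a haA hPa S₀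
  haveI := hE
  haveI : IsDiscreteValuationRing (OE A E) :=
    K1Descent.dvrDescent A (Fact.out : ℓ.Prime) hA E
  obtain ⟨uE, hupE, hCMC⟩ := hS₀ E hS
  letI := algebraOL (OE A E) E (LE M E)
  haveI := isScalarTower_OL (OE A E) E (LE M E)
  have hCM : ModelInst.ChartModel M (OE A E) E uE := hCMC
  haveI : FiniteDimensional (IntermediateField.adjoin E {uE⁻¹}) (LE M E) :=
    Fermat.Agent.S24.FF.finiteDimensional_adjoin_inv uE hCM.fin
  have hupE' : K1Descent.upHom M E uE⁻¹ = u⁻¹ := by rw [map_inv₀, hupE]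
  have hRD' := hRD uE⁻¹ hupE'
  unfold RatData at hRD'
  obtain ⟨q, hq, hq0, hπ, ha', hqP, hunif, hsep⟩ := hRD'
  obtain ⟨π, hπirr⟩ := IsDiscreteValuationRing.exists_irreducible (OE A E)
  obtain ⟨hπq, hmax⟩ := hπ π hπirr
  obtain ⟨a0, y, hyq, hy⟩ := ha'
  -- the value of `u⁻¹` at `P` is a non-unit
  have hnu : ¬ IsUnit a0 := by
    intro hunit
    have hupy : K1Descent.upHom M E (y : LE M E) =
        u⁻¹ - algebraMap Qb (Kummer.Fb M) ((K1Top.inclOA A E a0 : A) : Qb) := by
      rw [hy, map_sub, hupE', upHom_inclOA M A E a0]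
    have hpos : 0 < P.ord (u⁻¹ - algebraMap Qb (Kummer.Fb M) ((K1Top.inclOA A E a0 : A) : Qb)) := by
      rcases hqP y hyq with h0 | hpos
      · rw [hupy, sub_eq_zero] at h0
        exact absurd (h0 ▸ isAlgebraic_algebraMap _) htr'
      · rwa [hupy] at hpos
    obtain ⟨v, hv⟩ := (hunit.map (K1Top.inclOA A E)).exists_right_inv
    have hv' : ((K1Top.inclOA A E a0 : A) : Qb) * (v : Qb) = 1 := by
      have := congrArg (fun x : A => (x : Qb)) hv
      simpa using this
    have hα0 : ((K1Top.inclOA A E a0 : A) : Qb) ≠ 0 := left_ne_zero_of_mul_eq_one hv'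
    have hvinv : ((K1Top.inclOA A E a0 : A) : Qb)⁻¹ = (v : Qb) := (eq_inv_of_mul_eq_one_right hv').symm
    have h1 := ord_inv_sub_inv P u⁻¹ _ hα0 hpos
    rw [inv_inv, hvinv] at h1
    exact hnU ⟨(v : Qb), v.2, h1⟩
  have htinf := InvPrime.tInf_mem_sup uE π hπirr q a0 hnu y hyq hy
  have hreg := hCM.reg_inf π hπirr _ hmax
    (Ideal.mem_sup_right (Ideal.mem_span_singleton_self _)) htinf
  refine InvPrime.invAt_of_prime (E4.hasGaussNorm M ℓ A hA) u true P hPc (K1Descent.upHom M E)
    (K1Top.inclOA A E) (upHom_inclOA M A E) uE⁻¹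
    (Fermat.Agent.S24.FF.transcendental_inv hCM.tr) ub⁻¹
    (by rw [hupE']; exact hu.inv hub0) ?_ ?_
    π (not_isUnit_inclOA A E π hπirr) q hq hq0 hπq hmax ⟨a0, y, hyq, hy⟩ hqP hunif hsep hreg
  · intro c hc
    apply hubtr
    have h1 : ub = algebraMap (Res A) (LaurentSeries (Res A)) c⁻¹ := by
      rw [map_inv₀, ← hc, inv_inv]
    rw [h1]
    exact isAlgebraic_algebraMap _
  · intro P' hP'
    rw [hupE', P'.ord_inv]
    by_contra hcon
    have hpos : 0 < P'.ord u := by omega
    exact (mem_chart_true M A).mp hP' ⟨0, A.zero_mem, by rw [map_zero, sub_zero]; exact hpos⟩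

/-- **(INV_P)** for a chart function with Model packages over all large number fields
(row F9b). -/
theorem invPlaces_of_chartUp {ℓ : ℕ} [Fact ℓ.Prime] (hA : A.LiesOverPrime ℓ) (u : Kummer.Fb M)
    (ub : LaurentSeries (Res A)) (hu : IsRed M A u ub) (hub : ub.order < 0)
    (hUp : ModelUp.ChartUp M A u) : InvPlaces M A u := by
  intro c P hPc
  cases c with
  | false => exact invAt_false M A hA u ub hu hub hUp P hPc
  | true => exact invAt_true M A hA u ub hu hub hUp P hPc

end Fermat.Agent.S37.Fn.InvPlacesG
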