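import Fermat.Agent.S37.Fn.InvWrap
import Fermat.Agent.S37.Fn.ChartIntPf
import Fermat.Agent.S37.InvChart
import Fermat.Agent.S30.Model.ChartProv
import Fermat.Agent.S30.Model.GlueChart
import Fermat.Agent.S30.Model.ChartInf
import Fermat.Agent.S24.FF.Dedekind

/-!
# S37 / F9b: `(INV_P)` at a place from the prime of a rational point of a finite-level chart

Generic in the finite level: `O` a discrete valuation ring with fraction field `E`, `L / E` a
field, `t : L` a chart coordinate, `C := integralClosure O[t] L` the chart ring,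
`up : L →+* Fb M` the extension of constants and `ι : O →+* A` the inclusion of the constants
(`hup : up (algebraMap O L r) = algebraMap Qb (Fb M) (ι r)`).  In the application
`O = OE A E = A ∩ E`, `L = LE M E`, `up = K1Descent.upHom M E`.

* `isRed_up_base`, `isRed_up_chart` (Gauss-integrality of the chart ring),
  `ord_up_chart_nonneg` (regularity of the chart ring where `t` is regular).
* `invAt_of_prime` : **`(INV_P)` at `P`** from a prime `q` of the chart ring (the shape of
  `Fn.RatData`): `q ≠ ⊥`, `π ∉ q`, `q ⊔ (π)` maximal, `t - a ∈ q`, the elements of `q` vanish at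
  `P`, `q` contains a uniformiser at `P` and separates the other places of the chart, and the
  special fibre is regular at the centre `q ⊔ (π)` (`hreg`).
* `tInf_mem_sup` : on the chart at infinity, `u⁻¹ ∈ q ⊔ (π)` when `u⁻¹ - a ∈ q` with `a` a
  non-unit.
-/

set_option autoImplicit false
set_option linter.unusedSectionVars false

noncomputable section

namespace Fermat.Agent.S37.Fn.InvPrime

open ModularCurve AlgebraicCurve HahnSeries
open Fermat.Agent.S30 Fermat.Agent.S37.Fn Fermat.Agent.S30.Model

local notation "Qb" => AlgebraicClosure ℚ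

variable {M : ℕ} [NeZero M] {A : ValuationSubring Qb}

section Base

variable {O L : Type*} [CommRing O] [Field L] [Algebra O L]
  (up : L →+* Kummer.Fb M) (ι : O →+* A)
  (hup : ∀ r : O, up (algebraMap O L r) = algebraMap Qb (Kummer.Fb M) ((ι r : A) : Qb))

include hup

/-- Constants of `O` are Gauss-integral. -/
theorem isRed_up_base (r : O) :
    IsRed M A (up (algebraMap O L r))
      (algebraMap (Res A) (LaurentSeries (Res A)) (IsLocalRing.residue A (ι r))) := by
  rw [hup]
  exact Int.isRed_const M A (ι r)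

/-- A constant which is a non-unit of `A` reduces to `0`. -/
theorem isRed_up_nonunit (r : O) (hr : ¬ IsUnit (ι r)) :
    IsRed M A (up (algebraMap O L r)) 0 := by
  have h := isRed_up_base up ι hup r
  have h0 : IsLocalRing.residue A (ι r) = 0 := by
    rw [IsLocalRing.residue_eq_zero_iff, IsLocalRing.mem_maximalIdeal, mem_nonunits_iff]
    exact hr
  rwa [h0, map_zero] at h

/-- `O[t]` maps into the Gauss valuation ring as soon as `t` does. -/
theorem mem_gaussV_up_adjoin (t : L) (ht : up t ∈ Int.gaussV M A)
    (b : Algebra.adjoin O ({t} : Set L)) : up (b : L) ∈ Int.gaussV M A := by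
  obtain ⟨b, hb⟩ := b
  induction hb using Algebra.adjoin_induction with
  | mem y hy => rw [Set.mem_singleton_iff] at hy; subst hy; exact ht
  | algebraMap o => exact ⟨_, isRed_up_base up ι hup o⟩
  | add y z _ _ hy hz => rw [map_add]; exact add_mem hy hz
  | mul y z _ _ hy hz => rw [map_mul]; exact mul_mem hy hz

/-- **(I1)** The chart ring is Gauss-integral. -/
theorem isRed_up_chart (hG : E4.HasGaussNorm M A) (t : L) (ht : up t ∈ Int.gaussV M A)
    (c : integralClosure (Algebra.adjoin O ({t} : Set L)) L) :
    ∃ y, IsRed M A (up (c : L)) y := by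
  have hB : ∀ b : Algebra.adjoin O ({t} : Set L),
      up (algebraMap (Algebra.adjoin O ({t} : Set L)) L b) ∈ Int.gaussV M A :=
    fun b => mem_gaussV_up_adjoin up ι hup t ht b
  have hc : IsIntegral (Algebra.adjoin O ({t} : Set L)) (c : L) := c.2
  exact ChartIntPf.mem_gaussV_of_base hG up hB (c : L) hc

/-- `O[t]` is regular at the places where `t` is. -/
theorem mem_place_up_adjoin (t : L) (P' : Place Qb (Kummer.Fb M))
    (ht : up t ∈ P'.toValuationSubring) (b : Algebra.adjoin O ({t} : Set L)) :
    up (b : L) ∈ P'.toValuationSubring := by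
  obtain ⟨b, hb⟩ := b
  induction hb using Algebra.adjoin_induction with
  | mem y hy => rw [Set.mem_singleton_iff] at hy; subst hy; exact ht
  | algebraMap o => rw [hup]; exact P'.algebraMap_mem' _
  | add y z _ _ hy hz => rw [map_add]; exact add_mem hy hz
  | mul y z _ _ hy hz => rw [map_mul]; exact mul_mem hy hz

/-- The chart ring is regular at the places where `t` is. -/
theorem ord_up_chart_nonneg (t : L) (P' : Place Qb (Kummer.Fb M)) (ht : 0 ≤ P'.ord (up t))
    (c : integralClosure (Algebra.adjoin O ({t} : Set L)) L) : 0 ≤ P'.ord (up (c : L)) := by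
  have ht' : up t ∈ P'.toValuationSubring := by
    by_cases h0 : up t = 0
    · rw [h0]; exact zero_mem _
    · exact (Fermat.Agent.S24.FF.ord_nonneg_iff P' h0).mp ht
  let _ : Algebra (Algebra.adjoin O ({t} : Set L)) (Kummer.Fb M) :=
    (up.comp (algebraMap (Algebra.adjoin O ({t} : Set L)) L)).toAlgebra
  have hint : IsIntegral (Algebra.adjoin O ({t} : Set L)) (up (c : L)) := by
    obtain ⟨p, hp, hpc⟩ := c.2
    refine ⟨p, hp, ?_⟩
    show Polynomial.eval₂ (up.comp (algebraMap (Algebra.adjoin O ({t} : Set L)) L)) _ p = 0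
    rw [← Polynomial.hom_eval₂, hpc, map_zero]
  exact Fermat.Agent.S24.FF.ord_nonneg_of_mem P'
    (Fermat.Agent.S24.FF.mem_of_isIntegral P' (R := Algebra.adjoin O ({t} : Set L))
      (fun r => mem_place_up_adjoin up ι hup t P' ht' r) hint)

end Base

section Core

variable {O E L : Type*} [CommRing O] [IsDomain O] [IsDiscreteValuationRing O]
  [Field E] [CharZero E] [Algebra O E] [IsFractionRing O E]
  [Field L] [Algebra E L] [Algebra O L] [IsScalarTower O E L]

/-- **`(INV_P)` at a place from the prime of a rational point of the chart ring.** -/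
theorem invAt_of_prime (hG : E4.HasGaussNorm M A) (u : Kummer.Fb M) (c : Bool)
    (P : Place Qb (Kummer.Fb M)) (hPc : P ∈ chart M A u c)
    (up : L →+* Kummer.Fb M) (ι : O →+* A)
    (hup : ∀ r : O, up (algebraMap O L r) = algebraMap Qb (Kummer.Fb M) ((ι r : A) : Qb))
    (t : L) (htr : Transcendental E t) [FiniteDimensional (IntermediateField.adjoin E {t}) L]
    (tb : LaurentSeries (Res A)) (htred : IsRed M A (up t) tb)
    (htb : ∀ a : Res A, tb ≠ algebraMap (Res A) (LaurentSeries (Res A)) a)
    (hchart : ∀ P' ∈ chart M A u c, 0 ≤ P'.ord (up t))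
    (π : O) (hπA : ¬ IsUnit (ι π))
    (q : Ideal (integralClosure (Algebra.adjoin O ({t} : Set L)) L)) (hq : q.IsPrime)
    (hq0 : q ≠ ⊥) (hπq : GlueChart.piElt (Algebra.adjoin O ({t} : Set L)) π ∉ q)
    (hmax : (q ⊔ Ideal.span {GlueChart.piElt (Algebra.adjoin O ({t} : Set L)) π}).IsMaximal)
    (ha : ∃ a : O, ∃ y ∈ q, (y : L) = t - algebraMap O L a)
    (hqP : ∀ y ∈ q, up (y : L) = 0 ∨ 0 < P.ord (up (y : L)))
    (hunif : ∃ y ∈ q, P.ord (up (y : L)) = 1)
    (hsep : ∀ P' : Place Qb (Kummer.Fb M), P' ≠ P → 0 ≤ P'.ord (up t) →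
      ∃ y ∈ q, up (y : L) ≠ 0 ∧ P'.ord (up (y : L)) = 0)
    (hreg : RegNB.RegAt (GlueChart.piElt (Algebra.adjoin O ({t} : Set L)) π)
      (q ⊔ Ideal.span {GlueChart.piElt (Algebra.adjoin O ({t} : Set L)) π})) :
    InvAt M A u c (Finsupp.single P 1) := by
  classical
  have htO : Transcendental O t := ChartProv.transcendental_base t htr
  -- instances of the chart ring
  have hfin : Module.Finite (Algebra.adjoin O ({t} : Set L))
      (integralClosure (Algebra.adjoin O ({t} : Set L)) L) := ChartProv.chart_finite t htr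
  have hNB : IsNoetherianRing (Algebra.adjoin O ({t} : Set L)) :=
    ChartInst.isNoetherianRing_adjoin O t htO
  have hN : IsNoetherianRing (integralClosure (Algebra.adjoin O ({t} : Set L)) L) :=
    IsNoetherianRing.of_finite (Algebra.adjoin O ({t} : Set L)) _
  have hwK : t ∈ IntermediateField.adjoin E {t} := IntermediateField.mem_adjoin_simple_self E t
  let _ := (ChartInst.incl O t (IntermediateField.adjoin E {t}) hwK).toAlgebra
  have := ChartInst.isScalarTower_incl O t (IntermediateField.adjoin E {t}) hwK
  have := ChartInst.isFractionRing_incl O t (IntermediateField.adjoin E {t}) hwK le_rfl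
  have hFr : IsFractionRing (integralClosure (Algebra.adjoin O ({t} : Set L)) L) L :=
    integralClosure.isFractionRing_of_finite_extension (IntermediateField.adjoin E {t}) L
  have htV : up t ∈ Int.gaussV M A := ⟨tb, htred⟩
  refine InvWrap.invAt_of_data u c P hPc up
    (GlueChart.piElt (Algebra.adjoin O ({t} : Set L)) π) q
    hq hq0 hπq hmax hreg ?_ ?_ ?_ ?_ ?_ ?_ ?_
  · -- `π` reduces to `0`
    exact isRed_up_nonunit up ι hup π hπA
  · exact fun y => isRed_up_chart up ι hup hG t htV y
  · exact fun y P' hP' => ord_up_chart_nonneg up ι hup t P' (hchart P' hP') y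
  · exact hqP
  · exact fun P' hP' hne => hsep P' hne (hchart P' hP')
  · exact hunif
  · -- a Gauss unit in `q`: `t - t(P)`
    obtain ⟨a, y, hyq, hy⟩ := ha
    have hred : IsRed M A
        (up (algebraMap (integralClosure (Algebra.adjoin O ({t} : Set L)) L) L y))
        (tb - algebraMap (Res A) (LaurentSeries (Res A)) (IsLocalRing.residue A (ι a))) := by
      have h1 : algebraMap (integralClosure (Algebra.adjoin O ({t} : Set L)) L) L y =
          t - algebraMap O L a := hy
      rw [h1, map_sub]
      exact htred.sub (isRed_up_base up ι hup a)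
    exact ⟨y, hyq, _, hred, sub_ne_zero.mpr (htb _)⟩

/-- On the chart at infinity: `u⁻¹ ∈ q ⊔ (π)` as soon as `u⁻¹ - a ∈ q` for a non-unit `a`. -/
theorem tInf_mem_sup (u : L) (π : O) (hπ : Irreducible π)
    (q : Ideal (integralClosure (Algebra.adjoin O ({u⁻¹} : Set L)) L))
    (a : O) (ha : ¬ IsUnit a) (y : integralClosure (Algebra.adjoin O ({u⁻¹} : Set L)) L)
    (hyq : y ∈ q) (hy : (y : L) = u⁻¹ - algebraMap O L a) :
    ChartInf.tInf u ∈ q ⊔ Ideal.span {GlueChart.piElt (Algebra.adjoin O ({u⁻¹} : Set L)) π} := by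
  have h1 : a ∈ IsLocalRing.maximalIdeal O := (IsLocalRing.mem_maximalIdeal a).mpr ha
  rw [hπ.maximalIdeal_eq, Ideal.mem_span_singleton] at h1
  obtain ⟨r, rfl⟩ := h1
  have h2 : ChartInf.tInf u = y + InvChart.cst u⁻¹ r *
      GlueChart.piElt (Algebra.adjoin O ({u⁻¹} : Set L)) π := by
    apply Subtype.ext
    rw [Subalgebra.coe_add, Subalgebra.coe_mul, ChartInf.coe_tInf, hy, InvChart.coe_cst,
      GlueChart.coe_piElt, map_mul]
    ring
  rw [h2]
  exact Ideal.add_mem _ (Ideal.mem_sup_left hyq)
    (Ideal.mem_sup_right (Ideal.mul_mem_left _ _ (Ideal.mem_span_singleton_self _)))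

end Core

end Fermat.Agent.S37.Fn.InvPrime
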