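import Fermat.Agent.S37.Fn.Defs
import Fermat.Agent.S30.Model.RegUse

/-!
# S37 / F9b: `(INV_P)` at a place from finite-level chart data (generic wrap)

Vocabulary of `Fn/Defs.lean` (`IsRed`, `chart`, `Mc`, `InvAt`).  `C` is an abstract chart ring
(a Noetherian domain with fraction field `L`) mapped to `Fb M` by `up : L →+* Fb M`, `π : C` the
uniformiser of the base, `q` the horizontal prime of the place `P` (`q ⊔ (π)` maximal, the special
fibre regular there: `RegNB.RegAt`).

`invAt_of_data` : if moreover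

* the elements of `C` are Gauss-integral (`hCred`), `π` reduces to `0` (`hπred`), and the
  elements of `C` are regular on the chart (`hCord`);
* the elements of `q` vanish at `P` (`hqP`), some element of `q` is a uniformiser at `P`
  (`hunif`), and for every other place `P'` of the chart some nonzero element of `q` does not
  vanish at `P'` (`hsep`);
* some element of `q` is a Gauss unit (`hunit`),

then `InvAt M A u c (single P 1)`: `1 ∈ red (M_c(P)) · red (M_c(-P))`, with the two-term witness
`z · w + y · 1 ≡ 1 mod π` of `RegUse.exists_inv_frac`.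
-/

set_option autoImplicit false
set_option linter.unusedSectionVars false

noncomputable section

namespace Fermat.Agent.S37.Fn.InvWrap

open ModularCurve AlgebraicCurve HahnSeries
open Fermat.Agent.S30 Fermat.Agent.S37.Fn Fermat.Agent.S30.Model

local notation "Qb" => AlgebraicClosure ℚ

variable {M : ℕ} {A : ValuationSubring Qb}

/-- A function with a nonzero reduction is nonzero. -/
theorem ne_zero_of_isRed {x : Kummer.Fb M} {y : LaurentSeries (Res A)} (h : IsRed M A x y)
    (hy : y ≠ 0) : x ≠ 0 := by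
  rintro rfl
  exact hy (h.unique isRed_zero)

/-- **`(INV_P)` from finite-level chart data.** -/
theorem invAt_of_data (u : Kummer.Fb M) (c : Bool) (P : Place Qb (Kummer.Fb M))
    (hPc : P ∈ chart M A u c)
    {C L : Type*} [CommRing C] [IsDomain C] [IsNoetherianRing C] [Field L] [Algebra C L]
    [IsFractionRing C L] (up : L →+* Kummer.Fb M)
    (π : C) (q : Ideal C) (hq : q.IsPrime) (hq0 : q ≠ ⊥) (hπq : π ∉ q)
    (hmax : (q ⊔ Ideal.span {π}).IsMaximal)
    (hreg : RegNB.RegAt π (q ⊔ Ideal.span {π}))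
    (hπred : IsRed M A (up (algebraMap C L π)) 0)
    (hCred : ∀ y : C, ∃ yb, IsRed M A (up (algebraMap C L y)) yb)
    (hCord : ∀ y : C, ∀ P' ∈ chart M A u c, 0 ≤ P'.ord (up (algebraMap C L y)))
    (hqP : ∀ y ∈ q, up (algebraMap C L y) = 0 ∨ 0 < P.ord (up (algebraMap C L y)))
    (hsep : ∀ P' ∈ chart M A u c, P' ≠ P →
      ∃ y ∈ q, up (algebraMap C L y) ≠ 0 ∧ P'.ord (up (algebraMap C L y)) = 0)
    (hunif : ∃ y ∈ q, P.ord (up (algebraMap C L y)) = 1)
    (hunit : ∃ y ∈ q, ∃ yb, IsRed M A (up (algebraMap C L y)) yb ∧ yb ≠ 0) :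
    InvAt M A u c (Finsupp.single P 1) := by
  classical
  obtain ⟨z, hz, y, hy, w, hwq, d, c', hwz, hsum⟩ :=
    RegUse.exists_inv_frac (L := L) hq hq0 hπq hmax hreg
  obtain ⟨zb, hzb⟩ := hCred z
  obtain ⟨yb, hyb⟩ := hCred y
  obtain ⟨cb, hcb⟩ := hCred c'
  -- `up w` is Gauss-integral
  obtain ⟨y0, hy0q, y0b, hy0b, hy0ne⟩ := hunit
  obtain ⟨d0, hd0⟩ := hwq y0 hy0q
  obtain ⟨d0b, hd0b⟩ := hCred d0
  have hupy0 : up (algebraMap C L y0) ≠ 0 := ne_zero_of_isRed hy0b hy0ne
  have hwred : IsRed M A (up w) (d0b * y0b⁻¹) := by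
    have h1 : up w = up (algebraMap C L d0) * (up (algebraMap C L y0))⁻¹ := by
      rw [← hd0, map_mul, mul_assoc, mul_inv_cancel₀ hupy0, mul_one]
    rw [h1]
    exact hd0b.mul (hy0b.inv hy0ne)
  -- the pole of `up w`
  have hword : up w = 0 ∨ ∀ P' ∈ chart M A u c,
      (-(Finsupp.single P 1 : Divisor Qb (Kummer.Fb M))) P' ≤ P'.ord (up w) := by
    by_cases hw0 : up w = 0
    · exact Or.inl hw0
    right
    intro P' hP'
    by_cases hPP : P' = P
    · subst hPP
      obtain ⟨y1, hy1q, hy1⟩ := hunif
      obtain ⟨d1, hd1⟩ := hwq y1 hy1q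
      have hy1ne : up (algebraMap C L y1) ≠ 0 := by
        intro h0
        rw [h0] at hy1
        simp at hy1
      have h1 := hCord d1 P' hP'
      rw [← hd1, map_mul, P'.ord_mul hw0 hy1ne, hy1] at h1
      simp only [Finsupp.coe_neg, Pi.neg_apply, Finsupp.single_eq_same]
      omega
    · obtain ⟨y1, hy1q, hy1ne, hy1⟩ := hsep P' hP' hPP
      obtain ⟨d1, hd1⟩ := hwq y1 hy1q
      have h1 := hCord d1 P' hP'
      rw [← hd1, map_mul, P'.ord_mul hw0 hy1ne, hy1] at h1
      have h2 : (Finsupp.single P (1 : ℤ)) P' = 0 := Finsupp.single_eq_of_ne hPP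
      simp only [Finsupp.coe_neg, Pi.neg_apply, h2]
      omega
  -- elements of `q` lie in `M_c(P)`
  have hqMc : ∀ x ∈ q, up (algebraMap C L x) ∈ Mc M A u c (Finsupp.single P 1) := by
    intro x hx
    refine ⟨hCred x, ?_⟩
    rcases hqP x hx with h0 | hpos
    · exact Or.inl h0
    · right
      intro P' hP'
      by_cases hPP : P' = P
      · subst hPP
        simp only [Finsupp.single_eq_same]
        omega
      · have h2 : (Finsupp.single P (1 : ℤ)) P' = 0 := Finsupp.single_eq_of_ne hPP
        rw [h2]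
        exact hCord x P' hP'
  -- the identity `z w + y = 1 - π c'`
  have hid : up (algebraMap C L z) * up w + up (algebraMap C L y) * 1 =
      1 - up (algebraMap C L π) * up (algebraMap C L c') := by
    have h1 : algebraMap C L d + algebraMap C L y + algebraMap C L π * algebraMap C L c' = 1 := by
      rw [← map_mul, ← map_add, ← map_add, hsum, map_one]
    have h2 : algebraMap C L z * w + algebraMap C L y =
        1 - algebraMap C L π * algebraMap C L c' := by
      rw [mul_comm, hwz]
      linear_combination h1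
    have h3 := congrArg up h2
    rw [map_add, map_mul, map_sub, map_one, map_mul] at h3
    rw [mul_one]
    exact h3
  have hred1 : IsRed M A (up (algebraMap C L z) * up w + up (algebraMap C L y) * 1)
      (zb * (d0b * y0b⁻¹) + yb * 1) := (hzb.mul hwred).add (hyb.mul isRed_one)
  have hred2 : IsRed M A (1 - up (algebraMap C L π) * up (algebraMap C L c')) (1 - 0 * cb) :=
    isRed_one.sub (hπred.mul hcb)
  rw [hid] at hred1
  have hfin : zb * (d0b * y0b⁻¹) + yb * 1 = 1 := by
    rw [hred1.unique hred2, zero_mul, sub_zero]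
  refine ⟨2, ![up (algebraMap C L z), up (algebraMap C L y)], ![up w, 1],
    ![zb, yb], ![d0b * y0b⁻¹, 1], ?_, ?_, ?_, ?_, ?_⟩
  · intro i
    fin_cases i
    · exact hqMc z hz
    · exact hqMc y hy
  · intro i
    fin_cases i
    · exact ⟨⟨_, hwred⟩, hword⟩
    · refine ⟨⟨1, isRed_one⟩, Or.inr fun P' _ => ?_⟩
      by_cases hPP : P' = P
      · subst hPP
        simp
      · have h2 : (Finsupp.single P (1 : ℤ)) P' = 0 := Finsupp.single_eq_of_ne hPP
        simp [h2]
  · intro i
    fin_cases i
    · exact hzb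
    · exact hyb
  · intro i
    fin_cases i
    · exact hwred
    · exact isRed_one
  · rw [Fin.sum_univ_two]
    exact hfin

end Fermat.Agent.S37.Fn.InvWrap
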