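import Mathlib
import Fermat.Agent.S37.Fn.RatData
import Fermat.Agent.S37.Fn.ChartInt
import Fermat.Agent.S24.FF.PrimeAvoid
import Fermat.Agent.S30.HeckeInputs

/-!
# S37, row F6a (RP-C): rational point data from a separated place with values in `E`

* `valueHom htr v : O_v →+* K` : the value map of a place of a function field of one variable
  over an algebraically closed field (`valueHom_spec`, `valueHom_eq_of`).
* `upHom_mem_of_isIntegral` : the extension of constants of an element of the chart ring
  `integralClosure (O_E[t]) (LE M E)` is regular at every place where `t` is.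
* `ratData_of_values` : if the place `P` of `Fb M` is a zero of `t - a` (`a ∈ O_E = A ∩ E`), the
  chart ring contains `y` with `ord_P y = 1` which is a unit at the other zeros of `t - a`, and
  the values at `P` of the functions of `LE M E` lie in `E`, then `RatData M A E t P`
  (the prime is the kernel of the value map on the chart ring).
-/

set_option autoImplicit false
set_option linter.unusedSectionVars false
set_option linter.style.haveILetI false
set_option synthInstance.maxHeartbeats 400000
set_option maxHeartbeats 1000000

open ModularCurve AlgebraicCurve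

noncomputable section

namespace Fermat.Agent.S37.Fn.RatEv

open Fermat.Agent.S18 Fermat.Agent.S18.K1Defs Fermat.Agent.S18.K1Main Fermat.Agent.S30
  Fermat.Agent.S30.Model Fermat.Agent.S37.Fn Fermat.Agent.S24

local notation "Qb" => AlgebraicClosure ℚ

/-! ### The value map of a place -/

section Value

variable {K F : Type*} [Field K] [Field F] [Algebra K F] [IsAlgClosed K]

/-- The constant field is the residue field of a place (algebraically closed constants). -/
def valueEquiv (htr : Algebra.trdeg K F = 1) (v : Place K F) : K ≃+* v.ResidueField :=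
  RingEquiv.ofBijective (algebraMap K v.ResidueField)
    ⟨(algebraMap K v.ResidueField).injective, FF.algebraMap_residue_surjective htr v⟩

theorem valueEquiv_apply (htr : Algebra.trdeg K F = 1) (v : Place K F) (c : K) :
    valueEquiv htr v c = algebraMap K v.ResidueField c := rfl

/-- The value map `O_v → K` of a place of a function field of one variable over an algebraically
closed field. -/
def valueHom (htr : Algebra.trdeg K F = 1) (v : Place K F) : v.toValuationSubring →+* K :=
  ((valueEquiv htr v).symm : v.ResidueField →+* K).comp
    (IsLocalRing.residue v.toValuationSubring)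

theorem valueHom_apply (htr : Algebra.trdeg K F = 1) (v : Place K F)
    (x : v.toValuationSubring) :
    valueHom htr v x = (valueEquiv htr v).symm (IsLocalRing.residue v.toValuationSubring x) :=
  rfl

theorem valueHom_eq_of_sub_mem (htr : Algebra.trdeg K F = 1) (v : Place K F)
    (x : v.toValuationSubring) (c : K)
    (h : x - algebraMap K v.toValuationSubring c ∈
      IsLocalRing.maximalIdeal v.toValuationSubring) : valueHom htr v x = c := by
  have h1 : IsLocalRing.residue v.toValuationSubring x = algebraMap K v.ResidueField c := by
    rw [IsScalarTower.algebraMap_apply K v.toValuationSubring v.ResidueField,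
      IsLocalRing.ResidueField.algebraMap_eq, ← sub_eq_zero, ← map_sub,
      IsLocalRing.residue_eq_zero_iff]
    exact h
  rw [valueHom_apply, RingEquiv.symm_apply_eq, h1, valueEquiv_apply]

theorem sub_valueHom_mem (htr : Algebra.trdeg K F = 1) (v : Place K F)
    (x : v.toValuationSubring) :
    x - algebraMap K v.toValuationSubring (valueHom htr v x) ∈
      IsLocalRing.maximalIdeal v.toValuationSubring := by
  have h1 : algebraMap K v.ResidueField (valueHom htr v x) =
      IsLocalRing.residue v.toValuationSubring x := by
    rw [← valueEquiv_apply htr v, valueHom_apply, RingEquiv.apply_symm_apply]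
  rw [← IsLocalRing.residue_eq_zero_iff, map_sub, sub_eq_zero, ← h1,
    IsScalarTower.algebraMap_apply K v.toValuationSubring v.ResidueField,
    IsLocalRing.ResidueField.algebraMap_eq]

/-- The value map is characterised by `x - x(v)` vanishing at `v`. -/
theorem valueHom_spec (htr : Algebra.trdeg K F = 1) (v : Place K F) (x : v.toValuationSubring) :
    (x : F) = algebraMap K F (valueHom htr v x) ∨
      0 < v.ord ((x : F) - algebraMap K F (valueHom htr v x)) := by
  have h := sub_valueHom_mem htr v x
  by_cases h0 : (x : F) = algebraMap K F (valueHom htr v x)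
  · exact Or.inl h0
  · right
    have hne : ((x - algebraMap K v.toValuationSubring (valueHom htr v x) :
        v.toValuationSubring) : F) ≠ 0 := by
      show (x : F) - algebraMap K F (valueHom htr v x) ≠ 0
      exact sub_ne_zero.mpr h0
    exact (FF.mem_maximalIdeal_iff_ord_pos v _ hne).mp h

theorem valueHom_eq_of (htr : Algebra.trdeg K F = 1) (v : Place K F) (x : v.toValuationSubring)
    (c : K) (h : (x : F) = algebraMap K F c ∨ 0 < v.ord ((x : F) - algebraMap K F c)) :
    valueHom htr v x = c := by
  apply valueHom_eq_of_sub_mem
  rcases h with h | h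
  · have : x - algebraMap K v.toValuationSubring c = 0 := by
      rw [sub_eq_zero]
      exact Subtype.ext h
    rw [this]
    exact zero_mem _
  · exact FF.mem_maximalIdeal_of_ord_pos v h

theorem valueHom_algebraMap (htr : Algebra.trdeg K F = 1) (v : Place K F) (c : K) :
    valueHom htr v (algebraMap K v.toValuationSubring c) = c :=
  valueHom_eq_of htr v _ c (Or.inl rfl)

end Value

/-! ### A generic lemma on `O[t]` -/

/-- A ring homomorphism from `O[t]` maps into a subring as soon as `t` and the constants do. -/
theorem adjoin_singleton_map_mem {O L Q : Type*} [CommRing O] [CommRing L] [Algebra O L]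
    [CommRing Q] (t : L) (ψ : Algebra.adjoin O ({t} : Set L) →+* Q) (B : Subring Q)
    (ht : ψ ⟨t, Algebra.subset_adjoin (Set.mem_singleton t)⟩ ∈ B)
    (hO : ∀ o : O, ψ (algebraMap O (Algebra.adjoin O ({t} : Set L)) o) ∈ B)
    (r : Algebra.adjoin O ({t} : Set L)) : ψ r ∈ B := by
  obtain ⟨r, hr⟩ := r
  induction hr using Algebra.adjoin_induction with
  | mem x hx =>
    rw [Set.mem_singleton_iff] at hx
    subst hx
    exact ht
  | algebraMap o => exact hO o
  | add x y hx hy ihx ihy =>
    have e : (⟨x + y, add_mem hx hy⟩ : Algebra.adjoin O ({t} : Set L)) = ⟨x, hx⟩ + ⟨y, hy⟩ := rfl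
    rw [e, RingHom.map_add]
    exact B.add_mem ihx ihy
  | mul x y hx hy ihx ihy =>
    have e : (⟨x * y, mul_mem hx hy⟩ : Algebra.adjoin O ({t} : Set L)) = ⟨x, hx⟩ * ⟨y, hy⟩ := rfl
    rw [e, RingHom.map_mul]
    exact B.mul_mem ihx ihy

/-- `t - a` is integral over `O[t]`. -/
theorem isIntegral_sub_const {O L : Type*} [CommRing O] [CommRing L] [Algebra O L] (t : L)
    (a : O) : IsIntegral (Algebra.adjoin O ({t} : Set L)) (t - algebraMap O L a) :=
  (isIntegral_algebraMap (x := (⟨t, Algebra.subset_adjoin (Set.mem_singleton t)⟩ :
    Algebra.adjoin O ({t} : Set L)))).sub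
    (isIntegral_algebraMap (x := algebraMap O (Algebra.adjoin O ({t} : Set L)) a))

/-! ### The algebraic core: values in a subring, maximality of `ker + (π)` -/

section Core

variable {O L Q : Type*} [CommRing O] [IsDomain O] [IsDiscreteValuationRing O] [Field L]
  [Algebra O L] [Field Q]

/-- A ring homomorphism from the integral closure of `S` to a field maps into a valuation ring
as soon as `S` does. -/
theorem val_mem_of_isIntegral (S : Subalgebra O L) (val : integralClosure S L →+* Q)
    (B : ValuationSubring Q)
    (hS : ∀ r : S, val (algebraMap S (integralClosure S L) r) ∈ B)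
    (z : integralClosure S L) : val z ∈ B := by
  obtain ⟨p, hpm, hp0⟩ := z.2
  let φ : S →+* B := (val.comp (algebraMap S (integralClosure S L))).codRestrict B hS
  have hz0 : Polynomial.eval₂ (algebraMap S (integralClosure S L)) z p = 0 := by
    apply Subtype.ext
    have h1 := Polynomial.hom_eval₂ p (algebraMap S (integralClosure S L))
      (algebraMap (integralClosure S L) L) z
    have h2 : (algebraMap (integralClosure S L) L).comp (algebraMap S (integralClosure S L)) =
        algebraMap S L := RingHom.ext fun _ => rfl
    rw [h2] at h1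
    exact h1.trans hp0
  have hint : IsIntegral B (val z) := by
    refine ⟨p.map φ, hpm.map φ, ?_⟩
    rw [Polynomial.eval₂_map]
    have h2 : (algebraMap B Q).comp φ = val.comp (algebraMap S (integralClosure S L)) :=
      RingHom.ext fun _ => rfl
    rw [h2, ← Polynomial.hom_eval₂, hz0, map_zero]
  obtain ⟨w, hw⟩ := IsIntegrallyClosed.isIntegral_iff.mp hint
  rw [← hw]
  exact w.2

/-- If the values of `val` are the constants of the discrete valuation ring `O`, then
`ker val + (π)` is a maximal ideal not containing `π`. -/
theorem isMaximal_ker_sup (S : Subalgebra O L) (val : integralClosure S L →+* Q) (ι : O →+* Q)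
    (hι : Function.Injective ι)
    (hconst : ∀ o : O, val (algebraMap S (integralClosure S L) (algebraMap O S o)) = ι o)
    (hvalO : ∀ z : integralClosure S L, ∃ o : O, val z = ι o) (π : O) (hπ : Irreducible π) :
    GlueChart.piElt S π ∉ RingHom.ker val ∧
      (RingHom.ker val ⊔ Ideal.span {GlueChart.piElt S π}).IsMaximal := by
  have hπval : val (GlueChart.piElt S π) = ι π := hconst π
  refine ⟨?_, ?_⟩
  · intro hmem
    rw [RingHom.mem_ker, hπval] at hmem
    exact hπ.ne_zero (hι (hmem.trans (map_zero ι).symm))
  · rw [Ideal.isMaximal_iff]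
    refine ⟨?_, ?_⟩
    · intro h1
      obtain ⟨z, hz, w, hw, hzw⟩ := Submodule.mem_sup.mp h1
      obtain ⟨c, rfl⟩ := Ideal.mem_span_singleton'.mp hw
      obtain ⟨o, ho⟩ := hvalO c
      have h2 := congrArg val hzw
      rw [map_add, map_mul, map_one, hπval, ho, (RingHom.mem_ker).mp hz, zero_add,
        ← map_mul, ← map_one ι] at h2
      exact hπ.not_isUnit (IsUnit.of_mul_eq_one o (by rw [mul_comm]; exact hι h2))
    · intro J x hIJ hxI hxJ
      obtain ⟨o, ho⟩ := hvalO x
      have hzq : x - algebraMap S (integralClosure S L) (algebraMap O S o) ∈ RingHom.ker val := by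
        rw [RingHom.mem_ker, map_sub, ho, hconst, sub_self]
      have hou : IsUnit o := by
        by_contra hnu
        have h1 : o ∈ IsLocalRing.maximalIdeal O := hnu
        rw [hπ.maximalIdeal_eq, Ideal.mem_span_singleton] at h1
        obtain ⟨o', rfl⟩ := h1
        apply hxI
        have h2 : algebraMap S (integralClosure S L) (algebraMap O S (π * o')) =
            GlueChart.piElt S π * algebraMap S (integralClosure S L) (algebraMap O S o') := by
          rw [map_mul, map_mul]
          rfl
        have h3 : x = (x - algebraMap S (integralClosure S L) (algebraMap O S (π * o'))) +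
            algebraMap S (integralClosure S L) (algebraMap O S (π * o')) := by ring
        rw [h3]
        refine Submodule.add_mem_sup hzq ?_
        rw [h2]
        exact Ideal.mul_mem_right _ _ (Ideal.subset_span (Set.mem_singleton _))
      obtain ⟨o', ho'⟩ := hou.exists_left_inv
      have h1 : algebraMap S (integralClosure S L) (algebraMap O S o') *
          algebraMap S (integralClosure S L) (algebraMap O S o) = 1 := by
        rw [← map_mul, ← map_mul, ho', map_one, map_one]
      have h2 : (1 : integralClosure S L) =
          algebraMap S (integralClosure S L) (algebraMap O S o') * x -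
            algebraMap S (integralClosure S L) (algebraMap O S o') *
              (x - algebraMap S (integralClosure S L) (algebraMap O S o)) := by
        rw [mul_sub, sub_sub_cancel, h1]
      rw [h2]
      exact J.sub_mem (J.mul_mem_left _ hxJ) (J.mul_mem_left _ (hIJ (Ideal.mem_sup_left hzq)))

/-- **The algebraic core of the rational point data.**  `val` a ring homomorphism from the
integral closure of `O[t]` to a field `Q`, `ι : O → Q` an embedding with values in the valuation
ring `B`; if `val` restricts to `ι` on the constants, `val t = ι a`, and the values of `val`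
lying in `B` are constants of `O`, then all values of `val` are constants of `O` and
`ker val + (π)` is a maximal ideal not containing `π`. -/
theorem core (t : L) (val : integralClosure (Algebra.adjoin O ({t} : Set L)) L →+* Q)
    (ι : O →+* Q) (hι : Function.Injective ι) (B : ValuationSubring Q) (hιB : ∀ o, ι o ∈ B)
    (hconst : ∀ (z : integralClosure (Algebra.adjoin O ({t} : Set L)) L) (o : O),
      (z : L) = algebraMap O L o → val z = ι o)
    (a : O) (hta : ∀ z : integralClosure (Algebra.adjoin O ({t} : Set L)) L,
      (z : L) = t → val z = ι a)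
    (hE : ∀ z : integralClosure (Algebra.adjoin O ({t} : Set L)) L, val z ∈ B →
      ∃ o : O, val z = ι o) :
    (∀ z : integralClosure (Algebra.adjoin O ({t} : Set L)) L, ∃ o : O, val z = ι o) ∧
    ∀ π : O, Irreducible π →
      GlueChart.piElt (Algebra.adjoin O ({t} : Set L)) π ∉ RingHom.ker val ∧
      (RingHom.ker val ⊔
        Ideal.span {GlueChart.piElt (Algebra.adjoin O ({t} : Set L)) π}).IsMaximal := by
  have hS : ∀ r : Algebra.adjoin O ({t} : Set L),
      val (algebraMap _ (integralClosure (Algebra.adjoin O ({t} : Set L)) L) r) ∈ B := by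
    intro r
    refine adjoin_singleton_map_mem t (val.comp (algebraMap _
      (integralClosure (Algebra.adjoin O ({t} : Set L)) L))) B.toSubring ?_ ?_ r
    · show val _ ∈ B
      rw [hta _ rfl]
      exact hιB a
    · intro o
      show val _ ∈ B
      rw [hconst _ o rfl]
      exact hιB o
  have hvalO : ∀ z : integralClosure (Algebra.adjoin O ({t} : Set L)) L, ∃ o : O,
      val z = ι o := fun z => hE z (val_mem_of_isIntegral _ val B hS z)
  exact ⟨hvalO, fun π hπ =>
    isMaximal_ker_sup _ val ι hι (fun o => hconst _ o rfl) hvalO π hπ⟩

end Core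

/-! ### The chart ring is regular where the chart coordinate is -/

section Modular

variable (M : ℕ) [NeZero M] (A : ValuationSubring Qb) (E : IntermediateField ℚ Qb)

/-- The extension of constants of an element of `LE M E` integral over `(A ∩ E)[t]` is regular
at every place of `Fb M` at which `t` is regular. -/
theorem upHom_mem_of_isIntegral (t : LE M E) (P : Place Qb (Kummer.Fb M))
    (ht : K1Descent.upHom M E t ∈ P.toValuationSubring) (y : LE M E)
    (hy : letI := algebraOL (OE A E) E (LE M E)
      IsIntegral (Algebra.adjoin (OE A E) ({t} : Set (LE M E))) y) :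
    K1Descent.upHom M E y ∈ P.toValuationSubring := by
  letI := algebraOL (OE A E) E (LE M E)
  have hR : ∀ r : Algebra.adjoin (OE A E) ({t} : Set (LE M E)),
      K1Descent.upHom M E (r : LE M E) ∈ P.toValuationSubring := by
    rintro ⟨r, hr⟩
    show K1Descent.upHom M E r ∈ P.toValuationSubring
    induction hr using Algebra.adjoin_induction with
    | mem x hx =>
      rw [Set.mem_singleton_iff] at hx
      rw [hx]
      exact ht
    | algebraMap o =>
      have h1 : algebraMap (OE A E) (LE M E) o = algebraMap E (LE M E) (o : E) := rfl
      rw [h1, ChartInt.upHom_algebraMap]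
      exact P.algebraMap_mem' _
    | add x y _ _ hx hy =>
      rw [map_add]
      exact add_mem hx hy
    | mul x y _ _ hx hy =>
      rw [map_mul]
      exact mul_mem hx hy
  obtain ⟨p, hpm, hp0⟩ := hy
  let φ : Algebra.adjoin (OE A E) ({t} : Set (LE M E)) →+* P.toValuationSubring :=
    ((K1Descent.upHom M E).comp
      (algebraMap (Algebra.adjoin (OE A E) ({t} : Set (LE M E))) (LE M E))).codRestrict
      P.toValuationSubring.toSubring hR
  have hint : IsIntegral P.toValuationSubring (K1Descent.upHom M E y) := by
    refine ⟨p.map φ, hpm.map φ, ?_⟩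
    rw [Polynomial.eval₂_map]
    have h2 : (algebraMap P.toValuationSubring (Kummer.Fb M)).comp φ =
        (K1Descent.upHom M E).comp
          (algebraMap (Algebra.adjoin (OE A E) ({t} : Set (LE M E))) (LE M E)) :=
      RingHom.ext fun _ => rfl
    rw [h2, ← Polynomial.hom_eval₂, hp0, map_zero]
  obtain ⟨z, hz⟩ := IsIntegrallyClosed.isIntegral_iff.mp hint
  rw [← hz]
  exact z.2

/-- The inclusion `A ∩ E → ℚ̄`. -/
def iotaO : OE A E →+* Qb := A.subtype.comp (K1Top.inclOA A E)

theorem iotaO_apply (o : OE A E) : iotaO A E o = algebraMap E Qb (o : E) := rfl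

theorem iotaO_injective : Function.Injective (iotaO A E) := by
  intro o o' h
  exact Subtype.ext ((algebraMap E Qb).injective h)

theorem iotaO_mem (o : OE A E) : iotaO A E o ∈ A := (K1Top.inclOA A E o).2

/-- **Rational point data from a separated place whose values lie in `E`.** -/
theorem ratData_of_values {ℓ : ℕ} [Fact ℓ.Prime] (hA : A.LiesOverPrime ℓ)
    [FiniteDimensional ℚ E] (t : LE M E) (a : OE A E) (P : Place Qb (Kummer.Fb M))
    (hP : 0 < P.ord (K1Descent.upHom M E t - algebraMap Qb (Kummer.Fb M) ((a : E) : Qb)))
    (y : LE M E)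
    (hyint : letI := algebraOL (OE A E) E (LE M E)
      IsIntegral (Algebra.adjoin (OE A E) ({t} : Set (LE M E))) y)
    (hy : P.ord (K1Descent.upHom M E y) = 1)
    (hsep : ∀ P' : Place Qb (Kummer.Fb M), P' ≠ P →
      0 < P'.ord (K1Descent.upHom M E t - algebraMap Qb (Kummer.Fb M) ((a : E) : Qb)) →
      P'.ord (K1Descent.upHom M E y) = 0)
    (hval : ∀ (x : LE M E) (c : Qb),
      (K1Descent.upHom M E x = algebraMap Qb (Kummer.Fb M) c ∨
        0 < P.ord (K1Descent.upHom M E x - algebraMap Qb (Kummer.Fb M) c)) → c ∈ E) :
    RatData M A E t P := by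
  classical
  letI := algebraOL (OE A E) E (LE M E)
  haveI : IsDiscreteValuationRing (OE A E) :=
    GaussDescent.isDiscreteValuationRing_OE A E Fact.out hA
  have htr := HeckeInputs.trdeg_bar M
  -- `t` is regular at `P`
  have htV : K1Descent.upHom M E t ∈ P.toValuationSubring := by
    have h1 := FF.mem_of_ord_pos P hP
    have h2 := P.algebraMap_mem' ((a : E) : Qb)
    have h3 := add_mem h1 h2
    rwa [sub_add_cancel] at h3
  have hCV : ∀ z : integralClosure (Algebra.adjoin (OE A E) ({t} : Set (LE M E))) (LE M E),
      K1Descent.upHom M E (z : LE M E) ∈ P.toValuationSubring :=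
    fun z => upHom_mem_of_isIntegral M A E t P htV z z.2
  -- the value map on the chart ring
  obtain ⟨val, hspec, hvaleq⟩ : ∃ val :
      integralClosure (Algebra.adjoin (OE A E) ({t} : Set (LE M E))) (LE M E) →+* Qb,
      (∀ z : integralClosure (Algebra.adjoin (OE A E) ({t} : Set (LE M E))) (LE M E),
        K1Descent.upHom M E (z : LE M E) = algebraMap Qb (Kummer.Fb M) (val z) ∨
          0 < P.ord (K1Descent.upHom M E (z : LE M E) -
            algebraMap Qb (Kummer.Fb M) (val z))) ∧
      (∀ (z : integralClosure (Algebra.adjoin (OE A E) ({t} : Set (LE M E))) (LE M E))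
        (c : Qb), (K1Descent.upHom M E (z : LE M E) = algebraMap Qb (Kummer.Fb M) c ∨
          0 < P.ord (K1Descent.upHom M E (z : LE M E) - algebraMap Qb (Kummer.Fb M) c)) →
        val z = c) := by
    let upC : integralClosure (Algebra.adjoin (OE A E) ({t} : Set (LE M E))) (LE M E) →+*
        P.toValuationSubring :=
      ((K1Descent.upHom M E).comp
        (integralClosure (Algebra.adjoin (OE A E) ({t} : Set (LE M E))) (LE M E)).subtype
        ).codRestrict P.toValuationSubring.toSubring hCV
    exact ⟨(valueHom htr P).comp upC, fun z => valueHom_spec htr P (upC z),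
      fun z c h => valueHom_eq_of htr P (upC z) c h⟩
  -- constants
  have hconst : ∀ (z : integralClosure (Algebra.adjoin (OE A E) ({t} : Set (LE M E))) (LE M E))
      (o : OE A E), (z : LE M E) = algebraMap (OE A E) (LE M E) o → val z = iotaO A E o := by
    intro z o hz
    apply hvaleq
    left
    rw [hz]
    have h1 : algebraMap (OE A E) (LE M E) o = algebraMap E (LE M E) (o : E) := rfl
    rw [h1, ChartInt.upHom_algebraMap]
    rfl
  have hta : ∀ z : integralClosure (Algebra.adjoin (OE A E) ({t} : Set (LE M E))) (LE M E),
      (z : LE M E) = t → val z = iotaO A E a := by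
    intro z hz
    apply hvaleq
    right
    rw [hz]
    exact hP
  have hE : ∀ z : integralClosure (Algebra.adjoin (OE A E) ({t} : Set (LE M E))) (LE M E),
      val z ∈ A → ∃ o : OE A E, val z = iotaO A E o := by
    intro z hz
    have h1 : val z ∈ E := hval (z : LE M E) (val z) (hspec z)
    exact ⟨⟨⟨val z, h1⟩, hz⟩, rfl⟩
  obtain ⟨-, hmax⟩ := core t val (iotaO A E) (iotaO_injective A E) A (iotaO_mem A E) hconst a
    hta hE
  -- the elements `t - a` and `y` of the kernel
  have ht0int : IsIntegral (Algebra.adjoin (OE A E) ({t} : Set (LE M E)))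
      (t - algebraMap (OE A E) (LE M E) a) := isIntegral_sub_const t a
  have hupta : K1Descent.upHom M E (t - algebraMap (OE A E) (LE M E) a) =
      K1Descent.upHom M E t - algebraMap Qb (Kummer.Fb M) ((a : E) : Qb) := by
    have h1 : algebraMap (OE A E) (LE M E) a = algebraMap E (LE M E) (a : E) := rfl
    rw [map_sub, h1, ChartInt.upHom_algebraMap]
    rfl
  have hta_ne : K1Descent.upHom M E t - algebraMap Qb (Kummer.Fb M) ((a : E) : Qb) ≠ 0 := by
    intro h0
    rw [h0, Place.ord_zero] at hP
    exact lt_irrefl _ hP
  have hy_ne : K1Descent.upHom M E y ≠ 0 := by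
    intro h0
    rw [h0, Place.ord_zero] at hy
    exact zero_ne_one hy
  have hz0val : val ⟨t - algebraMap (OE A E) (LE M E) a, ht0int⟩ = 0 := by
    apply hvaleq
    right
    rw [map_zero, sub_zero]
    show 0 < P.ord (K1Descent.upHom M E (t - algebraMap (OE A E) (LE M E) a))
    rw [hupta]
    exact hP
  have hy1val : val ⟨y, hyint⟩ = 0 := by
    apply hvaleq
    right
    rw [map_zero, sub_zero]
    show 0 < P.ord (K1Descent.upHom M E y)
    rw [hy]
    exact one_pos
  refine ⟨RingHom.ker val, RingHom.ker_isPrime val, ?_, hmax, ?_, ?_, ?_, ?_⟩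
  · -- nonzero
    intro hbot
    have hmem : (⟨t - algebraMap (OE A E) (LE M E) a, ht0int⟩ :
        integralClosure (Algebra.adjoin (OE A E) ({t} : Set (LE M E))) (LE M E)) ∈
        RingHom.ker val := hz0val
    rw [hbot, Ideal.mem_bot] at hmem
    have h1 : (t - algebraMap (OE A E) (LE M E) a : LE M E) = 0 := congrArg Subtype.val hmem
    apply hta_ne
    rw [← hupta, h1, map_zero]
  · exact ⟨a, ⟨t - algebraMap (OE A E) (LE M E) a, ht0int⟩, hz0val, rfl⟩
  · intro z hz
    have h1 := hspec z
    rw [(RingHom.mem_ker).mp hz, map_zero, sub_zero] at h1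
    exact h1
  · exact ⟨⟨y, hyint⟩, hy1val, hy⟩
  · intro P' hP' hP't
    by_cases h : 0 < P'.ord (K1Descent.upHom M E t - algebraMap Qb (Kummer.Fb M) ((a : E) : Qb))
    · exact ⟨⟨y, hyint⟩, hy1val, hy_ne, hsep P' hP' h⟩
    · refine ⟨⟨t - algebraMap (OE A E) (LE M E) a, ht0int⟩, hz0val, ?_, ?_⟩
      · show K1Descent.upHom M E (t - algebraMap (OE A E) (LE M E) a) ≠ 0
        rw [hupta]
        exact hta_ne
      · show P'.ord (K1Descent.upHom M E (t - algebraMap (OE A E) (LE M E) a)) = 0
        rw [hupta]
        have htV' : K1Descent.upHom M E t ∈ P'.toValuationSubring := by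
          by_cases ht0 : K1Descent.upHom M E t = 0
          · rw [ht0]
            exact zero_mem _
          · exact (FF.ord_nonneg_iff P' ht0).mp hP't
        have h1 : 0 ≤ P'.ord (K1Descent.upHom M E t -
            algebraMap Qb (Kummer.Fb M) ((a : E) : Qb)) :=
          FF.ord_nonneg_of_mem P' (sub_mem htV' (P'.algebraMap_mem' _))
        omega

end Modular

end Fermat.Agent.S37.Fn.RatEv
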