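import Mathlib
import Fermat.Prelude.Def_ModularCurve_ArithmeticGalois
import Fermat.Agent.S24.FF.PrimeAvoid
import Fermat.Agent.S30.Model.LocPowPlace
import Fermat.Agent.S30.Model.ChartInst
import Fermat.Agent.S30.Model.GlueChart
import Fermat.Agent.S30.GaussDescent
import Fermat.Agent.S18.K1Descent
import Fermat.Agent.S24.DegreeGen

/-!
# S37, row F6a: rational points of a chart (finite-level descent `ℚ̄ → E`)

Generic chart coordinate: a rational `q`-series `t0 ∈ modularFunctionFieldFull M`
(`t0 = j, j⁻¹, 1/s_r, s_r, …`), `tK K : laurentBaseChange K _` its image over a field `K`.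
For a subfield `E ⊆ ℚ̄` and `O = A ∩ E`, the chart ring is
`ChartRing M A t0 ht0 E = integralClosure (O[t]) (LE M E)`.

Main statement `exists_ratPoint`: for a place `P` of `Fb M` with `t(P) = a ∈ A` there is a number
field `E` (containing any prescribed finite set) such that `P` is `E`-rational: the value at `P`
is a ring homomorphism `ev : ChartRing → O`, a retraction of `O → ChartRing`, whose kernel `q_P`
contains a uniformiser at `P` and is not contained in the ideal of any other place of the chart;
`q_P + (π)` is maximal.  These are the hypotheses of `RegUse.exists_inv_frac`.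
-/

set_option autoImplicit false
set_option linter.unusedSectionVars false
set_option linter.style.haveILetI false
set_option synthInstance.maxHeartbeats 400000
set_option maxHeartbeats 1000000

noncomputable section

namespace Fermat.Agent.S37.Fn.RatPoint

open AlgebraicCurve ModularCurve HahnSeries IsDedekindDomain WithZero IntermediateField
open scoped IntermediateField.algebraAdjoinAdjoin

/-! ### Integrality in relation form -/

section IntRel

variable {R S : Type*} [CommRing R] [CommRing S] [Algebra R S]

theorem isIntegral_of_pow_eq_sum (y : S) (d : ℕ) (ρ : ℕ → R)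
    (h : y ^ d = ∑ k ∈ Finset.range d, algebraMap R S (ρ k) * y ^ k) : IsIntegral R y := by
  have hdeg : (∑ k ∈ Finset.range d, Polynomial.C (ρ k) * Polynomial.X ^ k :
      Polynomial R).degree < (d : WithBot ℕ) := by
    refine lt_of_le_of_lt (Polynomial.degree_sum_le _ _) ?_
    refine (Finset.sup_lt_iff (WithBot.bot_lt_coe d)).2 fun k hk => ?_
    exact lt_of_le_of_lt (Polynomial.degree_C_mul_X_pow_le k _)
      (Nat.cast_lt.mpr (Finset.mem_range.mp hk))
  refine ⟨Polynomial.X ^ d - ∑ k ∈ Finset.range d, Polynomial.C (ρ k) * Polynomial.X ^ k,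
    Polynomial.monic_X_pow_sub hdeg, ?_⟩
  rw [Polynomial.eval₂_sub, Polynomial.eval₂_X_pow, Polynomial.eval₂_finsetSum, h, sub_eq_zero]
  refine Finset.sum_congr rfl fun k _ => ?_
  rw [Polynomial.eval₂_mul, Polynomial.eval₂_C, Polynomial.eval₂_X_pow]

theorem exists_pow_eq_sum_of_isIntegral {y : S} (hy : IsIntegral R y) :
    ∃ (d : ℕ) (ρ : ℕ → R), y ^ d = ∑ k ∈ Finset.range d, algebraMap R S (ρ k) * y ^ k := by
  obtain ⟨p, hp, h0⟩ := hy
  refine ⟨p.natDegree, fun k => -p.coeff k, ?_⟩
  rw [Polynomial.eval₂_eq_sum_range, Finset.sum_range_succ, hp.coeff_natDegree, map_one,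
    one_mul] at h0
  simp only [map_neg, neg_mul, Finset.sum_neg_distrib]
  linear_combination h0

end IntRel

/-! ### The value at a place -/

section Value

variable {K F : Type*} [Field K] [Field F] [Algebra K F] [IsAlgClosed K]

/-- The residue field of a place of a function field of one variable over an algebraically closed
field is the constant field. -/
def resEquiv (htr : Algebra.trdeg K F = 1) (P : Place K F) : K ≃+* P.ResidueField :=
  RingEquiv.ofBijective (algebraMap K P.ResidueField)
    ⟨(algebraMap K P.ResidueField).injective,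
      Fermat.Agent.S24.FF.algebraMap_residue_surjective htr P⟩

/-- The value at a place, as a ring homomorphism on its valuation ring. -/
def valAt (htr : Algebra.trdeg K F = 1) (P : Place K F) : P.toValuationSubring →+* K :=
  ((resEquiv htr P).symm : P.ResidueField →+* K).comp (IsLocalRing.residue P.toValuationSubring)

theorem algebraMap_valAt (htr : Algebra.trdeg K F = 1) (P : Place K F)
    (x : P.toValuationSubring) :
    algebraMap K P.ResidueField (valAt htr P x) = IsLocalRing.residue _ x :=
  (resEquiv htr P).apply_symm_apply _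

theorem valAt_eq_iff (htr : Algebra.trdeg K F = 1) (P : Place K F) (x : P.toValuationSubring)
    (c : K) : valAt htr P x = c ↔
      x - algebraMap K P.toValuationSubring c ∈ IsLocalRing.maximalIdeal P.toValuationSubring := by
  have h1 : IsLocalRing.residue _ (algebraMap K P.toValuationSubring c) =
      algebraMap K P.ResidueField c := by
    rw [IsScalarTower.algebraMap_apply K P.toValuationSubring P.ResidueField,
      IsLocalRing.ResidueField.algebraMap_eq]
  rw [← IsLocalRing.residue_eq_zero_iff, map_sub, sub_eq_zero, ← algebraMap_valAt htr P x, h1]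
  exact ⟨fun h => by rw [h], fun h => (algebraMap K P.ResidueField).injective h⟩

theorem valAt_eq_of_ord_pos (htr : Algebra.trdeg K F = 1) (P : Place K F) {x : F}
    (hx : x ∈ P.toValuationSubring) (c : K) (h : 0 < P.ord (x - algebraMap K F c)) :
    valAt htr P ⟨x, hx⟩ = c := by
  rw [valAt_eq_iff]
  exact Fermat.Agent.S24.FF.mem_maximalIdeal_of_ord_pos P h

theorem valAt_eq_of_eq (htr : Algebra.trdeg K F = 1) (P : Place K F) {x : F}
    (hx : x ∈ P.toValuationSubring) (c : K) (h : x = algebraMap K F c) :
    valAt htr P ⟨x, hx⟩ = c := by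
  rw [valAt_eq_iff]
  have : (⟨x, hx⟩ : P.toValuationSubring) - algebraMap K P.toValuationSubring c = 0 := by
    apply Subtype.ext
    show x - algebraMap K F c = 0
    rw [h, sub_self]
  rw [this]
  exact zero_mem _

theorem valAt_spec (htr : Algebra.trdeg K F = 1) (P : Place K F) (x : P.toValuationSubring) :
    (x : F) = algebraMap K F (valAt htr P x) ∨
      0 < P.ord ((x : F) - algebraMap K F (valAt htr P x)) := by
  have h := (valAt_eq_iff htr P x (valAt htr P x)).mp rfl
  by_cases h0 : (x : F) - algebraMap K F (valAt htr P x) = 0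
  · exact Or.inl (sub_eq_zero.mp h0)
  · have h1 : ((x - algebraMap K P.toValuationSubring (valAt htr P x) :
        P.toValuationSubring) : F) ≠ 0 := h0
    exact Or.inr ((Fermat.Agent.S24.FF.mem_maximalIdeal_iff_ord_pos P
      (x - algebraMap K P.toValuationSubring (valAt htr P x)) h1).mp h)

/-- A semilinear automorphism fixing the place acts on values through its base automorphism. -/
theorem valAt_smul (htr : Algebra.trdeg K F = 1) (P : Place K F) (g : SemilinearAut K F)
    (hg : g • P = P) {x : F} (hx : x ∈ P.toValuationSubring)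
    (hgx : g • x ∈ P.toValuationSubring) :
    valAt htr P ⟨g • x, hgx⟩ = SemilinearAut.baseAut g (valAt htr P ⟨x, hx⟩) := by
  set c := valAt htr P ⟨x, hx⟩ with hc
  rcases valAt_spec htr P ⟨x, hx⟩ with h | h
  · apply valAt_eq_of_eq
    have h' : x = algebraMap K F c := h
    calc g • x = g • algebraMap K F c := congrArg (g • ·) h'
      _ = _ := SemilinearAut.smul_algebraMap g c
  · apply valAt_eq_of_ord_pos
    have h' : 0 < P.ord (x - algebraMap K F c) := h
    have h2 := SemilinearAut.ord_smul g P (x - algebraMap K F c)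
    rw [hg, smul_sub, SemilinearAut.smul_algebraMap] at h2
    rw [h2]
    exact h'

/-- The functions regular at `P` whose value at `P` lies in a subring `B` of the constants. -/
def valIn (htr : Algebra.trdeg K F = 1) (P : Place K F) (B : Subring K) : Subring F :=
  (B.comap (valAt htr P)).map P.toValuationSubring.subtype

theorem mem_valIn_iff (htr : Algebra.trdeg K F = 1) (P : Place K F) (B : Subring K) {f : F} :
    f ∈ valIn htr P B ↔ ∃ h : f ∈ P.toValuationSubring, valAt htr P ⟨f, h⟩ ∈ B := by
  constructor
  · rintro ⟨x, hx, rfl⟩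
    exact ⟨x.2, hx⟩
  · rintro ⟨h, hB⟩
    exact ⟨⟨f, h⟩, hB, rfl⟩

/-- The value map transports integrality relations. -/
theorem valAt_rel (htr : Algebra.trdeg K F = 1) (P : Place K F) (f : F)
    (hf : f ∈ P.toValuationSubring) (d : ℕ) (c : ℕ → F) (hc : ∀ k, c k ∈ P.toValuationSubring)
    (h : f ^ d = ∑ k ∈ Finset.range d, c k * f ^ k) :
    valAt htr P ⟨f, hf⟩ ^ d =
      ∑ k ∈ Finset.range d, valAt htr P ⟨c k, hc k⟩ * valAt htr P ⟨f, hf⟩ ^ k := by
  have h' : (⟨f, hf⟩ : P.toValuationSubring) ^ d =
      ∑ k ∈ Finset.range d, (⟨c k, hc k⟩ : P.toValuationSubring) * ⟨f, hf⟩ ^ k := by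
    apply Subtype.ext
    show P.toValuationSubring.subtype ((⟨f, hf⟩ : P.toValuationSubring) ^ d) =
      P.toValuationSubring.subtype
        (∑ k ∈ Finset.range d, (⟨c k, hc k⟩ : P.toValuationSubring) * ⟨f, hf⟩ ^ k)
    rw [map_pow, map_sum]
    simp only [map_mul, map_pow]
    exact h
  have h2 := congrArg (valAt htr P) h'
  rw [map_pow, map_sum] at h2
  rw [h2]
  refine Finset.sum_congr rfl fun k _ => ?_
  rw [map_mul, map_pow]

end Value

/-! ### A uniformiser at a zero of `x - a`, unit at the other zeros -/

section Unif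

variable {K F : Type*} [Field K] [Field F] [Algebra K F]
variable [IsAlgClosed K] [CharZero K] [Algebra.EssFiniteType K F]

theorem exists_unif_avoid (htr : Algebra.trdeg K F = 1) {x : F} (hx : Transcendental K x)
    (a : K) (P : Place K F) (hP : 0 < P.ord (x - algebraMap K F a)) :
    ∃ f : F, IsIntegral (Algebra.adjoin K {x}) f ∧ P.ord f = 1 ∧
      ∀ w : Place K F, w ≠ P → 0 < w.ord (x - algebraMap K F a) → w.ord f = 0 := by
  classical
  have hfd : Module.Finite K⟮x⟯ F := Fermat.Agent.S24.FF.finite_adjoin_simple htr hx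
  have : IsPrincipalIdealRing (Algebra.adjoin K {x}) :=
    Fermat.Agent.S24.FF.polyRing_isPrincipalIdealRing K x hx
  have : IsDedekindDomain (integralClosure (Algebra.adjoin K {x}) F) :=
    integralClosure.isDedekindDomain (Algebra.adjoin K {x}) K⟮x⟯ F
  have : IsFractionRing (integralClosure (Algebra.adjoin K {x}) F) F :=
    integralClosure.isFractionRing_of_finite_extension K⟮x⟯ F
  have : IsScalarTower K (integralClosure (Algebra.adjoin K {x}) F) F :=
    IsScalarTower.of_algebraMap_eq (fun c => by simp [Algebra.algebraMap_eq_smul_one])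
  have hfin := Fermat.Agent.S24.FF.zeros_finite htr hx a
  set T : Finset (Place K F) := hfin.toFinset with hT
  have hmemT : ∀ w : Place K F, w ∈ T ↔ 0 < w.ord (x - algebraMap K F a) := by
    intro w
    rw [hT, Set.Finite.mem_toFinset]
    rfl
  -- every zero contains the integral closure of `K[x]`
  have hmem : ∀ w ∈ T, ∀ r : integralClosure (Algebra.adjoin K {x}) F,
      algebraMap (integralClosure (Algebra.adjoin K {x}) F) F r ∈ w.toValuationSubring := by
    intro w hw r
    have h1 : x - algebraMap K F a ∈ w.toValuationSubring :=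
      Fermat.Agent.S24.FF.mem_of_ord_pos w ((hmemT w).mp hw)
    have hxw : x ∈ w.toValuationSubring := by
      have := add_mem h1 (w.algebraMap_mem' a)
      simpa using this
    exact Fermat.Agent.S24.FF.mem_of_isIntegral_adjoin w hxw r.2
  have hex : ∀ w ∈ T, ∃ q : HeightOneSpectrum (integralClosure (Algebra.adjoin K {x}) F),
      Place.ofHeightOneSpectrum (K := K) (F := F) q = w :=
    fun w hw => Fermat.Agent.S24.FF.exists_ofHeightOneSpectrum_eq w (hmem w hw)
  choose q hq using hex
  set W : Finset (HeightOneSpectrum (integralClosure (Algebra.adjoin K {x}) F)) :=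
    T.attach.image (fun w => q w.1 w.2) with hW
  obtain ⟨t, ht0, ht⟩ := Fermat.Agent.S30.Model.LocPowPlace.exists_intValuation_eq W
    (fun w => if Place.ofHeightOneSpectrum (K := K) (F := F) w = P then 1 else 0)
  have htF : (t : F) ≠ 0 := fun h => ht0 (Subtype.ext h)
  have key : ∀ w (hw : w ∈ T), w.ord (t : F) = if w = P then 1 else 0 := by
    intro w hw
    have hmemW : q w hw ∈ W := by
      rw [hW, Finset.mem_image]
      exact ⟨⟨w, hw⟩, Finset.mem_attach _ _, rfl⟩
    have h1 := ht (q w hw) hmemW
    have h2 := Fermat.Agent.S24.FF.ord_ofHeightOneSpectrum (K := K) (q w hw) htF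
    have h3 : (q w hw).valuation F (t : F) = (q w hw).intValuation t :=
      (q w hw).valuation_of_algebraMap t
    rw [hq w hw] at h1 h2
    rw [h2, h3, h1, log_exp, neg_neg]
    split_ifs <;> simp
  refine ⟨(t : F), t.2, ?_, fun w hwP hw => ?_⟩
  · have := key P ((hmemT P).mpr hP)
    simpa using this
  · have := key w ((hmemT w).mpr hw)
    simpa [hwP] using this

end Unif

/-! ### Coefficientwise linear projection of Laurent series -/

section Proj

variable {E Ω : Type*} [Field E] [Field Ω] [Algebra E Ω]

/-- Apply an `E`-linear form coefficientwise. -/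
def proj (lam : Ω →ₗ[E] E) : LaurentSeries Ω →+ LaurentSeries E where
  toFun g := g.map lam
  map_zero' := by
    ext n
    simp
  map_add' g h := by
    ext n
    simp

theorem proj_coeff (lam : Ω →ₗ[E] E) (g : LaurentSeries Ω) (n : ℤ) :
    (proj lam g).coeff n = lam (g.coeff n) := rfl

theorem proj_algebraMap (lam : Ω →ₗ[E] E) (c : Ω) :
    proj lam (algebraMap Ω (LaurentSeries Ω) c) = algebraMap E (LaurentSeries E) (lam c) := by
  rw [algebraMap_laurentSeries_eq_single, algebraMap_laurentSeries_eq_single]
  ext n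
  rw [proj_coeff]
  rcases eq_or_ne n 0 with rfl | hn
  · rw [HahnSeries.coeff_single_same, HahnSeries.coeff_single_same]
  · rw [HahnSeries.coeff_single_of_ne hn, HahnSeries.coeff_single_of_ne hn, map_zero]

/-- `proj` is linear over `E((q))`. -/
theorem proj_mul_up (lam : Ω →ₗ[E] E) (g : LaurentSeries Ω) (z : LaurentSeries E) :
    proj lam (g * coeffMap (algebraMap E Ω) z) = proj lam g * z := by
  ext n
  have hys : (coeffMap (algebraMap E Ω) z).support ⊆ z.support := by
    intro k hk
    rw [HahnSeries.mem_support] at hk ⊢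
    intro h0
    apply hk
    rw [coeffMap_coeff, h0, map_zero]
  have hxs : (proj lam g).support ⊆ g.support := by
    intro k hk
    rw [HahnSeries.mem_support] at hk ⊢
    intro h0
    apply hk
    rw [proj_coeff, h0, map_zero]
  rw [proj_coeff, HahnSeries.coeff_mul_right' z.isPWO_support hys,
    HahnSeries.coeff_mul_left' g.isPWO_support hxs, map_sum]
  refine Finset.sum_congr rfl fun ij _ => ?_
  rw [proj_coeff, coeffMap_coeff, mul_comm, ← Algebra.smul_def, map_smul, smul_eq_mul, mul_comm]

theorem proj_one (lam : Ω →ₗ[E] E) (hlam : lam 1 = 1) : proj lam 1 = 1 := by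
  have h := proj_algebraMap lam 1
  rw [hlam, (algebraMap Ω (LaurentSeries Ω)).map_one,
    (algebraMap E (LaurentSeries E)).map_one] at h
  exact h

theorem proj_up (lam : Ω →ₗ[E] E) (hlam : lam 1 = 1) (z : LaurentSeries E) :
    proj lam (coeffMap (algebraMap E Ω) z) = z := by
  have h := proj_mul_up lam 1 z
  rwa [one_mul, proj_one lam hlam, one_mul] at h

theorem proj_aeval_mul_up (lam : Ω →ₗ[E] E) (t z : LaurentSeries E) (g : Polynomial Ω) :
    proj lam (Polynomial.aeval (coeffMap (algebraMap E Ω) t) g * coeffMap (algebraMap E Ω) z) =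
      (∑ m ∈ g.support, algebraMap E (LaurentSeries E) (lam (g.coeff m)) * t ^ m) * z := by
  rw [Polynomial.aeval_def, Polynomial.eval₂_eq_sum, Polynomial.sum_def, Finset.sum_mul,
    Finset.sum_mul, map_sum]
  refine Finset.sum_congr rfl fun m _ => ?_
  rw [mul_assoc, ← map_pow, ← map_mul, proj_mul_up, proj_algebraMap, mul_assoc]

/-- Descent of an integrality relation along `E((q)) → Ω((q))`. -/
theorem descent_rel (lam : Ω →ₗ[E] E) (hlam : lam 1 = 1) (t y : LaurentSeries E) (d : ℕ)
    (g : ℕ → Polynomial Ω)
    (h : coeffMap (algebraMap E Ω) y ^ d = ∑ k ∈ Finset.range d,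
      Polynomial.aeval (coeffMap (algebraMap E Ω) t) (g k) * coeffMap (algebraMap E Ω) y ^ k) :
    y ^ d = ∑ k ∈ Finset.range d,
      (∑ m ∈ (g k).support, algebraMap E (LaurentSeries E) (lam ((g k).coeff m)) * t ^ m) *
        y ^ k := by
  have h1 := congrArg (proj lam) h
  rw [← map_pow, proj_up lam hlam, map_sum] at h1
  rw [h1]
  refine Finset.sum_congr rfl fun k _ => ?_
  rw [← map_pow, proj_aeval_mul_up]

end Proj

/-! ### The modular setting -/

section Modular

open Fermat.Agent.S18.K1Defs Fermat.Agent.S18.K1Descent Fermat.Agent.S30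

local notation "Qb" => AlgebraicClosure ℚ

variable (M : ℕ) [NeZero M] (A : ValuationSubring Qb) (t0 : LaurentSeries ℚ)
  (ht0 : t0 ∈ modularFunctionFieldFull M)

/-- The chart coordinate in the level-`M` function field over `K`. -/
def tK (K : Type) [Field K] [Algebra ℚ K] : laurentBaseChange K (modularFunctionFieldFull M) :=
  ⟨coeffEmb K t0, coeffEmb_mem_laurentBaseChange K ht0⟩

@[simp] theorem coe_tK (K : Type) [Field K] [Algebra ℚ K] :
    ((tK M t0 ht0 K : laurentBaseChange K (modularFunctionFieldFull M)) : LaurentSeries K) =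
      coeffEmb K t0 := rfl

variable (E : IntermediateField ℚ Qb)

theorem upHom_tK : upHom M E (tK M t0 ht0 E) = tK M t0 ht0 Qb :=
  Subtype.ext (GaussDescent.up_coeffEmb E t0)

theorem coe_upHom (y : LE M E) :
    ((upHom M E y : modularFunctionFieldBar M) : LaurentSeries Qb) =
      coeffMap (algebraMap E Qb) (y : LaurentSeries E) := rfl

theorem upHom_algebraMap (c : E) :
    upHom M E (algebraMap E (LE M E) c) = algebraMap Qb (modularFunctionFieldBar M) (c : Qb) :=
  Subtype.ext (GaussDescent.up_algebraMap E c)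

/-- The canonical `O_E`-algebra structure on `LE M E`, through `E` (reducibly equal to
`S18.K1Main.algebraOL (OE A E) E (LE M E)`). -/
@[reducible] def algOL : Algebra (OE A E) (LE M E) :=
  ((algebraMap E (LE M E)).comp (algebraMap (OE A E) E)).toAlgebra

theorem isScalarTower_algOL :
    letI := algOL M A E
    IsScalarTower (OE A E) E (LE M E) :=
  letI := algOL M A E
  IsScalarTower.of_algebraMap_eq (fun _ => rfl)

/-- The chart ring `C_E`: the integral closure of `O_E[t]` in the function field over `E`. -/
abbrev ChartRing : Type :=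
  letI := algOL M A E
  ↥(integralClosure (Algebra.adjoin (OE A E) {tK M t0 ht0 E}) (LE M E))

theorem isIntegral_of_mem_adjoin {x : LE M E}
    (hx : letI := algOL M A E; x ∈ Algebra.adjoin (OE A E) {tK M t0 ht0 E}) :
    letI := algOL M A E
    IsIntegral (Algebra.adjoin (OE A E) {tK M t0 ht0 E}) x :=
  letI := algOL M A E
  isIntegral_algebraMap (x := (⟨x, hx⟩ : Algebra.adjoin (OE A E) {tK M t0 ht0 E}))

/-- A constant of `O_E` as an element of the chart ring. -/
def constC (r : OE A E) : ChartRing M A t0 ht0 E :=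
  letI := algOL M A E
  ⟨algebraMap E (LE M E) (r : E),
    isIntegral_of_mem_adjoin M A t0 ht0 E
      (Subalgebra.algebraMap_mem (Algebra.adjoin (OE A E) {tK M t0 ht0 E}) r)⟩

@[simp] theorem coe_constC (r : OE A E) :
    ((constC M A t0 ht0 E r : ChartRing M A t0 ht0 E) : LE M E) =
      algebraMap E (LE M E) (r : E) := rfl

theorem constC_eq_algebraMap (r : OE A E) :
    letI := algOL M A E
    constC M A t0 ht0 E r =
      algebraMap (Algebra.adjoin (OE A E) {tK M t0 ht0 E})
        (integralClosure (Algebra.adjoin (OE A E) {tK M t0 ht0 E}) (LE M E))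
        (algebraMap (OE A E) (Algebra.adjoin (OE A E) {tK M t0 ht0 E}) r) := rfl

theorem constC_eq_piElt (r : OE A E) :
    letI := algOL M A E
    constC M A t0 ht0 E r =
      Model.GlueChart.piElt (Algebra.adjoin (OE A E) {tK M t0 ht0 E}) r := rfl

/-- The chart coordinate as an element of the chart ring. -/
def tC : ChartRing M A t0 ht0 E :=
  letI := algOL M A E
  ⟨tK M t0 ht0 E, isIntegral_of_mem_adjoin M A t0 ht0 E
    (Algebra.self_mem_adjoin_singleton (OE A E) (tK M t0 ht0 E))⟩

@[simp] theorem coe_tC :
    ((tC M A t0 ht0 E : ChartRing M A t0 ht0 E) : LE M E) = tK M t0 ht0 E := rfl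

/-- `O_E[t]` maps into `ℚ̄[t]`. -/
theorem upHom_mem_adjoin {x : LE M E}
    (hx : letI := algOL M A E; x ∈ Algebra.adjoin (OE A E) {tK M t0 ht0 E}) :
    upHom M E x ∈ Algebra.adjoin Qb {tK M t0 ht0 Qb} := by
  letI := algOL M A E
  induction hx using Algebra.adjoin_induction with
  | mem z hz =>
      rw [Set.mem_singleton_iff.mp hz, upHom_tK]
      exact Algebra.self_mem_adjoin_singleton _ _
  | algebraMap r =>
      have h1 : upHom M E (algebraMap (OE A E) (LE M E) r) =
          algebraMap Qb (modularFunctionFieldBar M) ((r : E) : Qb) := upHom_algebraMap M E (r : E)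
      rw [h1]
      exact Subalgebra.algebraMap_mem _ _
  | add x y _ _ hx hy => rw [map_add]; exact add_mem hx hy
  | mul x y _ _ hx hy => rw [map_mul]; exact mul_mem hx hy

/-- Integral over `O_E[t]` ⟹ integral over `ℚ̄[t]` after extension of constants. -/
theorem isIntegral_up {y : LE M E}
    (hy : letI := algOL M A E; IsIntegral (Algebra.adjoin (OE A E) {tK M t0 ht0 E}) y) :
    IsIntegral (Algebra.adjoin Qb {tK M t0 ht0 Qb}) (upHom M E y) := by
  letI := algOL M A E
  obtain ⟨d, ρ, h⟩ := exists_pow_eq_sum_of_isIntegral hy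
  refine isIntegral_of_pow_eq_sum (upHom M E y) d
    (fun k => ⟨upHom M E (ρ k), upHom_mem_adjoin M A t0 ht0 E (ρ k).2⟩) ?_
  have h1 := congrArg (upHom M E) h
  rw [map_pow, map_sum] at h1
  rw [h1]
  refine Finset.sum_congr rfl fun k _ => ?_
  rw [map_mul, map_pow]
  rfl

/-- **Descent of integrality**: integral over `ℚ̄[t]` after extension of constants ⟹ integral
over `E[t]`. -/
theorem isIntegral_down (y : LE M E)
    (hy : IsIntegral (Algebra.adjoin Qb {tK M t0 ht0 Qb}) (upHom M E y)) :
    IsIntegral (Algebra.adjoin E {tK M t0 ht0 E}) y := by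
  classical
  obtain ⟨d, ρ, h⟩ := exists_pow_eq_sum_of_isIntegral hy
  have hg : ∀ k, ∃ g : Polynomial Qb,
      Polynomial.aeval (tK M t0 ht0 Qb) g = (ρ k : modularFunctionFieldBar M) := by
    intro k
    have h1 : (ρ k : modularFunctionFieldBar M) ∈
        (Polynomial.aeval (tK M t0 ht0 Qb) : Polynomial Qb →ₐ[Qb] _).range := by
      rw [← Algebra.adjoin_singleton_eq_range_aeval]
      exact (ρ k).2
    exact h1
  choose g hg using hg
  obtain ⟨lam, hlam⟩ : ∃ lam : Qb →ₗ[E] E, lam 1 = 1 := by
    obtain ⟨lam, hl⟩ := LinearMap.exists_leftInverse_of_injective (Algebra.linearMap E Qb)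
      (LinearMap.ker_eq_bot.mpr (algebraMap E Qb).injective)
    refine ⟨lam, ?_⟩
    have h1 := congrArg (fun f => f 1) hl
    simpa using h1
  -- the relation in `ℚ̄((q))`
  have h2 : coeffMap (algebraMap E Qb) (y : LaurentSeries E) ^ d = ∑ k ∈ Finset.range d,
      Polynomial.aeval (coeffMap (algebraMap E Qb) ((tK M t0 ht0 E : LE M E) : LaurentSeries E))
        (g k) * coeffMap (algebraMap E Qb) (y : LaurentSeries E) ^ k := by
    have h1 := congrArg ((modularFunctionFieldBar M).val) h
    rw [map_pow, map_sum] at h1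
    have e1 : (modularFunctionFieldBar M).val (upHom M E y) =
        coeffMap (algebraMap E Qb) (y : LaurentSeries E) := rfl
    rw [e1] at h1
    rw [h1]
    refine Finset.sum_congr rfl fun k _ => ?_
    rw [map_mul, map_pow, e1]
    congr 1
    have e2 : (modularFunctionFieldBar M).val
        (algebraMap (Algebra.adjoin Qb {tK M t0 ht0 Qb}) (modularFunctionFieldBar M) (ρ k)) =
        (modularFunctionFieldBar M).val (Polynomial.aeval (tK M t0 ht0 Qb) (g k)) := by
      rw [hg k]
      rfl
    rw [e2, ← Polynomial.aeval_algHom_apply]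
    congr 1
  have h3 := descent_rel lam hlam _ _ d g h2
  refine isIntegral_of_pow_eq_sum y d (fun k =>
    ⟨∑ m ∈ (g k).support, algebraMap E (LE M E) (lam ((g k).coeff m)) * tK M t0 ht0 E ^ m,
      sum_mem fun m _ => mul_mem (Subalgebra.algebraMap_mem _ _)
        (pow_mem (Algebra.self_mem_adjoin_singleton _ _) m)⟩) ?_
  apply Subtype.val_injective
  have e3 : ∀ x : LE M E, (x : LaurentSeries E) = (LE M E).val x := fun _ => rfl
  rw [e3, e3, map_pow, map_sum]
  rw [e3] at h3
  rw [h3]
  refine Finset.sum_congr rfl fun k _ => ?_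
  rw [map_mul, map_pow]
  congr 1
  show _ = (LE M E).val (∑ m ∈ (g k).support,
    algebraMap E (LE M E) (lam ((g k).coeff m)) * tK M t0 ht0 E ^ m)
  rw [map_sum]
  refine Finset.sum_congr rfl fun m _ => ?_
  rw [map_mul, map_pow, AlgHom.commutes]
  rfl

end Modular

/-! ### Galois action, denominators, regularity -/

section ModularAux

open Fermat.Agent.S18.K1Defs Fermat.Agent.S18.K1Descent Fermat.Agent.S30

local notation "Qb" => AlgebraicClosure ℚ

theorem isGalois_Qb : IsGalois ℚ Qb := by
  haveI := GaussDescent.isAlgebraic_rat_Qb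
  haveI : IsAlgClosure ℚ Qb := ⟨inferInstance, GaussDescent.isAlgebraic_rat_Qb⟩
  infer_instance

/-- A valuation subring is integrally closed in its field. -/
theorem mem_valuationSubring_of_isIntegral {L : Type*} [Field L] (B : ValuationSubring L) {x : L}
    (h : IsIntegral B x) : x ∈ B := by
  obtain ⟨y, hy⟩ := IsIntegrallyClosed.isIntegral_iff.mp h
  rw [← hy]
  exact y.2

variable (M : ℕ) [NeZero M] (A : ValuationSubring Qb) (t0 : LaurentSeries ℚ)
  (ht0 : t0 ∈ modularFunctionFieldFull M) (E : IntermediateField ℚ Qb)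

/-! Instance shortcuts (the terms found by instance search, which is slow here). -/

/-- Shortcut instance. -/
@[reducible] def algELE : Algebra E (LE M E) := SubalgebraClass.toAlgebra (LE M E)

/-- Shortcut instance. -/
@[reducible] def algQbF : Algebra Qb (modularFunctionFieldBar M) :=
  SubalgebraClass.toAlgebra (modularFunctionFieldBar M)

attribute [local instance] algELE algQbF

/-- Shortcut instance. -/
@[reducible] def smulELE : SMul E (LE M E) := (algELE M E).toSMul

/-- Shortcut instance. -/
@[reducible] def moduleELE : Module E (LE M E) := (algELE M E).toModule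

/-- Shortcut instance. -/
@[reducible] def mulActionELE : MulAction E (LE M E) := (moduleELE M E).toMulAction

attribute [local instance] smulELE moduleELE mulActionELE

/-- `Gal(ℚ̄/E)` fixes the functions defined over `E`. -/
theorem gal_upHom (σ : Qb ≃ₐ[ℚ] Qb) (hσ : ∀ e : E, σ (e : Qb) = e) (y : LE M E) :
    arithmeticGalois (modularFunctionFieldFull M) σ • upHom M E y = upHom M E y := by
  apply Subtype.ext
  rw [coe_arithmeticGalois_smul, coe_upHom, coeffMap_coeffMap]
  exact coeffMap_congr (RingHom.ext fun e => hσ e) _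

/-- `exists_const_mul_isIntegral`, elaborated with the instance shortcuts. -/
theorem exists_const_mul_isIntegral_aux (y : LE M E)
    (hy : IsIntegral (Algebra.adjoin E {tK M t0 ht0 E}) y) :
    letI := algOL M A E
    ∃ c : OE A E, c ≠ 0 ∧
      IsIntegral (Algebra.adjoin (OE A E) {tK M t0 ht0 E}) (algebraMap E (LE M E) (c : E) * y) := by
  letI := algOL M A E
  haveI : IsScalarTower (OE A E) E (LE M E) := isScalarTower_algOL M A E
  letI := (Model.ChartInst.inclE (OE A E) (E := E) (tK M t0 ht0 E)).toAlgebra
  haveI := Model.ChartInst.isLocalization_inclE (OE A E) (E := E) (tK M t0 ht0 E)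
  haveI : IsScalarTower (Algebra.adjoin (OE A E) {tK M t0 ht0 E})
      (Algebra.adjoin E {tK M t0 ht0 E}) (LE M E) :=
    IsScalarTower.of_algebraMap_eq
      (fun a => (Model.ChartInst.coe_inclE (OE A E) (E := E) (tK M t0 ht0 E) a).symm)
  obtain ⟨⟨m, c, hc, rfl⟩, hm⟩ := IsIntegral.exists_multiple_integral_of_isLocalization
    (Algebra.algebraMapSubmonoid (Algebra.adjoin (OE A E) {tK M t0 ht0 E})
      (nonZeroDivisors (OE A E))) y hy
  refine ⟨c, nonZeroDivisors.ne_zero hc, ?_⟩
  have e : algebraMap E (LE M E) (c : E) * y =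
      (⟨algebraMap (OE A E) (Algebra.adjoin (OE A E) {tK M t0 ht0 E}) c, c, hc, rfl⟩ :
        Algebra.algebraMapSubmonoid (Algebra.adjoin (OE A E) {tK M t0 ht0 E})
          (nonZeroDivisors (OE A E))) • y := by
    rw [Submonoid.smul_def, Algebra.smul_def]
    rfl
  rw [e]
  exact hm

/-- Elements of the chart ring are regular wherever the chart coordinate is. -/
theorem ord_up_nonneg (y : ChartRing M A t0 ht0 E) (P' : Place Qb (modularFunctionFieldBar M))
    (h : 0 ≤ P'.ord (tK M t0 ht0 Qb)) : 0 ≤ P'.ord (upHom M E (y : LE M E)) := by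
  have htP : tK M t0 ht0 Qb ∈ P'.toValuationSubring := by
    by_cases h0 : tK M t0 ht0 Qb = 0
    · rw [h0]; exact zero_mem _
    · exact (Fermat.Agent.S24.FF.ord_nonneg_iff P' h0).mp h
  exact Fermat.Agent.S24.FF.ord_nonneg_of_isIntegral_adjoin P' htP
    (isIntegral_up M A t0 ht0 E y.2)

end ModularAux

section ModularPub

open Fermat.Agent.S18.K1Defs Fermat.Agent.S18.K1Descent Fermat.Agent.S30

local notation "Qb" => AlgebraicClosure ℚ

variable (M : ℕ) [NeZero M] (A : ValuationSubring Qb) (t0 : LaurentSeries ℚ)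
  (ht0 : t0 ∈ modularFunctionFieldFull M) (E : IntermediateField ℚ Qb)

/-- Integral over `E[t]` ⟹ integral over `O_E[t]` after multiplication by a nonzero constant of
`O_E`. -/
theorem exists_const_mul_isIntegral (y : LE M E)
    (hy : IsIntegral (Algebra.adjoin E {tK M t0 ht0 E}) y) :
    letI := algOL M A E
    ∃ c : OE A E, c ≠ 0 ∧
      IsIntegral (Algebra.adjoin (OE A E) {tK M t0 ht0 E}) (algebraMap E (LE M E) (c : E) * y) :=
  exists_const_mul_isIntegral_aux M A t0 ht0 E y hy

/-- Integral over `E[t]` ⟹ integral over `O_E[t]` after multiplication by a power of a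
uniformiser. -/
theorem exists_pow_mul_isIntegral [IsDiscreteValuationRing (OE A E)] (π : OE A E)
    (hπ : Irreducible π) (y : LE M E) (hy : IsIntegral (Algebra.adjoin E {tK M t0 ht0 E}) y) :
    letI := algOL M A E
    ∃ n : ℕ, IsIntegral (Algebra.adjoin (OE A E) {tK M t0 ht0 E})
      (algebraMap E (LE M E) ((π : E) ^ n) * y) := by
  letI := algOL M A E
  obtain ⟨c, hc0, hci⟩ := exists_const_mul_isIntegral M A t0 ht0 E y hy
  obtain ⟨n, u, hu⟩ := IsDiscreteValuationRing.eq_unit_mul_pow_irreducible hc0 hπ
  refine ⟨n, ?_⟩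
  have h1 : IsIntegral (Algebra.adjoin (OE A E) {tK M t0 ht0 E})
      (algebraMap E (LE M E) (((u⁻¹ : (OE A E)ˣ) : OE A E) : E)) :=
    isIntegral_of_mem_adjoin M A t0 ht0 E
      (Subalgebra.algebraMap_mem (Algebra.adjoin (OE A E) {tK M t0 ht0 E})
        ((u⁻¹ : (OE A E)ˣ) : OE A E))
  have h2 := h1.mul hci
  have e : algebraMap E (LE M E) ((π : E) ^ n) * y =
      algebraMap E (LE M E) (((u⁻¹ : (OE A E)ˣ) : OE A E) : E) *
        (algebraMap E (LE M E) (c : E) * y) := by
    rw [← mul_assoc, ← map_mul]
    congr 2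
    have h3 : (((u⁻¹ : (OE A E)ˣ) : OE A E) : E) * (c : E) =
        (((((u⁻¹ : (OE A E)ˣ) : OE A E) * c : OE A E)) : E) := rfl
    rw [h3, hu, ← mul_assoc, Units.inv_mul, one_mul]
    rfl
  rw [e]
  exact h2

end ModularPub

end Fermat.Agent.S37.Fn.RatPoint
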