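import Mathlib
import Fermat.Agent.S24.DegreeGen
import Fermat.Agent.S37.Fn.RatPointBase

/-!
# S37, row F6a: rational points of a chart — the main statements

See `RatPointBase.lean` for the setting (`tK`, `ChartRing`, `constC`, `tC`, `isIntegral_up`,
`isIntegral_down`).  Here:

* `gal_upHom`            : `Gal(ℚ̄/E)` fixes the functions defined over `E`;
* `exists_const_mul_isIntegral` : integral over `E[t]` ⟹ `c • y` integral over `O_E[t]`, `c ≠ 0`;
* `ord_up_nonneg`        : elements of the chart ring are regular where `t` is;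
* `ratPoint_core`        : the `E`-rational point attached to a place `P` with `t(P) = a ∈ A ∩ E`,
  given a uniformiser at `P` defined over `E` that is a unit at the other zeros of `t - a`;
* `exists_ratPoint`      : the number field `E` exists.
-/

set_option autoImplicit false
set_option linter.unusedSectionVars false
set_option linter.style.haveILetI false
set_option synthInstance.maxHeartbeats 400000
set_option maxHeartbeats 8000000

noncomputable section

namespace Fermat.Agent.S37.Fn.RatPoint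

open AlgebraicCurve ModularCurve HahnSeries IntermediateField
open Fermat.Agent.S18.K1Defs Fermat.Agent.S18.K1Descent Fermat.Agent.S30

local notation "Qb" => AlgebraicClosure ℚ

variable (M : ℕ) [NeZero M] (A : ValuationSubring Qb) (t0 : LaurentSeries ℚ)
  (ht0 : t0 ∈ modularFunctionFieldFull M) (E : IntermediateField ℚ Qb)

section Aux

attribute [local instance] algELE algQbF smulELE moduleELE mulActionELE

/-- `ratPoint_core`, elaborated with the instance shortcuts. -/
theorem ratPoint_core_aux (htr : Algebra.trdeg Qb (modularFunctionFieldBar M) = 1)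
    (htt : Transcendental Qb (tK M t0 ht0 Qb))
    (P : Place Qb (modularFunctionFieldBar M)) (a : Qb) (ha : a ∈ A) (haE : a ∈ E)
    (hP : 0 < P.ord (tK M t0 ht0 Qb - algebraMap Qb (modularFunctionFieldBar M) a))
    (y1 : LE M E) (hy1i : IsIntegral (Algebra.adjoin Qb {tK M t0 ht0 Qb}) (upHom M E y1))
    (hy1P : P.ord (upHom M E y1) = 1)
    (hy1T : ∀ w : Place Qb (modularFunctionFieldBar M), w ≠ P →
      0 < w.ord (tK M t0 ht0 Qb - algebraMap Qb (modularFunctionFieldBar M) a) →
      w.ord (upHom M E y1) = 0) :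
    ∃ ev : ChartRing M A t0 ht0 E →+* OE A E,
      (∀ r : OE A E, ev (constC M A t0 ht0 E r) = r) ∧
      (∀ y : ChartRing M A t0 ht0 E,
        upHom M E (y : LE M E) =
            algebraMap Qb (modularFunctionFieldBar M) (((ev y : OE A E) : E) : Qb) ∨
          0 < P.ord (upHom M E (y : LE M E) -
            algebraMap Qb (modularFunctionFieldBar M) (((ev y : OE A E) : E) : Qb))) ∧
      (∀ P' : Place Qb (modularFunctionFieldBar M), P' ≠ P → 0 ≤ P'.ord (tK M t0 ht0 Qb) →
        ∃ y : ChartRing M A t0 ht0 E, ev y = 0 ∧ upHom M E (y : LE M E) ≠ 0 ∧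
          P'.ord (upHom M E (y : LE M E)) = 0) ∧
      (∃ y : ChartRing M A t0 ht0 E, ev y = 0 ∧ P.ord (upHom M E (y : LE M E)) = 1) ∧
      RingHom.ker ev ≠ ⊥ ∧
      (∀ π : OE A E, π ≠ 0 → constC M A t0 ht0 E π ∉ RingHom.ker ev) ∧
      (∀ π : OE A E, IsLocalRing.maximalIdeal (OE A E) = Ideal.span {π} →
        (RingHom.ker ev ⊔ Ideal.span {constC M A t0 ht0 E π}).IsMaximal) := by
  classical
  letI := algOL M A E
  -- (a) the Galois group of `ℚ̄ / E` fixes `P`
  have hfix : ∀ σ : Qb ≃ₐ[ℚ] Qb, (∀ e : E, σ (e : Qb) = e) →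
      arithmeticGalois (modularFunctionFieldFull M) σ • P = P := by
    intro σ hσ
    by_contra hne
    have hgt : arithmeticGalois (modularFunctionFieldFull M) σ • tK M t0 ht0 Qb =
        tK M t0 ht0 Qb := by
      rw [← upHom_tK M t0 ht0 E]
      exact gal_upHom M E σ hσ _
    have hga : arithmeticGalois (modularFunctionFieldFull M) σ •
        algebraMap Qb (modularFunctionFieldBar M) a =
        algebraMap Qb (modularFunctionFieldBar M) a := by
      rw [SemilinearAut.smul_algebraMap]
      congr 1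
      exact hσ ⟨a, haE⟩
    have h1 : (arithmeticGalois (modularFunctionFieldFull M) σ • P).ord
        (tK M t0 ht0 Qb - algebraMap Qb (modularFunctionFieldBar M) a) =
        P.ord (tK M t0 ht0 Qb - algebraMap Qb (modularFunctionFieldBar M) a) := by
      have h := SemilinearAut.ord_smul (arithmeticGalois (modularFunctionFieldFull M) σ) P
        (tK M t0 ht0 Qb - algebraMap Qb (modularFunctionFieldBar M) a)
      rwa [smul_sub, hgt, hga] at h
    have h2 : (arithmeticGalois (modularFunctionFieldFull M) σ • P).ord (upHom M E y1) =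
        P.ord (upHom M E y1) := by
      have h := SemilinearAut.ord_smul (arithmeticGalois (modularFunctionFieldFull M) σ) P
        (upHom M E y1)
      rwa [gal_upHom M E σ hσ y1] at h
    have h3 := hy1T _ hne (by rw [h1]; exact hP)
    rw [h2, hy1P] at h3
    exact one_ne_zero h3
  -- (b) the chart ring lies in the valuation ring of `P`
  have htP : tK M t0 ht0 Qb ∈ P.toValuationSubring := by
    have h1 := Fermat.Agent.S24.FF.mem_of_ord_pos P hP
    have h2 := add_mem h1 (P.algebraMap_mem' a)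
    simpa using h2
  have hmemP : ∀ y : ChartRing M A t0 ht0 E, upHom M E (y : LE M E) ∈ P.toValuationSubring :=
    fun y => Fermat.Agent.S24.FF.mem_of_isIntegral_adjoin P htP (isIntegral_up M A t0 ht0 E y.2)
  -- (c) the value map
  let ι : ChartRing M A t0 ht0 E →+* P.toValuationSubring :=
    { toFun := fun y => ⟨upHom M E (y : LE M E), hmemP y⟩
      map_one' := Subtype.ext (map_one (upHom M E))
      map_mul' := fun x y => Subtype.ext (map_mul (upHom M E) _ _)
      map_zero' := Subtype.ext (map_zero (upHom M E))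
      map_add' := fun x y => Subtype.ext (map_add (upHom M E) _ _) }
  let φ : ChartRing M A t0 ht0 E →+* Qb := (valAt htr P).comp ι
  have hφ : ∀ y : ChartRing M A t0 ht0 E,
      φ y = valAt htr P ⟨upHom M E (y : LE M E), hmemP y⟩ := fun _ => rfl
  -- (d) values lie in `E`
  have hφE : ∀ y, φ y ∈ E := by
    intro y
    haveI := isGalois_Qb
    have hEfix := InfiniteGalois.fixedField_fixingSubgroup E
    suffices hs : φ y ∈ IntermediateField.fixedField E.fixingSubgroup by
      rw [hEfix] at hs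
      exact hs
    rw [IntermediateField.mem_fixedField_iff]
    intro σ hσ
    rw [IntermediateField.mem_fixingSubgroup_iff] at hσ
    have hσ' : ∀ e : E, σ (e : Qb) = e := fun e => hσ e e.2
    have hg := hfix σ hσ'
    have hgy := gal_upHom M E σ hσ' (y : LE M E)
    have hmem : arithmeticGalois (modularFunctionFieldFull M) σ • upHom M E (y : LE M E) ∈
        P.toValuationSubring := by
      rw [hgy]; exact hmemP y
    have h1 := valAt_smul htr P (arithmeticGalois (modularFunctionFieldFull M) σ) hg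
      (hmemP y) hmem
    have h2 : valAt htr P ⟨arithmeticGalois (modularFunctionFieldFull M) σ •
        upHom M E (y : LE M E), hmem⟩ = valAt htr P ⟨upHom M E (y : LE M E), hmemP y⟩ := by
      congr 1
      exact Subtype.ext hgy
    rw [h2] at h1
    rw [hφ]
    exact h1.symm
  -- (e) values lie in `A`
  have hφt : φ (tC M A t0 ht0 E) = a := by
    rw [hφ]
    have h1 : (⟨upHom M E ((tC M A t0 ht0 E : ChartRing M A t0 ht0 E) : LE M E),
        hmemP (tC M A t0 ht0 E)⟩ : P.toValuationSubring) = ⟨tK M t0 ht0 Qb, htP⟩ :=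
      Subtype.ext (upHom_tK M t0 ht0 E)
    rw [h1]
    exact valAt_eq_of_ord_pos htr P htP a hP
  have hφc : ∀ r : OE A E, φ (constC M A t0 ht0 E r) = ((r : E) : Qb) := by
    intro r
    rw [hφ]
    exact valAt_eq_of_eq htr P _ _ (upHom_algebraMap M E (r : E))
  have hD : ∀ x : LE M E, x ∈ Algebra.adjoin (OE A E) {tK M t0 ht0 E} →
      upHom M E x ∈ valIn htr P A.toSubring := by
    intro x hx
    induction hx using Algebra.adjoin_induction with
    | mem z hz =>
        rw [Set.mem_singleton_iff.mp hz, upHom_tK]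
        refine (mem_valIn_iff htr P A.toSubring).2 ⟨htP, ?_⟩
        rw [valAt_eq_of_ord_pos htr P htP a hP]
        exact ha
    | algebraMap r =>
        have h1 : upHom M E (algebraMap (OE A E) (LE M E) r) =
            algebraMap Qb (modularFunctionFieldBar M) ((r : E) : Qb) := upHom_algebraMap M E (r : E)
        rw [h1]
        refine (mem_valIn_iff htr P A.toSubring).2 ⟨P.algebraMap_mem' _, ?_⟩
        rw [valAt_eq_of_eq htr P _ ((r : E) : Qb) rfl]
        exact r.2
    | add x y _ _ hx hy => rw [map_add]; exact add_mem hx hy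
    | mul x y _ _ hx hy => rw [map_mul]; exact mul_mem hx hy
  have hφA : ∀ y, φ y ∈ A := by
    intro y
    obtain ⟨d, ρ, h⟩ := exists_pow_eq_sum_of_isIntegral
      (R := Algebra.adjoin (OE A E) {tK M t0 ht0 E}) (S := LE M E) y.2
    have h1 := congrArg (upHom M E) h
    rw [map_pow, map_sum] at h1
    have h2 : upHom M E (y : LE M E) ^ d = ∑ k ∈ Finset.range d,
        upHom M E (ρ k : LE M E) * upHom M E (y : LE M E) ^ k := by
      rw [h1]
      refine Finset.sum_congr rfl fun k _ => ?_
      rw [map_mul, map_pow]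
      rfl
    have hc : ∀ k, upHom M E (ρ k : LE M E) ∈ P.toValuationSubring := fun k =>
      ((mem_valIn_iff htr P A.toSubring).1 (hD _ (ρ k).2)).1
    have h3 := valAt_rel htr P _ (hmemP y) d _ hc h2
    apply mem_valuationSubring_of_isIntegral
    refine isIntegral_of_pow_eq_sum (φ y) d
      (fun k => (⟨valAt htr P ⟨upHom M E (ρ k : LE M E), hc k⟩,
        ((mem_valIn_iff htr P A.toSubring).1 (hD _ (ρ k).2)).2⟩ : A)) ?_
    exact h3
  -- (f) the evaluation homomorphism
  let ev : ChartRing M A t0 ht0 E →+* OE A E :=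
    { toFun := fun y => ⟨⟨φ y, hφE y⟩, hφA y⟩
      map_one' := Subtype.ext (Subtype.ext (map_one φ))
      map_mul' := fun x y => Subtype.ext (Subtype.ext (map_mul φ x y))
      map_zero' := Subtype.ext (Subtype.ext (map_zero φ))
      map_add' := fun x y => Subtype.ext (Subtype.ext (map_add φ x y)) }
  have hev : ∀ y : ChartRing M A t0 ht0 E, (((ev y : OE A E) : E) : Qb) = φ y := fun _ => rfl
  have hev0 : ∀ y : ChartRing M A t0 ht0 E, ev y = 0 ↔ φ y = 0 := by
    intro y
    constructor
    · intro h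
      rw [← hev, h]
      rfl
    · intro h
      apply Subtype.ext
      apply Subtype.ext
      exact h
  have hevc : ∀ r : OE A E, ev (constC M A t0 ht0 E r) = r := fun r =>
    Subtype.ext (Subtype.ext (hφc r))
  -- value zero from positive order
  have hzero : ∀ y : ChartRing M A t0 ht0 E, 0 < P.ord (upHom M E (y : LE M E)) → ev y = 0 := by
    intro y hy
    rw [hev0, hφ]
    apply valAt_eq_of_ord_pos
    rw [map_zero, sub_zero]
    exact hy
  -- the element `t - a`
  have hta : tK M t0 ht0 E - algebraMap E (LE M E) ⟨a, haE⟩ ∈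
      Algebra.adjoin (OE A E) {tK M t0 ht0 E} :=
    sub_mem (Algebra.self_mem_adjoin_singleton _ _)
      (Subalgebra.algebraMap_mem _ (⟨⟨a, haE⟩, ha⟩ : OE A E))
  let yt : ChartRing M A t0 ht0 E :=
    ⟨tK M t0 ht0 E - algebraMap E (LE M E) ⟨a, haE⟩, isIntegral_of_mem_adjoin M A t0 ht0 E hta⟩
  have hyt : upHom M E (yt : LE M E) =
      tK M t0 ht0 Qb - algebraMap Qb (modularFunctionFieldBar M) a := by
    show upHom M E (tK M t0 ht0 E - algebraMap E (LE M E) ⟨a, haE⟩) = _
    rw [map_sub, upHom_tK, upHom_algebraMap]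
  have hyt0 : ev yt = 0 := hzero yt (by rw [hyt]; exact hP)
  have htne : tK M t0 ht0 Qb - algebraMap Qb (modularFunctionFieldBar M) a ≠ 0 := by
    intro h
    apply htt
    rw [sub_eq_zero.mp h]
    exact isAlgebraic_algebraMap a
  -- the element `c • y1`
  obtain ⟨c, hc0, hci⟩ := exists_const_mul_isIntegral M A t0 ht0 E y1
    (isIntegral_down M t0 ht0 E y1 hy1i)
  let yc : ChartRing M A t0 ht0 E := ⟨algebraMap E (LE M E) (c : E) * y1, hci⟩
  have hy1ne : upHom M E y1 ≠ 0 := by
    intro h
    rw [h, Place.ord_zero] at hy1P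
    exact zero_ne_one hy1P
  have hcne : algebraMap Qb (modularFunctionFieldBar M) ((c : E) : Qb) ≠ 0 := by
    rw [Ne, map_eq_zero]
    intro h
    apply hc0
    apply Subtype.ext
    apply Subtype.ext
    exact h
  have hyc : upHom M E (yc : LE M E) =
      algebraMap Qb (modularFunctionFieldBar M) ((c : E) : Qb) * upHom M E y1 := by
    show upHom M E (algebraMap E (LE M E) (c : E) * y1) = _
    rw [map_mul, upHom_algebraMap]
  have hycord : ∀ w : Place Qb (modularFunctionFieldBar M),
      w.ord (upHom M E (yc : LE M E)) = w.ord (upHom M E y1) := by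
    intro w
    rw [hyc, w.ord_mul hcne hy1ne, Fermat.Agent.S24.FF.ord_algebraMap, zero_add]
  have hyc0 : ev yc = 0 := hzero yc (by rw [hycord, hy1P]; exact one_pos)
  refine ⟨ev, hevc, ?_, ?_, ⟨yc, hyc0, by rw [hycord, hy1P]⟩, ?_, ?_, ?_⟩
  · -- the value
    intro y
    rw [hev]
    exact valAt_spec htr P ⟨upHom M E (y : LE M E), hmemP y⟩
  · -- separation
    intro P' hP' htP'
    by_cases hz : 0 < P'.ord (tK M t0 ht0 Qb - algebraMap Qb (modularFunctionFieldBar M) a)
    · exact ⟨yc, hyc0, by rw [hyc]; exact mul_ne_zero hcne hy1ne,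
        by rw [hycord]; exact hy1T P' hP' hz⟩
    · refine ⟨yt, hyt0, by rw [hyt]; exact htne, ?_⟩
      rw [hyt]
      have htP'm : tK M t0 ht0 Qb ∈ P'.toValuationSubring := by
        by_cases h0 : tK M t0 ht0 Qb = 0
        · rw [h0]; exact zero_mem _
        · exact (Fermat.Agent.S24.FF.ord_nonneg_iff P' h0).mp htP'
      have h1 : 0 ≤ P'.ord (tK M t0 ht0 Qb - algebraMap Qb (modularFunctionFieldBar M) a) :=
        Fermat.Agent.S24.FF.ord_nonneg_of_mem P' (sub_mem htP'm (P'.algebraMap_mem' a))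
      omega
  · -- the kernel is nonzero
    intro hbot
    have h1 : yt ∈ RingHom.ker ev := hyt0
    rw [hbot, Ideal.mem_bot] at h1
    apply htne
    rw [← hyt, h1]
    exact map_zero _
  · -- `π ∉ q_P`
    intro π hπ hmem
    apply hπ
    have h1 : ev (constC M A t0 ht0 E π) = 0 := hmem
    rwa [hevc] at h1
  · -- maximality
    intro π hπ
    have hsurj : Function.Surjective ev := fun r => ⟨constC M A t0 ht0 E r, hevc r⟩
    have hmax : (Ideal.comap ev (IsLocalRing.maximalIdeal (OE A E))).IsMaximal :=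
      Ideal.comap_isMaximal_of_surjective ev hsurj
    have heq : Ideal.comap ev (IsLocalRing.maximalIdeal (OE A E)) =
        RingHom.ker ev ⊔ Ideal.span {constC M A t0 ht0 E π} := by
      have h1 : Ideal.map ev (Ideal.span {constC M A t0 ht0 E π}) = Ideal.span {π} := by
        rw [Ideal.map_span, Set.image_singleton, hevc]
      rw [hπ, ← h1, Ideal.comap_map_of_surjective ev hsurj, sup_comm]
      rfl
    rw [← heq]
    exact hmax

/-- `exists_ratPoint`, elaborated with the instance shortcuts. -/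
theorem exists_ratPoint_aux (htr : Algebra.trdeg Qb (modularFunctionFieldBar M) = 1)
    (htt : Transcendental Qb (tK M t0 ht0 Qb))
    (P : Place Qb (modularFunctionFieldBar M)) (a : Qb) (ha : a ∈ A)
    (hP : 0 < P.ord (tK M t0 ht0 Qb - algebraMap Qb (modularFunctionFieldBar M) a))
    (S0 : Finset Qb) :
    ∃ E : IntermediateField ℚ Qb, FiniteDimensional ℚ E ∧ (∀ s ∈ S0, s ∈ E) ∧ a ∈ E ∧
    ∃ ev : ChartRing M A t0 ht0 E →+* OE A E,
      (∀ r : OE A E, ev (constC M A t0 ht0 E r) = r) ∧
      (∀ y : ChartRing M A t0 ht0 E,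
        upHom M E (y : LE M E) =
            algebraMap Qb (modularFunctionFieldBar M) (((ev y : OE A E) : E) : Qb) ∨
          0 < P.ord (upHom M E (y : LE M E) -
            algebraMap Qb (modularFunctionFieldBar M) (((ev y : OE A E) : E) : Qb))) ∧
      (∀ P' : Place Qb (modularFunctionFieldBar M), P' ≠ P → 0 ≤ P'.ord (tK M t0 ht0 Qb) →
        ∃ y : ChartRing M A t0 ht0 E, ev y = 0 ∧ upHom M E (y : LE M E) ≠ 0 ∧
          P'.ord (upHom M E (y : LE M E)) = 0) ∧
      (∃ y : ChartRing M A t0 ht0 E, ev y = 0 ∧ P.ord (upHom M E (y : LE M E)) = 1) ∧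
      RingHom.ker ev ≠ ⊥ ∧
      (∀ π : OE A E, π ≠ 0 → constC M A t0 ht0 E π ∉ RingHom.ker ev) ∧
      (∀ π : OE A E, IsLocalRing.maximalIdeal (OE A E) = Ideal.span {π} →
        (RingHom.ker ev ⊔ Ideal.span {constC M A t0 ht0 E π}).IsMaximal) := by
  classical
  haveI : Algebra.EssFiniteType Qb (modularFunctionFieldBar M) :=
    Fermat.Agent.S24.DegreeGen.essFiniteType_bar M
  obtain ⟨y0, hy0i, hy0P, hy0T⟩ := exists_unif_avoid htr htt a P hP
  obtain ⟨E₀, hE₀, hE₀d⟩ := GaussDescent.exists_descent (modularFunctionFieldFull M) y0.2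
  let E₁ : IntermediateField ℚ Qb := IntermediateField.adjoin ℚ (insert a (S0 : Set Qb))
  have hE₁ : FiniteDimensional ℚ E₁ :=
    IntermediateField.finiteDimensional_adjoin fun x _ =>
      (GaussDescent.isAlgebraic_rat_Qb.isAlgebraic x).isIntegral
  have hE : FiniteDimensional ℚ (E₀ ⊔ E₁ : IntermediateField ℚ Qb) :=
    IntermediateField.finiteDimensional_sup E₀ E₁
  obtain ⟨y1s, hy1L, hy1⟩ := hE₀d (E₀ ⊔ E₁) le_sup_left
  have hup : upHom M (E₀ ⊔ E₁) (⟨y1s, hy1L⟩ : LE M (E₀ ⊔ E₁ : IntermediateField ℚ Qb)) = y0 :=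
    Subtype.ext hy1
  have haE : a ∈ (E₀ ⊔ E₁ : IntermediateField ℚ Qb) :=
    (le_sup_right : E₁ ≤ E₀ ⊔ E₁) (IntermediateField.subset_adjoin ℚ _ (Set.mem_insert _ _))
  refine ⟨E₀ ⊔ E₁, hE, fun s hs => (le_sup_right : E₁ ≤ E₀ ⊔ E₁)
    (IntermediateField.subset_adjoin ℚ _ (Set.mem_insert_of_mem _ hs)), haE, ?_⟩
  exact ratPoint_core_aux M A t0 ht0 (E₀ ⊔ E₁) htr htt P a ha haE hP ⟨y1s, hy1L⟩
    (by rw [hup]; exact hy0i) (by rw [hup]; exact hy0P)
    (fun w hw h => by rw [hup]; exact hy0T w hw h)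

end Aux

/-- **The `E`-rational point attached to a place.**  `P` a place of `Fb M` with `t(P) = a`,
`a ∈ A ∩ E`, and `y1` a function defined over `E`, integral over `ℚ̄[t]`, which is a uniformiser
at `P` and a unit at the other zeros of `t - a`.  Then the value at `P` is a ring homomorphism
`ev : ChartRing → O_E`, with the properties listed in `exists_ratPoint`. -/
theorem ratPoint_core (htr : Algebra.trdeg Qb (modularFunctionFieldBar M) = 1)
    (htt : Transcendental Qb (tK M t0 ht0 Qb))
    (P : Place Qb (modularFunctionFieldBar M)) (a : Qb) (ha : a ∈ A) (haE : a ∈ E)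
    (hP : 0 < P.ord (tK M t0 ht0 Qb - algebraMap Qb (modularFunctionFieldBar M) a))
    (y1 : LE M E) (hy1i : IsIntegral (Algebra.adjoin Qb {tK M t0 ht0 Qb}) (upHom M E y1))
    (hy1P : P.ord (upHom M E y1) = 1)
    (hy1T : ∀ w : Place Qb (modularFunctionFieldBar M), w ≠ P →
      0 < w.ord (tK M t0 ht0 Qb - algebraMap Qb (modularFunctionFieldBar M) a) →
      w.ord (upHom M E y1) = 0) :
    ∃ ev : ChartRing M A t0 ht0 E →+* OE A E,
      (∀ r : OE A E, ev (constC M A t0 ht0 E r) = r) ∧
      (∀ y : ChartRing M A t0 ht0 E,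
        upHom M E (y : LE M E) =
            algebraMap Qb (modularFunctionFieldBar M) (((ev y : OE A E) : E) : Qb) ∨
          0 < P.ord (upHom M E (y : LE M E) -
            algebraMap Qb (modularFunctionFieldBar M) (((ev y : OE A E) : E) : Qb))) ∧
      (∀ P' : Place Qb (modularFunctionFieldBar M), P' ≠ P → 0 ≤ P'.ord (tK M t0 ht0 Qb) →
        ∃ y : ChartRing M A t0 ht0 E, ev y = 0 ∧ P'.ord (upHom M E (y : LE M E)) = 0) ∧
      (∃ y : ChartRing M A t0 ht0 E, ev y = 0 ∧ P.ord (upHom M E (y : LE M E)) = 1) ∧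
      RingHom.ker ev ≠ ⊥ ∧
      (∀ π : OE A E, π ≠ 0 → constC M A t0 ht0 E π ∉ RingHom.ker ev) ∧
      (∀ π : OE A E, IsLocalRing.maximalIdeal (OE A E) = Ideal.span {π} →
        (RingHom.ker ev ⊔ Ideal.span {constC M A t0 ht0 E π}).IsMaximal) := by
  obtain ⟨ev, h1, h2, h3, h4, h5, h6, h7⟩ :=
    ratPoint_core_aux M A t0 ht0 E htr htt P a ha haE hP y1 hy1i hy1P hy1T
  refine ⟨ev, h1, h2, fun P' hP' ht => ?_, h4, h5, h6, h7⟩
  obtain ⟨y, hy0, -, hy⟩ := h3 P' hP' ht
  exact ⟨y, hy0, hy⟩

/-- **Rational points of a chart.**  For a place `P` of `Fb M` at which the chart coordinate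
takes a value `a ∈ A`, and any finite set `S0 ⊆ ℚ̄`, there is a number field `E ⊇ S0 ∪ {a}` over
which `P` is rational: the value at `P` is a ring homomorphism `ev : ChartRing → O_E`
(`O_E = A ∩ E`), a retraction of `O_E → ChartRing`; its kernel `q_P` contains a uniformiser at
`P` and, for every other place `P'` of the chart, an element that is a unit at `P'`;
`q_P ≠ 0`, `π ∉ q_P`, and `q_P + (π)` is a maximal ideal. -/
theorem exists_ratPoint (htr : Algebra.trdeg Qb (modularFunctionFieldBar M) = 1)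
    (htt : Transcendental Qb (tK M t0 ht0 Qb))
    (P : Place Qb (modularFunctionFieldBar M)) (a : Qb) (ha : a ∈ A)
    (hP : 0 < P.ord (tK M t0 ht0 Qb - algebraMap Qb (modularFunctionFieldBar M) a))
    (S0 : Finset Qb) :
    ∃ E : IntermediateField ℚ Qb, FiniteDimensional ℚ E ∧ (∀ s ∈ S0, s ∈ E) ∧ a ∈ E ∧
    ∃ ev : ChartRing M A t0 ht0 E →+* OE A E,
      (∀ r : OE A E, ev (constC M A t0 ht0 E r) = r) ∧
      (∀ y : ChartRing M A t0 ht0 E,
        upHom M E (y : LE M E) =
            algebraMap Qb (modularFunctionFieldBar M) (((ev y : OE A E) : E) : Qb) ∨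
          0 < P.ord (upHom M E (y : LE M E) -
            algebraMap Qb (modularFunctionFieldBar M) (((ev y : OE A E) : E) : Qb))) ∧
      (∀ P' : Place Qb (modularFunctionFieldBar M), P' ≠ P → 0 ≤ P'.ord (tK M t0 ht0 Qb) →
        ∃ y : ChartRing M A t0 ht0 E, ev y = 0 ∧ P'.ord (upHom M E (y : LE M E)) = 0) ∧
      (∃ y : ChartRing M A t0 ht0 E, ev y = 0 ∧ P.ord (upHom M E (y : LE M E)) = 1) ∧
      RingHom.ker ev ≠ ⊥ ∧
      (∀ π : OE A E, π ≠ 0 → constC M A t0 ht0 E π ∉ RingHom.ker ev) ∧
      (∀ π : OE A E, IsLocalRing.maximalIdeal (OE A E) = Ideal.span {π} →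
        (RingHom.ker ev ⊔ Ideal.span {constC M A t0 ht0 E π}).IsMaximal) := by
  obtain ⟨E, hE, hS, haE, ev, h1, h2, h3, h4, h5, h6, h7⟩ :=
    exists_ratPoint_aux M A t0 ht0 htr htt P a ha hP S0
  refine ⟨E, hE, hS, haE, ev, h1, h2, fun P' hP' ht => ?_, h4, h5, h6, h7⟩
  obtain ⟨y, hy0, -, hy⟩ := h3 P' hP' ht
  exact ⟨y, hy0, hy⟩

/-- `ratPoint_core` with the separation clause in its useful form: the separating element is
NONZERO (`Place.ord 0 = 0` by convention, so the clause of `ratPoint_core` is satisfied by `0`).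
Use this one. -/
theorem ratPoint_core_ne (htr : Algebra.trdeg Qb (modularFunctionFieldBar M) = 1)
    (htt : Transcendental Qb (tK M t0 ht0 Qb))
    (P : Place Qb (modularFunctionFieldBar M)) (a : Qb) (ha : a ∈ A) (haE : a ∈ E)
    (hP : 0 < P.ord (tK M t0 ht0 Qb - algebraMap Qb (modularFunctionFieldBar M) a))
    (y1 : LE M E) (hy1i : IsIntegral (Algebra.adjoin Qb {tK M t0 ht0 Qb}) (upHom M E y1))
    (hy1P : P.ord (upHom M E y1) = 1)
    (hy1T : ∀ w : Place Qb (modularFunctionFieldBar M), w ≠ P →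
      0 < w.ord (tK M t0 ht0 Qb - algebraMap Qb (modularFunctionFieldBar M) a) →
      w.ord (upHom M E y1) = 0) :
    ∃ ev : ChartRing M A t0 ht0 E →+* OE A E,
      (∀ r : OE A E, ev (constC M A t0 ht0 E r) = r) ∧
      (∀ y : ChartRing M A t0 ht0 E,
        upHom M E (y : LE M E) =
            algebraMap Qb (modularFunctionFieldBar M) (((ev y : OE A E) : E) : Qb) ∨
          0 < P.ord (upHom M E (y : LE M E) -
            algebraMap Qb (modularFunctionFieldBar M) (((ev y : OE A E) : E) : Qb))) ∧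
      (∀ P' : Place Qb (modularFunctionFieldBar M), P' ≠ P → 0 ≤ P'.ord (tK M t0 ht0 Qb) →
        ∃ y : ChartRing M A t0 ht0 E, ev y = 0 ∧ upHom M E (y : LE M E) ≠ 0 ∧
          P'.ord (upHom M E (y : LE M E)) = 0) ∧
      (∃ y : ChartRing M A t0 ht0 E, ev y = 0 ∧ P.ord (upHom M E (y : LE M E)) = 1) ∧
      RingHom.ker ev ≠ ⊥ ∧
      (∀ π : OE A E, π ≠ 0 → constC M A t0 ht0 E π ∉ RingHom.ker ev) ∧
      (∀ π : OE A E, IsLocalRing.maximalIdeal (OE A E) = Ideal.span {π} →
        (RingHom.ker ev ⊔ Ideal.span {constC M A t0 ht0 E π}).IsMaximal) :=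
  ratPoint_core_aux M A t0 ht0 E htr htt P a ha haE hP y1 hy1i hy1P hy1T

/-- **Rational points of a chart**, with the separation clause in its useful form (the
separating element is NONZERO).  Use this one. -/
theorem exists_ratPoint_ne (htr : Algebra.trdeg Qb (modularFunctionFieldBar M) = 1)
    (htt : Transcendental Qb (tK M t0 ht0 Qb))
    (P : Place Qb (modularFunctionFieldBar M)) (a : Qb) (ha : a ∈ A)
    (hP : 0 < P.ord (tK M t0 ht0 Qb - algebraMap Qb (modularFunctionFieldBar M) a))
    (S0 : Finset Qb) :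
    ∃ E : IntermediateField ℚ Qb, FiniteDimensional ℚ E ∧ (∀ s ∈ S0, s ∈ E) ∧ a ∈ E ∧
    ∃ ev : ChartRing M A t0 ht0 E →+* OE A E,
      (∀ r : OE A E, ev (constC M A t0 ht0 E r) = r) ∧
      (∀ y : ChartRing M A t0 ht0 E,
        upHom M E (y : LE M E) =
            algebraMap Qb (modularFunctionFieldBar M) (((ev y : OE A E) : E) : Qb) ∨
          0 < P.ord (upHom M E (y : LE M E) -
            algebraMap Qb (modularFunctionFieldBar M) (((ev y : OE A E) : E) : Qb))) ∧
      (∀ P' : Place Qb (modularFunctionFieldBar M), P' ≠ P → 0 ≤ P'.ord (tK M t0 ht0 Qb) →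
        ∃ y : ChartRing M A t0 ht0 E, ev y = 0 ∧ upHom M E (y : LE M E) ≠ 0 ∧
          P'.ord (upHom M E (y : LE M E)) = 0) ∧
      (∃ y : ChartRing M A t0 ht0 E, ev y = 0 ∧ P.ord (upHom M E (y : LE M E)) = 1) ∧
      RingHom.ker ev ≠ ⊥ ∧
      (∀ π : OE A E, π ≠ 0 → constC M A t0 ht0 E π ∉ RingHom.ker ev) ∧
      (∀ π : OE A E, IsLocalRing.maximalIdeal (OE A E) = Ideal.span {π} →
        (RingHom.ker ev ⊔ Ideal.span {constC M A t0 ht0 E π}).IsMaximal) :=
  exists_ratPoint_aux M A t0 ht0 htr htt P a ha hP S0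

end Fermat.Agent.S37.Fn.RatPoint
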