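import Mathlib
import Fermat.Agent.S37.Fn.RatPoint
import Fermat.Agent.S37.Fn.RatData

/-!
# S37, row F6a: the contract `Fn.RatPoint` (rational point data of every place of a chart)

`RatPoint.exists_ratPoint_ne` in the vocabulary of the contract file `Fn/RatData.lean`:

* `ratData_of_ev` : the kernel of the evaluation homomorphism is rational point data;
* `ratPoint`      : `Fn.RatPoint M A (tK M t0 ht0 Qb) (fun E => tK M t0 ht0 E)` for every rational
  `q`-series `t0` of the level-`M` function field which is transcendental over `ℚ̄`;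
* `ratPoint_of_coe` : the same for any `tB : Fb M`, `tE : ∀ E, LE M E` with underlying series
  `coeffEmb _ t0` (e.g. `jBar M` / `jE M E`, or the inverses, or the Hauptmoduln).
-/

set_option autoImplicit false
set_option linter.unusedSectionVars false
set_option linter.style.haveILetI false
set_option synthInstance.maxHeartbeats 400000
set_option maxHeartbeats 4000000

noncomputable section

namespace Fermat.Agent.S37.Fn.RatPoint

open AlgebraicCurve ModularCurve HahnSeries IntermediateField
open Fermat.Agent.S18.K1Defs Fermat.Agent.S18.K1Descent Fermat.Agent.S18.K1Main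
open Fermat.Agent.S30 Fermat.Agent.S30.Model

local notation "Qb" => AlgebraicClosure ℚ

/-- In a valuation ring, an irreducible element generates the maximal ideal. -/
theorem maximalIdeal_eq_span_of_irreducible {K : Type*} [Field K] (V : ValuationSubring K)
    {π : V} (hπ : Irreducible π) : IsLocalRing.maximalIdeal V = Ideal.span {π} := by
  apply le_antisymm
  · intro x hx
    rw [Ideal.mem_span_singleton]
    rcases ValuationRing.dvd_total x π with h | h
    · obtain ⟨y, hy⟩ := h
      rcases hπ.isUnit_or_isUnit hy with hu | hu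
      · exact absurd hu ((IsLocalRing.mem_maximalIdeal x).mp hx)
      · obtain ⟨u, rfl⟩ := hu
        exact ⟨((u⁻¹ : Vˣ) : V), by rw [hy, mul_assoc, Units.mul_inv, mul_one]⟩
    · exact h
  · rw [Ideal.span_singleton_le_iff_mem, IsLocalRing.mem_maximalIdeal]
    exact hπ.not_isUnit

variable (M : ℕ) [NeZero M] (A : ValuationSubring Qb) (t0 : LaurentSeries ℚ)
  (ht0 : t0 ∈ modularFunctionFieldFull M)

/-- The kernel of the evaluation homomorphism of `exists_ratPoint_ne` is rational point data. -/
theorem ratData_of_ev (E : IntermediateField ℚ Qb) (P : Place Qb (Kummer.Fb M))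
    (ev : ChartRing M A t0 ht0 E →+* OE A E)
    (h1 : ∀ r : OE A E, ev (constC M A t0 ht0 E r) = r)
    (h2 : ∀ y : ChartRing M A t0 ht0 E,
      upHom M E (y : LE M E) =
          algebraMap Qb (modularFunctionFieldBar M) (((ev y : OE A E) : E) : Qb) ∨
        0 < P.ord (upHom M E (y : LE M E) -
          algebraMap Qb (modularFunctionFieldBar M) (((ev y : OE A E) : E) : Qb)))
    (h3 : ∀ P' : Place Qb (modularFunctionFieldBar M), P' ≠ P → 0 ≤ P'.ord (tK M t0 ht0 Qb) →
      ∃ y : ChartRing M A t0 ht0 E, ev y = 0 ∧ upHom M E (y : LE M E) ≠ 0 ∧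
        P'.ord (upHom M E (y : LE M E)) = 0)
    (h4 : ∃ y : ChartRing M A t0 ht0 E, ev y = 0 ∧ P.ord (upHom M E (y : LE M E)) = 1)
    (h5 : RingHom.ker ev ≠ ⊥)
    (h6 : ∀ π : OE A E, π ≠ 0 → constC M A t0 ht0 E π ∉ RingHom.ker ev)
    (h7 : ∀ π : OE A E, IsLocalRing.maximalIdeal (OE A E) = Ideal.span {π} →
      (RingHom.ker ev ⊔ Ideal.span {constC M A t0 ht0 E π}).IsMaximal) :
    RatData M A E (tK M t0 ht0 E) P := by
  letI := algebraOL (OE A E) E (LE M E)
  show ∃ q : Ideal (integralClosure (Algebra.adjoin (OE A E) ({tK M t0 ht0 E} : Set (LE M E)))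
      (LE M E)), _
  refine ⟨RingHom.ker ev, RingHom.ker_isPrime ev, h5, ?_, ?_, ?_, ?_, ?_⟩
  · intro π hπ
    exact ⟨h6 π hπ.ne_zero, h7 π (maximalIdeal_eq_span_of_irreducible (OE A E) hπ)⟩
  · refine ⟨ev (tC M A t0 ht0 E), tC M A t0 ht0 E - constC M A t0 ht0 E (ev (tC M A t0 ht0 E)),
      ?_, rfl⟩
    rw [RingHom.mem_ker, map_sub, h1, sub_self]
  · intro y hy
    have hy0 : ev y = 0 := hy
    have h := h2 y
    rw [hy0] at h
    have e : algebraMap Qb (modularFunctionFieldBar M) ((((0 : OE A E) : E)) : Qb) = 0 :=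
      map_zero _
    rw [e, sub_zero] at h
    exact h
  · obtain ⟨y, hy0, hy⟩ := h4
    exact ⟨y, hy0, hy⟩
  · intro P' hP' ht
    rw [upHom_tK] at ht
    obtain ⟨y, hy0, hyne, hy⟩ := h3 P' hP' ht
    exact ⟨y, hy0, hyne, hy⟩

/-- **The contract `Fn.RatPoint`** for the chart coordinate with rational `q`-series `t0`. -/
theorem ratPoint (htr : Algebra.trdeg Qb (modularFunctionFieldBar M) = 1)
    (htt : Transcendental Qb (tK M t0 ht0 Qb)) :
    RatPoint M A (tK M t0 ht0 Qb) (fun E => tK M t0 ht0 E) := by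
  intro P a ha hP S₀
  obtain ⟨E, hE, hS, -, ev, h1, h2, h3, h4, h5, h6, h7⟩ :=
    exists_ratPoint_ne M A t0 ht0 htr htt P a ha hP S₀
  exact ⟨E, hE, hS, ratData_of_ev M A t0 ht0 E P ev h1 h2 h3 h4 h5 h6 h7⟩

include ht0 in
/-- **The contract `Fn.RatPoint`** for any chart coordinate `tB : Fb M` with `E`-level models
`tE E : LE M E` whose underlying series are `coeffEmb _ t0`. -/
theorem ratPoint_of_coe (htr : Algebra.trdeg Qb (modularFunctionFieldBar M) = 1)
    (tB : Kummer.Fb M) (tE : ∀ E : IntermediateField ℚ Qb, LE M E)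
    (hB : (tB : LaurentSeries Qb) = coeffEmb Qb t0)
    (hE : ∀ E : IntermediateField ℚ Qb, ((tE E : LE M E) : LaurentSeries E) = coeffEmb E t0)
    (htt : Transcendental Qb tB) : RatPoint M A tB tE := by
  have e1 : tB = tK M t0 ht0 Qb := Subtype.ext hB
  have e2 : tE = fun E : IntermediateField ℚ Qb => tK M t0 ht0 E :=
    funext fun E => Subtype.ext (hE E)
  subst e1 e2
  exact ratPoint M A t0 ht0 htr htt

end Fermat.Agent.S37.Fn.RatPoint
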