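import Fermat.Agent.S37.Fn.RatPointData
import Fermat.Agent.S37.Fn.InvPlaces
import Fermat.Agent.S37.Fn.ChartFn
import Fermat.Agent.S37.Fn.ChartFnJ
import Fermat.Agent.S37.Fn.ChartFnHaupt
import Fermat.Agent.S37.Fn.IntPole
import Fermat.Agent.S37.Fn.Small
import Fermat.Agent.S24.Modular.M0

/-!
# S37, rows F6a / F9b: the rational point data of the three charts, and `(INV_P)` for them

* `ratPoint_j`, `ratPoint_j_inv`   : `Fn.RatPoint` for the coordinates `j`, `1/j` of the `j`-chart;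
* `ratPoint_h2`, `ratPoint_h2_inv` : the same for the Hauptmodul `h₂` (`2 ∣ M`);
* `ratPoint_h3`, `ratPoint_h3_inv` : the same for the Hauptmodul `h₃` (`3 ∣ M`);
* `invPlaces_j`, `invPlaces_three`, `invPlaces_two` : the three hypotheses of
  `Penult.result_of_invPlaces`.

No hypothesis on the valuation ring `A` is needed for the rational point data.
-/

set_option autoImplicit false
set_option linter.unusedSectionVars false
set_option linter.style.haveILetI false
set_option synthInstance.maxHeartbeats 400000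
set_option maxHeartbeats 1000000

noncomputable section

namespace Fermat.Agent.S37.Fn.RatPointInst

open ModularCurve AlgebraicCurve HahnSeries
open Fermat.Agent.S18.K1Defs Fermat.Agent.S18.K1Main
open Fermat.Agent.S30 Fermat.Agent.S37 Fermat.Agent.S37.Fn
open Fermat.Agent.S24.DegreeGen

local notation "Qb" => AlgebraicClosure ℚ

/-- `j(q)` lies in the rational function field of level `M`. -/
theorem jq_mem_full (M : ℕ) [NeZero M] : jq ∈ modularFunctionFieldFull M := by
  have h := jqd_mem_full M (one_dvd M)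
  rwa [qExpand_one_apply] at h

/-- The inverse of a transcendental element is transcendental. -/
theorem transcendental_inv' {K F : Type*} [Field K] [Field F] [Algebra K F] {x : F}
    (hx : Transcendental K x) : Transcendental K x⁻¹ := fun h => hx (by simpa using h.inv)

/-! ### The `j`-chart -/

section J

variable (N : ℕ) [NeZero N] (A : ValuationSubring Qb)

/-- Rational point data for the coordinate `j`. -/
theorem ratPoint_j : RatPoint N A (jBar N) (fun E => jE N E) :=
  RatPoint.ratPoint_of_coe N A jq (jq_mem_full N) (Fermat.Agent.S24.Modular.trdeg_FN N)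
    (jBar N) (fun E => jE N E) rfl (fun _ => rfl) (transcendental_jBar N)

/-- Rational point data for the coordinate `1/j`. -/
theorem ratPoint_j_inv : RatPoint N A (jBar N)⁻¹ (fun E => (jE N E)⁻¹) :=
  RatPoint.ratPoint_of_coe N A jq⁻¹ (inv_mem (jq_mem_full N))
    (Fermat.Agent.S24.Modular.trdeg_FN N) (jBar N)⁻¹ (fun E => (jE N E)⁻¹)
    (by
      show ((jBar N : Kummer.Fb N) : LaurentSeries Qb)⁻¹ = coeffEmb Qb jq⁻¹
      rw [map_inv₀, coe_jBar])
    (fun E => by
      show ((jE N E : LE N E) : LaurentSeries E)⁻¹ = coeffEmb E jq⁻¹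
      rw [map_inv₀, coe_jE])
    (transcendental_inv' (transcendental_jBar N))

end J

/-! ### The Hauptmodul charts -/

section Two

variable (M : ℕ) [NeZero M] (h : 2 ∣ M) (A : ValuationSubring Qb)

theorem transcendental_h2B : Transcendental Qb (ChartFnHaupt.h2B M h) := by
  obtain ⟨A₀⟩ : Nonempty (ValuationSubring Qb) := ⟨⊤⟩
  obtain ⟨ub, hu, hub⟩ := ChartFnHaupt.exists_isRed_h2B M A₀ h
  exact Int.transcendental_of_isRed _ ub hu hub

/-- Rational point data for the coordinate `h₂`. -/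
theorem ratPoint_h2 :
    RatPoint M A (ChartFnHaupt.h2B M h) (fun E => Haupt.HorizTwo.h2E M E h) :=
  RatPoint.ratPoint_of_coe M A (Haupt.Two.s2)⁻¹ (inv_mem (Haupt.MemTwo.s2_mem_full M h))
    (Fermat.Agent.S24.Modular.trdeg_FN M) (ChartFnHaupt.h2B M h)
    (fun E => Haupt.HorizTwo.h2E M E h)
    (by rw [ChartFnHaupt.coe_h2B, map_inv₀])
    (fun E => by rw [Haupt.HorizTwo.coe_h2E, map_inv₀])
    (transcendental_h2B M h)

/-- Rational point data for the coordinate `1/h₂ = s₂`. -/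
theorem ratPoint_h2_inv :
    RatPoint M A (ChartFnHaupt.h2B M h)⁻¹ (fun E => (Haupt.HorizTwo.h2E M E h)⁻¹) :=
  RatPoint.ratPoint_of_coe M A Haupt.Two.s2 (Haupt.MemTwo.s2_mem_full M h)
    (Fermat.Agent.S24.Modular.trdeg_FN M) (ChartFnHaupt.h2B M h)⁻¹
    (fun E => (Haupt.HorizTwo.h2E M E h)⁻¹)
    (by
      show ((ChartFnHaupt.h2B M h : Kummer.Fb M) : LaurentSeries Qb)⁻¹ = _
      rw [ChartFnHaupt.coe_h2B, inv_inv])
    (fun E => by
      show ((Haupt.HorizTwo.h2E M E h : LE M E) : LaurentSeries E)⁻¹ = _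
      rw [Haupt.HorizTwo.coe_h2E, inv_inv])
    (transcendental_inv' (transcendental_h2B M h))

end Two

section Three

variable (M : ℕ) [NeZero M] (h : 3 ∣ M) (A : ValuationSubring Qb)

theorem transcendental_h3B : Transcendental Qb (ChartFnHaupt.h3B M h) := by
  obtain ⟨A₀⟩ : Nonempty (ValuationSubring Qb) := ⟨⊤⟩
  obtain ⟨ub, hu, hub⟩ := ChartFnHaupt.exists_isRed_h3B M A₀ h
  exact Int.transcendental_of_isRed _ ub hu hub

/-- Rational point data for the coordinate `h₃`. -/
theorem ratPoint_h3 :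
    RatPoint M A (ChartFnHaupt.h3B M h) (fun E => Haupt.HorizThree.h3E M E h) :=
  RatPoint.ratPoint_of_coe M A (Haupt.Three.s3)⁻¹ (inv_mem (Haupt.MemThree.s3_mem_full M h))
    (Fermat.Agent.S24.Modular.trdeg_FN M) (ChartFnHaupt.h3B M h)
    (fun E => Haupt.HorizThree.h3E M E h)
    (by rw [ChartFnHaupt.coe_h3B, map_inv₀])
    (fun E => by rw [Haupt.HorizThree.coe_h3E, map_inv₀])
    (transcendental_h3B M h)

/-- Rational point data for the coordinate `1/h₃ = s₃`. -/
theorem ratPoint_h3_inv :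
    RatPoint M A (ChartFnHaupt.h3B M h)⁻¹ (fun E => (Haupt.HorizThree.h3E M E h)⁻¹) :=
  RatPoint.ratPoint_of_coe M A Haupt.Three.s3 (Haupt.MemThree.s3_mem_full M h)
    (Fermat.Agent.S24.Modular.trdeg_FN M) (ChartFnHaupt.h3B M h)⁻¹
    (fun E => (Haupt.HorizThree.h3E M E h)⁻¹)
    (by
      show ((ChartFnHaupt.h3B M h : Kummer.Fb M) : LaurentSeries Qb)⁻¹ = _
      rw [ChartFnHaupt.coe_h3B, inv_inv])
    (fun E => by
      show ((Haupt.HorizThree.h3E M E h : LE M E) : LaurentSeries E)⁻¹ = _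
      rw [Haupt.HorizThree.coe_h3E, inv_inv])
    (transcendental_inv' (transcendental_h3B M h))

end Three

/-! ### `(INV_P)` for the three charts: the hypotheses of `Penult.result_of_invPlaces` -/

/-- **`ℓ > 3`**: `(INV_P)` for the `j`-chart at level `N`. -/
theorem invPlaces_j (N : ℕ) [NeZero N] (ℓ : ℕ) (hℓ : ℓ.Prime) (h3 : 3 < ℓ) (hℓN : ¬ ℓ ∣ N)
    (A : ValuationSubring Qb) (hA : A.LiesOverPrime ℓ) : InvPlaces N A (jBar N) := by
  haveI : Fact ℓ.Prime := ⟨hℓ⟩
  obtain ⟨ub, hu, hub⟩ := ChartFnJ.exists_isRed_jBar N A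
  exact InvPlaces.invPlaces_of_ratPoint hA (jBar N) ub hu hub
    (ModelUp.chartUp_j A N hℓN hA h3) (fun E => jE N E) (fun E => ChartFn.upHom_jE N E)
    (ratPoint_j N A) (ratPoint_j_inv N A)

/-- **`ℓ = 3`**: `(INV_P)` for the `h₂`-chart at level `N * 2`. -/
theorem invPlaces_three (N : ℕ) [NeZero N] (h3N : ¬ 3 ∣ N) (A : ValuationSubring Qb)
    (hA : A.LiesOverPrime 3) : InvPlaces (N * 2) A (Small.u3 N) := by
  haveI : Fact (Nat.Prime 3) := ⟨Nat.prime_three⟩
  have h2M : 2 ∣ N * 2 := dvd_mul_left 2 N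
  obtain ⟨ub, hu, hub⟩ := ChartFnHaupt.exists_isRed_h2B (N * 2) A h2M
  exact InvPlaces.invPlaces_of_ratPoint hA (Small.u3 N) ub hu hub
    (ModelUp.chartUp_h2 A (N * 2) h2M
      (Small.not_dvd_aux_level Nat.prime_three h3N (by decide)) hA)
    (fun E => Haupt.HorizTwo.h2E (N * 2) E h2M) (fun E => ModelUp.upHom_h2E (N * 2) E h2M)
    (ratPoint_h2 (N * 2) h2M A) (ratPoint_h2_inv (N * 2) h2M A)

/-- **`ℓ = 2`**: `(INV_P)` for the `h₃`-chart at level `N * 3`. -/
theorem invPlaces_two (N : ℕ) [NeZero N] (h2N : ¬ 2 ∣ N) (A : ValuationSubring Qb)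
    (hA : A.LiesOverPrime 2) : InvPlaces (N * 3) A (Small.u2 N) := by
  haveI : Fact (Nat.Prime 2) := ⟨Nat.prime_two⟩
  have h3M : 3 ∣ N * 3 := dvd_mul_left 3 N
  obtain ⟨ub, hu, hub⟩ := ChartFnHaupt.exists_isRed_h3B (N * 3) A h3M
  exact InvPlaces.invPlaces_of_ratPoint hA (Small.u2 N) ub hu hub
    (ModelUp.chartUp_h3 A (N * 3) h3M
      (Small.not_dvd_aux_level Nat.prime_two h2N (by decide)) hA)
    (fun E => Haupt.HorizThree.h3E (N * 3) E h3M) (fun E => ModelUp.upHom_h3E (N * 3) E h3M)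
    (ratPoint_h3 (N * 3) h3M A) (ratPoint_h3_inv (N * 3) h3M A)

end Fermat.Agent.S37.Fn.RatPointInst
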