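/-
S37 (E7), row F6a, sub-lemmas (R1), (R3) (helper37): GALOIS-FIXED VALUES.

Generic part (`K`, `F`, `g : SemilinearAut K F`):

* `baseAut_eq_of_value`  : if `g` fixes the place `P` and the function `y`, it fixes the value
  of `y` at `P`;
* `smul_place_eq_of_sep` : `g` fixes `P` as soon as it fixes `u`, the value `a = u(P)` and a
  function `y₀` vanishing at `P` and at no other zero of `u - a`.

Modular part (`Fb M = ℚ̄(X(M))`, `E ⊆ ℚ̄` an intermediate field, `upHom : LE M E → Fb M`):

* `gal_smul_upHom`       : an automorphism of `ℚ̄` fixing `E` fixes `upHom y`;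
* `mem_of_forall_fixed`  : an element of `ℚ̄` fixed by all automorphisms fixing `E` lies in `E`;
* `value_mem`            : if every automorphism of `ℚ̄` fixing `E` fixes the place `P`, the value
  at `P` of an `E`-rational function lies in `E`;
* `value_mem_of_sep`     : the same from a separating function: `a ∈ E`, `u` rational,
  `y₀ ∈ LE M E` vanishing at `P` and at no other zero of `u - a`.
-/
import Mathlib
import Fermat.Prelude.Def_ModularCurve_ArithmeticGalois
import Fermat.Agent.S24.FF.Ord
import Fermat.Agent.S18.K1Descent

set_option autoImplicit false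
set_option linter.unusedSectionVars false

noncomputable section

namespace Fermat.Agent.S37.Fn.RatValue

open AlgebraicCurve ModularCurve HahnSeries
open Fermat.Agent.S18.K1Defs

/-! ### Generic part -/

section Generic

variable {K F : Type*} [Field K] [Field F] [Algebra K F]

/-- **(R1)** If `g` fixes the place `P` and the function `y`, then it fixes the value of `y` at
`P`. -/
theorem baseAut_eq_of_value (g : SemilinearAut K F) (P : Place K F) (hP : g • P = P) (y : F)
    (hy : g • y = y) (c : K) (hc : 0 < P.ord (y - algebraMap K F c)) :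
    SemilinearAut.baseAut g c = c := by
  have h1 : P.ord (y - algebraMap K F (SemilinearAut.baseAut g c)) =
      P.ord (y - algebraMap K F c) := by
    have h := SemilinearAut.ord_smul g P (y - algebraMap K F c)
    rwa [smul_sub, hy, SemilinearAut.smul_algebraMap, hP] at h
  by_contra hne
  have hd : algebraMap K F (SemilinearAut.baseAut g c - c) ≠ 0 := by
    rw [Ne, map_eq_zero, sub_eq_zero]
    exact hne
  have e : (y - algebraMap K F c) - (y - algebraMap K F (SemilinearAut.baseAut g c)) =
      algebraMap K F (SemilinearAut.baseAut g c - c) := by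
    rw [map_sub]; ring
  have h2 := Fermat.Agent.S24.FF.ord_sub_ge P (f := y - algebraMap K F c)
    (g := y - algebraMap K F (SemilinearAut.baseAut g c)) (by rw [e]; exact hd)
  rw [e, Fermat.Agent.S24.FF.ord_algebraMap, h1, min_self] at h2
  omega

/-- **(R3)** `g` fixes the place `P` as soon as it fixes a function `u`, its value `a` at `P`, and
a function `y₀` vanishing at `P` and at no other zero of `u - a`. -/
theorem smul_place_eq_of_sep (g : SemilinearAut K F) (P : Place K F) (u : F) (hu : g • u = u)
    (a : K) (ha : SemilinearAut.baseAut g a = a) (hPa : 0 < P.ord (u - algebraMap K F a))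
    (y₀ : F) (hy₀ : g • y₀ = y₀) (hP₀ : 0 < P.ord y₀)
    (hsep : ∀ P' : Place K F, 0 < P'.ord (u - algebraMap K F a) → 0 < P'.ord y₀ → P' = P) :
    g • P = P := by
  apply hsep
  · have h := SemilinearAut.ord_smul g P (u - algebraMap K F a)
    rw [smul_sub, hu, SemilinearAut.smul_algebraMap, ha] at h
    rw [h]
    exact hPa
  · have h := SemilinearAut.ord_smul g P y₀
    rw [hy₀] at h
    rw [h]
    exact hP₀

end Generic

/-! ### Modular part -/

section Modular

local notation "Qb" => AlgebraicClosure ℚ
local notation "Gq" => (AlgebraicClosure ℚ ≃ₐ[ℚ] AlgebraicClosure ℚ)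

variable (M : ℕ) [NeZero M] (E : IntermediateField ℚ Qb)

/-- An automorphism of `ℚ̄` fixing `E` fixes every `E`-rational function. -/
theorem gal_smul_upHom (σ : Gq) (hσ : ∀ e : E, σ (e : Qb) = e) (y : LE M E) :
    arithmeticGalois (modularFunctionFieldFull M) σ • Fermat.Agent.S18.K1Descent.upHom M E y =
      Fermat.Agent.S18.K1Descent.upHom M E y := by
  apply Subtype.ext
  show coeffMap (σ : Qb →+* Qb) (coeffMap (algebraMap E Qb) (y : LaurentSeries E)) =
    coeffMap (algebraMap E Qb) (y : LaurentSeries E)
  rw [coeffMap_coeffMap]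
  exact coeffMap_congr (RingHom.ext fun e => hσ e) _

/-- An automorphism of `ℚ̄` fixes every function with rational `q`-expansion. -/
theorem gal_smul_of_rational (σ : Gq) (u : modularFunctionFieldBar M)
    (hu : ∃ w : LaurentSeries ℚ, coeffEmb Qb w = (u : LaurentSeries Qb)) :
    arithmeticGalois (modularFunctionFieldFull M) σ • u = u := by
  obtain ⟨w, hw⟩ := hu
  apply Subtype.ext
  show coeffMap (σ : Qb →+* Qb) (u : LaurentSeries Qb) = (u : LaurentSeries Qb)
  rw [← hw, coeffEmb, coeffMap_coeffMap]
  exact coeffMap_congr (RingHom.ext fun r => by simp) _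

/-- An element of `ℚ̄` fixed by every automorphism fixing `E` lies in `E`. -/
theorem mem_of_forall_fixed (c : Qb)
    (hc : ∀ σ : Gq, (∀ e : E, σ (e : Qb) = e) → σ c = c) : c ∈ E := by
  haveI : IsAlgClosure ℚ Qb := AlgebraicClosure.instIsAlgClosure ℚ
  haveI : IsGalois ℚ Qb := IsAlgClosure.isGalois ℚ Qb
  rw [← InfiniteGalois.fixedField_fixingSubgroup E, IntermediateField.mem_fixedField_iff]
  intro σ hσ
  exact hc σ fun e => hσ e

/-- **Rationality of values**: if every automorphism of `ℚ̄` fixing `E` fixes the place `P`, then
the value at `P` of an `E`-rational function lies in `E`. -/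
theorem value_mem (P : Place Qb (modularFunctionFieldBar M))
    (hP : ∀ σ : Gq, (∀ e : E, σ (e : Qb) = e) →
      arithmeticGalois (modularFunctionFieldFull M) σ • P = P)
    (y : LE M E) (c : Qb)
    (hc : 0 < P.ord (Fermat.Agent.S18.K1Descent.upHom M E y -
      algebraMap Qb (modularFunctionFieldBar M) c)) : c ∈ E := by
  refine mem_of_forall_fixed E c fun σ hσ => ?_
  have h := baseAut_eq_of_value (arithmeticGalois (modularFunctionFieldFull M) σ) P (hP σ hσ)
    _ (gal_smul_upHom M E σ hσ y) c hc
  simpa using h

/-- **Rationality of values from a separating function**: for a chart function `u` with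
rational `q`-expansion, `a ∈ E` with `u(P) = a` and an `E`-rational function `y₀` vanishing at
`P` and at no other zero of `u - a`, the value at `P` of every `E`-rational function lies in
`E`. -/
theorem value_mem_of_sep (P : Place Qb (modularFunctionFieldBar M))
    (u : modularFunctionFieldBar M)
    (hu : ∃ w : LaurentSeries ℚ, coeffEmb Qb w = (u : LaurentSeries Qb))
    (a : Qb) (haE : a ∈ E)
    (hPa : 0 < P.ord (u - algebraMap Qb (modularFunctionFieldBar M) a))
    (y₀ : LE M E) (hP₀ : 0 < P.ord (Fermat.Agent.S18.K1Descent.upHom M E y₀))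
    (hsep : ∀ P' : Place Qb (modularFunctionFieldBar M),
      0 < P'.ord (u - algebraMap Qb (modularFunctionFieldBar M) a) →
      0 < P'.ord (Fermat.Agent.S18.K1Descent.upHom M E y₀) → P' = P)
    (y : LE M E) (c : Qb)
    (hc : 0 < P.ord (Fermat.Agent.S18.K1Descent.upHom M E y -
      algebraMap Qb (modularFunctionFieldBar M) c)) : c ∈ E := by
  refine value_mem M E P (fun σ hσ => ?_) y c hc
  exact smul_place_eq_of_sep (arithmeticGalois (modularFunctionFieldFull M) σ) P u
    (gal_smul_of_rational M σ u hu) a (by simpa using hσ ⟨a, haE⟩) hPa _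
    (gal_smul_upHom M E σ hσ y₀) hP₀ hsep

end Modular

end Fermat.Agent.S37.Fn.RatValue
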