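import Fermat.Agent.S37.Fn.Int

/-!
# S37: a chart function whose Gauss reduction has a pole is transcendental

`transcendental_of_isRed` : if `u ∈ Fb M` has Gauss reduction `ub` (`IsRed M A u ub`) and
`ub.order < 0`, then `u` is transcendental over `ℚ̄`.  (An algebraic element of `Fb M` is a
constant `c`; for `c ∈ A` its reduction is a constant, of order `0`; for `c ∉ A` the inverse
`c⁻¹` reduces to `0`, so `ub⁻¹ = 0`.)

This is the hypothesis `hutr` of `Int.intZero`, for every chart function at once (`j`, and the
Hauptmoduln used at the primes `2`, `3`).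
-/

set_option autoImplicit false
set_option linter.unusedSectionVars false

noncomputable section

namespace Fermat.Agent.S37.Fn.TranscRed

open ModularCurve AlgebraicCurve HahnSeries Polynomial
open Fermat.Agent.S30 Fermat.Agent.S37.Fn

local notation "Qb" => AlgebraicClosure ℚ

variable {M : ℕ} {A : ValuationSubring Qb}

/-- The order of a constant Laurent series is `0`. -/
theorem order_algebraMap_res (c : Res A) :
    (algebraMap (Res A) (LaurentSeries (Res A)) c).order = 0 := by
  rw [algebraMap_laurentSeries_eq_single]
  by_cases hc : c = 0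
  · rw [hc, HahnSeries.single_eq_zero, HahnSeries.order_zero]
  · exact HahnSeries.order_single hc

/-- A constant of `Fb M` that is Gauss-integral with reduction `ub` forces `0 ≤ ub.order`. -/
theorem order_nonneg_of_isRed_const (c : Qb) {ub : LaurentSeries (Res A)}
    (hu : IsRed M A (algebraMap Qb (Kummer.Fb M) c) ub) : 0 ≤ ub.order := by
  by_cases hcA : c ∈ A
  · have h1 := Int.isRed_const M A (⟨c, hcA⟩ : A)
    have h2 : ub = algebraMap (Res A) (LaurentSeries (Res A))
        (IsLocalRing.residue A (⟨c, hcA⟩ : A)) := hu.unique h1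
    rw [h2, order_algebraMap_res]
  · -- `c ∉ A`: `c⁻¹` is a non-unit of `A`, so `u⁻¹` reduces to `0`, hence `ub = 0`
    by_contra hneg
    have hub0 : ub ≠ 0 := by
      rintro rfl
      exact hneg (by rw [HahnSeries.order_zero])
    have hc0 : c ≠ 0 := by
      rintro rfl
      exact hcA A.zero_mem
    have hcinv : c⁻¹ ∈ A := by
      rcases A.mem_or_inv_mem c with h | h
      · exact absurd h hcA
      · exact h
    have hnu : ¬ IsUnit (⟨c⁻¹, hcinv⟩ : A) := by
      intro hU
      obtain ⟨d, hd⟩ := hU.exists_right_inv
      have h6 : c⁻¹ * (d : Qb) = 1 := congrArg Subtype.val hd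
      have h7 : (d : Qb) = c := by
        field_simp at h6
        exact h6
      exact hcA (h7 ▸ d.2)
    have hres : IsLocalRing.residue A (⟨c⁻¹, hcinv⟩ : A) = 0 := by
      rw [IsLocalRing.residue_eq_zero_iff]
      exact hnu
    have h1 := Int.isRed_const M A (⟨c⁻¹, hcinv⟩ : A)
    rw [hres, map_zero] at h1
    have h2 : IsRed M A (algebraMap Qb (Kummer.Fb M) c)⁻¹ ub⁻¹ := hu.inv hub0
    rw [← map_inv₀] at h2
    exact hub0 (inv_eq_zero.1 (h2.unique h1))

/-- **A chart function whose Gauss reduction has a pole at `q = 0` is transcendental over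
`ℚ̄`.** -/
theorem transcendental_of_isRed {u : Kummer.Fb M} {ub : LaurentSeries (Res A)}
    (hu : IsRed M A u ub) (hub : ub.order < 0) : Transcendental Qb u := by
  intro halg
  have hint : IsIntegral Qb u := halg.isIntegral
  have hdeg : (minpoly Qb u).degree = 1 :=
    IsAlgClosed.degree_eq_one_of_irreducible Qb (minpoly.irreducible hint)
  obtain ⟨c, hc⟩ := minpoly.mem_range_of_degree_eq_one Qb u hdeg
  rw [← hc] at hu
  exact absurd (order_nonneg_of_isRed_const c hu) (not_le.2 hub)

end Fermat.Agent.S37.Fn.TranscRed
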