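/-
S37 (E7), rows F13 / F14: the bridge between the `E`-level Hauptmodul charts of the Model theorem
(`Haupt.HorizTwo.h2E`, `Haupt.HorizThree.h3E : LE M E`) and the `ℚ̄`-level chart functions of the
contract (`ChartFnHaupt.h2B`, `ChartFnHaupt.h3B : Fb M`), in the literal shape
`K1Descent.upHom M E uE = u` consumed by the chart-integrality exit of row F6b.
-/
import Fermat.Agent.S37.Fn.ChartFnHaupt
import Fermat.Agent.S18.K1Descent

set_option autoImplicit false

noncomputable section

namespace Fermat.Agent.S37.Fn.UpHaupt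

open ModularCurve AlgebraicCurve HahnSeries
open Fermat.Agent.S30 Fermat.Agent.S37.Fn Fermat.Agent.S18

local notation "Qb" => AlgebraicClosure ℚ

variable (M : ℕ) [NeZero M] (E : IntermediateField ℚ Qb)

/-- Extension of constants maps the `E`-level chart `h2E` to the chart function `h2B`. -/
theorem upHom_h2E (h : 2 ∣ M) :
    K1Descent.upHom M E (Haupt.HorizTwo.h2E M E h) = ChartFnHaupt.h2B M h :=
  Subtype.ext (ChartFnHaupt.up_h2E M E h)

/-- Extension of constants maps the `E`-level `s2E` to `s2B`. -/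
theorem upHom_s2E (h : 2 ∣ M) :
    K1Descent.upHom M E (Haupt.HorizTwo.s2E M E h) = ChartFnHaupt.s2B M h :=
  Subtype.ext (ChartFnHaupt.up_s2E M E h)

/-- Extension of constants maps the `E`-level chart `h3E` to the chart function `h3B`. -/
theorem upHom_h3E (h : 3 ∣ M) :
    K1Descent.upHom M E (Haupt.HorizThree.h3E M E h) = ChartFnHaupt.h3B M h :=
  Subtype.ext (ChartFnHaupt.up_h3E M E h)

/-- Extension of constants maps the `E`-level `s3E` to `s3B`. -/
theorem upHom_s3E (h : 3 ∣ M) :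
    K1Descent.upHom M E (Haupt.HorizThree.s3E M E h) = ChartFnHaupt.s3B M h :=
  Subtype.ext (ChartFnHaupt.up_s3E M E h)

/-- The chart at infinity: `upHom (h2E⁻¹) = h2B⁻¹`. -/
theorem upHom_h2E_inv (h : 2 ∣ M) :
    K1Descent.upHom M E (Haupt.HorizTwo.h2E M E h)⁻¹ = (ChartFnHaupt.h2B M h)⁻¹ := by
  rw [map_inv₀, upHom_h2E]

/-- The chart at infinity: `upHom (h3E⁻¹) = h3B⁻¹`. -/
theorem upHom_h3E_inv (h : 3 ∣ M) :
    K1Descent.upHom M E (Haupt.HorizThree.h3E M E h)⁻¹ = (ChartFnHaupt.h3B M h)⁻¹ := by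
  rw [map_inv₀, upHom_h3E]

end Fermat.Agent.S37.Fn.UpHaupt
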